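import Mathlib
import Fermat.Agent.S24.FFBasic

/-!
# S37, leaf (a1), part B: values of functions at a place with residue field `K`

`P` a place of a function field `F / K` all of whose residues are constants.
* `HasVal P f a` : `f` is regular at `P` with value `a`;
* `theta P hres : P.toValuationSubring →+* K` : the evaluation homomorphism;
* `isIntegral_value` : if `f` satisfies a monic equation whose coefficients are polynomials in
  `y` with coefficients in a valuation ring `A` of `K`, and `y` has a value in `A` at `P`, then the
  value of `f` at `P` lies in `A`.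
-/

set_option autoImplicit false
set_option linter.style.haveILetI false

noncomputable section

namespace Fermat.Agent.S37.CentreVal

open AlgebraicCurve Fermat.Agent.S24

variable {K F : Type*} [Field K] [Field F] [Algebra K F]

/-- `f` is regular at `P` with value `a`. -/
def HasVal (P : Place K F) (f : F) (a : K) : Prop :=
  f = algebraMap K F a ∨ 0 < P.ord (f - algebraMap K F a)

variable (P : Place K F)

theorem hasVal_algebraMap (a : K) : HasVal P (algebraMap K F a) a := Or.inl rfl

theorem HasVal.mem {f : F} {a : K} (h : HasVal P f a) : f ∈ P.toValuationSubring := by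
  rcases h with h | h
  · rw [h]
    exact P.algebraMap_mem' a
  · have h0 : f - algebraMap K F a ≠ 0 := by
      intro h0
      rw [h0, Place.ord_zero] at h
      exact lt_irrefl _ h
    have h1 := mem_of_ord_nonneg P h0 h.le
    have h2 : f = (f - algebraMap K F a) + algebraMap K F a := by ring
    rw [h2]
    exact add_mem h1 (P.algebraMap_mem' a)

/-- The maximal ideal of a place consists of the functions of positive order. -/
theorem mem_maximalIdeal_iff (g : P.toValuationSubring) :
    g ∈ IsLocalRing.maximalIdeal P.toValuationSubring ↔ (g : F) = 0 ∨ 0 < P.ord (g : F) := by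
  rw [IsLocalRing.mem_maximalIdeal, mem_nonunits_iff]
  constructor
  · intro hu
    by_cases h0 : (g : F) = 0
    · exact Or.inl h0
    right
    have h1 := ord_nonneg_of_mem P g.2
    rcases h1.lt_or_eq with h | h
    · exact h
    · exfalso
      apply hu
      have hinv : (g : F)⁻¹ ∈ P.toValuationSubring := by
        apply mem_of_ord_nonneg P (inv_ne_zero h0)
        rw [P.ord_inv, ← h]
        exact le_of_eq rfl
      refine IsUnit.of_mul_eq_one (⟨(g : F)⁻¹, hinv⟩ : P.toValuationSubring) ?_
      apply Subtype.ext
      show (g : F) * (g : F)⁻¹ = 1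
      exact mul_inv_cancel₀ h0
  · rintro (h | h) hu
    · have : g = 0 := Subtype.ext h
      rw [this] at hu
      exact not_isUnit_zero hu
    · have h0 := P.ord_coe_unit hu.unit
      have h1 : ((hu.unit : P.toValuationSubring) : F) = (g : F) := rfl
      rw [h1] at h0
      omega

theorem residue_eq_iff (g : P.toValuationSubring) (a : K) :
    IsLocalRing.residue P.toValuationSubring g = algebraMap K P.ResidueField a ↔
      HasVal P (g : F) a := by
  have h1 : algebraMap K P.ResidueField a =
      IsLocalRing.residue P.toValuationSubring (algebraMap K P.toValuationSubring a) := rfl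
  rw [h1, ← sub_eq_zero, ← map_sub, IsLocalRing.residue_eq_zero_iff, mem_maximalIdeal_iff]
  have h2 : ((g - algebraMap K P.toValuationSubring a : P.toValuationSubring) : F) =
      (g : F) - algebraMap K F a := rfl
  rw [h2, sub_eq_zero]
  rfl

variable (hres : ∀ f : F, f ∈ P.toValuationSubring → ∃ c : K, HasVal P f c)

include hres in
theorem bijective_algebraMap : Function.Bijective (algebraMap K P.ResidueField) := by
  refine ⟨(algebraMap K P.ResidueField).injective, fun w => ?_⟩
  obtain ⟨g, rfl⟩ := IsLocalRing.residue_surjective w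
  obtain ⟨c, hc⟩ := hres (g : F) g.2
  exact ⟨c, ((residue_eq_iff P g c).mpr hc).symm⟩

/-- The evaluation homomorphism at `P`. -/
def theta : P.toValuationSubring →+* K :=
  ((RingEquiv.ofBijective (algebraMap K P.ResidueField)
    (bijective_algebraMap P hres)).symm : P.ResidueField →+* K).comp
    (IsLocalRing.residue P.toValuationSubring)

theorem theta_eq_iff (g : P.toValuationSubring) (a : K) :
    theta P hres g = a ↔ HasVal P (g : F) a := by
  rw [← residue_eq_iff]
  unfold theta
  rw [RingHom.comp_apply]
  constructor
  · intro h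
    rw [← h]
    exact ((RingEquiv.ofBijective (algebraMap K P.ResidueField)
      (bijective_algebraMap P hres)).apply_symm_apply _).symm
  · intro h
    rw [h]
    exact (RingEquiv.ofBijective (algebraMap K P.ResidueField)
      (bijective_algebraMap P hres)).symm_apply_apply a

theorem hasVal_theta (g : P.toValuationSubring) : HasVal P (g : F) (theta P hres g) :=
  (theta_eq_iff P hres g _).mp rfl

theorem theta_of_hasVal {f : F} {a : K} (h : HasVal P f a) :
    theta P hres ⟨f, h.mem P⟩ = a :=
  (theta_eq_iff P hres ⟨f, h.mem P⟩ a).mpr h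

include hres in
theorem HasVal.unique {f : F} {a b : K} (ha : HasVal P f a) (hb : HasVal P f b) : a = b := by
  rw [← theta_of_hasVal P hres ha, ← theta_of_hasVal P hres hb]

include hres in
theorem HasVal.add {f g : F} {a b : K} (hf : HasVal P f a) (hg : HasVal P g b) :
    HasVal P (f + g) (a + b) := by
  have h := hasVal_theta P hres (⟨f, hf.mem P⟩ + ⟨g, hg.mem P⟩)
  rw [map_add, theta_of_hasVal P hres hf, theta_of_hasVal P hres hg] at h
  exact h

include hres in
theorem HasVal.mul {f g : F} {a b : K} (hf : HasVal P f a) (hg : HasVal P g b) :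
    HasVal P (f * g) (a * b) := by
  have h := hasVal_theta P hres (⟨f, hf.mem P⟩ * ⟨g, hg.mem P⟩)
  rw [map_mul, theta_of_hasVal P hres hf, theta_of_hasVal P hres hg] at h
  exact h

include hres in
theorem HasVal.sub {f g : F} {a b : K} (hf : HasVal P f a) (hg : HasVal P g b) :
    HasVal P (f - g) (a - b) := by
  have h := hasVal_theta P hres (⟨f, hf.mem P⟩ - ⟨g, hg.mem P⟩)
  rw [map_sub, theta_of_hasVal P hres hf, theta_of_hasVal P hres hg] at h
  exact h

include hres in
theorem exists_hasVal {f : F} (hf : f ∈ P.toValuationSubring) : ∃ c : K, HasVal P f c :=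
  hres f hf

/-- The value of the inverse. -/
theorem HasVal.inv {f : F} {a : K} (hf : HasVal P f a) (ha : a ≠ 0) : HasVal P f⁻¹ a⁻¹ := by
  have hfm := hf.mem P
  have hnm : (⟨f, hfm⟩ : P.toValuationSubring) ∉
      IsLocalRing.maximalIdeal P.toValuationSubring := by
    intro hm
    rw [← IsLocalRing.residue_eq_zero_iff, (residue_eq_iff P ⟨f, hfm⟩ a).mpr hf] at hm
    exact ha ((map_eq_zero _).mp hm)
  rw [IsLocalRing.mem_maximalIdeal, mem_nonunits_iff, not_not] at hnm
  obtain ⟨u, hu⟩ := hnm
  have hu1 : ((u : P.toValuationSubring) : F) = f := congrArg Subtype.val hu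
  have hinv : ((↑(u⁻¹) : P.toValuationSubring) : F) = f⁻¹ := by
    have h2 : ((u : P.toValuationSubring) : F) * ((↑(u⁻¹) : P.toValuationSubring) : F) = 1 := by
      have := congrArg Subtype.val (u.mul_inv)
      exact this
    rw [hu1] at h2
    exact eq_inv_of_mul_eq_one_right h2
  rw [← hinv, ← residue_eq_iff, map_inv₀]
  have h3 : IsLocalRing.residue P.toValuationSubring (u : P.toValuationSubring) =
      algebraMap K P.ResidueField a := by
    rw [hu]
    exact (residue_eq_iff P ⟨f, hfm⟩ a).mpr hf
  have h4 : IsLocalRing.residue P.toValuationSubring (↑(u⁻¹) : P.toValuationSubring) *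
      IsLocalRing.residue P.toValuationSubring (u : P.toValuationSubring) = 1 := by
    rw [← map_mul, Units.inv_mul, map_one]
  rw [h3] at h4
  exact eq_inv_of_mul_eq_one_left h4

/-- A function with a pole at `P`: its inverse has the value `0`. -/
theorem hasVal_inv_of_not_mem {f : F} (hf : f ∉ P.toValuationSubring) : HasVal P f⁻¹ 0 := by
  have h0 : f ≠ 0 := fun h => hf (h ▸ zero_mem _)
  have h1 : ¬ 0 ≤ P.ord f := fun h => hf (mem_of_ord_nonneg P h0 h)
  right
  rw [map_zero, sub_zero, P.ord_inv]
  omega

section Integral

variable (A : ValuationSubring K)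

/-- The value at `y` of a polynomial with coefficients in `A`. -/
def psiF (y : F) : Polynomial A →+* F :=
  (Polynomial.aeval (R := K) y).toRingHom.comp (Polynomial.mapRingHom A.subtype)

theorem psiF_C (y : F) (a : A) : psiF A y (Polynomial.C a) = algebraMap K F (a : K) := by
  unfold psiF
  rw [RingHom.comp_apply, Polynomial.coe_mapRingHom, Polynomial.map_C]
  exact Polynomial.aeval_C y _

theorem psiF_X (y : F) : psiF A y Polynomial.X = y := by
  unfold psiF
  rw [RingHom.comp_apply, Polynomial.coe_mapRingHom, Polynomial.map_X]
  exact Polynomial.aeval_X y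

include hres in
/-- The value of a polynomial in `y` with coefficients in `A`. -/
theorem hasVal_psiF {y : F} {a₀ : K} (ha₀ : a₀ ∈ A) (hy : HasVal P y a₀) (p : Polynomial A) :
    HasVal P (psiF A y p) ((p.eval ⟨a₀, ha₀⟩ : A) : K) := by
  induction p using Polynomial.induction_on' with
  | add p q hp hq =>
    rw [map_add, Polynomial.eval_add]
    exact HasVal.add P hres hp hq
  | monomial n a =>
    rw [← Polynomial.C_mul_X_pow_eq_monomial, map_mul, map_pow, psiF_C, psiF_X,
      Polynomial.eval_mul, Polynomial.eval_C, Polynomial.eval_pow, Polynomial.eval_X]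
    refine HasVal.mul P hres (hasVal_algebraMap P _) ?_
    induction n with
    | zero =>
      rw [pow_zero, pow_zero]
      have := hasVal_algebraMap P (1 : K)
      rwa [map_one] at this
    | succ n ih =>
      rw [pow_succ, pow_succ]
      exact HasVal.mul P hres ih hy

include hres in
/-- **Values are integral.**  If `f` satisfies a monic equation with coefficients in `A[y]` and
`y` has a value in `A` at `P`, then every value of `f` at `P` lies in `A`. -/
theorem mem_of_monic_rel {y : F} {a₀ : K} (ha₀ : a₀ ∈ A) (hy : HasVal P y a₀)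
    (Q : Polynomial (Polynomial A)) (hQ : Q.Monic) {f : F}
    (hrel : Polynomial.eval₂ (psiF A y) f Q = 0) {b : K} (hb : HasVal P f b) : b ∈ A := by
  have hmem : ∀ p : Polynomial A, psiF A y p ∈ P.toValuationSubring.toSubring :=
    fun p => (hasVal_psiF P hres A ha₀ hy p).mem P
  let ψ' : Polynomial A →+* P.toValuationSubring :=
    RingHom.codRestrict (psiF A y) P.toValuationSubring.toSubring hmem
  have h1 : Polynomial.eval₂ ψ' (⟨f, hb.mem P⟩ : P.toValuationSubring) Q = 0 := by
    apply Subtype.ext
    have h2 := Polynomial.hom_eval₂ Q ψ' P.toValuationSubring.subtype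
      (⟨f, hb.mem P⟩ : P.toValuationSubring)
    have h3 : P.toValuationSubring.subtype.comp ψ' = psiF A y := RingHom.ext fun _ => rfl
    rw [h3] at h2
    exact h2.trans hrel
  have h4 := congrArg (theta P hres) h1
  rw [Polynomial.hom_eval₂, map_zero, theta_of_hasVal P hres hb] at h4
  have h5 : (theta P hres).comp ψ' =
      (algebraMap A K).comp (Polynomial.evalRingHom (⟨a₀, ha₀⟩ : A)) := by
    apply RingHom.ext
    intro p
    rw [RingHom.comp_apply, RingHom.comp_apply, Polynomial.coe_evalRingHom]
    exact (theta_eq_iff P hres (ψ' p) _).mpr (hasVal_psiF P hres A ha₀ hy p)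
  rw [h5, ← Polynomial.eval₂_map] at h4
  have hint : IsIntegral A b :=
    ⟨Q.map (Polynomial.evalRingHom (⟨a₀, ha₀⟩ : A)), hQ.map _, h4⟩
  obtain ⟨b', hb'⟩ := IsIntegrallyClosed.isIntegral_iff.mp hint
  rw [← hb']
  exact b'.2

end Integral

end Fermat.Agent.S37.CentreVal
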