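import Mathlib
import Fermat.Agent.S37.CentreVal
import Fermat.Agent.S18.Charts
import Fermat.Agent.S18.FFSep
import Fermat.Agent.S18.FbarSep
import Fermat.Agent.S18.CuspAbs

/-!
# S37, leaf (a1), part C: the centre of a place on a chart

`y ∈ OO A N` a coordinate (`j` or `1/j`), `TT y` the chart ring (Gauss-integral functions regular
wherever `y` is regular).  Under the hypotheses `ChartData y` (values of chart functions at places
with `A`-integral `y`-value are `A`-integral; the reduction of the chart ring is the integral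
closure of `k[ȳ]`), every place `P` of `FF N` with `y(P) ∈ A` has a *centre* `chartPlace` on the
reduced chart: a place of the reduced function field with `ȳ` regular such that
`(red f)(centre) = residue (f(P))` for every chart function `f`.
-/

set_option autoImplicit false
set_option linter.style.haveILetI false
set_option linter.unusedSectionVars false
set_option synthInstance.maxHeartbeats 400000

noncomputable section

namespace Fermat.Agent.S37.CentreChart

open ModularCurve AlgebraicCurve IsDedekindDomain IntermediateField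
open Fermat.Agent.S24 Fermat.Agent.S24.Eval Fermat.Agent.S18 Fermat.Agent.S18.Gauss
  Fermat.Agent.S18.Lattice Fermat.Agent.S18.Charts Fermat.Agent.S37.CentreVal

variable {A : ValuationSubring KK} {N : ℕ} [NeZero N]

/-- Every residue of a function of `FF N` at a place is a constant. -/
theorem hresF (P : Place KK (FF N)) (f : FF N) (hf : f ∈ P.toValuationSubring) :
    ∃ c : KK, HasVal P f c := by
  haveI := Degree.finiteDimensional_jF N
  exact Fermat.Agent.S24.exists_sub_algebraMap_ord_pos (jF N) (Degree.transcendental_jF N) P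
    (ord_nonneg_of_mem P hf)

/-- Every residue of a function of the reduced function field at a place is a constant. -/
theorem hresK (Q : Place (IsLocalRing.ResidueField A) (FkN A N)) (f : FkN A N)
    (hf : f ∈ Q.toValuationSubring) : ∃ c : IsLocalRing.ResidueField A, HasVal Q f c :=
  Fermat.Agent.S18.FbarSep.exists_sub_algebraMap_ord_pos N Q (ord_nonneg_of_mem Q hf)

/-- The chart ring of the coordinate `y`. -/
def TT (y : OO A N) : Subring (FF N) := OO A N ⊓ regAt N (y : FF N)

theorem mem_TT {y : OO A N} {f : FF N} :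
    f ∈ TT y ↔ f ∈ OO A N ∧ f ∈ regAt N (y : FF N) := Iff.rfl

/-- The hypotheses on a chart. -/
structure ChartData (y : OO A N) : Prop where
  trans : Transcendental (IsLocalRing.ResidueField A) (redN A N y)
  fin : FiniteDimensional (IsLocalRing.ResidueField A)⟮redN A N y⟯ (FkN A N)
  sep : Algebra.IsSeparable (IsLocalRing.ResidueField A)⟮redN A N y⟯ (FkN A N)
  dec : Dec A (modularFunctionFieldBar N) (FkN A N)
  val : ∀ (P : Place KK (FF N)) (a₀ : KK), a₀ ∈ A → HasVal P (y : FF N) a₀ →
    ∀ f : FF N, f ∈ TT y → ∀ b : KK, HasVal P f b → b ∈ A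
  int_of : ∀ f : OO A N, (f : FF N) ∈ regAt N (y : FF N) →
    IsIntegral (Algebra.adjoin (IsLocalRing.ResidueField A) {redN A N y}) (redN A N f)
  lift : ∀ x : FkN A N,
    IsIntegral (Algebra.adjoin (IsLocalRing.ResidueField A) {redN A N y}) x →
      ∃ f : OO A N, (f : FF N) ∈ regAt N (y : FF N) ∧ redN A N f = x

section Chart

variable {y : OO A N} (hD : ChartData y) (P : Place KK (FF N)) (a₀ : A)
  (hP : HasVal P (y : FF N) (a₀ : KK))

include hP in
theorem TT_le : ∀ t : TT y, (t : FF N) ∈ P.toValuationSubring :=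
  fun t => t.2.2 P (hP.mem P)

/-- The evaluation of the chart functions at `P`. -/
def ThetaK : TT y →+* KK :=
  (theta P (hresF P)).comp
    (RingHom.codRestrict (TT y).subtype P.toValuationSubring (TT_le P a₀ hP))

theorem hasVal_ThetaK (t : TT y) : HasVal P (t : FF N) (ThetaK P a₀ hP t) :=
  hasVal_theta P (hresF P) ⟨(t : FF N), TT_le P a₀ hP t⟩

theorem ThetaK_eq {t : TT y} {b : KK} (hb : HasVal P (t : FF N) b) : ThetaK P a₀ hP t = b :=
  HasVal.unique P (hresF P) (hasVal_ThetaK P a₀ hP t) hb

include hD in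
theorem ThetaK_mem (t : TT y) : ThetaK P a₀ hP t ∈ A :=
  hD.val P a₀ a₀.2 hP t t.2 _ (hasVal_ThetaK P a₀ hP t)

/-- The evaluation of the chart functions at `P`, with values in `A`. -/
def Theta : TT y →+* A :=
  RingHom.codRestrict (ThetaK P a₀ hP) A (ThetaK_mem hD P a₀ hP)

theorem coe_Theta (t : TT y) : ((Theta hD P a₀ hP t : A) : KK) = ThetaK P a₀ hP t := rfl

/-- The residue of the value at `P`. -/
def Phi : TT y →+* IsLocalRing.ResidueField A :=
  (IsLocalRing.residue A).comp (Theta hD P a₀ hP)

/-- The reduction of the chart functions. -/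
def rhoT (y : OO A N) : TT y →+* FkN A N :=
  (redN A N).comp (Subring.inclusion (inf_le_left : TT y ≤ OO A N))

theorem rhoT_apply (t : TT y) : rhoT y t = redN A N ⟨(t : FF N), t.2.1⟩ := rfl

/-- A chart function with vanishing reduction has a value in the maximal ideal. -/
theorem Phi_eq_zero_of_rhoT (t : TT y) (ht : rhoT y t = 0) : Phi hD P a₀ hP t = 0 := by
  by_cases h0 : (t : FF N) = 0
  · have : t = 0 := Subtype.ext h0
    rw [this, map_zero]
  obtain ⟨c, u, hc, hc0, hu, hcu⟩ :=
    exists_smul_of_red_eq_zero hD.dec (f := ⟨(t : FF N), t.2.1⟩) h0 ht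
  have hcK : ((c : A) : KK) ≠ 0 := fun h => hc0 (Subtype.ext h)
  -- `u = c⁻¹ t` is a chart function
  have hu1 : ((u : OO A N) : FF N) = algebraMap KK (FF N) ((c : KK)⁻¹) * (t : FF N) := by
    have h1 : (t : FF N) = algebraMap KK (FF N) (c : KK) * ((u : OO A N) : FF N) := by
      rw [← Algebra.smul_def]
      exact hcu
    rw [h1, ← mul_assoc, ← map_mul, inv_mul_cancel₀ hcK, map_one, one_mul]
  have huT : ((u : OO A N) : FF N) ∈ TT y := by
    refine ⟨u.2, ?_⟩
    rw [hu1]
    exact mul_mem (algebraMap_mem_regAt N _ _) t.2.2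
  have hval : ThetaK P a₀ hP t = (c : KK) * ThetaK P a₀ hP ⟨_, huT⟩ := by
    apply ThetaK_eq
    have h1 : (t : FF N) = algebraMap KK (FF N) (c : KK) * ((u : OO A N) : FF N) := by
      rw [← Algebra.smul_def]
      exact hcu
    rw [h1]
    exact HasVal.mul P (hresF P) (hasVal_algebraMap P _) (hasVal_ThetaK P a₀ hP ⟨_, huT⟩)
  have hT : Theta hD P a₀ hP t = c * Theta hD P a₀ hP ⟨_, huT⟩ := Subtype.ext hval
  unfold Phi
  rw [RingHom.comp_apply, hT, map_mul]
  have : IsLocalRing.residue A c = 0 := by
    rw [IsLocalRing.residue_eq_zero_iff, IsLocalRing.mem_maximalIdeal]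
    exact hc
  rw [this, zero_mul]

/-- The integral closure of `k[ȳ]` in the reduced function field. -/
abbrev BB (y : OO A N) : Subalgebra (Algebra.adjoin (IsLocalRing.ResidueField A) {redN A N y})
    (FkN A N) :=
  integralClosure (Algebra.adjoin (IsLocalRing.ResidueField A) {redN A N y}) (FkN A N)

/-- The reduction of the chart functions, with values in the integral closure of `k[ȳ]`. -/
def rhoB : TT y →+* BB y :=
  RingHom.codRestrict (rhoT y) (BB y) (fun t => hD.int_of ⟨(t : FF N), t.2.1⟩ t.2.2)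

theorem coe_rhoB (t : TT y) : ((rhoB hD t : BB y) : FkN A N) = redN A N ⟨(t : FF N), t.2.1⟩ := rfl

theorem rhoB_surjective : Function.Surjective (rhoB hD) := by
  intro x
  obtain ⟨f, hf, hfx⟩ := hD.lift (x : FkN A N) x.2
  exact ⟨⟨(f : FF N), f.2, hf⟩, Subtype.ext hfx⟩

theorem ker_rhoB_le : RingHom.ker (rhoB hD) ≤ RingHom.ker (Phi hD P a₀ hP) := by
  intro t ht
  rw [RingHom.mem_ker] at ht ⊢
  apply Phi_eq_zero_of_rhoT
  have := congrArg (fun x : BB y => (x : FkN A N)) ht
  exact this

/-- The maximal ideal of the centre. -/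
def centreIdeal : Ideal (BB y) := Ideal.map (rhoB hD) (RingHom.ker (Phi hD P a₀ hP))

theorem mem_centreIdeal {x : BB y} :
    x ∈ centreIdeal hD P a₀ hP ↔ ∃ t : TT y, Phi hD P a₀ hP t = 0 ∧ rhoB hD t = x := by
  unfold centreIdeal
  rw [Ideal.mem_map_iff_of_surjective _ (rhoB_surjective hD)]
  simp only [RingHom.mem_ker]

theorem centreIdeal_isPrime : (centreIdeal hD P a₀ hP).IsPrime :=
  haveI := RingHom.ker_isPrime (Phi hD P a₀ hP)
  Ideal.map_isPrime_of_surjective (rhoB_surjective hD) (ker_rhoB_le hD P a₀ hP)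

/-- `y - a₀` as a chart function. -/
def ySub : TT y :=
  ⟨(y : FF N) - algebraMap KK (FF N) (a₀ : KK),
    sub_mem y.2 (CuspAbs.cst A N a₀).2,
    sub_mem (self_mem_regAt N _) (algebraMap_mem_regAt N _ _)⟩

theorem Phi_ySub : Phi hD P a₀ hP (ySub (y := y) a₀) = 0 := by
  have h1 : ThetaK P a₀ hP (ySub (y := y) a₀) = 0 := by
    apply ThetaK_eq
    have := HasVal.sub P (hresF P) hP (hasVal_algebraMap P (a₀ : KK))
    rwa [sub_self] at this
  have h2 : Theta hD P a₀ hP (ySub (y := y) a₀) = 0 := Subtype.ext h1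
  unfold Phi
  rw [RingHom.comp_apply, h2, map_zero]

theorem rhoT_ySub : rhoT y (ySub (y := y) a₀) =
    redN A N y - algebraMap (IsLocalRing.ResidueField A) (FkN A N) (IsLocalRing.residue A a₀) := by
  rw [rhoT_apply]
  have h : (⟨((ySub (y := y) a₀ : TT y) : FF N), (ySub (y := y) a₀).2.1⟩ : OO A N) =
      y - CuspAbs.cst A N a₀ := rfl
  rw [h, map_sub, CuspAbs.redN_cst]

include hD in
theorem rhoT_ySub_ne_zero : rhoT y (ySub (y := y) a₀) ≠ 0 := by
  rw [rhoT_ySub]
  intro h
  rw [sub_eq_zero] at h
  apply hD.trans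
  rw [h]
  exact isAlgebraic_algebraMap _

theorem centreIdeal_ne_bot : centreIdeal hD P a₀ hP ≠ ⊥ := by
  intro h
  have h1 : rhoB hD (ySub (y := y) a₀) ∈ centreIdeal hD P a₀ hP :=
    (mem_centreIdeal hD P a₀ hP).mpr ⟨_, Phi_ySub hD P a₀ hP, rfl⟩
  rw [h, Ideal.mem_bot] at h1
  apply rhoT_ySub_ne_zero hD a₀
  have := congrArg (fun x : BB y => (x : FkN A N)) h1
  exact this

/-- The centre of `P` as a height one prime of the integral closure of `k[ȳ]`. -/
def centreSpec :
    haveI := hD.fin
    haveI := hD.sep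
    haveI := FFSep.isDedekindDomain_B (redN A N y) hD.trans
    HeightOneSpectrum (BB y) :=
  haveI := hD.fin
  haveI := hD.sep
  haveI := FFSep.isDedekindDomain_B (redN A N y) hD.trans
  ⟨centreIdeal hD P a₀ hP, centreIdeal_isPrime hD P a₀ hP, centreIdeal_ne_bot hD P a₀ hP⟩

/-- **The centre of `P` on the reduced chart.** -/
def chartPlace : Place (IsLocalRing.ResidueField A) (FkN A N) :=
  haveI := hD.fin
  haveI := hD.sep
  haveI := FFSep.isDedekindDomain_B (redN A N y) hD.trans
  haveI := FFSep.isFractionRing_B (k := IsLocalRing.ResidueField A) (redN A N y)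
  Place.ofHeightOneSpectrum (K := IsLocalRing.ResidueField A) (F := FkN A N)
    (centreSpec hD P a₀ hP)

end Chart

end Fermat.Agent.S37.CentreChart
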