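import Mathlib
import Fermat.Agent.S37.CentreChart

/-!
# S37, leaf (a1), part C (continued): the centre property and the uniqueness of the centre
-/

set_option autoImplicit false
set_option linter.style.haveILetI false
set_option linter.unusedSectionVars false
set_option synthInstance.maxHeartbeats 400000

noncomputable section

namespace Fermat.Agent.S37.CentreChart

open ModularCurve AlgebraicCurve IsDedekindDomain IntermediateField
open Fermat.Agent.S24 Fermat.Agent.S24.Eval Fermat.Agent.S18 Fermat.Agent.S18.Gauss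
  Fermat.Agent.S18.Lattice Fermat.Agent.S18.Charts Fermat.Agent.S37.CentreVal

variable {A : ValuationSubring KK} {N : ℕ} [NeZero N]

section Chart

variable {y : OO A N} (hD : ChartData y) (P : Place KK (FF N)) (a₀ : A)
  (hP : HasVal P (y : FF N) (a₀ : KK))

/-- A constant of `A` as a chart function. -/
def constT (y : OO A N) (a : A) : TT y :=
  ⟨algebraMap KK (FF N) (a : KK), (CuspAbs.cst A N a).2, algebraMap_mem_regAt N _ _⟩

theorem rhoT_constT (a : A) : rhoT y (constT y a) =
    algebraMap (IsLocalRing.ResidueField A) (FkN A N) (IsLocalRing.residue A a) := by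
  rw [rhoT_apply]
  exact CuspAbs.redN_cst A N a

theorem Theta_constT (a : A) : Theta hD P a₀ hP (constT y a) = a :=
  Subtype.ext (ThetaK_eq P a₀ hP (hasVal_algebraMap P (a : KK)))

theorem mem_chartPlace_of_mem_BB (x : BB y) :
    (x : FkN A N) ∈ (chartPlace hD P a₀ hP).toValuationSubring := by
  haveI := hD.fin
  haveI := hD.sep
  haveI := FFSep.isDedekindDomain_B (redN A N y) hD.trans
  haveI := FFSep.isFractionRing_B (k := IsLocalRing.ResidueField A) (redN A N y)
  unfold chartPlace
  rw [mem_ofHeightOneSpectrum_iff]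
  exact (centreSpec hD P a₀ hP).valuation_le_one x

/-- The coordinate `ȳ` is regular at the centre. -/
theorem chartPlace_ord_nonneg : 0 ≤ (chartPlace hD P a₀ hP).ord (redN A N y) := by
  apply ord_nonneg_of_mem
  have hy : redN A N y ∈ BB y :=
    hD.int_of y (self_mem_regAt N _)
  exact mem_chartPlace_of_mem_BB hD P a₀ hP ⟨_, hy⟩

theorem hasVal_zero_of_mem_centreIdeal {x : BB y} (hx : x ∈ centreIdeal hD P a₀ hP) :
    HasVal (chartPlace hD P a₀ hP) (x : FkN A N) 0 := by
  haveI := hD.fin
  haveI := hD.sep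
  haveI := FFSep.isDedekindDomain_B (redN A N y) hD.trans
  haveI := FFSep.isFractionRing_B (k := IsLocalRing.ResidueField A) (redN A N y)
  by_cases h0 : x = 0
  · left
    rw [h0, map_zero]
    rfl
  · right
    rw [map_zero, sub_zero]
    exact (FFFiber.mem_asIdeal_iff_ord_pos (k := IsLocalRing.ResidueField A) (F := FkN A N)
      (centreSpec hD P a₀ hP) x h0).mp hx

/-- **The centre property**: the reduction of a chart function takes at the centre of `P` the
residue of its value at `P`. -/
theorem chartPlace_val (f : OO A N) (hf : (f : FF N) ∈ regAt N (y : FF N)) (b : KK)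
    (hb : HasVal P (f : FF N) b) :
    ∃ hb' : b ∈ A, HasVal (chartPlace hD P a₀ hP) (redN A N f)
      (IsLocalRing.residue A ⟨b, hb'⟩) := by
  have hbA : b ∈ A := hD.val P a₀ a₀.2 hP f ⟨f.2, hf⟩ b hb
  refine ⟨hbA, ?_⟩
  set t : TT y := ⟨(f : FF N), f.2, hf⟩ with ht
  set t' : TT y := t - constT y ⟨b, hbA⟩ with ht'
  have hT : Theta hD P a₀ hP t = ⟨b, hbA⟩ := Subtype.ext (ThetaK_eq P a₀ hP hb)
  have hPhi : Phi hD P a₀ hP t' = 0 := by
    unfold Phi
    rw [RingHom.comp_apply, ht', map_sub, Theta_constT, hT, sub_self, map_zero]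
  have hmem : rhoB hD t' ∈ centreIdeal hD P a₀ hP :=
    (mem_centreIdeal hD P a₀ hP).mpr ⟨t', hPhi, rfl⟩
  have h1 := hasVal_zero_of_mem_centreIdeal hD P a₀ hP hmem
  have h2 : ((rhoB hD t' : BB y) : FkN A N) = redN A N f -
      algebraMap (IsLocalRing.ResidueField A) (FkN A N) (IsLocalRing.residue A ⟨b, hbA⟩) := by
    show rhoT y t' = _
    rw [ht', map_sub, rhoT_constT]
    rfl
  rw [h2] at h1
  rcases h1 with h1 | h1
  · left
    rw [map_zero] at h1
    exact sub_eq_zero.mp h1
  · right
    rw [map_zero, sub_zero] at h1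
    exact h1

/-- **Uniqueness of the centre.** -/
theorem chartPlace_eq (Q : Place (IsLocalRing.ResidueField A) (FkN A N))
    (hQ : 0 ≤ Q.ord (redN A N y))
    (h : ∀ (t : TT y) (b : A), HasVal P (t : FF N) (b : KK) →
      HasVal Q (rhoT y t) (IsLocalRing.residue A b)) :
    chartPlace hD P a₀ hP = Q := by
  haveI := hD.fin
  haveI := hD.sep
  haveI := FFSep.isDedekindDomain_B (redN A N y) hD.trans
  haveI := FFSep.isFractionRing_B (k := IsLocalRing.ResidueField A) (redN A N y)
  obtain ⟨w', hw', hmem⟩ := FFSep.exists_eq_ofHeightOneSpectrum_B (redN A N y) hD.trans Q hQ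
  have hle : centreIdeal hD P a₀ hP ≤ w'.asIdeal := by
    intro x hx
    obtain ⟨t, ht, rfl⟩ := (mem_centreIdeal hD P a₀ hP).mp hx
    rw [hmem]
    have h1 := h t (Theta hD P a₀ hP t) (hasVal_ThetaK P a₀ hP t)
    have h2 : IsLocalRing.residue A (Theta hD P a₀ hP t) = 0 := ht
    rw [h2] at h1
    by_cases h0 : rhoB hD t = 0
    · exact Or.inr h0
    · left
      refine ⟨h0, ?_⟩
      rcases h1 with h1 | h1
      · exfalso
        apply h0
        apply Subtype.ext
        rw [map_zero] at h1
        exact h1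
      · rw [map_zero, sub_zero] at h1
        exact h1
  have hmax := (centreSpec hD P a₀ hP).isMaximal
  have hle' : (centreSpec hD P a₀ hP).asIdeal ≤ w'.asIdeal := hle
  have heq : (centreSpec hD P a₀ hP).asIdeal = w'.asIdeal :=
    hmax.eq_of_le w'.isPrime.ne_top hle'
  have hspec : centreSpec hD P a₀ hP = w' := HeightOneSpectrum.ext heq
  rw [hw']
  unfold chartPlace
  rw [hspec]

end Chart

end Fermat.Agent.S37.CentreChart
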