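import Mathlib
import Fermat.Agent.S18.IntRed

/-!
# S37, leaf (a1), part A: the integral equation of a chart function

Setting of `S18/IntRed.lean`: `J` an integral series with transcendental reduction, `U_i` an
orthonormal basis of `F` over `L(j)`.  If `f` lies in the Gauss ring of `F` and is integral over
`L[j]`, then `f` satisfies a monic equation whose coefficients are polynomials in `j` with
coefficients in `A`.
-/

set_option autoImplicit false
set_option linter.style.haveILetI false

noncomputable section

namespace Fermat.Agent.S37.CentreRel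

open ModularCurve HahnSeries Fermat.Agent.S18 Fermat.Agent.S18.Gauss Fermat.Agent.S18.IntRed
  Polynomial
open scoped IntermediateField.algebraAdjoinAdjoin

variable {L : Type*} [Field L] {A : ValuationSubring L}

/-- The value at `j` of a polynomial with coefficients in `A`. -/
def psiA (J : LaurentSeries A) : Polynomial A →+* LaurentSeries L :=
  (Polynomial.aeval (R := L) (inc A J)).toRingHom.comp (Polynomial.mapRingHom A.subtype)

theorem psiA_apply (J : LaurentSeries A) (P : Polynomial A) :
    psiA J P = Polynomial.aeval (inc A J) (P.map A.subtype) := rfl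

variable {J : LaurentSeries A}
variable {F : IntermediateField L (LaurentSeries L)}
  {Fk : IntermediateField (IsLocalRing.ResidueField A)
    (LaurentSeries (IsLocalRing.ResidueField A))}

/-- An element of the Gauss ring of `L(j)` which is a polynomial in `j` is a polynomial in `j`
with coefficients in `A`. -/
theorem mem_range_psiA (hJt : Transcendental (IsLocalRing.ResidueField A) (rd A J))
    (x : Oj hJt)
    (hx : ((x : IntermediateField.adjoin L {inc A J}) : LaurentSeries L) ∈
      Algebra.adjoin L {inc A J}) :
    ∃ P' : Polynomial A,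
      psiA J P' = ((x : IntermediateField.adjoin L {inc A J}) : LaurentSeries L) := by
  rw [Algebra.adjoin_singleton_eq_range_aeval] at hx
  obtain ⟨P, hP⟩ := hx
  have hxP : (x : IntermediateField.adjoin L {inc A J}) = Ortho.polyJ J P :=
    Subtype.ext hP.symm
  have hmem : Ortho.polyJ J P ∈ gaussRing A (IntermediateField.adjoin L {inc A J})
      (IntermediateField.adjoin (IsLocalRing.ResidueField A) {rd A J}) := hxP ▸ x.2
  have hcoeff := (Ortho.polyJ_mem_gaussRing_iff hJt P).mp hmem
  have hl : P ∈ Polynomial.lifts A.subtype := by
    rw [Polynomial.lifts_iff_coeff_lifts]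
    intro n
    exact ⟨⟨_, hcoeff n⟩, rfl⟩
  obtain ⟨P', hP'⟩ := (Polynomial.mem_lifts _).mp hl
  refine ⟨P', ?_⟩
  rw [psiA_apply, hP']
  exact hP

variable {ι : Type*} [Fintype ι]

/-- **The integral equation.**  A Gauss-integral function which is integral over `L[j]`
satisfies a monic equation with coefficients in `A[j]`. -/
theorem exists_monic_rel (hJt : Transcendental (IsLocalRing.ResidueField A) (rd A J))
    (hJF : inc A J ∈ F) (hJk : rd A J ∈ Fk) (U : ι → gaussRing A F Fk)
    (hU : LinearIndependent (IntermediateField.adjoin (IsLocalRing.ResidueField A) {rd A J})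
      (fun i => ((red A F Fk (U i) : Fk) : LaurentSeries (IsLocalRing.ResidueField A))))
    (hspan : ∀ f ∈ F, ∃ a : ι → IntermediateField.adjoin L {inc A J},
      f = ∑ i, (a i : LaurentSeries L) * ((U i : F) : LaurentSeries L))
    (f : gaussRing A F Fk)
    (hf : IsIntegral (Algebra.adjoin L {inc A J}) ((f : F) : LaurentSeries L)) :
    ∃ Q : Polynomial (Polynomial A), Q.Monic ∧
      Polynomial.eval₂ (psiA J) ((f : F) : LaurentSeries L) Q = 0 := by
  classical
  letI := algOj hJt
  haveI : IsScalarTower (Oj hJt) (IntermediateField.adjoin L {inc A J}) (LaurentSeries L) :=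
    IsScalarTower.of_algebraMap_eq fun _ => rfl
  have hint := isIntegral_Oj hJt hJF hJk U hU hspan f
  have hj := DecDeg.transcendental_inc hJt
  haveI : IsIntegrallyClosed (Algebra.adjoin L {inc A J}) :=
    IsIntegrallyClosed.of_equiv (Polynomial.algEquivOfTranscendental L (inc A J) hj).toRingEquiv
  have h1 := minpoly.isIntegrallyClosed_eq_field_fractions'
    (IntermediateField.adjoin L {inc A J}) hint
  have h2 := minpoly.isIntegrallyClosed_eq_field_fractions'
    (IntermediateField.adjoin L {inc A J}) hf
  set q := minpoly (Oj hJt) ((f : F) : LaurentSeries L) with hq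
  have hqm : q.Monic := minpoly.monic hint
  have hcoeff : ∀ n, ∃ P' : Polynomial A, psiA J P' =
      (((q.coeff n : Oj hJt) : IntermediateField.adjoin L {inc A J}) : LaurentSeries L) := by
    intro n
    apply mem_range_psiA hJt
    have h3 := congrArg (fun p : Polynomial (IntermediateField.adjoin L {inc A J}) => p.coeff n)
      (h1.symm.trans h2)
    simp only [Polynomial.coeff_map] at h3
    have h4 : ((q.coeff n : IntermediateField.adjoin L {inc A J}) : LaurentSeries L) =
        (((minpoly (Algebra.adjoin L {inc A J}) ((f : F) : LaurentSeries L)).coeff n :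
          Algebra.adjoin L {inc A J}) : LaurentSeries L) :=
      congrArg Subtype.val h3
    rw [h4]
    exact Subtype.property _
  have hl : q.map (algebraMap (Oj hJt) (LaurentSeries L)) ∈ Polynomial.lifts (psiA J) := by
    rw [Polynomial.lifts_iff_coeff_lifts]
    intro n
    rw [Polynomial.coeff_map]
    obtain ⟨P', hP'⟩ := hcoeff n
    exact ⟨P', hP'⟩
  obtain ⟨Q, hQ, -, hQm⟩ := Polynomial.lifts_and_natDegree_eq_and_monic hl (hqm.map _)
  refine ⟨Q, hQm, ?_⟩
  rw [← Polynomial.eval_map, hQ, Polynomial.eval_map]
  exact minpoly.aeval (Oj hJt) ((f : F) : LaurentSeries L)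

end Fermat.Agent.S37.CentreRel
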