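import Mathlib
import Fermat.Agent.S37.CentreRel
import Fermat.Agent.S37.CentreChartB
import Fermat.Agent.S18.IntRedInv
import Fermat.Agent.S18.DecMod
import Fermat.Agent.S18.KummerFinal

/-!
# S37, leaf (a1): the reduction of places `rP`

`A` a valuation ring of `ℚ̄` over `ℓ`, `ℓ ∤ N`.  Every place `P` of `FF N` has a centre on one of
the two reduced charts of `X₀(N)`: on the chart `{j̄ ≠ ∞}` if `j(P) ∈ A` (`JInt P`), on the chart
`{1/j̄ ≠ ∞}` otherwise.  This defines `rP : Place KK (FF N) → Place k (FkN A N)`.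
-/

set_option autoImplicit false
set_option linter.style.haveILetI false
set_option linter.unusedSectionVars false
set_option synthInstance.maxHeartbeats 400000

noncomputable section

namespace Fermat.Agent.S37.Centre

open ModularCurve AlgebraicCurve IsDedekindDomain IntermediateField HahnSeries
open Fermat.Agent.S24 Fermat.Agent.S24.Eval Fermat.Agent.S18 Fermat.Agent.S18.Gauss
  Fermat.Agent.S18.Lattice Fermat.Agent.S18.Charts Fermat.Agent.S37.CentreVal
  Fermat.Agent.S37.CentreChart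

variable {A : ValuationSubring KK} {N : ℕ} [NeZero N]

/-- Values of chart functions are integral, from an orthonormal basis over `ℚ̄(y)`. -/
theorem val_of_series (y : OO A N) (J : LaurentSeries A)
    (hinc : inc A J = (((y : OO A N) : FF N) : LaurentSeries KK))
    (hJt : Transcendental (IsLocalRing.ResidueField A) (rd A J))
    (hJk : rd A J ∈ FkN A N)
    {d : ℕ} (U : Fin d → OO A N)
    (hU : LinearIndependent (IntermediateField.adjoin (IsLocalRing.ResidueField A) {rd A J})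
      (fun i => ((redN A N (U i) : FkN A N) : LaurentSeries (IsLocalRing.ResidueField A))))
    (hspan : ∀ f ∈ modularFunctionFieldBar N,
      ∃ a : Fin d → IntermediateField.adjoin KK {inc A J},
        f = ∑ i, (a i : LaurentSeries KK) *
          (((U i : OO A N) : modularFunctionFieldBar N) : LaurentSeries KK))
    (hint : ∀ f : FF N, f ∈ regAt N (y : FF N) →
      IsIntegral (Algebra.adjoin KK {(y : FF N)}) f)
    (P : Place KK (FF N)) (a₀ : KK) (ha₀ : a₀ ∈ A) (hy : HasVal P (y : FF N) a₀)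
    (f : FF N) (hf : f ∈ TT y) (b : KK) (hb : HasVal P f b) : b ∈ A := by
  have hJF : inc A J ∈ modularFunctionFieldBar N := by
    rw [hinc]
    exact Subtype.property _
  have h1 : IsIntegral (Algebra.adjoin KK {inc A J}) ((f : FF N) : LaurentSeries KK) := by
    have h2 := IntRedMod.isIntegral_coe_of_isIntegral (modularFunctionFieldBar N) (hint f hf.2)
    rw [← hinc] at h2
    exact h2
  obtain ⟨Q, hQm, hQ⟩ := CentreRel.exists_monic_rel hJt hJF hJk U hU hspan ⟨f, hf.1⟩ h1
  have hrel : Polynomial.eval₂ (psiF A (y : FF N)) f Q = 0 := by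
    apply Subtype.ext
    have h3 := Polynomial.hom_eval₂ Q (psiF A (y : FF N))
      (modularFunctionFieldBar N).val.toRingHom f
    have h4 : ((modularFunctionFieldBar N).val.toRingHom).comp (psiF A (y : FF N)) =
        CentreRel.psiA J := by
      apply RingHom.ext
      intro p
      show (modularFunctionFieldBar N).val (Polynomial.aeval (y : FF N) (p.map A.subtype)) =
        Polynomial.aeval (inc A J) (p.map A.subtype)
      rw [← Polynomial.aeval_algHom_apply, hinc]
      rfl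
    rw [h4] at h3
    exact h3.trans hQ
  exact mem_of_monic_rel P (hresF P) A ha₀ hy Q hQm hrel hb

variable {ℓ : ℕ} [Fact ℓ.Prime]

/-- The chart `{j ≠ ∞}`. -/
theorem chartData1 (hA : A.LiesOverPrime ℓ) (hℓN : ¬ ℓ ∣ N) :
    ChartData (CuspAbs.jO A N) := by
  have hred : redN A N (CuspAbs.jO A N) = jb A N := CuspAbs.redN_jO A N
  have hJ := DecMod.isInt_J (A := A) N
  refine ⟨?_, ?_, ?_, DecMod.dec N hA hℓN, ?_, ?_, ?_⟩
  · rw [hred]
    exact DegEq.transcendental_jk _ N
  · rw [hred]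
    exact DegEq.finiteDimensional_residue (A := A) N
  · rw [hred]
    exact FbarSep.isSeparable_residue (A := A) N
  · intro P a₀ ha₀ hy f hf b hb
    obtain ⟨d, U, hU, hspan⟩ := IntRedMod.exists_orthonormal_j (A := A) N hA hℓN
    exact val_of_series (CuspAbs.jO A N) (jqNModC A 1) (DecMod.inc_J (A := A) N).symm
      (IntRedMod.transcendental_rd_J (A := A)) hJ.2 U hU hspan
      (fun g hg => IntRedMod.isIntegral_of_mem_regAt N hg) P a₀ ha₀ hy f hf b hb
  · intro f hf
    rw [hred]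
    exact IntRedMod.isIntegral_redN N hA hℓN f (IntRedMod.isIntegral_of_mem_regAt N hf)
  · intro x hx
    rw [hred] at hx
    have hx' : x ∈ B1b A N := hx
    rw [← (KummerFinal.normalStmt1 hA hℓN : R1 A N = B1b A N)] at hx'
    obtain ⟨f, hf, hfx⟩ := (mem_redImage A N).mp hx'
    exact ⟨f, hf.2, hfx⟩

/-- The chart `{1/j ≠ ∞}`. -/
theorem chartData2 (hA : A.LiesOverPrime ℓ) (hℓN : ¬ ℓ ∣ N) :
    ChartData (CuspAbs.jinvO A N) := by
  have hred : redN A N (CuspAbs.jinvO A N) = (jb A N)⁻¹ := CuspAbs.redN_jinvO A N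
  obtain ⟨J₂, hJ₂⟩ := IntRedInv.exists_jinv A
  obtain ⟨d, U, hU, hspan⟩ := IntRedMod.exists_orthonormal_j (A := A) N hA hℓN
  have hinc := IntRedInv.inc_jinv (A := A) N hJ₂
  have hrd := IntRedInv.rd_jinv (A := A) hJ₂
  have hJ := DecMod.isInt_J (A := A) N
  have hJ₂k : rd A J₂ ∈ FkN A N := by
    rw [hrd, ← DecMod.rd_J (A := A)]
    exact inv_mem hJ.2
  have hJ₂t : Transcendental (IsLocalRing.ResidueField A) (rd A J₂) := by
    rw [hrd]
    intro halg
    exact Fermat.Agent.S28.PrimeCase.transcendental_jqModC _ (IsAlgebraic.inv_iff.mp halg)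
  have e1 : IntermediateField.adjoin (IsLocalRing.ResidueField A) {rd A (jqNModC A 1)} =
      IntermediateField.adjoin (IsLocalRing.ResidueField A) {rd A J₂} := by
    rw [hrd, DecMod.rd_J, IntRedInv.adjoin_inv]
  have e2 : IntermediateField.adjoin KK {inc A (jqNModC A 1)} =
      IntermediateField.adjoin KK {inc A J₂} := by
    have h3 : inc A J₂ = (inc A (jqNModC A 1))⁻¹ := by
      rw [hinc, ← DecMod.inc_J (A := A) N]; rfl
    rw [h3, IntRedInv.adjoin_inv]
  have hU' : LinearIndependent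
      (IntermediateField.adjoin (IsLocalRing.ResidueField A) {rd A J₂})
      (fun i => ((redN A N (U i) : FkN A N) : LaurentSeries (IsLocalRing.ResidueField A))) :=
    e1 ▸ hU
  have hspan' : ∀ f ∈ modularFunctionFieldBar N,
      ∃ a : Fin d → IntermediateField.adjoin KK {inc A J₂},
        f = ∑ i, (a i : LaurentSeries KK) *
          (((U i : OO A N) : modularFunctionFieldBar N) : LaurentSeries KK) :=
    e2 ▸ hspan
  haveI fd := DegEq.finiteDimensional_residue (A := A) N
  haveI sp := FbarSep.isSeparable_residue (A := A) N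
  refine ⟨?_, ?_, ?_, DecMod.dec N hA hℓN, ?_, ?_, ?_⟩
  · rw [hred]
    exact FFFiber.transcendental_inv (jb A N) (DegEq.transcendental_jk _ N)
  · rw [hred]
    exact FFSep.finiteDimensional_inv (k := IsLocalRing.ResidueField A) (jb A N)
  · rw [hred]
    exact FFSep.isSeparable_inv (k := IsLocalRing.ResidueField A) (jb A N)
  · intro P a₀ ha₀ hy f hf b hb
    exact val_of_series (CuspAbs.jinvO A N) J₂ hinc hJ₂t hJ₂k U hU' hspan'
      (fun g hg => (RegInt.mem_regAt_jinv_iff N g).mp hg) P a₀ ha₀ hy f hf b hb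
  · intro f hf
    rw [hred]
    exact IntRedInv.isIntegral_redN_inv N hA hℓN f ((RegInt.mem_regAt_jinv_iff N _).mp hf)
  · intro x hx
    rw [hred] at hx
    have hx' : x ∈ B2b A N := hx
    rw [← (KummerFinal.normalStmt2 hA hℓN : R2 A N = B2b A N)] at hx'
    obtain ⟨f, hf, hfx⟩ := (mem_redImage A N).mp hx'
    exact ⟨f, hf.2, hfx⟩

/-! ### The two cases -/

/-- A place with integral `j`-value: `j` has a value in `A`. -/
theorem hasVal_of_jInt {P : Place KK (FF N)} (h : CuspAbs.JInt A N P) :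
    HasVal P ((CuspAbs.jO A N : OO A N) : FF N) (h.choose : KK) :=
  Or.inr h.choose_spec.2

/-- A place with non-integral `j`-value: `1/j` has a value in the maximal ideal of `A`. -/
theorem exists_hasVal_inv {P : Place KK (FF N)} (h : ¬ CuspAbs.JInt A N P) :
    ∃ a : KK, (a ∈ A ∧ ∀ ha : a ∈ A, (⟨a, ha⟩ : A) ∈ nonunits A) ∧
      HasVal P ((CuspAbs.jinvO A N : OO A N) : FF N) a := by
  by_cases hm : jF N ∈ P.toValuationSubring
  · obtain ⟨c, hc⟩ := hresF P (jF N) hm
    have hcA : c ∉ A := by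
      intro hcA
      apply h
      refine ⟨c, hcA, ?_⟩
      rcases hc with hc | hc
      · exfalso
        apply Degree.transcendental_jF N
        rw [hc]
        exact isAlgebraic_algebraMap _
      · exact hc
    have hc0 : c ≠ 0 := fun h0 => hcA (h0 ▸ A.zero_mem)
    have hinv : c⁻¹ ∈ A := (A.mem_or_inv_mem c).resolve_left hcA
    refine ⟨c⁻¹, ⟨hinv, fun ha hu => ?_⟩, HasVal.inv P hc hc0⟩
    apply hcA
    obtain ⟨u, hu'⟩ := hu
    have h1 : ((u : A) : KK) = c⁻¹ := congrArg Subtype.val hu'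
    have h2 : ((↑(u⁻¹) : A) : KK) = c := by
      have h3 : ((u : A) : KK) * ((↑(u⁻¹) : A) : KK) = 1 := by
        have := congrArg Subtype.val u.mul_inv
        exact this
      rw [h1] at h3
      have h4 := eq_inv_of_mul_eq_one_right h3
      rw [inv_inv] at h4
      exact h4
    rw [← h2]
    exact (↑(u⁻¹) : A).2
  · refine ⟨0, ⟨A.zero_mem, fun ha hu => ?_⟩, hasVal_inv_of_not_mem P hm⟩
    have h0 : (⟨0, ha⟩ : A) = 0 := rfl
    rw [h0] at hu
    exact not_isUnit_zero hu

open Classical in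
/-- **The reduction of places.** -/
def rP (hA : A.LiesOverPrime ℓ) (hℓN : ¬ ℓ ∣ N) (P : Place KK (FF N)) :
    Place (IsLocalRing.ResidueField A) (FkN A N) :=
  if h : CuspAbs.JInt A N P then
    chartPlace (chartData1 hA hℓN) P ⟨h.choose, h.choose_spec.1⟩ (hasVal_of_jInt h)
  else
    chartPlace (chartData2 hA hℓN) P
      ⟨(exists_hasVal_inv h).choose, (exists_hasVal_inv h).choose_spec.1.1⟩
      (exists_hasVal_inv h).choose_spec.2

theorem rP_of_jInt (hA : A.LiesOverPrime ℓ) (hℓN : ¬ ℓ ∣ N) {P : Place KK (FF N)}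
    (h : CuspAbs.JInt A N P) :
    rP hA hℓN P =
      chartPlace (chartData1 hA hℓN) P ⟨h.choose, h.choose_spec.1⟩ (hasVal_of_jInt h) := by
  unfold rP
  rw [dif_pos h]

theorem rP_of_not_jInt (hA : A.LiesOverPrime ℓ) (hℓN : ¬ ℓ ∣ N) {P : Place KK (FF N)}
    (h : ¬ CuspAbs.JInt A N P) :
    rP hA hℓN P = chartPlace (chartData2 hA hℓN) P
      ⟨(exists_hasVal_inv h).choose, (exists_hasVal_inv h).choose_spec.1.1⟩
      (exists_hasVal_inv h).choose_spec.2 := by
  unfold rP
  rw [dif_neg h]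

/-- A place with integral `j`-value reduces to a finite place. -/
theorem rP_finite (hA : A.LiesOverPrime ℓ) (hℓN : ¬ ℓ ∣ N) (P : Place KK (FF N))
    (hP : CuspAbs.JInt A N P) : 0 ≤ (rP hA hℓN P).ord (jb A N) := by
  rw [rP_of_jInt hA hℓN hP, ← CuspAbs.redN_jO A N]
  exact chartPlace_ord_nonneg _ _ _ _

/-- **(CP1)** the centre property on the chart `{j ≠ ∞}`. -/
theorem val_chart1 (hA : A.LiesOverPrime ℓ) (hℓN : ¬ ℓ ∣ N) (P : Place KK (FF N))
    (hP : CuspAbs.JInt A N P) (f : OO A N) (hf : (f : FF N) ∈ regAt N (jF N)) (a : KK)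
    (ha : HasVal P (f : FF N) a) :
    ∃ ha' : a ∈ A, HasVal (rP hA hℓN P) (redN A N f) (IsLocalRing.residue A ⟨a, ha'⟩) := by
  rw [rP_of_jInt hA hℓN hP]
  exact chartPlace_val (chartData1 hA hℓN) P _ _ f hf a ha

/-- **(CP2)** the centre property on the chart `{1/j ≠ ∞}`. -/
theorem val_chart2 (hA : A.LiesOverPrime ℓ) (hℓN : ¬ ℓ ∣ N) (P : Place KK (FF N))
    (hP : ¬ CuspAbs.JInt A N P) (f : OO A N) (hf : (f : FF N) ∈ regAt N (jF N)⁻¹) (a : KK)
    (ha : HasVal P (f : FF N) a) :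
    ∃ ha' : a ∈ A, HasVal (rP hA hℓN P) (redN A N f) (IsLocalRing.residue A ⟨a, ha'⟩) := by
  rw [rP_of_not_jInt hA hℓN hP]
  exact chartPlace_val (chartData2 hA hℓN) P _ _ f hf a ha

/-- A place with non-integral `j`-value reduces to a cusp. -/
theorem rP_cusp (hA : A.LiesOverPrime ℓ) (hℓN : ¬ ℓ ∣ N) (P : Place KK (FF N))
    (hP : ¬ CuspAbs.JInt A N P) : (rP hA hℓN P).ord (jb A N) < 0 := by
  obtain ⟨⟨haA, hnu⟩, hval⟩ := (exists_hasVal_inv hP).choose_spec
  obtain ⟨ha', h⟩ := val_chart2 hA hℓN P hP (CuspAbs.jinvO A N) (self_mem_regAt N _) _ hval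
  have hres : IsLocalRing.residue A ⟨(exists_hasVal_inv hP).choose, ha'⟩ = 0 := by
    rw [IsLocalRing.residue_eq_zero_iff, IsLocalRing.mem_maximalIdeal]
    exact hnu ha'
  rw [hres, CuspAbs.redN_jinvO] at h
  rcases h with h | h
  · exfalso
    rw [map_zero] at h
    exact CuspAbs.jb_ne_zero A N (inv_eq_zero.mp h)
  · rw [map_zero, sub_zero, Place.ord_inv] at h
    omega

/-- **Uniqueness on the chart `{j ≠ ∞}`.** -/
theorem rP_eq_of_val1 (hA : A.LiesOverPrime ℓ) (hℓN : ¬ ℓ ∣ N) (P : Place KK (FF N))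
    (hP : CuspAbs.JInt A N P) (Q : Place (IsLocalRing.ResidueField A) (FkN A N))
    (hQ : 0 ≤ Q.ord (jb A N))
    (h : ∀ f : OO A N, (f : FF N) ∈ regAt N (jF N) → ∀ a : A, HasVal P (f : FF N) (a : KK) →
      HasVal Q (redN A N f) (IsLocalRing.residue A a)) :
    rP hA hℓN P = Q := by
  rw [rP_of_jInt hA hℓN hP]
  apply chartPlace_eq
  · rw [CuspAbs.redN_jO]
    exact hQ
  · intro t b hb
    exact h ⟨(t : FF N), t.2.1⟩ t.2.2 b hb

/-- **Uniqueness on the chart `{1/j ≠ ∞}`.** -/
theorem rP_eq_of_val2 (hA : A.LiesOverPrime ℓ) (hℓN : ¬ ℓ ∣ N) (P : Place KK (FF N))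
    (hP : ¬ CuspAbs.JInt A N P) (Q : Place (IsLocalRing.ResidueField A) (FkN A N))
    (hQ : Q.ord (jb A N) ≤ 0)
    (h : ∀ f : OO A N, (f : FF N) ∈ regAt N (jF N)⁻¹ → ∀ a : A, HasVal P (f : FF N) (a : KK) →
      HasVal Q (redN A N f) (IsLocalRing.residue A a)) :
    rP hA hℓN P = Q := by
  rw [rP_of_not_jInt hA hℓN hP]
  apply chartPlace_eq
  · rw [CuspAbs.redN_jinvO, Place.ord_inv]
    omega
  · intro t b hb
    exact h ⟨(t : FF N), t.2.1⟩ t.2.2 b hb

/-- The reduction of places preserves the degree (both degrees are `1`). -/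
theorem deg_rP (hA : A.LiesOverPrime ℓ) (hℓN : ¬ ℓ ∣ N) (P : Place KK (FF N)) :
    (rP hA hℓN P).deg = P.deg := by
  haveI := Degree.finiteDimensional_jF N
  rw [FbarSep.place_deg_eq_one N (rP hA hℓN P),
    Fermat.Agent.S24.place_deg_eq_one (jF N) (Degree.transcendental_jF N) P]

end Fermat.Agent.S37.Centre
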