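import Mathlib
import Fermat.Agent.S37.Centre
import Fermat.Agent.S24.FFPrincipal

/-!
# S37, leaf (CP2'): the centre property at the cusps for functions outside the chart ring

`val_chart2_flex` : the centre property of `Centre.val_chart2` for a Gauss-integral function `y`
which is regular at all places with non-integral `j`-value (but possibly not in the chart ring
`O2`: it may have poles at places with integral, nonzero `j`-value).  The poles are killed by a
product `h` of factors `1 - s / j`, `s ∈ A`, whose reduction has the value `1` at every cusp of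
the special fibre.
-/

set_option autoImplicit false
set_option linter.style.haveILetI false
set_option linter.unusedSectionVars false
set_option synthInstance.maxHeartbeats 400000

noncomputable section

namespace Fermat.Agent.S37CentreFlex

open ModularCurve AlgebraicCurve IsDedekindDomain IntermediateField HahnSeries
open Fermat.Agent.S24 Fermat.Agent.S24.Eval Fermat.Agent.S18 Fermat.Agent.S18.Gauss
  Fermat.Agent.S18.Lattice Fermat.Agent.S18.Charts Fermat.Agent.S37.CentreVal
  Fermat.Agent.S37.CentreChart Fermat.Agent.S37.Centre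

variable {A : ValuationSubring KK} {N : ℕ} [NeZero N]

/-! ### The factor `1 - s / j` -/

/-- The factor `1 - s / j`. -/
def fac (s : A) : OO A N := 1 - LocalLift.cO s * CuspAbs.jinvO A N

theorem coe_fac (s : A) :
    ((fac (N := N) s : OO A N) : FF N) = 1 - algebraMap KK (FF N) (s : KK) * (jF N)⁻¹ := rfl

theorem coe_fac' (s : A) :
    ((fac (N := N) s : OO A N) : FF N) = (jF N - algebraMap KK (FF N) (s : KK)) * (jF N)⁻¹ := by
  have hj : jF N ≠ 0 := fun h0 =>
    (Degree.transcendental_jF N) (by rw [h0]; exact isAlgebraic_zero)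
  rw [coe_fac, sub_mul, mul_inv_cancel₀ hj]

theorem fac_mem_regAt (s : A) : ((fac (N := N) s : OO A N) : FF N) ∈ regAt N (jF N)⁻¹ := by
  rw [coe_fac]
  exact sub_mem (one_mem _) (mul_mem (algebraMap_mem_regAt N _ _) (self_mem_regAt N _))

theorem redN_fac (s : A) :
    redN A N (fac (N := N) s) =
      1 - algebraMap (IsLocalRing.ResidueField A) (FkN A N) (IsLocalRing.residue A s) *
        (jb A N)⁻¹ := by
  unfold fac
  rw [map_sub, map_one, map_mul, LocalLift.redN_cO, CuspAbs.redN_jinvO]

/-- At a place with `j`-value `s` where `1/j` is regular, the factor vanishes. -/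
theorem one_le_ord_fac (s : A) (P : Place KK (FF N))
    (hs : 0 < P.ord (jF N - algebraMap KK (FF N) (s : KK)))
    (hj : (jF N)⁻¹ ∈ P.toValuationSubring) :
    ((fac (N := N) s : OO A N) : FF N) ≠ 0 ∧ 1 ≤ P.ord ((fac (N := N) s : OO A N) : FF N) := by
  have hj0 : jF N ≠ 0 := fun h0 =>
    (Degree.transcendental_jF N) (by rw [h0]; exact isAlgebraic_zero)
  have h1 : jF N - algebraMap KK (FF N) (s : KK) ≠ 0 := by
    intro h0
    rw [h0, Place.ord_zero] at hs
    exact lt_irrefl _ hs
  have h2 : (jF N)⁻¹ ≠ 0 := inv_ne_zero hj0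
  rw [coe_fac']
  refine ⟨mul_ne_zero h1 h2, ?_⟩
  rw [P.ord_mul h1 h2]
  have := ord_nonneg_of_mem P hj
  omega

/-- The reduction of the factor has the value `1` at every cusp of the special fibre. -/
theorem hasVal_redN_fac (s : A) (Q : Place (IsLocalRing.ResidueField A) (FkN A N))
    (hQ : Q.ord (jb A N) < 0) : HasVal Q (redN A N (fac (N := N) s)) 1 := by
  have hm : jb A N ∉ Q.toValuationSubring := fun h => by
    have := ord_nonneg_of_mem Q h
    omega
  have h0 : HasVal Q (jb A N)⁻¹ 0 := hasVal_inv_of_not_mem Q hm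
  have h1 := HasVal.sub Q (hresK Q) (hasVal_algebraMap Q 1)
    (HasVal.mul Q (hresK Q) (hasVal_algebraMap Q (IsLocalRing.residue A s)) h0)
  rw [redN_fac]
  rw [mul_zero, sub_zero, map_one] at h1
  exact h1

theorem HasVal_pow {K F : Type*} [Field K] [Field F] [Algebra K F] (P : Place K F)
    (hres : ∀ f : F, f ∈ P.toValuationSubring → ∃ c : K, HasVal P f c) {f : F} {a : K}
    (hf : HasVal P f a) (n : ℕ) : HasVal P (f ^ n) (a ^ n) := by
  induction n with
  | zero =>
    rw [pow_zero, pow_zero]
    have := hasVal_algebraMap P (1 : K)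
    rwa [map_one] at this
  | succ n ih =>
    rw [pow_succ, pow_succ]
    exact HasVal.mul P hres ih hf

/-! ### Killing finitely many poles -/

/-- For finitely many places with integral `j`-value at which `1/j` is regular there is a
function `h` of the chart ring `O2` vanishing to order `≥ M` at these places, whose reduction has
the value `1` at every cusp of the special fibre. -/
theorem exists_kill (M : ℕ) (S : Finset (Place KK (FF N)))
    (hS : ∀ P ∈ S, CuspAbs.JInt A N P ∧ (jF N)⁻¹ ∈ P.toValuationSubring) :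
    ∃ h : OO A N, (h : FF N) ≠ 0 ∧ (h : FF N) ∈ regAt N (jF N)⁻¹ ∧
      (∀ P ∈ S, (M : ℤ) ≤ P.ord (h : FF N)) ∧
      ∀ Q : Place (IsLocalRing.ResidueField A) (FkN A N), Q.ord (jb A N) < 0 →
        HasVal Q (redN A N h) 1 := by
  classical
  induction S using Finset.induction_on with
  | empty =>
    refine ⟨1, one_ne_zero, one_mem _, fun P hP => absurd hP (Finset.notMem_empty P),
      fun Q _ => ?_⟩
    rw [map_one]
    have := hasVal_algebraMap Q (1 : IsLocalRing.ResidueField A)
    rwa [map_one] at this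
  | insert P₁ S hP₁ ih =>
    obtain ⟨h', h0', hreg', hord', hval'⟩ :=
      ih (fun P hP => hS P (Finset.mem_insert_of_mem hP))
    obtain ⟨⟨s, hsA, hs⟩, hj₁⟩ := hS P₁ (Finset.mem_insert_self P₁ S)
    set u : OO A N := fac (N := N) ⟨s, hsA⟩ with hu
    obtain ⟨hu0, hu1⟩ := one_le_ord_fac (N := N) ⟨s, hsA⟩ P₁ hs hj₁
    have hureg : (u : FF N) ∈ regAt N (jF N)⁻¹ := fac_mem_regAt _
    have hupow0 : ((u : FF N)) ^ M ≠ 0 := pow_ne_zero M hu0
    refine ⟨u ^ M * h', ?_, ?_, ?_, ?_⟩
    · exact mul_ne_zero hupow0 h0'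
    · exact mul_mem (pow_mem hureg M) hreg'
    · intro P hP
      have hcoe : ((u ^ M * h' : OO A N) : FF N) = (u : FF N) ^ M * (h' : FF N) := rfl
      rw [hcoe, P.ord_mul hupow0 h0', Fermat.Agent.S24.ord_pow]
      rcases Finset.mem_insert.mp hP with rfl | hPS
      · have h1 : 0 ≤ P.ord (h' : FF N) := ord_nonneg_of_mem P (hreg' P hj₁)
        have h2 : (M : ℤ) * 1 ≤ (M : ℤ) * P.ord (u : FF N) :=
          mul_le_mul_of_nonneg_left hu1 (Int.natCast_nonneg M)
        omega
      · have hj := (hS P (Finset.mem_insert_of_mem hPS)).2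
        have h1 : 0 ≤ P.ord (u : FF N) := ord_nonneg_of_mem P (hureg P hj)
        have h2 : 0 ≤ (M : ℤ) * P.ord (u : FF N) := mul_nonneg (Int.natCast_nonneg M) h1
        have h3 := hord' P hPS
        omega
    · intro Q hQ
      rw [map_mul, map_pow]
      have h1 := HasVal_pow Q (hresK Q) (hasVal_redN_fac (N := N) ⟨s, hsA⟩ Q hQ) M
      have h2 := HasVal.mul Q (hresK Q) h1 (hval' Q hQ)
      rwa [one_pow, one_mul] at h2

/-! ### The flexible centre property -/

variable {ℓ : ℕ} [Fact ℓ.Prime]

/-- A place with non-integral `j`-value: `1/j` is regular. -/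
theorem jinv_mem_of_not_jInt {P : Place KK (FF N)} (hP : ¬ CuspAbs.JInt A N P) :
    (jF N)⁻¹ ∈ P.toValuationSubring :=
  (exists_hasVal_inv hP).choose_spec.2.mem P

set_option maxHeartbeats 1000000 in
/-- **(CP2')** the centre property at a place `P` with non-integral `j`-value for a
Gauss-integral function which is regular at all places with non-integral `j`-value. -/
theorem val_chart2_flex (hA : A.LiesOverPrime ℓ) (hℓN : ¬ ℓ ∣ N) (P : Place KK (FF N))
    (hP : ¬ CuspAbs.JInt A N P) (y : OO A N)
    (hy : ∀ P₁ : Place KK (FF N), ¬ CuspAbs.JInt A N P₁ → 0 ≤ P₁.ord (y : FF N))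
    (a : KK) (ha : HasVal P (y : FF N) a) :
    ∃ ha' : a ∈ A, HasVal (rP hA hℓN P) (redN A N y) (IsLocalRing.residue A ⟨a, ha'⟩) := by
  classical
  haveI := Degree.finiteDimensional_jF N
  have hfin : {v : Place KK (FF N) | v.ord (y : FF N) ≠ 0}.Finite :=
    FFPrincipal.finite_ord_ne_zero' (jF N) (Degree.transcendental_jF N) (y : FF N)
  -- the poles of `y` at which `1/j` is regular
  set S : Finset (Place KK (FF N)) :=
    hfin.toFinset.filter (fun v => v.ord (y : FF N) < 0 ∧ (jF N)⁻¹ ∈ v.toValuationSubring)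
    with hSdef
  have hS : ∀ v ∈ S, CuspAbs.JInt A N v ∧ (jF N)⁻¹ ∈ v.toValuationSubring := by
    intro v hv
    rw [hSdef, Finset.mem_filter] at hv
    refine ⟨?_, hv.2.2⟩
    by_contra hnot
    have := hy v hnot
    omega
  set M : ℕ := S.sup (fun v => (-(v.ord (y : FF N))).toNat) with hMdef
  obtain ⟨h, h0, hreg, hord, hval⟩ := exists_kill (A := A) (N := N) M S hS
  -- `y * h` is in the chart ring
  have hyh : ((y * h : OO A N) : FF N) ∈ regAt N (jF N)⁻¹ := by
    intro v hv
    have hcoe : ((y * h : OO A N) : FF N) = (y : FF N) * (h : FF N) := rfl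
    rw [hcoe]
    by_cases hneg : v.ord (y : FF N) < 0
    · have hy0 : (y : FF N) ≠ 0 := by
        intro h00
        rw [h00, Place.ord_zero] at hneg
        exact lt_irrefl _ hneg
      have hvS : v ∈ S := by
        rw [hSdef, Finset.mem_filter, Set.Finite.mem_toFinset]
        refine ⟨?_, hneg, hv⟩
        show v.ord (y : FF N) ≠ 0
        omega
      have h1 := hord v hvS
      have h2 : (-(v.ord (y : FF N))).toNat ≤ M := by
        rw [hMdef]
        exact Finset.le_sup (f := fun v => (-(v.ord (y : FF N))).toNat) hvS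
      have h3 : -(v.ord (y : FF N)) ≤ (M : ℤ) := by
        have := Int.self_le_toNat (-(v.ord (y : FF N)))
        have h2' : (((-(v.ord (y : FF N))).toNat : ℕ) : ℤ) ≤ (M : ℤ) := by exact_mod_cast h2
        omega
      apply mem_of_ord_nonneg v (mul_ne_zero hy0 h0)
      rw [v.ord_mul hy0 h0]
      omega
    · have hym : (y : FF N) ∈ v.toValuationSubring :=
        RegInt.mem_of_ord_nonneg₀ v _ (not_lt.mp hneg)
      exact mul_mem hym (hreg v hv)
  -- the values at `P`
  have hjP := jinv_mem_of_not_jInt (A := A) hP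
  obtain ⟨b, hb⟩ := hresF P (h : FF N) (hreg P hjP)
  obtain ⟨hbA, hbval⟩ := val_chart2 hA hℓN P hP h hreg b hb
  have hQ := rP_cusp hA hℓN P hP
  have hres1 : IsLocalRing.residue A ⟨b, hbA⟩ = 1 :=
    HasVal.unique (rP hA hℓN P) (hresK _) hbval (hval _ hQ)
  have hbunit : IsUnit (⟨b, hbA⟩ : A) := by
    by_contra hnu
    have : IsLocalRing.residue A ⟨b, hbA⟩ = 0 := by
      rw [IsLocalRing.residue_eq_zero_iff, IsLocalRing.mem_maximalIdeal]
      exact hnu
    rw [this] at hres1
    exact zero_ne_one hres1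
  have hab : HasVal P ((y * h : OO A N) : FF N) (a * b) := HasVal.mul P (hresF P) ha hb
  obtain ⟨habA, habval⟩ := val_chart2 hA hℓN P hP (y * h) hyh (a * b) hab
  -- `a ∈ A`
  obtain ⟨ub, hub⟩ := hbunit
  have hb0 : b ≠ 0 := by
    intro h00
    have : (⟨b, hbA⟩ : A) = 0 := Subtype.ext h00
    rw [this] at hres1
    rw [map_zero] at hres1
    exact zero_ne_one hres1
  have haA : a ∈ A := by
    have h1 : a = (a * b) * (((↑(ub⁻¹) : A) : KK)) := by
      have h2 : b * (((↑(ub⁻¹) : A) : KK)) = 1 := by
        have h3 := congrArg Subtype.val ub.mul_inv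
        rw [hub] at h3
        exact h3
      rw [mul_assoc, h2, mul_one]
    rw [h1]
    exact A.mul_mem _ _ habA (↑(ub⁻¹) : A).2
  refine ⟨haA, ?_⟩
  -- the value of the reduction
  have hresab : IsLocalRing.residue A ⟨a * b, habA⟩ = IsLocalRing.residue A ⟨a, haA⟩ := by
    have : (⟨a * b, habA⟩ : A) = ⟨a, haA⟩ * ⟨b, hbA⟩ := rfl
    rw [this, map_mul, hres1, mul_one]
  rw [map_mul, hresab] at habval
  have hinv := HasVal.inv (rP hA hℓN P) (hval _ hQ) one_ne_zero
  have hfinal := HasVal.mul (rP hA hℓN P) (hresK _) habval hinv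
  have hh0 : redN A N h ≠ 0 := by
    intro h00
    have h1 := hval _ hQ
    rw [h00] at h1
    have h2 := hasVal_algebraMap (rP hA hℓN P) (0 : IsLocalRing.ResidueField A)
    rw [map_zero] at h2
    exact zero_ne_one (HasVal.unique (rP hA hℓN P) (hresK _) h2 h1)
  rwa [inv_one, mul_one, mul_assoc, mul_inv_cancel₀ hh0, mul_one] at hfinal

end Fermat.Agent.S37CentreFlex
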