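import Mathlib
import Fermat.Prelude.Def_ModularCurve_HeckeOperator
import Fermat.Agent.S20.Stab
import Fermat.Agent.S24.Eval
import Fermat.Agent.S24.Jq
import Fermat.Agent.S24.JqCriterion
import Fermat.Agent.S24.JFunction

/-!
# S37 (E0): the Atkin--Lehner swap on `q`-expansions

For a prime `ℓ ∤ N` there is a ring homomorphism `ι : FF (N * ℓ) →+* KK((q))`, the identity on
the constants, with

* `ι ∘ α = (q ↦ q ^ (ℓ ^ 2))` and
* `ι ∘ β = (q ↦ q ^ ℓ)`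

on the function field `FF N` of `X₀(N)`, where `α`, `β : FF N → FF (N * ℓ)` are the two
degeneracy maps (`α` the inclusion and `β = (q ↦ q ^ ℓ)`).  (`ι` is the `q`-expansion of
`f ↦ f ∘ w` for a suitable Atkin--Lehner type substitution `w`, rescaled by `q ↦ q ^ ℓ`.)

The proof uses the lifting principle `Jq.exists_lift` of S24 for the generators `j(q^D)`,
`D ∣ N ℓ`, of `FF (N * ℓ)`, the analytic criterion `JqCriterion.aeval_eq_zero_iff'` and one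
explicit substitution on the upper half plane.
-/

set_option autoImplicit false

namespace Fermat.Agent.S37ALSwap

open UpperHalfPlane ModularCurve
open Fermat.Agent.S24.Eval Fermat.Agent.S24.Jq Fermat.Agent.S24.JqCriterion
open Fermat.Agent.S24.JFunction
open scoped MatrixGroups

/-! ### Moebius transformations and `j` -/

/-- If `w' = (a w + b) / (c w + d)` with `a d - b c = 1` then `j(w') = j(w)`. -/
theorem jfun_ofComplex_eq_of_mobius {w w' : ℂ} (hw : 0 < w.im) (a b c d : ℤ)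
    (hdet : a * d - b * c = 1) (h : w' * ((c : ℂ) * w + (d : ℂ)) = (a : ℂ) * w + (b : ℂ)) :
    jfun (ofComplex w') = jfun (ofComplex w) := by
  obtain ⟨g, hg⟩ : ∃ g : SL(2, ℤ), (g : Matrix (Fin 2) (Fin 2) ℤ) = !![a, b; c, d] :=
    ⟨⟨!![a, b; c, d], by rw [Matrix.det_fin_two_of]; exact hdet⟩, rfl⟩
  have g00 : g 0 0 = a := by rw [hg]; rfl
  have g01 : g 0 1 = b := by rw [hg]; rfl
  have g10 : g 1 0 = c := by rw [hg]; rfl
  have g11 : g 1 1 = d := by rw [hg]; rfl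
  have hden : (c : ℂ) * w + (d : ℂ) ≠ 0 := by
    have h1 := denom_ne_zero g (⟨w, hw⟩ : ℍ)
    rw [Fermat.Agent.S20.Stab.denom_SL, g10, g11] at h1
    exact h1
  have hp : ((g • (⟨w, hw⟩ : ℍ) : ℍ) : ℂ) = w' := by
    rw [Fermat.Agent.S20.Stab.coe_smul_SL, g00, g01, g10, g11]
    show ((a : ℂ) * w + (b : ℂ)) / ((c : ℂ) * w + (d : ℂ)) = w'
    rw [div_eq_iff hden, h]
  rw [← hp, ofComplex_apply, jfun_smul]
  congr 1
  exact (ofComplex_apply_of_im_pos hw).symm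

/-! ### The substitution -/

/-- the matrix `[[1, 0], [N, 1]]` -/
def g0 (N : ℕ) : SL(2, ℤ) :=
  ⟨!![1, 0; (N : ℤ), 1], by rw [Matrix.det_fin_two_of]; ring⟩

theorem g0_smul_mul (N : ℕ) (σ : ℍ) :
    ((g0 N • σ : ℍ) : ℂ) * ((N : ℂ) * (σ : ℂ) + 1) = (σ : ℂ) := by
  have g00 : g0 N 0 0 = 1 := rfl
  have g01 : g0 N 0 1 = 0 := rfl
  have g10 : g0 N 1 0 = (N : ℤ) := rfl
  have g11 : g0 N 1 1 = 1 := rfl
  have hden : (N : ℂ) * (σ : ℂ) + 1 ≠ 0 := by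
    have h1 := denom_ne_zero (g0 N) σ
    rw [Fermat.Agent.S20.Stab.denom_SL, g10, g11] at h1
    simpa using h1
  rw [Fermat.Agent.S20.Stab.coe_smul_SL, g00, g01, g10, g11]
  simp only [Int.cast_one, Int.cast_zero, Int.cast_natCast, one_mul, add_zero]
  exact div_mul_cancel₀ _ hden

/-- **The two identities** for a pair `τ`, `τ'` related by `τ' = σ / (N σ + 1)`,
`σ = ℓ² τ - t`, where `N t + ℓ s = 1`. -/
theorem Jd_eq_of_rel (N ℓ : ℕ) (hℓ : 0 < ℓ) (t s : ℤ) (hts : (N : ℤ) * t + (ℓ : ℤ) * s = 1)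
    (τ τ' : ℍ)
    (hrel : (τ' : ℂ) * ((N : ℂ) * ((ℓ : ℂ) ^ 2 * (τ : ℂ) - (t : ℂ)) + 1) =
      (ℓ : ℂ) ^ 2 * (τ : ℂ) - (t : ℂ))
    (d e : ℕ) (hd : 0 < d) (hde : d * e = N) :
    Jd d τ' = Jd (d * ℓ ^ 2) τ ∧ Jd (d * ℓ) τ' = Jd (d * ℓ) τ := by
  have hdeZ : (d : ℤ) * (e : ℤ) = (N : ℤ) := by exact_mod_cast hde
  have hdeC : (d : ℂ) * (e : ℂ) = (N : ℂ) := by exact_mod_cast hde
  have htsC : (N : ℂ) * (t : ℂ) + (ℓ : ℂ) * (s : ℂ) = 1 := by exact_mod_cast hts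
  have him : ∀ m : ℕ, 0 < m → 0 < (((m : ℕ) : ℂ) * (τ : ℂ)).im := by
    intro m hm
    rw [Complex.mul_im, Complex.natCast_re, Complex.natCast_im, zero_mul, add_zero]
    exact mul_pos (by exact_mod_cast hm) τ.im_pos
  constructor
  · rw [Jd_def, Jd_def]
    refine jfun_ofComplex_eq_of_mobius (him (d * ℓ ^ 2) (by positivity)) 1 (-((d : ℤ) * t))
      (e : ℤ) (1 - (N : ℤ) * t) ?_ ?_
    · linear_combination t * hdeZ
    · push_cast
      linear_combination (d : ℂ) * hrel + ((d : ℂ) * (τ' : ℂ) * (ℓ : ℂ) ^ 2 * (τ : ℂ)) * hdeC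
  · rw [Jd_def, Jd_def]
    refine jfun_ofComplex_eq_of_mobius (him (d * ℓ) (by positivity)) (ℓ : ℤ) (-((d : ℤ) * t))
      (e : ℤ) s ?_ ?_
    · linear_combination hts + t * hdeZ
    · push_cast
      linear_combination (d : ℂ) * hrel + ((d : ℂ) * (τ' : ℂ) * (ℓ : ℂ) ^ 2 * (τ : ℂ)) * hdeC
        + ((d : ℂ) * (τ' : ℂ)) * htsC

/-- the substitution `τ ↦ τ'` exists -/
theorem exists_rel (N ℓ : ℕ) (hℓ : 0 < ℓ) (t : ℤ) (τ : ℍ) :
    ∃ τ' : ℍ, (τ' : ℂ) * ((N : ℂ) * ((ℓ : ℂ) ^ 2 * (τ : ℂ) - (t : ℂ)) + 1) =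
      (ℓ : ℂ) ^ 2 * (τ : ℂ) - (t : ℂ) := by
  have him : 0 < ((ℓ : ℂ) ^ 2 * (τ : ℂ) - (t : ℂ)).im := by
    have e1 : ((ℓ : ℂ) ^ 2 * (τ : ℂ) - (t : ℂ)).im = (ℓ : ℝ) ^ 2 * τ.im := by
      have e2 : ((ℓ : ℂ) ^ 2) = (((ℓ ^ 2 : ℕ) : ℕ) : ℂ) := by push_cast; rfl
      rw [Complex.sub_im, Complex.intCast_im, sub_zero, e2, Complex.mul_im, Complex.natCast_re,
        Complex.natCast_im, zero_mul, add_zero]
      push_cast
      rfl
    rw [e1]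
    have : (0 : ℝ) < (ℓ : ℝ) := by exact_mod_cast hℓ
    have := τ.im_pos
    positivity
  exact ⟨g0 N • (⟨_, him⟩ : ℍ), g0_smul_mul N ⟨_, him⟩⟩

/-- the substitution `τ ↦ τ'` is surjective -/
theorem exists_rel_inv (N ℓ : ℕ) (hℓ : 0 < ℓ) (t : ℤ) (τ' : ℍ) :
    ∃ τ : ℍ, (τ' : ℂ) * ((N : ℂ) * ((ℓ : ℂ) ^ 2 * (τ : ℂ) - (t : ℂ)) + 1) =
      (ℓ : ℂ) ^ 2 * (τ : ℂ) - (t : ℂ) := by
  set σ : ℍ := (g0 N)⁻¹ • τ' with hσ
  have hτ' : τ' = g0 N • σ := by rw [hσ, smul_inv_smul]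
  have hℓ0 : (ℓ : ℂ) ≠ 0 := by exact_mod_cast hℓ.ne'
  have him : 0 < (((σ : ℂ) + (t : ℂ)) / (ℓ : ℂ) ^ 2).im := by
    have e2 : ((ℓ : ℂ) ^ 2) = (((ℓ ^ 2 : ℕ) : ℕ) : ℂ) := by push_cast; rfl
    have e1 : (((σ : ℂ) + (t : ℂ)) / (ℓ : ℂ) ^ 2).im = σ.im / (ℓ : ℝ) ^ 2 := by
      rw [e2, Complex.div_natCast_im, Complex.add_im, Complex.intCast_im, add_zero]
      push_cast
      rfl
    rw [e1]
    have : (0 : ℝ) < (ℓ : ℝ) := by exact_mod_cast hℓ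
    have := σ.im_pos
    positivity
  refine ⟨⟨_, him⟩, ?_⟩
  have e3 : (ℓ : ℂ) ^ 2 * (((σ : ℂ) + (t : ℂ)) / (ℓ : ℂ) ^ 2) - (t : ℂ) = (σ : ℂ) := by
    field_simp
    ring_nf
  show (τ' : ℂ) * ((N : ℂ) * ((ℓ : ℂ) ^ 2 * (((σ : ℂ) + (t : ℂ)) / (ℓ : ℂ) ^ 2) - (t : ℂ)) + 1)
    = (ℓ : ℂ) ^ 2 * (((σ : ℂ) + (t : ℂ)) / (ℓ : ℂ) ^ 2) - (t : ℂ)
  rw [e3, hτ']
  exact g0_smul_mul N σ

/-! ### The index map -/

/-- the index map `D ↦ D` (if `ℓ ∣ D`), `D ↦ D ℓ²` (if `ℓ ∤ D`) -/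
def phi (ℓ D : ℕ) : ℕ := if ℓ ∣ D then D else D * ℓ ^ 2

theorem phi_of_dvd {ℓ D : ℕ} (h : ℓ ∣ D) : phi ℓ D = D := if_pos h

theorem phi_of_not_dvd {ℓ D : ℕ} (h : ¬ ℓ ∣ D) : phi ℓ D = D * ℓ ^ 2 := if_neg h

theorem phi_ne_zero {ℓ D : ℕ} (hℓ : ℓ ≠ 0) (hD : D ≠ 0) : phi ℓ D ≠ 0 := by
  unfold phi
  split_ifs
  · exact hD
  · exact mul_ne_zero hD (pow_ne_zero 2 hℓ)

theorem Jd_phi {N ℓ : ℕ} (hN : N ≠ 0) (hℓ : ℓ.Prime) (t s : ℤ)
    (hts : (N : ℤ) * t + (ℓ : ℤ) * s = 1) (τ τ' : ℍ)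
    (hrel : (τ' : ℂ) * ((N : ℂ) * ((ℓ : ℂ) ^ 2 * (τ : ℂ) - (t : ℂ)) + 1) =
      (ℓ : ℂ) ^ 2 * (τ : ℂ) - (t : ℂ))
    (D : ℕ) (hD : D ∣ N * ℓ) : Jd D τ' = Jd (phi ℓ D) τ := by
  by_cases h : ℓ ∣ D
  · rw [phi_of_dvd h]
    obtain ⟨d, rfl⟩ := h
    have hdN : d ∣ N := by
      rw [mul_comm N ℓ] at hD
      exact (Nat.mul_dvd_mul_iff_left hℓ.pos).mp hD
    obtain ⟨e, he⟩ := hdN
    have hd : 0 < d := by
      rcases Nat.eq_zero_or_pos d with h0 | h0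
      · rw [h0, zero_mul] at he
        exact absurd he hN
      · exact h0
    have := (Jd_eq_of_rel N ℓ hℓ.pos t s hts τ τ' hrel d e hd he.symm).2
    rwa [mul_comm d ℓ] at this
  · rw [phi_of_not_dvd h]
    have hcop : Nat.Coprime D ℓ := ((Nat.Prime.coprime_iff_not_dvd hℓ).mpr h).symm
    have hdN : D ∣ N := hcop.dvd_of_dvd_mul_right hD
    obtain ⟨e, he⟩ := hdN
    have hd : 0 < D := by
      rcases Nat.eq_zero_or_pos D with h0 | h0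
      · rw [h0, zero_mul] at he
        exact absurd he hN
      · exact h0
    exact (Jd_eq_of_rel N ℓ hℓ.pos t s hts τ τ' hrel D e hd he.symm).1

/-! ### The criterion and the homomorphism -/

section Main

variable (N ℓ : ℕ) [NeZero N] [NeZero ℓ]

instance instNeZeroPhi (D : Dv (N * ℓ)) : NeZero (phi ℓ (D : ℕ)) :=
  ⟨phi_ne_zero (NeZero.ne ℓ) (dv_ne_zero D)⟩

/-- the images of the generators -/
noncomputable def theta (D : Dv (N * ℓ)) : LaurentSeries KK := jgenL (phi ℓ (D : ℕ))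

theorem criterion (hℓ : ℓ.Prime) (hℓN : ¬ ℓ ∣ N) (P : MvPolynomial (Dv (N * ℓ)) KK) :
    MvPolynomial.aeval (gL (N * ℓ)) P = 0 ↔
      MvPolynomial.eval₂ (algebraMap KK (LaurentSeries KK)) (theta N ℓ) P = 0 := by
  obtain ⟨t, s, hts⟩ : ∃ t s : ℤ, (N : ℤ) * t + (ℓ : ℤ) * s = 1 := by
    have hcop : Nat.Coprime N ℓ := ((Nat.Prime.coprime_iff_not_dvd hℓ).mpr hℓN).symm
    obtain ⟨u, v, huv⟩ := Nat.isCoprime_iff_coprime.mpr hcop
    exact ⟨u, v, by linear_combination huv⟩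
  have h1 : MvPolynomial.aeval (gL (N * ℓ)) P = 0 ↔
      ∀ τ : ℍ, MvPolynomial.eval₂ iota (fun D : Dv (N * ℓ) => Jd (D : ℕ) τ) P = 0 :=
    aeval_eq_zero_iff' (fun D : Dv (N * ℓ) => (D : ℕ)) P
  have h2 : MvPolynomial.eval₂ (algebraMap KK (LaurentSeries KK)) (theta N ℓ) P = 0 ↔
      ∀ τ : ℍ, MvPolynomial.eval₂ iota (fun D : Dv (N * ℓ) => Jd (phi ℓ (D : ℕ)) τ) P = 0 :=
    aeval_eq_zero_iff' (fun D : Dv (N * ℓ) => phi ℓ (D : ℕ)) P
  rw [h1, h2]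
  constructor
  · intro h τ
    obtain ⟨τ', hrel⟩ := exists_rel N ℓ hℓ.pos t τ
    have e : (fun D : Dv (N * ℓ) => Jd (phi ℓ (D : ℕ)) τ) = fun D : Dv (N * ℓ) => Jd (D : ℕ) τ' :=
      funext fun D => (Jd_phi (NeZero.ne N) hℓ t s hts τ τ' hrel (D : ℕ) D.2).symm
    rw [e]
    exact h τ'
  · intro h τ'
    obtain ⟨τ, hrel⟩ := exists_rel_inv N ℓ hℓ.pos t τ'
    have e : (fun D : Dv (N * ℓ) => Jd (D : ℕ) τ') = fun D : Dv (N * ℓ) => Jd (phi ℓ (D : ℕ)) τ :=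
      funext fun D => Jd_phi (NeZero.ne N) hℓ t s hts τ τ' hrel (D : ℕ) D.2
    rw [e]
    exact h τ

theorem jgenL_congr {a b : ℕ} [NeZero a] [NeZero b] (h : a = b) : jgenL a = jgenL b := by
  subst h
  rfl

theorem qExpand_jgenL (m d : ℕ) [NeZero m] [NeZero d] :
    qExpand KK m (jgenL d) = jgenL (m * d) := by
  show qExpand KK m (coeffEmb KK (qExpand ℚ d jq)) = coeffEmb KK (qExpand ℚ (m * d) jq)
  rw [← qExpand_qExpand]
  exact (coeffMap_qExpand _ m _).symm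

theorem qExpand_algebraMap (m : ℕ) [NeZero m] (c : KK) :
    qExpand KK m (algebraMap KK (LaurentSeries KK) c) = algebraMap KK (LaurentSeries KK) c := by
  rw [algebraMap_laurentSeries_eq_single, qExpand_single, mul_zero]

/-- **(E0): the Atkin--Lehner swap on `q`-expansions.**  For a prime `ℓ ∤ N` there is a ring
homomorphism `ι : FF (N ℓ) →+* KK((q))`, the identity on the constants, with
`ι ∘ α = (q ↦ q ^ (ℓ ^ 2))` and `ι ∘ β = (q ↦ q ^ ℓ)` on `FF N`. -/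
theorem exists_iota (hℓ : ℓ.Prime) (hℓN : ¬ ℓ ∣ N) :
    ∃ ι : FF (N * ℓ) →+* LaurentSeries KK,
      (∀ c : KK, ι (algebraMap KK (FF (N * ℓ)) c) = algebraMap KK (LaurentSeries KK) c) ∧
      (∀ f : FF N, ι (ModularCurve.heckeAlphaBar KK N ℓ f) =
        ModularCurve.qExpand KK (ℓ ^ 2) (f : LaurentSeries KK)) ∧
      (∀ f : FF N, ι (ModularCurve.heckeBetaBar KK N ℓ f) =
        ModularCurve.qExpand KK ℓ (f : LaurentSeries KK)) := by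
  obtain ⟨ι, hc, hg⟩ := exists_lift (N * ℓ) (algebraMap KK (LaurentSeries KK)) (theta N ℓ)
    (criterion N ℓ hℓ hℓN)
  refine ⟨ι, hc, ?_, ?_⟩
  · -- `α`
    have key : ι.comp ((ModularCurve.heckeAlphaBar KK N ℓ : FF N →ₐ[KK] FF (N * ℓ)) :
          FF N →+* FF (N * ℓ)) =
        (ModularCurve.qExpand KK (ℓ ^ 2)).comp (algebraMap (FF N) (LaurentSeries KK)) := by
      apply ringHom_ext N
      · intro c
        show ι (ModularCurve.heckeAlphaBar KK N ℓ (algebraMap KK (FF N) c)) =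
          ModularCurve.qExpand KK (ℓ ^ 2) (algebraMap KK (LaurentSeries KK) c)
        rw [AlgHom.commutes, hc, qExpand_algebraMap]
      · intro d
        have hdvd : (d : ℕ) ∣ N * ℓ := dvd_mul_of_dvd_left d.2 ℓ
        have hnd : ¬ ℓ ∣ (d : ℕ) := fun h => hℓN (h.trans d.2)
        have e1 : ModularCurve.heckeAlphaBar KK N ℓ (gF N d) = gF (N * ℓ) ⟨(d : ℕ), hdvd⟩ :=
          Subtype.ext (ModularCurve.coe_heckeAlphaBar N ℓ (gF N d))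
        show ι (ModularCurve.heckeAlphaBar KK N ℓ (gF N d)) =
          ModularCurve.qExpand KK (ℓ ^ 2) (jgenL (d : ℕ))
        rw [e1, hg, qExpand_jgenL]
        exact @jgenL_congr (phi ℓ (d : ℕ)) (ℓ ^ 2 * (d : ℕ))
          (instNeZeroPhi N ℓ ⟨(d : ℕ), hdvd⟩) _ ((phi_of_not_dvd hnd).trans (mul_comm _ _))
    intro f
    exact congrArg (fun φ : FF N →+* LaurentSeries KK => φ f) key
  · -- `β`
    have key : ι.comp ((ModularCurve.heckeBetaBar KK N ℓ : FF N →ₐ[KK] FF (N * ℓ)) :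
          FF N →+* FF (N * ℓ)) =
        (ModularCurve.qExpand KK ℓ).comp (algebraMap (FF N) (LaurentSeries KK)) := by
      apply ringHom_ext N
      · intro c
        show ι (ModularCurve.heckeBetaBar KK N ℓ (algebraMap KK (FF N) c)) =
          ModularCurve.qExpand KK ℓ (algebraMap KK (LaurentSeries KK) c)
        rw [AlgHom.commutes, hc, qExpand_algebraMap]
      · intro d
        have hdvd : ℓ * (d : ℕ) ∣ N * ℓ := by
          rw [mul_comm N ℓ]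
          exact Nat.mul_dvd_mul_left ℓ d.2
        have e1 : ModularCurve.heckeBetaBar KK N ℓ (gF N d) = gF (N * ℓ) ⟨ℓ * (d : ℕ), hdvd⟩ :=
          Subtype.ext ((ModularCurve.coe_heckeBetaBar N ℓ (gF N d)).trans
            (qExpand_jgenL ℓ (d : ℕ)))
        show ι (ModularCurve.heckeBetaBar KK N ℓ (gF N d)) =
          ModularCurve.qExpand KK ℓ (jgenL (d : ℕ))
        rw [e1, hg, qExpand_jgenL]
        exact @jgenL_congr (phi ℓ (ℓ * (d : ℕ))) (ℓ * (d : ℕ))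
          (instNeZeroPhi N ℓ ⟨ℓ * (d : ℕ), hdvd⟩) _ (phi_of_dvd (dvd_mul_right ℓ (d : ℕ)))
    intro f
    exact congrArg (fun φ : FF N →+* LaurentSeries KK => φ f) key

end Main

end Fermat.Agent.S37ALSwap
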