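import Mathlib
import Fermat.Prelude.Def_ModularCurve_HeckeOperator
import Fermat.Agent.S18.Cusp0Int
import Fermat.Agent.S37.ALSwap

/-!
# S37 (CH): the Hecke correspondence preserves the two charts

Let `W` be a place of the function field `FF (N ℓ)` of `X₀(N ℓ)`, and let `W|α`, `W|β` be its
restrictions to `FF N` along the two degeneracy maps.  By the modular equation (`j(q)` and
`j(q^ℓ)` are integral over each other, with coefficients in the algebraic integers:
`Cusp0Int.rel_jF_jgen`, `Cusp0Int.rel_jgen_jF`):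

* `j` is regular at `W|α` iff it is regular at `W|β` (`ord_alpha_nonneg_iff`);
* for every valuation ring `A` of `KK`: the value of `j` at `W|α` lies in `A` iff the value of `j`
  at `W|β` lies in `A` (`jInt_alpha_iff_beta`).
-/

set_option autoImplicit false
set_option linter.style.haveILetI false
set_option linter.unusedSectionVars false

namespace Fermat.Agent.S37ChartPres

open Polynomial AlgebraicCurve ModularCurve
open Fermat.Agent.S24 Fermat.Agent.S24.Eval Fermat.Agent.S24.Jq
open Fermat.Agent.S18.Cusp0Rel Fermat.Agent.S18.Cusp0Int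

/-! ### Values of integral elements -/

section Abstract

variable {K F R : Type*} [Field K] [Field F] [Algebra K F] [CommRing R]

theorem mem_of_hasVal (v : Place K F) {x : F} (b : K)
    (hx : x = algebraMap K F b ∨ 0 < v.ord (x - algebraMap K F b)) :
    x ∈ v.toValuationSubring := by
  rcases hx with hx | hx
  · rw [hx]
    exact v.algebraMap_mem' b
  · have h1 : x - algebraMap K F b ∈ v.toValuationSubring := mem_of_ord_pos v hx
    have h2 := add_mem h1 (v.algebraMap_mem' b)
    rwa [sub_add_cancel] at h2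

theorem residue_of_hasVal (v : Place K F) {x : F} (b : K)
    (hx : x = algebraMap K F b ∨ 0 < v.ord (x - algebraMap K F b)) :
    IsLocalRing.residue ↥v.toValuationSubring ⟨x, mem_of_hasVal v b hx⟩ =
      IsLocalRing.residue ↥v.toValuationSubring (algebraMap K ↥v.toValuationSubring b) := by
  rcases hx with hx | hx
  · congr 1
    exact Subtype.ext hx
  · have h1 : IsLocalRing.residue ↥v.toValuationSubring
        ⟨x - algebraMap K F b, mem_of_ord_pos v hx⟩ = 0 := residue_eq_zero_of_ord_pos v hx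
    have h2 : (⟨x - algebraMap K F b, mem_of_ord_pos v hx⟩ : ↥v.toValuationSubring) =
        ⟨x, mem_of_hasVal v b (Or.inr hx)⟩ - algebraMap K ↥v.toValuationSubring b :=
      Subtype.ext rfl
    rw [h2, map_sub, sub_eq_zero] at h1
    exact h1

/-- **Values of integral elements are integral**: if `y` is a root of a monic polynomial with
coefficients in `R[x]`, and `x`, `y` have the values `b`, `a` at the place `v`, then `a` is a
root of a monic polynomial with coefficients in `R[b]`. -/
theorem rel_values (φ : R →+* K) (v : Place K F) {x y : F} (b a : K)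
    (hx : x = algebraMap K F b ∨ 0 < v.ord (x - algebraMap K F b))
    (hy : y = algebraMap K F a ∨ 0 < v.ord (y - algebraMap K F a))
    (h : Rel ((algebraMap K F).comp φ) x y) : Rel φ b a := by
  obtain ⟨Ψ, hm, h0⟩ := h
  have hxO : x ∈ v.toValuationSubring := mem_of_hasVal v b hx
  have hyO : y ∈ v.toValuationSubring := mem_of_hasVal v a hy
  set res := IsLocalRing.residue ↥v.toValuationSubring with hres
  set ρ : K →+* IsLocalRing.ResidueField ↥v.toValuationSubring :=
    res.comp (algebraMap K ↥v.toValuationSubring) with hρ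
  have hρinj : Function.Injective ρ := ρ.injective
  have hresx : res ⟨x, hxO⟩ = ρ b := residue_of_hasVal v b hx
  have hresy : res ⟨y, hyO⟩ = ρ a := residue_of_hasVal v a hy
  -- the relation inside the valuation ring
  have hO : Polynomial.eval₂ (Polynomial.eval₂RingHom
      ((algebraMap K ↥v.toValuationSubring).comp φ) (⟨x, hxO⟩ : ↥v.toValuationSubring))
      (⟨y, hyO⟩ : ↥v.toValuationSubring) Ψ = 0 := by
    apply Subtype.val_injective
    have e : (v.toValuationSubring.subtype).comp (Polynomial.eval₂RingHom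
        ((algebraMap K ↥v.toValuationSubring).comp φ) (⟨x, hxO⟩ : ↥v.toValuationSubring)) =
        Polynomial.eval₂RingHom ((algebraMap K F).comp φ) x := by
      refine Polynomial.ringHom_ext (fun a => ?_) ?_
      · simp only [RingHom.comp_apply, coe_eval₂RingHom, eval₂_C]
        rfl
      · simp only [RingHom.comp_apply, coe_eval₂RingHom, eval₂_X]
        rfl
    have h1 := Polynomial.hom_eval₂ Ψ (Polynomial.eval₂RingHom
        ((algebraMap K ↥v.toValuationSubring).comp φ) (⟨x, hxO⟩ : ↥v.toValuationSubring))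
        (v.toValuationSubring.subtype) (⟨y, hyO⟩ : ↥v.toValuationSubring)
    rw [e] at h1
    change (v.toValuationSubring.subtype) _ = 0
    rw [h1]
    exact h0
  -- reduce
  have e2 : res.comp (Polynomial.eval₂RingHom
      ((algebraMap K ↥v.toValuationSubring).comp φ) (⟨x, hxO⟩ : ↥v.toValuationSubring)) =
      ρ.comp (Polynomial.eval₂RingHom φ b) := by
    refine Polynomial.ringHom_ext (fun a => ?_) ?_
    · simp only [RingHom.comp_apply, coe_eval₂RingHom, eval₂_C, hρ]
    · simp only [RingHom.comp_apply, coe_eval₂RingHom, eval₂_X]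
      exact hresx
  have h3 := congrArg res hO
  rw [Polynomial.hom_eval₂, e2, hresy, map_zero, ← Polynomial.hom_eval₂] at h3
  exact ⟨Ψ, hm, hρinj (by rw [h3, map_zero])⟩

/-- If `a` is a root of a monic polynomial with coefficients in `R[b]`, `b ∈ A` and `R` maps to
the valuation ring `A`, then `a ∈ A`. -/
theorem mem_of_rel_of_mem (A : ValuationSubring K) (φ : R →+* K) (hφ : ∀ r, φ r ∈ A) {b a : K}
    (hb : b ∈ A) (h : Rel φ b a) : a ∈ A := by
  set φA : R →+* ↥A := φ.codRestrict A.toSubring hφ with hφA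
  have hg : (algebraMap ↥A K).comp (Polynomial.eval₂RingHom φA (⟨b, hb⟩ : ↥A)) =
      Polynomial.eval₂RingHom φ b := by
    refine Polynomial.ringHom_ext (fun a => ?_) ?_
    · simp only [RingHom.comp_apply, coe_eval₂RingHom, eval₂_C]
      rfl
    · simp only [RingHom.comp_apply, coe_eval₂RingHom, eval₂_X]
      rfl
  have hint : IsIntegral ↥A a := h.isIntegral _ _ hg
  obtain ⟨z, hz⟩ := (IsIntegrallyClosed.isIntegral_iff (R := ↥A) (K := K)).mp hint
  rw [← hz]
  exact z.2

end Abstract

/-! ### Restriction along a homomorphism -/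

section Along

variable {K F F' : Type*} [Field K] [Field F] [Field F'] [Algebra K F] [Algebra K F']

theorem ramificationIndexAlong_pos (φ : F →ₐ[K] F') (hφ : φ.toRingHom.IsIntegral)
    (w : Place K F') : 0 < w.ramificationIndexAlong φ := by
  letI := algebraAlong φ
  haveI := isScalarTower_along φ
  haveI := isIntegral_along φ hφ
  exact w.ramificationIndex_pos (F := F)

theorem ord_restrictAlong_pos_iff (φ : F →ₐ[K] F') (hφ : φ.toRingHom.IsIntegral)
    (w : Place K F') (f : F) : 0 < (w.restrictAlong φ hφ).ord f ↔ 0 < w.ord (φ f) := by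
  rw [Place.ord_restrictAlong φ hφ w f]
  have he := ramificationIndexAlong_pos φ hφ w
  have he' : (0 : ℤ) < (w.ramificationIndexAlong φ : ℤ) := by exact_mod_cast he
  constructor
  · intro h
    exact mul_pos he' h
  · intro h
    exact (mul_pos_iff_of_pos_left he').mp h

theorem ord_restrictAlong_nonneg_iff (φ : F →ₐ[K] F') (hφ : φ.toRingHom.IsIntegral)
    (w : Place K F') (f : F) : 0 ≤ (w.restrictAlong φ hφ).ord f ↔ 0 ≤ w.ord (φ f) := by
  rw [Place.ord_restrictAlong φ hφ w f]
  have he := ramificationIndexAlong_pos φ hφ w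
  have he' : (0 : ℤ) < (w.ramificationIndexAlong φ : ℤ) := by exact_mod_cast he
  constructor
  · intro h
    exact mul_nonneg he'.le h
  · intro h
    exact (mul_nonneg_iff_of_pos_left he').mp h

end Along

/-! ### The function fields -/

section Concrete

variable (N ℓ : ℕ) [NeZero N] [NeZero ℓ]

theorem alpha_jF : heckeAlphaBar KK N ℓ (jF N) = jF (N * ℓ) :=
  Subtype.ext (coe_heckeAlphaBar N ℓ (jF N))

theorem beta_jF : heckeBetaBar KK N ℓ (jF N) = jgen (N * ℓ) ℓ (dvd_mul_left ℓ N) := by
  apply Subtype.ext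
  rw [coe_heckeBetaBar, coe_jgen]
  show qExpand KK ℓ (jgenL 1) = jgenL ℓ
  rw [Fermat.Agent.S37ALSwap.qExpand_jgenL]
  exact Fermat.Agent.S37ALSwap.jgenL_congr (mul_one ℓ)

theorem jF_ne_zero (M : ℕ) [NeZero M] : jF M ≠ 0 := fun h =>
  (Fermat.Agent.S24.Degree.transcendental_jF M) (h ▸ isAlgebraic_zero)

/-- the algebraic integers map into every valuation ring of `KK` -/
theorem map_mem (A : ValuationSubring KK) (φ : integralClosure ℤ ℂ →+* KK)
    (r : integralClosure ℤ ℂ) : φ r ∈ A :=
  Fermat.Agent.S18.ResField.mem_of_isIntegral_int A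
    (map_isIntegral_int φ (integralClosure.isIntegral r))

variable {N ℓ}

/-- **(CH2), at `W`**: `α j` is regular at `W` iff `β j` is. -/
theorem alpha_mem_iff_beta_mem (W : Place KK (FF (N * ℓ))) :
    heckeAlphaBar KK N ℓ (jF N) ∈ W.toValuationSubring ↔
      heckeBetaBar KK N ℓ (jF N) ∈ W.toValuationSubring := by
  rw [alpha_jF, beta_jF]
  exact ⟨jgen_mem_of_jF_mem (N * ℓ) ℓ (dvd_mul_left ℓ N) W,
    jF_mem_of_jgen_mem (N * ℓ) ℓ (dvd_mul_left ℓ N) W⟩

/-- **(CH3), at `W`, values**: if `α j` has the value `a ∈ A` and `β j` the value `b` at `W`,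
then `b ∈ A`. -/
theorem beta_value_mem (A : ValuationSubring KK) (W : Place KK (FF (N * ℓ))) {a b : KK}
    (ha : a ∈ A)
    (hx : heckeAlphaBar KK N ℓ (jF N) = algebraMap KK (FF (N * ℓ)) a ∨
      0 < W.ord (heckeAlphaBar KK N ℓ (jF N) - algebraMap KK (FF (N * ℓ)) a))
    (hy : heckeBetaBar KK N ℓ (jF N) = algebraMap KK (FF (N * ℓ)) b ∨
      0 < W.ord (heckeBetaBar KK N ℓ (jF N) - algebraMap KK (FF (N * ℓ)) b)) : b ∈ A := by
  obtain ⟨φ⟩ := exists_ringHom_OO KK
  rw [alpha_jF] at hx
  rw [beta_jF] at hy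
  exact mem_of_rel_of_mem A φ (map_mem A φ) ha
    (rel_values φ W a b hx hy (rel_jF_jgen (N * ℓ) φ ℓ (dvd_mul_left ℓ N)))

/-- **(CH3), at `W`, values**: if `β j` has the value `b ∈ A` and `α j` the value `a` at `W`,
then `a ∈ A`. -/
theorem alpha_value_mem (A : ValuationSubring KK) (W : Place KK (FF (N * ℓ))) {a b : KK}
    (hb : b ∈ A)
    (hx : heckeAlphaBar KK N ℓ (jF N) = algebraMap KK (FF (N * ℓ)) a ∨
      0 < W.ord (heckeAlphaBar KK N ℓ (jF N) - algebraMap KK (FF (N * ℓ)) a))
    (hy : heckeBetaBar KK N ℓ (jF N) = algebraMap KK (FF (N * ℓ)) b ∨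
      0 < W.ord (heckeBetaBar KK N ℓ (jF N) - algebraMap KK (FF (N * ℓ)) b)) : a ∈ A := by
  obtain ⟨φ⟩ := exists_ringHom_OO KK
  rw [alpha_jF] at hx
  rw [beta_jF] at hy
  exact mem_of_rel_of_mem A φ (map_mem A φ) hb
    (rel_values φ W b a hy hx (rel_jgen_jF (N * ℓ) φ ℓ (dvd_mul_left ℓ N)))

variable (hα : HeckeAlphaBarIntegral KK N ℓ) (hβ : HeckeBetaBarIntegral KK N ℓ)

/-- **(CH2)**: `j` is regular at `W|α` iff it is regular at `W|β`. -/
theorem ord_alpha_nonneg_iff (W : Place KK (FF (N * ℓ))) :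
    0 ≤ (W.restrictAlong (heckeAlphaBar KK N ℓ) hα).ord (jF N) ↔
      0 ≤ (W.restrictAlong (heckeBetaBar KK N ℓ) hβ).ord (jF N) := by
  refine (ord_restrictAlong_nonneg_iff (heckeAlphaBar KK N ℓ) hα W (jF N)).trans
    (Iff.trans ?_ (ord_restrictAlong_nonneg_iff (heckeBetaBar KK N ℓ) hβ W (jF N)).symm)
  have h1 : heckeAlphaBar KK N ℓ (jF N) ≠ 0 := by
    rw [alpha_jF]
    exact jF_ne_zero _
  have h2 : heckeBetaBar KK N ℓ (jF N) ≠ 0 := fun h =>
    jF_ne_zero N ((heckeBetaBar KK N ℓ).toRingHom.injective (by rw [RingHom.map_zero]; exact h))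
  constructor
  · intro h
    exact Fermat.Agent.S24.ord_nonneg_of_mem W
      ((alpha_mem_iff_beta_mem W).mp (Fermat.Agent.S24.mem_of_ord_nonneg W h1 h))
  · intro h
    exact Fermat.Agent.S24.ord_nonneg_of_mem W
      ((alpha_mem_iff_beta_mem W).mpr (Fermat.Agent.S24.mem_of_ord_nonneg W h2 h))

/-- the `W`-form of `JInt` along a degeneracy map -/
theorem jInt_restrictAlong_iff (A : ValuationSubring KK) (φ : FF N →ₐ[KK] FF (N * ℓ))
    (hφ : φ.toRingHom.IsIntegral) (W : Place KK (FF (N * ℓ))) :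
    Fermat.Agent.S18.CuspAbs.JInt A N (W.restrictAlong φ hφ) ↔
      ∃ a : KK, a ∈ A ∧ 0 < W.ord (φ (jF N) - algebraMap KK (FF (N * ℓ)) a) := by
  unfold Fermat.Agent.S18.CuspAbs.JInt
  refine exists_congr fun a => and_congr_right fun _ => ?_
  rw [ord_restrictAlong_pos_iff, map_sub, AlgHom.commutes]

/-- **(CH1)**: the value of `j` at `W|α` lies in `A` iff the value of `j` at `W|β` lies in
`A`. -/
theorem jInt_alpha_iff_beta (A : ValuationSubring KK) (W : Place KK (FF (N * ℓ))) :
    Fermat.Agent.S18.CuspAbs.JInt A N (W.restrictAlong (heckeAlphaBar KK N ℓ) hα) ↔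
      Fermat.Agent.S18.CuspAbs.JInt A N (W.restrictAlong (heckeBetaBar KK N ℓ) hβ) := by
  refine (jInt_restrictAlong_iff A (heckeAlphaBar KK N ℓ) hα W).trans
    (Iff.trans ?_ (jInt_restrictAlong_iff A (heckeBetaBar KK N ℓ) hβ W).symm)
  have hval : ∀ f : FF (N * ℓ), f ∈ W.toValuationSubring → ∃ c : KK,
      f = algebraMap KK (FF (N * ℓ)) c ∨ 0 < W.ord (f - algebraMap KK (FF (N * ℓ)) c) :=
    fun f hf => Fermat.Agent.S18.HauptParamFF.H1_FF (N * ℓ) W f
      (Fermat.Agent.S24.ord_nonneg_of_mem W hf)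
  have htrα : ∀ c : KK, heckeAlphaBar KK N ℓ (jF N) ≠ algebraMap KK (FF (N * ℓ)) c := by
    intro c h
    have h1 : heckeAlphaBar KK N ℓ (jF N) = heckeAlphaBar KK N ℓ (algebraMap KK (FF N) c) := by
      rw [h, AlgHom.commutes]
    have h2 := (heckeAlphaBar KK N ℓ).toRingHom.injective h1
    exact (Fermat.Agent.S24.Degree.transcendental_jF N) (h2 ▸ isAlgebraic_algebraMap c)
  have htrβ : ∀ c : KK, heckeBetaBar KK N ℓ (jF N) ≠ algebraMap KK (FF (N * ℓ)) c := by
    intro c h
    have h1 : heckeBetaBar KK N ℓ (jF N) = heckeBetaBar KK N ℓ (algebraMap KK (FF N) c) := by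
      rw [h, AlgHom.commutes]
    have h2 := (heckeBetaBar KK N ℓ).toRingHom.injective h1
    exact (Fermat.Agent.S24.Degree.transcendental_jF N) (h2 ▸ isAlgebraic_algebraMap c)
  constructor
  · rintro ⟨a, ha, hpos⟩
    have hmem : heckeAlphaBar KK N ℓ (jF N) ∈ W.toValuationSubring :=
      mem_of_hasVal W a (Or.inr hpos)
    obtain ⟨b, hb⟩ := hval _ ((alpha_mem_iff_beta_mem W).mp hmem)
    refine ⟨b, beta_value_mem A W ha (Or.inr hpos) hb, ?_⟩
    rcases hb with hb | hb
    · exact absurd hb (htrβ b)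
    · exact hb
  · rintro ⟨b, hb, hpos⟩
    have hmem : heckeBetaBar KK N ℓ (jF N) ∈ W.toValuationSubring :=
      mem_of_hasVal W b (Or.inr hpos)
    obtain ⟨a, ha⟩ := hval _ ((alpha_mem_iff_beta_mem W).mpr hmem)
    refine ⟨a, alpha_value_mem A W hb ha (Or.inr hpos), ?_⟩
    rcases ha with ha | ha
    · exact absurd ha (htrα a)
    · exact ha

end Concrete

end Fermat.Agent.S37ChartPres
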