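import Mathlib
import Fermat.Prelude.Def_ModularCurve_LaurentCoeff
import Fermat.Prelude.Def_ModularCurve_X0

/-!
# S37 (Φ2): `ℓ`-th powers of Laurent series in characteristic `ℓ`

In characteristic `ℓ` the `ℓ`-th power of a Laurent series `g = ∑ aₙ qⁿ` is `∑ aₙ^ℓ q^(ℓ n)`:

* `pow_eq_qExpand_coeffMap` : `g ^ ℓ = qExpand k ℓ (coeffMap (frobenius k ℓ) g)`;
* `qExpand_eq_pow` : over a perfect ring, `qExpand k ℓ g = (coeffMap Frob⁻¹ g) ^ ℓ`.
-/

set_option autoImplicit false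

namespace Fermat.Agent.S37FrobPow

open ModularCurve HahnSeries

section General

variable {R S : Type*} [CommRing R] [CommRing S]

theorem coeffMap_ofPowerSeries_eq (φ : R →+* S) (P : PowerSeries R) :
    coeffMap φ (HahnSeries.ofPowerSeries ℤ R P) =
      HahnSeries.ofPowerSeries ℤ S (PowerSeries.map φ P) := by
  ext k
  rcases lt_or_ge k 0 with hk | hk
  · rw [coeffMap_coeff, ofPowerSeries_coeff_of_neg _ hk, ofPowerSeries_coeff_of_neg _ hk,
      map_zero]
  · obtain ⟨n, rfl⟩ := Int.eq_ofNat_of_zero_le hk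
    rw [coeffMap_coeff, HahnSeries.ofPowerSeries_apply_coeff,
      HahnSeries.ofPowerSeries_apply_coeff, PowerSeries.coeff_map]

theorem qExpand_ofPowerSeries_eq (d : ℕ) [NeZero d] (P : PowerSeries R) :
    qExpand R d (HahnSeries.ofPowerSeries ℤ R P) =
      HahnSeries.ofPowerSeries ℤ R (PowerSeries.expand d (NeZero.ne d) P) := by
  have hd : 0 < d := Nat.pos_of_ne_zero (NeZero.ne d)
  have hdZ : (0 : ℤ) < (d : ℤ) := by exact_mod_cast hd
  ext k
  rcases lt_or_ge k 0 with hk | hk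
  · rw [ofPowerSeries_coeff_of_neg _ hk]
    by_cases hdk : (d : ℤ) ∣ k
    · obtain ⟨k', rfl⟩ := hdk
      rw [qExpand_coeff_mul]
      exact ofPowerSeries_coeff_of_neg _ (by nlinarith)
    · exact qExpand_coeff_of_not_dvd d _ hdk
  · obtain ⟨n, rfl⟩ := Int.eq_ofNat_of_zero_le hk
    rw [HahnSeries.ofPowerSeries_apply_coeff, PowerSeries.coeff_expand]
    split_ifs with hdn
    · obtain ⟨n', rfl⟩ := hdn
      rw [Nat.mul_div_cancel_left n' hd, Nat.cast_mul, qExpand_coeff_mul,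
        HahnSeries.ofPowerSeries_apply_coeff]
    · exact qExpand_coeff_of_not_dvd d _ (fun h => hdn (Int.natCast_dvd_natCast.mp h))

end General

section Char

variable {k : Type*} [CommRing k] (ℓ : ℕ) [NeZero ℓ] [ExpChar k ℓ]

theorem powerSeries_pow_eq (P : PowerSeries k) :
    P ^ ℓ = PowerSeries.expand ℓ (NeZero.ne ℓ) (PowerSeries.map (frobenius k ℓ) P) := by
  rw [← PowerSeries.map_expand]
  exact (MvPowerSeries.map_frobenius_expand ℓ (NeZero.ne ℓ) (f := P)).symm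

/-- **(Φ2)** In characteristic `ℓ`: `g(q) ^ ℓ = g^{Frob}(q ^ ℓ)`. -/
theorem pow_eq_qExpand_coeffMap (g : LaurentSeries k) :
    g ^ ℓ = qExpand k ℓ (coeffMap (frobenius k ℓ) g) := by
  have hg := LaurentSeries.single_order_mul_powerSeriesPart g
  set P := g.powerSeriesPart with hP
  set n := g.order with hn
  rw [← hg, map_mul, map_mul, mul_pow, coeffMap_single, qExpand_single,
    coeffMap_ofPowerSeries_eq, qExpand_ofPowerSeries_eq, ← powerSeries_pow_eq, map_pow,
    HahnSeries.single_pow, map_one]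
  rw [one_pow, nsmul_eq_mul]

/-- **(Φ2)** Over a perfect ring of characteristic `ℓ`: `g(q ^ ℓ) = (g^{Frob⁻¹}(q)) ^ ℓ`. -/
theorem qExpand_eq_pow [PerfectRing k ℓ] (g : LaurentSeries k) :
    qExpand k ℓ g = (coeffMap ((frobeniusEquiv k ℓ).symm : k →+* k) g) ^ ℓ := by
  rw [pow_eq_qExpand_coeffMap, coeffMap_coeffMap]
  congr 1
  ext n
  rw [coeffMap_coeff]
  show g.coeff n = frobenius k ℓ ((frobeniusEquiv k ℓ).symm (g.coeff n))
  exact (frobenius_apply_frobeniusEquiv_symm k ℓ (g.coeff n)).symm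

/-- coefficientwise form of **(Φ2)** -/
theorem coeff_pow_mul (g : LaurentSeries k) (n : ℤ) :
    (g ^ ℓ).coeff ((ℓ : ℤ) * n) = (g.coeff n) ^ ℓ := by
  rw [pow_eq_qExpand_coeffMap, qExpand_coeff_mul, coeffMap_coeff, frobenius_def]

theorem coeff_pow_of_not_dvd (g : LaurentSeries k) {n : ℤ} (hn : ¬ (ℓ : ℤ) ∣ n) :
    (g ^ ℓ).coeff n = 0 := by
  rw [pow_eq_qExpand_coeffMap]
  exact qExpand_coeff_of_not_dvd ℓ _ hn

end Char

end Fermat.Agent.S37FrobPow
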