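import Mathlib
import Fermat.Prelude.Def_ModularCurve_ArithmeticGalois
import Fermat.Prelude.Def_ModularCurve_X0ModL
import Fermat.Prelude.Def_EllipticCurve_FrobeniusTrace
import Fermat.Prelude.Def_FLTPrelim_Ramification
import Fermat.Agent.S18.Lattice
import Fermat.Agent.S18.Charts
import Fermat.Agent.S18.RegInt
import Fermat.Agent.S18.RedFibre

/-!
# S37, Galois leaf: the coefficientwise Galois action and the reduction of the Gauss ring

* `coeffAut k N` : the coefficientwise action of the ring automorphisms of a field `k` on the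
  function field `modularFunctionFieldFullC k N`, as a homomorphism into the prelude's
  `SemilinearAut`; hence actions on places, divisors and `Pic0` (prelude), with the value
  property `hasVal_smul`.
* For `σ` in the decomposition group of a valuation ring `A` of `ℚ̄`: the arithmetic Galois action
  of `σ` on `modularFunctionFieldBar N` preserves the Gauss ring `OO A N` and the two charts, and
  `redN (σ • f) = coeffAut σ̄ • redN f`, where `σ̄` is the action of `σ` on the residue field.
* Consequently the reduction is invariant under inertia, and a Frobenius element at `A` acts on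
  the reductions by the coefficientwise Frobenius `x ↦ x ^ ℓ`.
-/

set_option autoImplicit false
set_option synthInstance.maxHeartbeats 400000

noncomputable section

namespace Fermat.Agent.S37GalRed

open ModularCurve AlgebraicCurve HahnSeries IntermediateField IsLocalRing
open Fermat.Agent.S18 Fermat.Agent.S18.Gauss Fermat.Agent.S18.Lattice
open Fermat.Agent.S24 Fermat.Agent.S24.Eval

/-! ### The coefficientwise action on the function field over `k` -/

section CoeffAut

variable (k : Type*) [Field k] (N : ℕ) [NeZero N]

omit [NeZero N] in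
theorem coeffMap_mem_fullC_aux (τ : k →+* k) {x : LaurentSeries k}
    (hx : x ∈ Subfield.closure
      (Set.range (algebraMap k (LaurentSeries k)) ∪ divisorExpansionsC k N)) :
    coeffMap τ x ∈ modularFunctionFieldFullC k N := by
  induction hx using Subfield.closure_induction with
  | mem y hy =>
      rcases hy with ⟨a, rfl⟩ | ⟨d, hd0, hd, rfl⟩
      · rw [coeffMap_algebraMap]
        exact (modularFunctionFieldFullC k N).algebraMap_mem _
      · rw [coeffMap_qExpand, coeffMap_jqModC]
        exact jqModCd_mem_full k N hd
  | one => rw [map_one]; exact one_mem _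
  | add x y _ _ hx hy => rw [map_add]; exact add_mem hx hy
  | neg x _ hx => rw [map_neg]; exact neg_mem hx
  | inv x _ hx => rw [map_inv₀]; exact inv_mem hx
  | mul x y _ _ hx hy => rw [map_mul]; exact mul_mem hx hy

omit [NeZero N] in
/-- A ring endomorphism of `k` maps the function field into itself (coefficientwise). -/
theorem coeffMap_mem_fullC (τ : k →+* k) {x : LaurentSeries k}
    (hx : x ∈ modularFunctionFieldFullC k N) :
    coeffMap τ x ∈ modularFunctionFieldFullC k N :=
  coeffMap_mem_fullC_aux k N τ hx

/-- The coefficientwise ring automorphism of the function field attached to a ring automorphism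
of `k`. -/
def coeffRingAut (τ : k ≃+* k) :
    modularFunctionFieldFullC k N ≃+* modularFunctionFieldFullC k N where
  toFun x := ⟨coeffMap (τ : k →+* k) (x : LaurentSeries k), coeffMap_mem_fullC k N _ x.2⟩
  invFun x := ⟨coeffMap (τ.symm : k →+* k) (x : LaurentSeries k), coeffMap_mem_fullC k N _ x.2⟩
  left_inv x := Subtype.ext <| by
    show coeffMap (τ.symm : k →+* k) (coeffMap (τ : k →+* k) (x : LaurentSeries k))
      = (x : LaurentSeries k)
    rw [coeffMap_coeffMap,
      coeffMap_congr (g := RingHom.id k) (RingHom.ext fun a => τ.symm_apply_apply a)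
        (x : LaurentSeries k),
      coeffMap_id]
  right_inv x := Subtype.ext <| by
    show coeffMap (τ : k →+* k) (coeffMap (τ.symm : k →+* k) (x : LaurentSeries k))
      = (x : LaurentSeries k)
    rw [coeffMap_coeffMap,
      coeffMap_congr (g := RingHom.id k) (RingHom.ext fun a => τ.apply_symm_apply a)
        (x : LaurentSeries k),
      coeffMap_id]
  map_mul' x y :=
    Subtype.ext (map_mul (coeffMap (τ : k →+* k)) (x : LaurentSeries k) (y : LaurentSeries k))
  map_add' x y :=
    Subtype.ext (map_add (coeffMap (τ : k →+* k)) (x : LaurentSeries k) (y : LaurentSeries k))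

omit [NeZero N] in
@[simp]
theorem coe_coeffRingAut_apply (τ : k ≃+* k) (x : modularFunctionFieldFullC k N) :
    (coeffRingAut k N τ x : LaurentSeries k) = coeffMap (τ : k →+* k) (x : LaurentSeries k) :=
  rfl

omit [NeZero N] in
theorem coeffRingAut_algebraMap (τ : k ≃+* k) (a : k) :
    coeffRingAut k N τ (algebraMap k (modularFunctionFieldFullC k N) a)
      = algebraMap k (modularFunctionFieldFullC k N) (τ a) :=
  Subtype.ext (coeffMap_algebraMap (τ : k →+* k) a)

/-- **The coefficientwise action** of the ring automorphisms of `k` on the function field, as a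
homomorphism into the semilinear automorphisms. -/
def coeffAut : RingAut k →* SemilinearAut k (modularFunctionFieldFullC k N) where
  toFun τ := ⟨(coeffRingAut k N τ, τ), fun a => coeffRingAut_algebraMap k N τ a⟩
  map_one' := by
    refine Subtype.ext (Prod.ext (RingEquiv.ext fun x => Subtype.ext ?_) rfl)
    show coeffMap ((1 : RingAut k) : k →+* k) (x : LaurentSeries k) = (x : LaurentSeries k)
    rw [show ((1 : RingAut k) : k →+* k) = RingHom.id k from RingHom.ext fun _ => rfl,
      coeffMap_id]
  map_mul' σ τ := by
    refine Subtype.ext (Prod.ext (RingEquiv.ext fun x => Subtype.ext ?_) rfl)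
    show coeffMap ((σ * τ : RingAut k) : k →+* k) (x : LaurentSeries k)
      = coeffMap (σ : k →+* k) (coeffMap (τ : k →+* k) (x : LaurentSeries k))
    rw [coeffMap_coeffMap]
    exact coeffMap_congr (RingHom.ext fun _ => rfl) _

omit [NeZero N] in
@[simp]
theorem toRingAut_coeffAut (τ : RingAut k) :
    SemilinearAut.toRingAut (coeffAut k N τ) = coeffRingAut k N τ :=
  rfl

omit [NeZero N] in
@[simp]
theorem baseAut_coeffAut (τ : RingAut k) :
    SemilinearAut.baseAut (coeffAut k N τ) = τ :=
  rfl

omit [NeZero N] in
theorem coe_coeffAut_smul (τ : RingAut k) (x : modularFunctionFieldFullC k N) :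
    ((coeffAut k N τ • x : modularFunctionFieldFullC k N) : LaurentSeries k)
      = coeffMap (τ : k →+* k) (x : LaurentSeries k) :=
  rfl

omit [NeZero N] in
theorem coeffAut_smul_algebraMap (τ : RingAut k) (a : k) :
    coeffAut k N τ • algebraMap k (modularFunctionFieldFullC k N) a
      = algebraMap k (modularFunctionFieldFullC k N) (τ a) :=
  coeffRingAut_algebraMap k N τ a

omit [NeZero N] in
/-- **Value property**: if `g` has the value `a` at `Q`, then `τ g` has the value `τ a` at
`τ Q`. -/
theorem hasVal_smul (τ : RingAut k) (Q : Place k (modularFunctionFieldFullC k N))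
    (g : modularFunctionFieldFullC k N) (a : k)
    (h : g = algebraMap k (modularFunctionFieldFullC k N) a ∨
      0 < Q.ord (g - algebraMap k (modularFunctionFieldFullC k N) a)) :
    coeffAut k N τ • g = algebraMap k (modularFunctionFieldFullC k N) (τ a) ∨
      0 < (coeffAut k N τ • Q).ord
        (coeffAut k N τ • g - algebraMap k (modularFunctionFieldFullC k N) (τ a)) := by
  rcases h with h | h
  · left
    rw [h, coeffAut_smul_algebraMap]
  · right
    have h1 := SemilinearAut.ord_smul (coeffAut k N τ) Q
      (g - algebraMap k (modularFunctionFieldFullC k N) a)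
    rw [smul_sub, coeffAut_smul_algebraMap] at h1
    rw [h1]
    exact h

omit [NeZero N] in
/-- The order is transported by the coefficientwise action. -/
theorem ord_coeffAut_smul (τ : RingAut k) (Q : Place k (modularFunctionFieldFullC k N))
    (g : modularFunctionFieldFullC k N) :
    (coeffAut k N τ • Q).ord (coeffAut k N τ • g) = Q.ord g :=
  SemilinearAut.ord_smul (coeffAut k N τ) Q g

end CoeffAut

/-! ### The decomposition group acts on the Gauss ring -/

section Decomposition

variable {A : ValuationSubring KK} {N : ℕ} [NeZero N]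

/-- The action of an element of the decomposition group on `A`, as a ring homomorphism. -/
def actA (g : A.decompositionSubgroup ℚ) : A →+* A :=
  MulSemiringAction.toRingHom (A.decompositionSubgroup ℚ) A g

/-- The action of an element of the decomposition group on the residue field, as a ring
automorphism. -/
def resAut (g : A.decompositionSubgroup ℚ) : RingAut (ResidueField A) :=
  MulSemiringAction.toRingAut (A.decompositionSubgroup ℚ) (ResidueField A) g

theorem resAut_apply (g : A.decompositionSubgroup ℚ) (x : ResidueField A) :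
    resAut g x = g • x := rfl

theorem subtype_actA (g : A.decompositionSubgroup ℚ) (a : A) :
    ((actA g a : A) : KK) = (g : KK ≃ₐ[ℚ] KK) (a : KK) := rfl

theorem residue_actA (g : A.decompositionSubgroup ℚ) (a : A) :
    residue A (actA g a) = resAut g (residue A a) := rfl

theorem inc_coeffMap_actA (g : A.decompositionSubgroup ℚ) (y : LaurentSeries A) :
    inc A (coeffMap (actA g) y) =
      coeffMap (((g : KK ≃ₐ[ℚ] KK) : KK ≃ₐ[ℚ] KK) : KK →+* KK) (inc A y) := by
  ext n
  rfl

theorem rd_coeffMap_actA (g : A.decompositionSubgroup ℚ) (y : LaurentSeries A) :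
    rd A (coeffMap (actA g) y) = coeffMap ((resAut g : RingAut (ResidueField A)) :
      ResidueField A →+* ResidueField A) (rd A y) := by
  ext n
  rfl

omit [NeZero N] in
theorem isInt_act (g : A.decompositionSubgroup ℚ) {y : LaurentSeries A}
    (hy : IsInt A (modularFunctionFieldBar N) (FkN A N) y) :
    IsInt A (modularFunctionFieldBar N) (FkN A N) (coeffMap (actA g) y) := by
  refine ⟨?_, ?_⟩
  · rw [inc_coeffMap_actA]
    exact coeffMap_mem_laurentBaseChange _ hy.1
  · rw [rd_coeffMap_actA]
    exact coeffMap_mem_fullC _ N _ hy.2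

omit [NeZero N] in
theorem isIntU_act (g : A.decompositionSubgroup ℚ) {y : LaurentSeries A}
    (hy : IsIntU A (modularFunctionFieldBar N) (FkN A N) y) :
    IsIntU A (modularFunctionFieldBar N) (FkN A N) (coeffMap (actA g) y) := by
  refine ⟨isInt_act g hy.1, ?_⟩
  rw [rd_coeffMap_actA]
  intro h0
  apply hy.2
  ext n
  have h1 := congrArg (fun z : LaurentSeries (ResidueField A) => z.coeff n) h0
  simp only [coeffMap_coeff, HahnSeries.coeff_zero] at h1
  have h2 : (resAut g) ((rd A y).coeff n) = 0 := h1
  rw [HahnSeries.coeff_zero]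
  exact (map_eq_zero_iff _ (resAut g).injective).mp h2

omit [NeZero N] in
/-- **The decomposition group preserves the Gauss ring.** -/
theorem smul_mem_OO (g : A.decompositionSubgroup ℚ) {f : FF N} (hf : f ∈ OO A N) :
    arithmeticGalois (modularFunctionFieldFull N) (g : KK ≃ₐ[ℚ] KK) • f ∈ OO A N := by
  obtain ⟨n, Y, hn, hY, h⟩ := hf
  refine ⟨coeffMap (actA g) n, coeffMap (actA g) Y, isInt_act g hn, isIntU_act g hY, ?_⟩
  rw [inc_coeffMap_actA, inc_coeffMap_actA, ← h, map_mul]
  rfl

/-- the action of the decomposition group on the Gauss ring -/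
def smulOO (g : A.decompositionSubgroup ℚ) (f : OO A N) : OO A N :=
  ⟨arithmeticGalois (modularFunctionFieldFull N) (g : KK ≃ₐ[ℚ] KK) • (f : FF N),
    smul_mem_OO g f.2⟩

omit [NeZero N] in
@[simp]
theorem coe_smulOO (g : A.decompositionSubgroup ℚ) (f : OO A N) :
    ((smulOO g f : OO A N) : FF N) =
      arithmeticGalois (modularFunctionFieldFull N) (g : KK ≃ₐ[ℚ] KK) • (f : FF N) := rfl


omit [NeZero N] in
/-- **The reduction is equivariant** for the decomposition group: `red (σ f) = σ̄ (red f)`. -/
theorem redN_smulOO (g : A.decompositionSubgroup ℚ) (f : OO A N) :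
    redN A N (smulOO g f) = coeffAut (ResidueField A) N (resAut g) • redN A N f := by
  obtain ⟨n, Y, hn, hY, h, -⟩ := exists_pres f
  have h' : (((smulOO g f : OO A N) : FF N) : LaurentSeries KK) * inc A (coeffMap (actA g) Y)
      = inc A (coeffMap (actA g) n) := by
    rw [inc_coeffMap_actA, inc_coeffMap_actA, ← h, map_mul]
    rfl
  have h1 := red_mul_rd (smulOO g f) (isInt_act g hn) (isIntU_act g hY) h'
  have h2 := red_mul_rd f hn hY h
  have hY' := (isIntU_act (N := N) g hY).2
  apply Subtype.ext
  apply mul_right_cancel₀ hY'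
  refine h1.trans ?_
  have e1 := rd_coeffMap_actA g n
  have e2 := rd_coeffMap_actA g Y
  have e3 : ((coeffAut (ResidueField A) N (resAut g) • redN A N f : FkN A N) :
      LaurentSeries (ResidueField A)) = coeffMap ((resAut g : RingAut (ResidueField A)) :
        ResidueField A →+* ResidueField A) ((redN A N f : FkN A N) :
          LaurentSeries (ResidueField A)) := rfl
  rw [e1, e2, e3, ← h2, map_mul]

/-! ### Inertia and Frobenius -/

/-- An element of the inertia group is an element of the decomposition group acting trivially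
on the residue field. -/
theorem exists_of_mem_inertia {τ : KK ≃ₐ[ℚ] KK} (hτ : τ ∈ A.inertiaSubgroupIn ℚ) :
    ∃ g : A.decompositionSubgroup ℚ, (g : KK ≃ₐ[ℚ] KK) = τ ∧ resAut g = 1 := by
  obtain ⟨g, hg, rfl⟩ := Subgroup.mem_map.mp hτ
  exact ⟨g, rfl, MonoidHom.mem_ker.mp hg⟩

omit [NeZero N] in
/-- **Inertia acts trivially on the reductions.** -/
theorem redN_smul_of_mem_inertia {τ : KK ≃ₐ[ℚ] KK} (hτ : τ ∈ A.inertiaSubgroupIn ℚ)
    (f : OO A N) :
    ∃ h : arithmeticGalois (modularFunctionFieldFull N) τ • (f : FF N) ∈ OO A N,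
      redN A N ⟨_, h⟩ = redN A N f := by
  obtain ⟨g, rfl, hg⟩ := exists_of_mem_inertia hτ
  refine ⟨smul_mem_OO g f.2, ?_⟩
  have h1 := redN_smulOO g f
  rw [hg, map_one, one_smul] at h1
  exact h1

/-- The residue automorphism of a Frobenius element. -/
def frobAut {σ : KK ≃ₐ[ℚ] KK} {ℓ : ℕ} (h : A.IsFrobeniusAt σ ℓ) : RingAut (ResidueField A) :=
  resAut ⟨σ, h.mem_decompositionSubgroup⟩

theorem frobAut_apply {σ : KK ≃ₐ[ℚ] KK} {ℓ : ℕ} (h : A.IsFrobeniusAt σ ℓ)
    (x : ResidueField A) : frobAut h x = x ^ ℓ :=
  h.smul_residue_eq x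

/-- The residue automorphism does not depend on the Frobenius element. -/
theorem frobAut_eq {σ σ' : KK ≃ₐ[ℚ] KK} {ℓ : ℕ} (h : A.IsFrobeniusAt σ ℓ)
    (h' : A.IsFrobeniusAt σ' ℓ) : frobAut h = frobAut h' :=
  RingEquiv.ext fun x => by rw [frobAut_apply, frobAut_apply]

omit [NeZero N] in
/-- **A Frobenius element acts on the reductions by the coefficientwise Frobenius.** -/
theorem redN_smul_of_isFrobeniusAt {σ : KK ≃ₐ[ℚ] KK} {ℓ : ℕ} (h : A.IsFrobeniusAt σ ℓ)
    (f : OO A N) :
    ∃ hm : arithmeticGalois (modularFunctionFieldFull N) σ • (f : FF N) ∈ OO A N,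
      redN A N ⟨_, hm⟩ = coeffAut (ResidueField A) N (frobAut h) • redN A N f :=
  ⟨smul_mem_OO ⟨σ, h.mem_decompositionSubgroup⟩ f.2,
    redN_smulOO ⟨σ, h.mem_decompositionSubgroup⟩ f⟩

/-! ### The charts are Galois stable -/

omit [NeZero N] in
/-- `j` is fixed by the arithmetic Galois action. -/
theorem smul_jF (σ : KK ≃ₐ[ℚ] KK) :
    arithmeticGalois (modularFunctionFieldFull N) σ • (jF N : FF N) = jF N := by
  apply Subtype.ext
  rw [coe_arithmeticGalois_smul, coe_jF, coeffMap_coeffEmb]

omit [NeZero N] in
/-- If `x` is Galois fixed, the ring of functions regular where `x` is regular is Galois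
stable. -/
theorem smul_mem_regAt (σ : KK ≃ₐ[ℚ] KK) {x f : FF N}
    (hx : arithmeticGalois (modularFunctionFieldFull N) σ • x = x)
    (hf : f ∈ Charts.regAt N x) :
    arithmeticGalois (modularFunctionFieldFull N) σ • f ∈ Charts.regAt N x := by
  intro P hP
  set g := arithmeticGalois (modularFunctionFieldFull N) σ with hg
  have hP' : x ∈ (g⁻¹ • P).toValuationSubring := by
    rw [SemilinearAut.smul_toValuationSubring,
      ValuationSubring.mem_pointwise_smul_iff_inv_smul_mem, inv_inv, hx]
    exact hP
  have h1 := hf (g⁻¹ • P) hP'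
  rw [SemilinearAut.smul_toValuationSubring,
    ValuationSubring.mem_pointwise_smul_iff_inv_smul_mem, inv_inv] at h1
  exact h1

omit [NeZero N] in
/-- The decomposition group preserves chart 1. -/
theorem smul_mem_O1 (g : A.decompositionSubgroup ℚ) {f : FF N} (hf : f ∈ Charts.O1 A N) :
    arithmeticGalois (modularFunctionFieldFull N) (g : KK ≃ₐ[ℚ] KK) • f ∈ Charts.O1 A N :=
  ⟨smul_mem_OO g hf.1, smul_mem_regAt _ (smul_jF _) hf.2⟩

omit [NeZero N] in
/-- The decomposition group preserves chart 2. -/
theorem smul_mem_O2 (g : A.decompositionSubgroup ℚ) {f : FF N} (hf : f ∈ Charts.O2 A N) :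
    arithmeticGalois (modularFunctionFieldFull N) (g : KK ≃ₐ[ℚ] KK) • f ∈ Charts.O2 A N :=
  ⟨smul_mem_OO g hf.1, smul_mem_regAt _ (by rw [smul_inv'', smul_jF]) hf.2⟩

omit [NeZero N] in
/-- **Value property upstairs**: if `f` has the value `c` at `P`, then `σ f` has the value
`σ c` at `σ P`. -/
theorem hasVal_smul_bar (σ : KK ≃ₐ[ℚ] KK) (P : Place KK (FF N)) (f : FF N) (c : KK)
    (h : f = algebraMap KK (FF N) c ∨ 0 < P.ord (f - algebraMap KK (FF N) c)) :
    arithmeticGalois (modularFunctionFieldFull N) σ • f = algebraMap KK (FF N) (σ c) ∨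
      0 < (arithmeticGalois (modularFunctionFieldFull N) σ • P).ord
        (arithmeticGalois (modularFunctionFieldFull N) σ • f - algebraMap KK (FF N) (σ c)) := by
  have hc : arithmeticGalois (modularFunctionFieldFull N) σ • algebraMap KK (FF N) c
      = algebraMap KK (FF N) (σ c) :=
    arithmeticRingAut_algebraMap (modularFunctionFieldFull N) σ c
  rcases h with h | h
  · left
    rw [h, hc]
  · right
    have h1 := SemilinearAut.ord_smul (arithmeticGalois (modularFunctionFieldFull N) σ) P
      (f - algebraMap KK (FF N) c)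
    rw [smul_sub, hc] at h1
    rw [h1]
    exact h

end Decomposition

end Fermat.Agent.S37GalRed
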