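import Mathlib
import Fermat.Agent.S37.GalRed
import Fermat.Agent.S18.DegEq

/-!
# S37, Galois leaf, complements: `j̄` is fixed, the charts downstairs are stable, Frobenius

* `smul_jk` : the coefficientwise action fixes `j̄`; hence the two charts of the reduced function
  field are stable (`ord_smul_jk`);
* `placePerm` : the permutation of the places of the reduced function field attached to a ring
  automorphism of `k`;
* `coe_frobAut_smul` : the residue automorphism of a Frobenius element acts on the reduced
  function field by `coeffMap (frobenius k ℓ)`; `frobAut_eq_frobeniusEquiv`.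
-/

set_option autoImplicit false
set_option synthInstance.maxHeartbeats 400000

noncomputable section

namespace Fermat.Agent.S37GalRed

open ModularCurve AlgebraicCurve HahnSeries IntermediateField IsLocalRing
open Fermat.Agent.S18 Fermat.Agent.S18.Gauss Fermat.Agent.S18.Lattice
open Fermat.Agent.S24 Fermat.Agent.S24.Eval

section CoeffAutJ

variable (k : Type*) [Field k] (N : ℕ) [NeZero N]

omit [NeZero N] in
/-- **(G-e)** the coefficientwise action fixes `j̄`. -/
theorem smul_jk (τ : RingAut k) : coeffAut k N τ • DegEq.jk k N = DegEq.jk k N := by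
  apply Subtype.ext
  rw [coe_coeffAut_smul, DegEq.coe_jk, coeffMap_jqModC]

omit [NeZero N] in
theorem smul_jk_inv (τ : RingAut k) :
    coeffAut k N τ • (DegEq.jk k N)⁻¹ = (DegEq.jk k N)⁻¹ := by
  rw [smul_inv'', smul_jk]

omit [NeZero N] in
/-- The order of `j̄` is invariant: the charts of the reduced function field are stable. -/
theorem ord_smul_jk (τ : RingAut k) (Q : Place k (modularFunctionFieldFullC k N)) :
    (coeffAut k N τ • Q).ord (DegEq.jk k N) = Q.ord (DegEq.jk k N) := by
  have h := ord_coeffAut_smul k N τ Q (DegEq.jk k N)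
  rwa [smul_jk] at h

omit [NeZero N] in
theorem ord_smul_jk_inv (τ : RingAut k) (Q : Place k (modularFunctionFieldFullC k N)) :
    (coeffAut k N τ • Q).ord (DegEq.jk k N)⁻¹ = Q.ord (DegEq.jk k N)⁻¹ := by
  have h := ord_coeffAut_smul k N τ Q (DegEq.jk k N)⁻¹
  rwa [smul_jk_inv] at h

/-- The permutation of the places attached to a ring automorphism of `k`. -/
def placePerm (τ : RingAut k) : Equiv.Perm (Place k (modularFunctionFieldFullC k N)) :=
  MulAction.toPerm (coeffAut k N τ)

omit [NeZero N] in
@[simp]
theorem placePerm_apply (τ : RingAut k) (Q : Place k (modularFunctionFieldFullC k N)) :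
    placePerm k N τ Q = coeffAut k N τ • Q := rfl

omit [NeZero N] in
@[simp]
theorem placePerm_symm_apply (τ : RingAut k) (Q : Place k (modularFunctionFieldFullC k N)) :
    (placePerm k N τ).symm Q = coeffAut k N τ⁻¹ • Q := by
  rw [map_inv]
  rfl

omit [NeZero N] in
/-- The degree of a place is invariant. -/
theorem deg_coeffAut_smul (τ : RingAut k) (Q : Place k (modularFunctionFieldFullC k N)) :
    (coeffAut k N τ • Q).deg = Q.deg :=
  SemilinearAut.deg_smul (coeffAut k N τ) Q

end CoeffAutJ

section Frobenius

variable {A : ValuationSubring KK} {N : ℕ} [NeZero N]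

omit [NeZero N] in
/-- The residue automorphism of a Frobenius element is the Frobenius of the residue field. -/
theorem coe_frobAut {σ : KK ≃ₐ[ℚ] KK} {ℓ : ℕ} [ExpChar (ResidueField A) ℓ]
    (h : A.IsFrobeniusAt σ ℓ) :
    ((frobAut h : RingAut (ResidueField A)) : ResidueField A →+* ResidueField A)
      = frobenius (ResidueField A) ℓ :=
  RingHom.ext fun x => by
    rw [frobenius_def]
    exact frobAut_apply h x

omit [NeZero N] in
/-- A Frobenius element acts on the reduced function field by the coefficientwise Frobenius. -/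
theorem coe_frobAut_smul {σ : KK ≃ₐ[ℚ] KK} {ℓ : ℕ} [ExpChar (ResidueField A) ℓ]
    (h : A.IsFrobeniusAt σ ℓ) (g : FkN A N) :
    ((coeffAut (ResidueField A) N (frobAut h) • g : FkN A N) : LaurentSeries (ResidueField A))
      = coeffMap (frobenius (ResidueField A) ℓ) (g : LaurentSeries (ResidueField A)) := by
  rw [coe_coeffAut_smul, coe_frobAut]

omit [NeZero N] in
theorem frobAut_eq_frobeniusEquiv {σ : KK ≃ₐ[ℚ] KK} {ℓ : ℕ} [ExpChar (ResidueField A) ℓ]
    [PerfectRing (ResidueField A) ℓ] (h : A.IsFrobeniusAt σ ℓ) :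
    frobAut h = frobeniusEquiv (ResidueField A) ℓ :=
  RingEquiv.ext fun x => by
    rw [frobAut_apply, frobeniusEquiv_apply, frobenius_def]

omit [NeZero N] in
/-- The inverse Frobenius acts by the coefficientwise inverse Frobenius. -/
theorem coe_frobAut_inv_smul {σ : KK ≃ₐ[ℚ] KK} {ℓ : ℕ} [ExpChar (ResidueField A) ℓ]
    [PerfectRing (ResidueField A) ℓ] (h : A.IsFrobeniusAt σ ℓ) (g : FkN A N) :
    ((coeffAut (ResidueField A) N (frobAut h)⁻¹ • g : FkN A N) :
        LaurentSeries (ResidueField A))
      = coeffMap ((frobeniusEquiv (ResidueField A) ℓ).symm :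
          ResidueField A →+* ResidueField A) (g : LaurentSeries (ResidueField A)) := by
  rw [coe_coeffAut_smul, frobAut_eq_frobeniusEquiv h]
  rfl

omit [NeZero N] in
/-- the inverse of an element of the decomposition group acts on the Gauss ring -/
theorem smul_inv_mem_OO (g : A.decompositionSubgroup ℚ) {f : FF N} (hf : f ∈ OO A N) :
    arithmeticGalois (modularFunctionFieldFull N) ((g : KK ≃ₐ[ℚ] KK))⁻¹ • f ∈ OO A N :=
  smul_mem_OO g⁻¹ hf

omit [NeZero N] in
/-- `smulOO` is a bijection of the Gauss ring, with inverse `smulOO g⁻¹`. -/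
theorem smulOO_inv_smulOO (g : A.decompositionSubgroup ℚ) (f : OO A N) :
    smulOO g⁻¹ (smulOO g f) = f := by
  apply Subtype.ext
  rw [coe_smulOO, coe_smulOO]
  show arithmeticGalois (modularFunctionFieldFull N) ((g : KK ≃ₐ[ℚ] KK))⁻¹ •
    arithmeticGalois (modularFunctionFieldFull N) (g : KK ≃ₐ[ℚ] KK) • (f : FF N) = f
  rw [map_inv, inv_smul_smul]

omit [NeZero N] in
theorem smulOO_smulOO_inv (g : A.decompositionSubgroup ℚ) (f : OO A N) :
    smulOO g (smulOO g⁻¹ f) = f := by
  have h := smulOO_inv_smulOO g⁻¹ f
  rwa [inv_inv] at h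

end Frobenius

end Fermat.Agent.S37GalRed
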