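import Mathlib
import Fermat.Prelude.Def_ModularCurve_HeckeOperatorTotal
import Fermat.Agent.S24.Degree
import Fermat.Agent.S24.FFPlaces
import Fermat.Agent.S24.FFPrincipal

/-!
# S37 gamble, leaf T5 (i)-(iii): the degeneracy maps are finite

For the two degeneracy maps `α, β : FF N → FF (N ℓ)` (`α f = f`, `β f = f(q^ℓ)`):

* `finiteAlong_alpha`, `finiteAlong_beta` : `FF (N ℓ)` is a finite module over `FF N` along
  `α` resp. `β`;
* `alphaIntegral`, `betaIntegral` : `α` and `β` are integral ring homomorphisms;
* `hasPrincipalDivisors` : principal divisors of `FF M` have degree zero (every level `M`).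
-/

set_option autoImplicit false
set_option linter.unusedSectionVars false
set_option linter.style.haveILetI false

namespace Fermat.Agent.S37X.HeckeInt

open AlgebraicCurve IntermediateField ModularCurve
open Fermat.Agent.S24 Fermat.Agent.S24.Eval

section Generic

variable {K F F' : Type*} [Field K] [Field F] [Field F'] [Algebra K F] [Algebra K F']

/-- If `F'` is finite over `K(φ t)`, it is finite over `F` along `φ : F → F'`. -/
theorem finiteAlong_of_finite (φ : F →ₐ[K] F') (t : F)
    (hfin : FiniteDimensional K⟮φ t⟯ F') : FiniteAlong K φ := by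
  let _ := algebraAlong φ
  show Module.Finite F F'
  obtain ⟨s, hs⟩ := (Module.finite_def.mp hfin)
  refine Module.finite_def.mpr ⟨s, ?_⟩
  have hle : K⟮φ t⟯ ≤ φ.fieldRange := by
    rw [IntermediateField.adjoin_le_iff]
    rintro _ rfl
    exact ⟨t, rfl⟩
  have key : ∀ x : F', x ∈ Submodule.span K⟮φ t⟯ (s : Set F') →
      x ∈ Submodule.span F (s : Set F') := by
    intro x hx
    induction hx using Submodule.span_induction with
    | mem y hy => exact Submodule.subset_span hy
    | zero => exact Submodule.zero_mem _
    | add y z _ _ hy hz => exact Submodule.add_mem _ hy hz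
    | smul c y _ hy =>
      obtain ⟨d, hd⟩ := hle c.2
      have h1 : c • y = d • y := by
        rw [Algebra.smul_def, Algebra.smul_def]
        show (c : F') * y = φ d * y
        have hd' : φ d = (c : F') := hd
        rw [hd']
      rw [h1]
      exact Submodule.smul_mem _ _ hy
  rw [eq_top_iff]
  intro x _
  exact key x (by rw [hs]; exact Submodule.mem_top)

/-- A finite map is integral. -/
theorem isIntegral_of_finiteAlong (φ : F →ₐ[K] F') (h : FiniteAlong K φ) :
    φ.toRingHom.IsIntegral := by
  let _ := algebraAlong φ
  have _ : Module.Finite F F' := h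
  intro x
  exact (Algebra.IsIntegral.of_finite F F').isIntegral x

end Generic

variable (N ℓ : ℕ) [NeZero N] [NeZero ℓ]

/-- the level `N ℓ` is nonzero -/
theorem neZero_mul : NeZero (N * ℓ) := ⟨Nat.mul_ne_zero (NeZero.ne N) (NeZero.ne ℓ)⟩

/-- **Principal divisors of `FF M` have degree zero.** -/
theorem hasPrincipalDivisors_level (M : ℕ) [NeZero M] : HasPrincipalDivisors KK (FF M) := by
  haveI := Degree.finiteDimensional_jF M
  exact FFPrincipal.hasPrincipalDivisors (jF M) (Degree.transcendental_jF M)

/-- **(iii)** principal divisors of `FF (N ℓ)` have degree zero -/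
theorem hasPrincipalDivisors : HasPrincipalDivisors KK (modularFunctionFieldBar (N * ℓ)) :=
  haveI := neZero_mul N ℓ
  hasPrincipalDivisors_level (N * ℓ)

/-- `FF (N ℓ)` is finite over `KK(h)` for every transcendental `h`. -/
theorem finiteDimensional_of_transcendental (h : FF (N * ℓ)) (hh : Transcendental KK h) :
    FiniteDimensional KK⟮h⟯ (FF (N * ℓ)) := by
  haveI := neZero_mul N ℓ
  haveI := Degree.finiteDimensional_jF (N * ℓ)
  exact Fermat.Agent.S24.finiteDimensional_adjoin (jF (N * ℓ)) (Degree.transcendental_jF (N * ℓ))
    h hh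

/-- the image of a transcendental element under an algebra map of fields is transcendental -/
theorem transcendental_map (φ : FF N →ₐ[KK] FF (N * ℓ)) :
    Transcendental KK (φ (jF N)) := by
  intro halg
  exact Degree.transcendental_jF N
    ((isAlgebraic_algHom_iff φ φ.toRingHom.injective).mp halg)

/-- **(i)** `FF (N ℓ)` is finite over `FF N` along `α`. -/
theorem finiteAlong_alpha : FiniteAlong KK (heckeAlphaBar KK N ℓ) :=
  finiteAlong_of_finite _ (jF N)
    (finiteDimensional_of_transcendental N ℓ _ (transcendental_map N ℓ _))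

/-- `FF (N ℓ)` is finite over `FF N` along `β`. -/
theorem finiteAlong_beta : FiniteAlong KK (heckeBetaBar KK N ℓ) :=
  finiteAlong_of_finite _ (jF N)
    (finiteDimensional_of_transcendental N ℓ _ (transcendental_map N ℓ _))

/-- **(i)** `α` is integral. -/
theorem alphaIntegral : HeckeAlphaBarIntegral KK N ℓ :=
  isIntegral_of_finiteAlong _ (finiteAlong_alpha N ℓ)

/-- **(ii)** `β` is integral. -/
theorem betaIntegral : HeckeBetaBarIntegral KK N ℓ :=
  isIntegral_of_finiteAlong _ (finiteAlong_beta N ℓ)

/-- The inputs of the Hecke operator `T_ℓ` on `Pic⁰`, from the two statements of the general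
theory of finite extensions of function fields. -/
theorem heckeInputsAlong_of
    (hFI : haveI := hasPrincipalDivisors N ℓ
      FundamentalIdentityAlong KK (heckeBetaBar KK N ℓ) (betaIntegral N ℓ))
    (hNF : NormFormulaAlong KK (heckeAlphaBar KK N ℓ) (finiteAlong_alpha N ℓ)) :
    HeckeInputsAlong KK N ℓ :=
  ⟨alphaIntegral N ℓ, betaIntegral N ℓ, hasPrincipalDivisors N ℓ, finiteAlong_alpha N ℓ, hFI, hNF⟩

end Fermat.Agent.S37X.HeckeInt
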