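import Mathlib
import Fermat.Prelude.Def_ModularCurve_HeckeOperatorTotal
import Fermat.Agent.S24.Degree
import Fermat.Agent.S24.FFPlaces

/-!
# S37 gamble, leaf (F-a): the Hecke correspondence at a single place

`T_ℓ P = ∑_{W ↦ P under β} e_β(W) · (W restricted along α)`, the sum over the places `W` of
`F_{Nℓ}` lying over `P` along `β`.
-/

set_option autoImplicit false
set_option linter.style.haveILetI false
set_option linter.unusedSectionVars false

open AlgebraicCurve ModularCurve IntermediateField
open Fermat.Agent.S24 Fermat.Agent.S24.Eval Fermat.Agent.S24.Degree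

namespace Fermat.Agent.S37X.HeckeSingle

section Generic

variable {K F F' : Type*} [Field K] [Field F] [Field F'] [Algebra K F] [Algebra K F']

/-- inertia degrees are one when all places upstairs have degree one -/
theorem inertiaDegAlong_eq_one (hdeg : ∀ W : Place K F', W.deg = 1) (ψ : F →ₐ[K] F')
    (hψ : ψ.toRingHom.IsIntegral) (W : Place K F') : W.inertiaDegAlong ψ hψ = 1 := by
  letI := algebraAlong ψ
  haveI := isScalarTower_along ψ
  haveI := isIntegral_along ψ hψ
  have h1 := W.deg_restrict_mul_inertiaDeg (F := F)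
  rw [hdeg W] at h1
  exact Nat.eq_one_of_mul_eq_one_left h1

/-- the correspondence attached to `(φ, ψ)` at a single place -/
theorem correspondence_single [HasPrincipalDivisors K F'] (hdeg : ∀ W : Place K F', W.deg = 1)
    (φ ψ : F →ₐ[K] F') (hφ : φ.toRingHom.IsIntegral) (hψ : ψ.toRingHom.IsIntegral)
    (P : Place K F) (n : ℤ) :
    Divisor.correspondence φ ψ hφ hψ (Finsupp.single P n)
      = ∑ W ∈ Place.fiberAlong φ hφ P,
          Finsupp.single (W.restrictAlong ψ hψ) (n * (W.ramificationIndexAlong φ : ℤ)) := by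
  rw [Divisor.correspondence_apply, Divisor.pullbackAlong_single, map_sum]
  refine Finset.sum_congr rfl fun W _ => ?_
  rw [Divisor.pushforwardAlong_single, inertiaDegAlong_eq_one hdeg ψ hψ W, Nat.cast_one,
    mul_one]

end Generic

variable {N ℓ : ℕ} [NeZero N] [NeZero ℓ]

/-- **(F-a)** the Hecke correspondence at a single place. -/
theorem heckeDivBar_single (hα : HeckeAlphaBarIntegral KK N ℓ)
    (hβ : HeckeBetaBarIntegral KK N ℓ) [HasPrincipalDivisors KK (FF (N * ℓ))]
    (P : Place KK (FF N)) :
    heckeDivBar hα hβ (Finsupp.single P 1)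
      = ∑ W ∈ Place.fiberAlong (heckeBetaBar KK N ℓ) hβ P,
          Finsupp.single (W.restrictAlong (heckeAlphaBar KK N ℓ) hα)
            ((W.ramificationIndexAlong (heckeBetaBar KK N ℓ) : ℕ) : ℤ) := by
  haveI := finiteDimensional_jF (N * ℓ)
  have hdeg : ∀ W : Place KK (FF (N * ℓ)), W.deg = 1 :=
    place_deg_eq_one (jF (N * ℓ)) (transcendental_jF (N * ℓ))
  have h := correspondence_single hdeg (heckeBetaBar KK N ℓ) (heckeAlphaBar KK N ℓ) hβ hα P 1
  simp only [one_mul] at h
  exact h

/-- **(F-a)**, pushed forward by a map on the places. -/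
theorem mapDomain_heckeDivBar_single {X : Type*} (r : Place KK (FF N) → X)
    (hα : HeckeAlphaBarIntegral KK N ℓ)
    (hβ : HeckeBetaBarIntegral KK N ℓ) [HasPrincipalDivisors KK (FF (N * ℓ))]
    (P : Place KK (FF N)) :
    Finsupp.mapDomain r (heckeDivBar hα hβ (Finsupp.single P 1))
      = ∑ W ∈ Place.fiberAlong (heckeBetaBar KK N ℓ) hβ P,
          Finsupp.single (r (W.restrictAlong (heckeAlphaBar KK N ℓ) hα))
            ((W.ramificationIndexAlong (heckeBetaBar KK N ℓ) : ℕ) : ℤ) := by
  rw [heckeDivBar_single, Finsupp.mapDomain_finsetSum]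
  refine Finset.sum_congr rfl fun W _ => ?_
  rw [Finsupp.mapDomain_single]

end Fermat.Agent.S37X.HeckeSingle
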