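import Mathlib
import Fermat.Agent.S20.Stab
import Fermat.Agent.S24.Jq
import Fermat.Agent.S24.JqCriterion
import Fermat.Agent.S24.Degree
import Fermat.Prelude.Def_ModularCurve_HeckeOperator

/-!
# S37, leaf (W): the Atkin–Lehner swap on the function field of `X₀(N ℓ)`

For a prime `ℓ` not dividing `N` there is a ring endomorphism `w` of the function field of
`X₀(N ℓ)` (inside `ℚ̄((q))`), fixing the constants, with `w (j(q^d)) = j(q^(d ℓ))` and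
`w (j(q^(d ℓ))) = j(q^d)` for `d ∣ N`; hence `w ∘ α = β` and `w ∘ β = α` for the two degeneracy
maps `α, β : FF N → FF (N ℓ)`.  Analytically `w f = f ∘ W`, `W τ = γ (ℓ τ)` with
`γ = (1, b; N, ℓ d') ∈ SL₂(ℤ)`.
-/

set_option autoImplicit false
set_option linter.unusedSectionVars false
set_option linter.style.haveILetI false
set_option linter.unusedVariables false

noncomputable section

namespace Fermat.Agent.S37X.ESSwap

open UpperHalfPlane ModularCurve AlgebraicCurve HahnSeries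
open Fermat.Agent.S24 Fermat.Agent.S24.Eval Fermat.Agent.S24.Jq Fermat.Agent.S24.JqCriterion
  Fermat.Agent.S24.JFunction
open scoped MatrixGroups

/-- Möbius lemma: `j` takes the same value at `z` and at `(a z + b) / (c z + d)`. -/
theorem jfun_ofComplex_moebius (γ : SL(2, ℤ)) (z : ℍ) (w : ℂ)
    (hw : w * ((γ 1 0 : ℂ) * z + (γ 1 1 : ℂ)) = (γ 0 0 : ℂ) * z + (γ 0 1 : ℂ)) :
    jfun (ofComplex w) = jfun z := by
  have hd : (γ 1 0 : ℂ) * z + (γ 1 1 : ℂ) ≠ 0 := by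
    have := UpperHalfPlane.denom_ne_zero γ z
    rwa [Fermat.Agent.S20.Stab.denom_SL] at this
  have hcoe : ((γ • z : ℍ) : ℂ) = w := by
    rw [Fermat.Agent.S20.Stab.coe_smul_SL, div_eq_iff hd]
    exact hw.symm
  have h1 : ofComplex w = γ • z := by
    rw [← hcoe, ofComplex_apply]
  rw [h1, jfun_smul]

/-- the matrix `(a, b; c, d)` of determinant one -/
def mkSL (a b c d : ℤ) (h : a * d - b * c = 1) : SL(2, ℤ) :=
  ⟨!![a, b; c, d], by rw [Matrix.det_fin_two_of]; exact h⟩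

@[simp] theorem mkSL_00 (a b c d : ℤ) (h : a * d - b * c = 1) : mkSL a b c d h 0 0 = a := rfl
@[simp] theorem mkSL_01 (a b c d : ℤ) (h : a * d - b * c = 1) : mkSL a b c d h 0 1 = b := rfl
@[simp] theorem mkSL_10 (a b c d : ℤ) (h : a * d - b * c = 1) : mkSL a b c d h 1 0 = c := rfl
@[simp] theorem mkSL_11 (a b c d : ℤ) (h : a * d - b * c = 1) : mkSL a b c d h 1 1 = d := rfl

/-- the point `n τ` of the upper half plane -/
def mulPt (n : ℕ) (hn : 0 < n) (τ : ℍ) : ℍ :=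
  ⟨(n : ℂ) * τ, by
    rw [Complex.mul_im, Complex.natCast_re, Complex.natCast_im, zero_mul, add_zero]
    exact mul_pos (by exact_mod_cast hn) τ.im_pos⟩

theorem coe_mulPt (n : ℕ) (hn : 0 < n) (τ : ℍ) : ((mulPt n hn τ : ℍ) : ℂ) = (n : ℂ) * τ := rfl

theorem Jd_eq_jfun_mulPt (n : ℕ) (hn : 0 < n) (τ : ℍ) : Jd n τ = jfun (mulPt n hn τ) := by
  rw [Jd_def, ← coe_mulPt n hn τ, ofComplex_apply]

section Swap

/-- the Atkin–Lehner transformation `W τ = γ (ℓ τ)`, `γ = (1, b; N, ℓ d')` -/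
def WW (N ℓ : ℕ) (b d' : ℤ) (hℓ : 0 < ℓ) (hdet : (ℓ : ℤ) * d' - (N : ℤ) * b = 1) (τ : ℍ) : ℍ :=
  mkSL 1 b N (ℓ * d') (by linear_combination hdet) • mulPt ℓ hℓ τ

theorem coe_WW_mul (N ℓ : ℕ) (b d' : ℤ) (hℓ : 0 < ℓ)
    (hdet : (ℓ : ℤ) * d' - (N : ℤ) * b = 1) (τ : ℍ) :
    ((WW N ℓ b d' hℓ hdet τ : ℍ) : ℂ) * ((N : ℂ) * ((ℓ : ℂ) * τ) + (ℓ : ℂ) * (d' : ℂ))
      = (ℓ : ℂ) * τ + (b : ℂ) := by
  have hd := UpperHalfPlane.denom_ne_zero
    (mkSL 1 b N (ℓ * d') (by linear_combination hdet)) (mulPt ℓ hℓ τ)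
  rw [Fermat.Agent.S20.Stab.denom_SL] at hd
  simp only [mkSL_10, mkSL_11, coe_mulPt, Int.cast_natCast, Int.cast_mul] at hd
  rw [WW, Fermat.Agent.S20.Stab.coe_smul_SL]
  simp only [mkSL_00, mkSL_01, mkSL_10, mkSL_11, coe_mulPt, Int.cast_natCast, Int.cast_mul,
    Int.cast_one, one_mul]
  rw [div_mul_cancel₀ _ hd]

/-- `j(d W τ) = j(d ℓ τ)` for `d ∣ N`. -/
theorem Jd_WW_of_dvd (N ℓ : ℕ) (hN : 0 < N) (b d' : ℤ) (hℓ : 0 < ℓ)
    (hdet : (ℓ : ℤ) * d' - (N : ℤ) * b = 1) {d : ℕ} (hd : d ∣ N) (τ : ℍ) :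
    Jd d (WW N ℓ b d' hℓ hdet τ) = Jd (d * ℓ) τ := by
  obtain ⟨e, he⟩ := hd
  have hd0 : 0 < d := by
    rcases Nat.eq_zero_or_pos d with h | h
    · rw [h, zero_mul] at he; omega
    · exact h
  rw [Jd_def, Jd_eq_jfun_mulPt (d * ℓ) (Nat.mul_pos hd0 hℓ) τ]
  have hdet' : (1 : ℤ) * ((ℓ : ℤ) * d') - ((d : ℤ) * b) * (e : ℤ) = 1 := by
    have : (N : ℤ) = (d : ℤ) * e := by exact_mod_cast he
    rw [this] at hdet
    linear_combination hdet
  refine jfun_ofComplex_moebius (mkSL 1 (d * b) e (ℓ * d') hdet') _ _ ?_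
  simp only [mkSL_00, mkSL_01, mkSL_10, mkSL_11, coe_mulPt, Int.cast_natCast, Int.cast_mul,
    Int.cast_one, one_mul, Nat.cast_mul]
  have h1 := coe_WW_mul N ℓ b d' hℓ hdet τ
  have hNe : (N : ℂ) = (d : ℂ) * (e : ℂ) := by exact_mod_cast he
  rw [hNe] at h1
  linear_combination (d : ℂ) * h1

/-- `j(d ℓ W τ) = j(d τ)` for `d ∣ N`. -/
theorem Jd_WW_mul_of_dvd (N ℓ : ℕ) (hN : 0 < N) (b d' : ℤ) (hℓ : 0 < ℓ)
    (hdet : (ℓ : ℤ) * d' - (N : ℤ) * b = 1) {d : ℕ} (hd : d ∣ N) (τ : ℍ) :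
    Jd (d * ℓ) (WW N ℓ b d' hℓ hdet τ) = Jd d τ := by
  obtain ⟨e, he⟩ := hd
  have hd0 : 0 < d := by
    rcases Nat.eq_zero_or_pos d with h | h
    · rw [h, zero_mul] at he; omega
    · exact h
  rw [Jd_def, Jd_eq_jfun_mulPt d hd0 τ]
  have hdet' : (ℓ : ℤ) * d' - ((d : ℤ) * b) * (e : ℤ) = 1 := by
    have : (N : ℤ) = (d : ℤ) * e := by exact_mod_cast he
    rw [this] at hdet
    linear_combination hdet
  refine jfun_ofComplex_moebius (mkSL ℓ (d * b) e d' hdet') _ _ ?_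
  simp only [mkSL_00, mkSL_01, mkSL_10, mkSL_11, coe_mulPt, Int.cast_natCast, Int.cast_mul,
    Nat.cast_mul]
  have h1 := coe_WW_mul N ℓ b d' hℓ hdet τ
  have hNe : (N : ℂ) = (d : ℂ) * (e : ℂ) := by exact_mod_cast he
  rw [hNe] at h1
  have hℓ0 : (ℓ : ℂ) ≠ 0 := by exact_mod_cast hℓ.ne'
  have h2 : ((WW N ℓ b d' hℓ hdet τ : ℍ) : ℂ) * ((d : ℂ) * (e : ℂ) * τ + (d' : ℂ))
      = ((ℓ : ℂ) * τ + (b : ℂ)) / (ℓ : ℂ) := by
    rw [← h1]; field_simp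
  have h3 : ((ℓ : ℂ) * τ + (b : ℂ)) / (ℓ : ℂ) * ((d : ℂ) * (ℓ : ℂ)) 
      = (d : ℂ) * ((ℓ : ℂ) * τ + (b : ℂ)) := by
    field_simp
  rw [← h2] at h3
  linear_combination h3

end Swap

/-! ### The swap of the divisors of `N ℓ` -/

section Index

variable (N ℓ : ℕ)

/-- the swap `d ↔ d ℓ` on the divisors of `N ℓ` -/
def swapD (D : ℕ) : ℕ := if ℓ ∣ D then D / ℓ else D * ℓ

variable {N ℓ}

theorem swapD_of_dvd {D : ℕ} (h : ℓ ∣ D) : swapD ℓ D = D / ℓ := if_pos h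

theorem swapD_of_not_dvd {D : ℕ} (h : ¬ ℓ ∣ D) : swapD ℓ D = D * ℓ := if_neg h

theorem swapD_pos (hℓ : 0 < ℓ) {D : ℕ} (hD : 0 < D) : 0 < swapD ℓ D := by
  by_cases h : ℓ ∣ D
  · rw [swapD_of_dvd h]
    exact Nat.div_pos (Nat.le_of_dvd hD h) hℓ
  · rw [swapD_of_not_dvd h]
    exact Nat.mul_pos hD hℓ

theorem dvd_of_not_dvd (hp : ℓ.Prime) {D : ℕ} (hD : D ∣ N * ℓ) (h : ¬ ℓ ∣ D) : D ∣ N := by
  have hc : Nat.Coprime D ℓ := ((Nat.Prime.coprime_iff_not_dvd hp).mpr h).symm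
  exact hc.dvd_of_dvd_mul_right hD

theorem div_dvd_of_dvd (hℓ : 0 < ℓ) {D : ℕ} (hD : D ∣ N * ℓ) (h : ℓ ∣ D) : D / ℓ ∣ N := by
  obtain ⟨e, rfl⟩ := h
  rw [Nat.mul_div_cancel_left _ hℓ]
  rw [mul_comm] at hD
  exact Nat.dvd_of_mul_dvd_mul_right hℓ hD

theorem swapD_dvd (hp : ℓ.Prime) {D : ℕ} (hD : D ∣ N * ℓ) : swapD ℓ D ∣ N * ℓ := by
  by_cases h : ℓ ∣ D
  · rw [swapD_of_dvd h]
    exact (div_dvd_of_dvd hp.pos hD h).trans (dvd_mul_right N ℓ)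
  · rw [swapD_of_not_dvd h]
    exact Nat.mul_dvd_mul_right (dvd_of_not_dvd hp hD h) ℓ

theorem swapD_swapD (hp : ℓ.Prime) (hℓN : ¬ ℓ ∣ N) {D : ℕ} (hD : D ∣ N * ℓ) :
    swapD ℓ (swapD ℓ D) = D := by
  by_cases h : ℓ ∣ D
  · rw [swapD_of_dvd h]
    have h1 : ¬ ℓ ∣ D / ℓ := fun h2 => hℓN (h2.trans (div_dvd_of_dvd hp.pos hD h))
    rw [swapD_of_not_dvd h1, Nat.div_mul_cancel h]
  · rw [swapD_of_not_dvd h, swapD_of_dvd (dvd_mul_left ℓ D), Nat.mul_div_cancel _ hp.pos]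

/-- **the analytic swap**: `j(D W τ) = j(swap(D) τ)` for all `D ∣ N ℓ`. -/
theorem Jd_WW (hN : 0 < N) (hp : ℓ.Prime) (b d' : ℤ)
    (hdet : (ℓ : ℤ) * d' - (N : ℤ) * b = 1) {D : ℕ} (hD : D ∣ N * ℓ) (τ : ℍ) :
    Jd D (WW N ℓ b d' hp.pos hdet τ) = Jd (swapD ℓ D) τ := by
  by_cases h : ℓ ∣ D
  · rw [swapD_of_dvd h]
    have h1 := Jd_WW_mul_of_dvd N ℓ hN b d' hp.pos hdet (div_dvd_of_dvd hp.pos hD h) τ
    rwa [Nat.div_mul_cancel h] at h1
  · rw [swapD_of_not_dvd h]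
    exact Jd_WW_of_dvd N ℓ hN b d' hp.pos hdet (dvd_of_not_dvd hp hD h) τ

theorem exists_bezout (hp : ℓ.Prime) (hℓN : ¬ ℓ ∣ N) :
    ∃ b d' : ℤ, (ℓ : ℤ) * d' - (N : ℤ) * b = 1 := by
  have hc : IsCoprime (ℓ : ℤ) (N : ℤ) := by
    rw [Int.isCoprime_iff_gcd_eq_one]
    have := (Nat.Prime.coprime_iff_not_dvd hp).mpr hℓN
    simpa [Int.gcd_natCast_natCast] using this
  obtain ⟨u, v, huv⟩ := hc
  exact ⟨-v, u, by linear_combination huv⟩

end Index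


/-! ### The swap as an endomorphism of the function field -/

section Lift

theorem jgenL_congr {m n : ℕ} [NeZero m] [NeZero n] (h : m = n) : jgenL m = jgenL n := by
  subst h
  rfl

theorem qExpand_jgenL (ℓ d : ℕ) [NeZero ℓ] [NeZero d] [NeZero (ℓ * d)] :
    qExpand KK ℓ (jgenL d) = jgenL (ℓ * d) := by
  unfold jgenL
  rw [coeffEmb, ← coeffMap_qExpand, qExpand_qExpand]

variable (N ℓ : ℕ) [NeZero N] [NeZero ℓ] [NeZero (N * ℓ)]

/-- the swapped index is nonzero -/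
theorem neZero_swapD (D : Dv (N * ℓ)) : NeZero (swapD ℓ (D : ℕ)) :=
  ⟨(swapD_pos (Nat.pos_of_ne_zero (NeZero.ne ℓ)) (Nat.pos_of_ne_zero (dv_ne_zero D))).ne'⟩

/-- the swapped generators, as Laurent series -/
def swapL (D : Dv (N * ℓ)) : LaurentSeries KK :=
  haveI := neZero_swapD N ℓ D
  jgenL (swapD ℓ (D : ℕ))

variable {N ℓ}

theorem swapL_mem (hp : ℓ.Prime) (D : Dv (N * ℓ)) :
    swapL N ℓ D ∈ modularFunctionFieldBar (N * ℓ) := by
  haveI := neZero_swapD N ℓ D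
  exact jgenL_mem (swapD_dvd hp D.2)

/-- **the analytic criterion is invariant under the swap** -/
theorem criterion_swap (hp : ℓ.Prime) (hℓN : ¬ ℓ ∣ N) (P : MvPolynomial (Dv (N * ℓ)) KK) :
    MvPolynomial.aeval (fun D : Dv (N * ℓ) => jgenL (D : ℕ)) P = 0 ↔
      MvPolynomial.aeval (swapL N ℓ) P = 0 := by
  have e0 : swapL N ℓ = fun D : Dv (N * ℓ) =>
      @jgenL (swapD ℓ (D : ℕ)) (neZero_swapD N ℓ D) := rfl
  rw [e0, aeval_eq_zero_iff' (fun D : Dv (N * ℓ) => (D : ℕ)) P,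
    @aeval_eq_zero_iff' _ (fun D : Dv (N * ℓ) => swapD ℓ (D : ℕ)) (neZero_swapD N ℓ) P]
  obtain ⟨b, d', hdet⟩ := exists_bezout hp hℓN
  have hN : 0 < N := Nat.pos_of_ne_zero (NeZero.ne N)
  constructor
  · intro h τ
    have h1 := h (WW N ℓ b d' hp.pos hdet τ)
    have e : (fun D : Dv (N * ℓ) => Jd (D : ℕ) (WW N ℓ b d' hp.pos hdet τ))
        = fun D : Dv (N * ℓ) => Jd (swapD ℓ (D : ℕ)) τ :=
      funext fun D => Jd_WW hN hp b d' hdet D.2 τ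
    rwa [e] at h1
  · intro h τ
    have h1 := h (WW N ℓ b d' hp.pos hdet τ)
    have e : (fun D : Dv (N * ℓ) => Jd (swapD ℓ (D : ℕ)) (WW N ℓ b d' hp.pos hdet τ))
        = fun D : Dv (N * ℓ) => Jd (D : ℕ) τ :=
      funext fun D => by
        rw [Jd_WW hN hp b d' hdet (swapD_dvd hp D.2) τ, swapD_swapD hp hℓN D.2]
    rwa [e] at h1

/-- **The Atkin–Lehner swap** on the function field of `X₀(N ℓ)`. -/
theorem exists_swap (hp : ℓ.Prime) (hℓN : ¬ ℓ ∣ N) :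
    ∃ w : FF (N * ℓ) →+* FF (N * ℓ),
      (∀ c : KK, w (algebraMap KK (FF (N * ℓ)) c) = algebraMap KK (FF (N * ℓ)) c) ∧
      ∀ D : Dv (N * ℓ),
        ((w (jgen (N * ℓ) (D : ℕ) D.2) : FF (N * ℓ)) : LaurentSeries KK) = swapL N ℓ D := by
  obtain ⟨w, hc, hg⟩ := exists_lift_jgen (N * ℓ) (algebraMap KK (FF (N * ℓ)))
    (fun D : Dv (N * ℓ) => (⟨swapL N ℓ D, swapL_mem hp D⟩ : FF (N * ℓ))) (fun P => by
      rw [criterion_swap hp hℓN P]
      have h1 : ((MvPolynomial.eval₂ (algebraMap KK (FF (N * ℓ)))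
          (fun D : Dv (N * ℓ) => (⟨swapL N ℓ D, swapL_mem hp D⟩ : FF (N * ℓ))) P :
            FF (N * ℓ)) : LaurentSeries KK) = MvPolynomial.aeval (swapL N ℓ) P := by
        have := MvPolynomial.comp_aeval_apply (R := KK)
          (fun D : Dv (N * ℓ) => (⟨swapL N ℓ D, swapL_mem hp D⟩ : FF (N * ℓ)))
          (Fermat.Agent.S24.Degree.incl (N * ℓ)) P
        exact this.symm ▸ rfl
      rw [← h1]
      constructor
      · intro h
        exact Subtype.ext h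
      · intro h
        rw [h]
        rfl)
  exact ⟨w, hc, fun D => by rw [hg D]⟩

/-- **The swap exchanges the two degeneracy maps.** -/
theorem exists_swap_alpha_beta (hp : ℓ.Prime) (hℓN : ¬ ℓ ∣ N) :
    ∃ w : FF (N * ℓ) →+* FF (N * ℓ),
      (∀ c : KK, w (algebraMap KK (FF (N * ℓ)) c) = algebraMap KK (FF (N * ℓ)) c) ∧
      (∀ f : FF N, w (heckeAlphaBar KK N ℓ f) = heckeBetaBar KK N ℓ f) ∧
      (∀ f : FF N, w (heckeBetaBar KK N ℓ f) = heckeAlphaBar KK N ℓ f) := by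
  obtain ⟨w, hc, hg⟩ := exists_swap (N := N) hp hℓN
  have hℓd : ∀ {d : ℕ}, d ∣ N → ¬ ℓ ∣ d := fun hd h => hℓN (h.trans hd)
  refine ⟨w, hc, ?_, ?_⟩
  · have key : w.comp (heckeAlphaBar KK N ℓ).toRingHom = (heckeBetaBar KK N ℓ).toRingHom := by
      refine ringHom_ext_jgen N (fun c => ?_) (fun d _ hd => ?_)
      · show w (heckeAlphaBar KK N ℓ (algebraMap KK (FF N) c))
          = heckeBetaBar KK N ℓ (algebraMap KK (FF N) c)
        rw [AlgHom.commutes, AlgHom.commutes, hc]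
      · show w (heckeAlphaBar KK N ℓ (jgen N d hd)) = heckeBetaBar KK N ℓ (jgen N d hd)
        have hdN : d ∣ N * ℓ := hd.trans (dvd_mul_right N ℓ)
        have e1 : heckeAlphaBar KK N ℓ (jgen N d hd) = jgen (N * ℓ) d hdN := Subtype.ext rfl
        rw [e1]
        apply Subtype.ext
        rw [hg ⟨d, hdN⟩, coe_heckeBetaBar, coe_jgen]
        haveI : NeZero (ℓ * d) := ⟨Nat.mul_ne_zero (NeZero.ne ℓ) (NeZero.ne d)⟩
        rw [qExpand_jgenL ℓ d]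
        haveI := neZero_swapD N ℓ ⟨d, hdN⟩
        show jgenL (swapD ℓ d) = jgenL (ℓ * d)
        exact jgenL_congr (by rw [swapD_of_not_dvd (hℓd hd), mul_comm])
    intro f
    exact RingHom.congr_fun key f
  · have key : w.comp (heckeBetaBar KK N ℓ).toRingHom = (heckeAlphaBar KK N ℓ).toRingHom := by
      refine ringHom_ext_jgen N (fun c => ?_) (fun d _ hd => ?_)
      · show w (heckeBetaBar KK N ℓ (algebraMap KK (FF N) c))
          = heckeAlphaBar KK N ℓ (algebraMap KK (FF N) c)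
        rw [AlgHom.commutes, AlgHom.commutes, hc]
      · show w (heckeBetaBar KK N ℓ (jgen N d hd)) = heckeAlphaBar KK N ℓ (jgen N d hd)
        have hdN : d ∣ N * ℓ := hd.trans (dvd_mul_right N ℓ)
        have hdℓ : ℓ * d ∣ N * ℓ := by rw [mul_comm]; exact Nat.mul_dvd_mul_right hd ℓ
        haveI : NeZero (ℓ * d) := ⟨Nat.mul_ne_zero (NeZero.ne ℓ) (NeZero.ne d)⟩
        have e1 : heckeBetaBar KK N ℓ (jgen N d hd) = jgen (N * ℓ) (ℓ * d) hdℓ := by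
          apply Subtype.ext
          rw [coe_heckeBetaBar, coe_jgen, coe_jgen, qExpand_jgenL ℓ d]
        have e2 : heckeAlphaBar KK N ℓ (jgen N d hd) = jgen (N * ℓ) d hdN := Subtype.ext rfl
        rw [e1, e2]
        apply Subtype.ext
        rw [hg ⟨ℓ * d, hdℓ⟩, coe_jgen]
        haveI := neZero_swapD N ℓ ⟨ℓ * d, hdℓ⟩
        show jgenL (swapD ℓ (ℓ * d)) = jgenL d
        exact jgenL_congr (by
          rw [swapD_of_dvd (dvd_mul_right ℓ d), Nat.mul_div_cancel_left _ hp.pos])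
    intro f
    exact RingHom.congr_fun key f

end Lift

end Fermat.Agent.S37X.ESSwap
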