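import Mathlib
import Fermat.Agent.S37.ESSwap
import Fermat.Agent.S18.DegEq
import Fermat.Agent.S20.PsiIdentity

/-!
# S37, leaf (D) of T4: the degree of `FF (N ℓ)` over `FF N` along both degeneracy maps is `ℓ + 1`
-/

set_option autoImplicit false
set_option linter.unusedSectionVars false
set_option linter.style.haveILetI false
set_option linter.unusedVariables false

noncomputable section

namespace Fermat.Agent.S37X.ESDeg

open ModularCurve AlgebraicCurve IntermediateField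
open Fermat.Agent.S24 Fermat.Agent.S24.Eval Fermat.Agent.S24.Jq
open Fermat.Agent.S37X.ESSwap

theorem dedekindPsi_prime' {p : ℕ} (hp : p.Prime) : ModularCurve.dedekindPsi p = p + 1 := by
  rw [ModularCurve.dedekindPsi, Nat.Prime.divisors hp]
  have h1 : (1 : ℕ) ≠ p := hp.one_lt.ne
  rw [Finset.filter_true_of_mem, Finset.sum_pair h1]
  · rw [Nat.div_one, Nat.div_self hp.pos, add_comm]
  · intro d hd
    rcases Finset.mem_insert.mp hd with h | h
    · rw [h]; exact squarefree_one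
    · rw [Finset.mem_singleton.mp h]; exact hp.prime.squarefree

theorem dedekindPsi_mul_prime {N ℓ : ℕ} (hN : 0 < N) (hp : ℓ.Prime) (hℓN : ¬ ℓ ∣ N) :
    ModularCurve.dedekindPsi (N * ℓ) = ModularCurve.dedekindPsi N * (ℓ + 1) := by
  rw [Fermat.Agent.S20.Cosets.PsiIdentity.dedekindPsi_mul hN hp.pos
    ((Nat.Prime.coprime_iff_not_dvd hp).mpr hℓN).symm, dedekindPsi_prime' hp]

section Generic

variable {K : Type*} [Field K] {F₁ F₂ : Type*} [Field F₁] [Field F₂] [Algebra K F₁] [Algebra K F₂]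

/-- tower law along an algebra homomorphism -/
theorem finrankAlong_of_tower (α : F₁ →ₐ[K] F₂) (x : F₁) (n m : ℕ)
    (h1 : Module.finrank ↥K⟮x⟯ F₁ = n) (h2 : Module.finrank ↥K⟮α x⟯ F₂ = n * m) (hn : 0 < n) :
    finrankAlong K α = m := by
  unfold finrankAlong
  letI := algebraAlong α
  letI a3 : Algebra ↥K⟮x⟯ F₂ := (α.toRingHom.comp (algebraMap ↥K⟮x⟯ F₁)).toAlgebra
  haveI : IsScalarTower ↥K⟮x⟯ F₁ F₂ := IsScalarTower.of_algebraMap_eq (fun x => rfl)
  have h3 := Module.finrank_mul_finrank ↥K⟮x⟯ F₁ F₂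
  have hmap : (K⟮x⟯).map α = K⟮α x⟯ := by
    rw [IntermediateField.adjoin_map, Set.image_singleton]
  let i : ↥K⟮x⟯ ≃+* ↥K⟮α x⟯ :=
    ((IntermediateField.equivMap K⟮x⟯ α).trans (IntermediateField.equivOfEq hmap)).toRingEquiv
  have h4 : Module.finrank ↥K⟮x⟯ F₂ = Module.finrank ↥K⟮α x⟯ F₂ :=
    Algebra.finrank_eq_of_equiv_equiv i (RingEquiv.refl F₂) (by
      ext y
      rfl)
  rw [h4, h1, h2] at h3
  exact Nat.eq_of_mul_eq_mul_left hn h3

/-- transport of the degree along an automorphism of the top field -/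
theorem finrankAlong_comp_equiv (α β : F₁ →ₐ[K] F₂) (w : F₂ ≃+* F₂)
    (h : ∀ f, w (α f) = β f) : finrankAlong K β = finrankAlong K α := by
  unfold finrankAlong
  letI i1 := algebraAlong α
  symm
  exact @Algebra.finrank_eq_of_equiv_equiv F₁ F₂ _ _ (algebraAlong α) F₁ F₂ _ _ (algebraAlong β)
    (RingEquiv.refl F₁) w (by
      ext f
      exact (h f).symm)

end Generic

set_option synthInstance.maxHeartbeats 400000 in
set_option maxHeartbeats 1000000 in
/-- the degree along `α` -/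
theorem finrank_alpha (N ℓ : ℕ) [NeZero N] [NeZero ℓ] [NeZero (N * ℓ)] (hp : ℓ.Prime)
    (hℓN : ¬ ℓ ∣ N) : finrankAlong KK (heckeAlphaBar KK N ℓ) = ℓ + 1 := by
  have hα : (heckeAlphaBar KK N ℓ) (jF N) = jF (N * ℓ) := Subtype.ext rfl
  have hpos : 0 < ModularCurve.dedekindPsi N := by
    rw [← Fermat.Agent.S18.DegEq.finrank_jF_eq]
    haveI := Fermat.Agent.S24.Degree.finiteDimensional_jF N
    exact Module.finrank_pos
  refine finrankAlong_of_tower (heckeAlphaBar KK N ℓ) (jF N) (ModularCurve.dedekindPsi N)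
    (ℓ + 1) (Fermat.Agent.S18.DegEq.finrank_jF_eq N) ?_ hpos
  rw [hα, Fermat.Agent.S18.DegEq.finrank_jF_eq,
    dedekindPsi_mul_prime (Nat.pos_of_ne_zero (NeZero.ne N)) hp hℓN]

/-- **The Atkin–Lehner swap as a ring automorphism.** -/
theorem exists_swapEquiv {N ℓ : ℕ} [NeZero N] [NeZero ℓ] [NeZero (N * ℓ)] (hp : ℓ.Prime)
    (hℓN : ¬ ℓ ∣ N) :
    ∃ w : FF (N * ℓ) ≃+* FF (N * ℓ),
      (∀ c : KK, w (algebraMap KK (FF (N * ℓ)) c) = algebraMap KK (FF (N * ℓ)) c) ∧
      (∀ f : FF N, w (heckeAlphaBar KK N ℓ f) = heckeBetaBar KK N ℓ f) ∧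
      (∀ f : FF N, w (heckeBetaBar KK N ℓ f) = heckeAlphaBar KK N ℓ f) := by
  obtain ⟨w, hc, hg⟩ := exists_swap (N := N) hp hℓN
  obtain ⟨w', hc', hα, hβ⟩ := exists_swap_alpha_beta (N := N) hp hℓN
  have hww : w = w' := by
    -- both are determined by the constants and the values on the generators
    refine ringHom_ext_jgen (N * ℓ) (fun c => by rw [hc, hc']) (fun D _ hD => ?_)
    by_cases h : ℓ ∣ D
    · obtain ⟨d, rfl⟩ := h
      have hd : d ∣ N := by
        rw [mul_comm] at hD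
        exact Nat.dvd_of_mul_dvd_mul_right hp.pos hD
      haveI : NeZero d := ⟨fun h0 => by
        rw [h0, zero_dvd_iff] at hd; exact NeZero.ne N hd⟩
      have e1 : heckeBetaBar KK N ℓ (jgen N d hd) = jgen (N * ℓ) (ℓ * d) hD := by
        apply Subtype.ext
        rw [coe_heckeBetaBar, coe_jgen, coe_jgen, qExpand_jgenL ℓ d]
      rw [← e1, hβ]
      apply Subtype.ext
      have := hg ⟨ℓ * d, hD⟩
      rw [e1]
      rw [this]
      haveI := neZero_swapD N ℓ ⟨ℓ * d, hD⟩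
      show jgenL (swapD ℓ (ℓ * d)) = jgenL d
      exact jgenL_congr (by
        rw [swapD_of_dvd (dvd_mul_right ℓ d), Nat.mul_div_cancel_left _ hp.pos])
    · have hd : D ∣ N := dvd_of_not_dvd hp hD h
      have e1 : heckeAlphaBar KK N ℓ (jgen N D hd) = jgen (N * ℓ) D hD := Subtype.ext rfl
      rw [← e1, hα]
      apply Subtype.ext
      rw [e1, hg ⟨D, hD⟩, coe_heckeBetaBar, coe_jgen]
      haveI : NeZero (ℓ * D) := ⟨Nat.mul_ne_zero (NeZero.ne ℓ) (NeZero.ne D)⟩
      rw [qExpand_jgenL ℓ D]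
      haveI := neZero_swapD N ℓ ⟨D, hD⟩
      show jgenL (swapD ℓ D) = jgenL (ℓ * D)
      exact jgenL_congr (by rw [swapD_of_not_dvd h, mul_comm])
  have hinv : w'.comp w' = RingHom.id _ := by
    refine ringHom_ext_jgen (N * ℓ) (fun c => ?_) (fun D _ hD => ?_)
    · show w' (w' _) = _
      rw [hc', hc']
      rfl
    · show w' (w' _) = _
      by_cases h : ℓ ∣ D
      · obtain ⟨d, rfl⟩ := h
        have hd : d ∣ N := by
          rw [mul_comm] at hD
          exact Nat.dvd_of_mul_dvd_mul_right hp.pos hD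
        haveI : NeZero d := ⟨fun h0 => by
          rw [h0, zero_dvd_iff] at hd; exact NeZero.ne N hd⟩
        have e1 : heckeBetaBar KK N ℓ (jgen N d hd) = jgen (N * ℓ) (ℓ * d) hD := by
          apply Subtype.ext
          rw [coe_heckeBetaBar, coe_jgen, coe_jgen, qExpand_jgenL ℓ d]
        rw [← e1, hβ, hα]
        rfl
      · have hd : D ∣ N := dvd_of_not_dvd hp hD h
        have e1 : heckeAlphaBar KK N ℓ (jgen N D hd) = jgen (N * ℓ) D hD := Subtype.ext rfl
        rw [← e1, hα, hβ]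
        rfl
  exact ⟨RingEquiv.ofRingHom w' w' hinv hinv, hc', hα, hβ⟩

/-- the degree along `β` -/
theorem finrank_beta (N ℓ : ℕ) [NeZero N] [NeZero ℓ] [NeZero (N * ℓ)] (hp : ℓ.Prime)
    (hℓN : ¬ ℓ ∣ N) : finrankAlong KK (heckeBetaBar KK N ℓ) = ℓ + 1 := by
  obtain ⟨w, -, hα, -⟩ := exists_swapEquiv (N := N) hp hℓN
  rw [finrankAlong_comp_equiv (heckeAlphaBar KK N ℓ) (heckeBetaBar KK N ℓ) w hα,
    finrank_alpha N ℓ hp hℓN]

end Fermat.Agent.S37X.ESDeg
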