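import Mathlib
import Fermat.Agent.S37.ESDeg
import Fermat.Agent.S24.Twist
import Fermat.Agent.S37.HeckeInt

/-!
# S37, leaf (G1) of T4: the norm along `β` as a product of `ℓ + 1` conjugate `q`-series
-/

set_option autoImplicit false
set_option linter.unusedSectionVars false
set_option linter.style.haveILetI false
set_option linter.unusedVariables false

noncomputable section

namespace Fermat.Agent.S37X.ESNorm

open ModularCurve AlgebraicCurve IntermediateField
open Fermat.Agent.S24 Fermat.Agent.S24.Eval Fermat.Agent.S24.Jq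
open Fermat.Agent.S37X.ESSwap Fermat.Agent.S37X.ESDeg Fermat.Agent.S24.Degree

section Generic

variable {K L M : Type*} [Field K] [Field L] [Field M] [Algebra K L] [FiniteDimensional K L]
  [CharZero K]

/-- **Norm = product of the conjugates**, for an explicit complete list of embeddings into a
field `M` (not necessarily algebraically closed). -/
theorem norm_eq_prod_of_embeddings {ι : Type*} [Fintype ι] (φ : K →+* M) (e : ι → L →+* M)
    (hφ : ∀ i (x : K), e i (algebraMap K L x) = φ x)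
    (hinj : Function.Injective e) (hcard : Fintype.card ι = Module.finrank K L) (y : L) :
    φ (Algebra.norm K y) = ∏ i, e i y := by
  classical
  let Ω := AlgebraicClosure M
  letI : Algebra K Ω := ((algebraMap M Ω).comp φ).toAlgebra
  haveI : Algebra.IsSeparable K L := Algebra.IsAlgebraic.isSeparable_of_perfectField
  let E : ι → (L →ₐ[K] Ω) := fun i =>
    { ((algebraMap M Ω).comp (e i)) with
      commutes' := fun x => by
        show algebraMap M Ω (e i (algebraMap K L x)) = algebraMap M Ω (φ x)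
        rw [hφ] }
  have hE : Function.Injective E := by
    intro i j hij
    apply hinj
    ext x
    have := DFunLike.congr_fun hij x
    exact (algebraMap M Ω).injective this
  have hbij : Function.Bijective E := by
    rw [Fintype.bijective_iff_injective_and_card]
    exact ⟨hE, by rw [hcard, AlgHom.card]⟩
  have h1 := Algebra.norm_eq_prod_embeddings K Ω y
  rw [← Fintype.prod_bijective E hbij (fun i => E i y) (fun σ => σ y) (fun i => rfl)] at h1
  have h2 : (∏ i, E i y) = algebraMap M Ω (∏ i, e i y) := by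
    rw [map_prod]
    rfl
  rw [h2] at h1
  exact (algebraMap M Ω).injective h1

end Generic

section Series

open HahnSeries

/-- a twist by an `ℓ`-th root of unity fixes every series in `q ^ ℓ`. -/
theorem twist_qExpand {R : Type*} [Field R] (ℓ : ℕ) [NeZero ℓ] (ζ : R) (hζ : ζ ≠ 0)
    (h : ζ ^ ℓ = 1) (f : LaurentSeries R) :
    Twist.twist ζ hζ (qExpand R ℓ f) = qExpand R ℓ f := by
  ext n
  rw [Twist.coeff_twist]
  by_cases hn : (ℓ : ℤ) ∣ n
  · obtain ⟨m, rfl⟩ := hn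
    rw [zpow_mul, zpow_natCast, h, one_zpow, one_mul]
  · rw [qExpand_coeff_of_not_dvd ℓ f hn, mul_zero]

theorem twist_algebraMap {R : Type*} [Field R] (ζ : R) (hζ : ζ ≠ 0) (c : R) :
    Twist.twist ζ hζ (algebraMap R (LaurentSeries R) c) = algebraMap R (LaurentSeries R) c := by
  rw [algebraMap_laurentSeries_eq_single, Twist.twist_single, zpow_zero, one_mul]

end Series

section Inst

variable (N ℓ : ℕ) [NeZero N] [NeZero ℓ] [NeZero (N * ℓ)]

theorem coeff_jF_neg_one (M : ℕ) : ((jF M : FF M) : LaurentSeries KK).coeff (-1) = 1 := by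
  rw [coe_jF]
  show algebraMap ℚ KK (jq.coeff (-1)) = 1
  rw [coeff_jq_neg_one, map_one]

/-- the `ℓ + 1` conjugates of `FF (N ℓ)` over `β (FF N)` inside `KK((q))`. -/
def conj (w : FF (N * ℓ) →+* FF (N * ℓ)) (ζ : KK) (hζ : ζ ≠ 0) :
    Option (Fin ℓ) → (FF (N * ℓ) →+* LaurentSeries KK)
  | none => (qExpand KK ℓ).comp (((incl (N * ℓ)) : FF (N * ℓ) →+* LaurentSeries KK).comp w)
  | some b => (Twist.twist (ζ ^ (b : ℕ)) (pow_ne_zero _ hζ)).comp
      ((incl (N * ℓ)) : FF (N * ℓ) →+* LaurentSeries KK)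

theorem conj_none (w : FF (N * ℓ) →+* FF (N * ℓ)) (ζ : KK) (hζ0 : ζ ≠ 0) (y : FF (N * ℓ)) :
    conj N ℓ w ζ hζ0 none y = qExpand KK ℓ ((w y : FF (N * ℓ)) : LaurentSeries KK) := rfl

theorem conj_some (w : FF (N * ℓ) →+* FF (N * ℓ)) (ζ : KK) (hζ0 : ζ ≠ 0) (b : Fin ℓ)
    (y : FF (N * ℓ)) :
    conj N ℓ w ζ hζ0 (some b) y
      = Twist.twist (ζ ^ (b : ℕ)) (pow_ne_zero _ hζ0) (y : LaurentSeries KK) := rfl

theorem conj_beta (w : FF (N * ℓ) →+* FF (N * ℓ))
    (hwβ : ∀ f : FF N, w (heckeBetaBar KK N ℓ f) = heckeAlphaBar KK N ℓ f)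
    (ζ : KK) (hζ0 : ζ ≠ 0) (h1 : ζ ^ ℓ = 1) (i : Option (Fin ℓ)) (x : FF N) :
    conj N ℓ w ζ hζ0 i (heckeBetaBar KK N ℓ x) = qExpand KK ℓ (x : LaurentSeries KK) := by
  cases i with
  | none =>
    rw [conj_none, hwβ, coe_heckeAlphaBar]
  | some b =>
    rw [conj_some, coe_heckeBetaBar]
    exact twist_qExpand ℓ _ _ (by rw [← pow_mul, mul_comm, pow_mul, h1, one_pow]) _

theorem conj_none_coeff (hp : ℓ.Prime) (w : FF (N * ℓ) →+* FF (N * ℓ))
    (hwα : ∀ f : FF N, w (heckeAlphaBar KK N ℓ f) = heckeBetaBar KK N ℓ f)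
    (ζ : KK) (hζ0 : ζ ≠ 0) :
    (conj N ℓ w ζ hζ0 none (heckeAlphaBar KK N ℓ (jF N))).coeff (-1) = 0 := by
  rw [conj_none]
  apply qExpand_coeff_of_not_dvd
  intro h
  have h2 : (ℓ : ℤ) ∣ 1 := (dvd_neg).mp h
  have h3 : ℓ ∣ 1 := by exact_mod_cast h2
  exact hp.one_lt.ne' (Nat.dvd_one.mp h3)

theorem conj_some_coeff (w : FF (N * ℓ) →+* FF (N * ℓ))
    (ζ : KK) (hζ0 : ζ ≠ 0) (b : Fin ℓ) :
    (conj N ℓ w ζ hζ0 (some b) (heckeAlphaBar KK N ℓ (jF N))).coeff (-1) = (ζ ^ (b : ℕ))⁻¹ := by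
  rw [conj_some, coe_heckeAlphaBar, Twist.coeff_twist, coeff_jF_neg_one, mul_one, zpow_neg_one]

theorem conj_injective (hp : ℓ.Prime) (w : FF (N * ℓ) →+* FF (N * ℓ))
    (hwα : ∀ f : FF N, w (heckeAlphaBar KK N ℓ f) = heckeBetaBar KK N ℓ f)
    (ζ : KK) (hζ0 : ζ ≠ 0) (hζ : IsPrimitiveRoot ζ ℓ) :
    Function.Injective (conj N ℓ w ζ hζ0) := by
  intro i j hij
  have key : (conj N ℓ w ζ hζ0 i (heckeAlphaBar KK N ℓ (jF N))).coeff (-1)
      = (conj N ℓ w ζ hζ0 j (heckeAlphaBar KK N ℓ (jF N))).coeff (-1) := by rw [hij]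
  have hne : ∀ b : Fin ℓ, (ζ ^ (b : ℕ))⁻¹ ≠ 0 := fun b => inv_ne_zero (pow_ne_zero _ hζ0)
  cases i with
  | none =>
    cases j with
    | none => rfl
    | some b =>
      rw [conj_none_coeff N ℓ hp w hwα, conj_some_coeff] at key
      exact absurd key.symm (hne b)
  | some a =>
    cases j with
    | none =>
      rw [conj_none_coeff N ℓ hp w hwα, conj_some_coeff] at key
      exact absurd key (hne a)
    | some b =>
      rw [conj_some_coeff, conj_some_coeff] at key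
      have h2 : ζ ^ (a : ℕ) = ζ ^ (b : ℕ) := inv_injective key
      have h3 := hζ.pow_inj a.2 b.2 h2
      exact congrArg some (Fin.ext h3)

/-- **(G1): the norm along `β` as a product of `ℓ + 1` conjugate series.** -/
theorem norm_beta_series (hp : ℓ.Prime) (hℓN : ¬ ℓ ∣ N) (w : FF (N * ℓ) →+* FF (N * ℓ))
    (hwα : ∀ f : FF N, w (heckeAlphaBar KK N ℓ f) = heckeBetaBar KK N ℓ f)
    (hwβ : ∀ f : FF N, w (heckeBetaBar KK N ℓ f) = heckeAlphaBar KK N ℓ f)
    (ζ : KK) (hζ0 : ζ ≠ 0) (hζ : IsPrimitiveRoot ζ ℓ) (y : FF (N * ℓ)) :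
    qExpand KK ℓ (((letI := algebraAlong (heckeBetaBar KK N ℓ); Algebra.norm (FF N) y) : FF N) :
        LaurentSeries KK)
      = qExpand KK ℓ ((w y : FF (N * ℓ)) : LaurentSeries KK) *
        ∏ b ∈ Finset.range ℓ, Twist.twist (ζ ^ b) (pow_ne_zero b hζ0) (y : LaurentSeries KK) := by
  letI := algebraAlong (heckeBetaBar KK N ℓ)
  haveI : FiniteDimensional (FF N) (FF (N * ℓ)) := HeckeInt.finiteAlong_beta N ℓ
  have h := norm_eq_prod_of_embeddings (K := FF N) (L := FF (N * ℓ)) (M := LaurentSeries KK)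
    ((qExpand KK ℓ).comp ((incl N : FF N →ₐ[KK] LaurentSeries KK) : FF N →+* LaurentSeries KK))
    (conj N ℓ w ζ hζ0)
    (fun i x => conj_beta N ℓ w hwβ ζ hζ0 hζ.pow_eq_one i x)
    (conj_injective N ℓ hp w hwα ζ hζ0 hζ)
    (by
      rw [Fintype.card_option, Fintype.card_fin]
      exact (finrank_beta N ℓ hp hℓN).symm) y
  rw [Fintype.prod_option] at h
  rw [← Fin.prod_univ_eq_prod_range
    (fun b => Twist.twist (ζ ^ b) (pow_ne_zero b hζ0) (y : LaurentSeries KK)) ℓ]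
  exact h

theorem qExpand_algebraMap_KK {R : Type*} [Field R] (m : ℕ) [NeZero m] (c : R) :
    qExpand R m (algebraMap R (LaurentSeries R) c) = algebraMap R (LaurentSeries R) c := by
  rw [algebraMap_laurentSeries_eq_single, qExpand_single, mul_zero]

theorem coe_algebraMap_FF (M : ℕ) (c : KK) :
    ((algebraMap KK (FF M) c : FF M) : LaurentSeries KK) = algebraMap KK (LaurentSeries KK) c :=
  rfl

/-- **(G1) for `y = c − α f`.** -/
theorem norm_beta_sub (hp : ℓ.Prime) (hℓN : ¬ ℓ ∣ N) (w : FF (N * ℓ) →+* FF (N * ℓ))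
    (hwc : ∀ c : KK, w (algebraMap KK (FF (N * ℓ)) c) = algebraMap KK (FF (N * ℓ)) c)
    (hwα : ∀ f : FF N, w (heckeAlphaBar KK N ℓ f) = heckeBetaBar KK N ℓ f)
    (hwβ : ∀ f : FF N, w (heckeBetaBar KK N ℓ f) = heckeAlphaBar KK N ℓ f)
    (ζ : KK) (hζ0 : ζ ≠ 0) (hζ : IsPrimitiveRoot ζ ℓ) (c : KK) (f : FF N) :
    qExpand KK ℓ (((letI := algebraAlong (heckeBetaBar KK N ℓ);
        Algebra.norm (FF N) (algebraMap KK (FF (N * ℓ)) c - heckeAlphaBar KK N ℓ f)) : FF N) :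
        LaurentSeries KK)
      = (algebraMap KK (LaurentSeries KK) c - qExpand KK (ℓ ^ 2) (f : LaurentSeries KK)) *
        ∏ b ∈ Finset.range ℓ, (algebraMap KK (LaurentSeries KK) c -
          Twist.twist (ζ ^ b) (pow_ne_zero b hζ0) (f : LaurentSeries KK)) := by
  rw [norm_beta_series N ℓ hp hℓN w hwα hwβ ζ hζ0 hζ]
  congr 1
  · rw [map_sub, hwc, hwα]
    show qExpand KK ℓ (algebraMap KK (LaurentSeries KK) c
      - qExpand KK ℓ (f : LaurentSeries KK)) = _
    rw [map_sub, qExpand_qExpand, qExpand_algebraMap_KK]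
    congr 1
    exact qExpand_congr (by ring) _
  · refine Finset.prod_congr rfl (fun b _ => ?_)
    show Twist.twist (ζ ^ b) (pow_ne_zero b hζ0) (algebraMap KK (LaurentSeries KK) c
      - (f : LaurentSeries KK)) = _
    rw [map_sub, twist_algebraMap]

/-- **(G1), existence form**: a primitive `ℓ`-th root of unity `ζ` such that for all `c`, `f`
the `β`-norm of `c − α f`, read as a series in `q ^ ℓ`, is
`(c − f (q ^ (ℓ ^ 2))) ∏_b (c − f (ζ ^ b q))`. -/
theorem exists_norm_beta_sub (hp : ℓ.Prime) (hℓN : ¬ ℓ ∣ N) :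
    ∃ (ζ : KK) (hζ0 : ζ ≠ 0), ζ ^ ℓ = 1 ∧ ∀ (c : KK) (f : FF N),
      qExpand KK ℓ (((letI := algebraAlong (heckeBetaBar KK N ℓ);
        Algebra.norm (FF N) (algebraMap KK (FF (N * ℓ)) c - heckeAlphaBar KK N ℓ f)) : FF N) :
        LaurentSeries KK)
      = (algebraMap KK (LaurentSeries KK) c - qExpand KK (ℓ ^ 2) (f : LaurentSeries KK)) *
        ∏ b ∈ Finset.range ℓ, (algebraMap KK (LaurentSeries KK) c -
          Twist.twist (ζ ^ b) (pow_ne_zero b hζ0) (f : LaurentSeries KK)) := by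
  obtain ⟨w, hwc, hwα, hwβ⟩ := exists_swap_alpha_beta (N := N) (ℓ := ℓ) hp hℓN
  obtain ⟨ζ, hζ⟩ := HasEnoughRootsOfUnity.exists_primitiveRoot KK ℓ
  have hζ0 : ζ ≠ 0 := hζ.ne_zero (NeZero.ne ℓ)
  exact ⟨ζ, hζ0, hζ.pow_eq_one, fun c f =>
    norm_beta_sub N ℓ hp hℓN w hwc hwα hwβ ζ hζ0 hζ c f⟩

end Inst

end Fermat.Agent.S37X.ESNorm
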