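import Mathlib
import Fermat.Prelude.Def_ModularCurve_LaurentCoeff
import Fermat.Prelude.Def_ModularCurve_X0
import Fermat.Agent.S18.Gauss
import Fermat.Agent.S24.Twist
import Fermat.Agent.S37.FrobPow

/-!
# S37 (E1), local half: the Kronecker congruence on series with integral coefficients

Let `A` be a valuation ring of a field `L` whose residue field `k` has characteristic `ℓ`, and let
`ζ ∈ L` with `ζ ^ ℓ = 1`.  For a series `y ∈ A((q))`:

* `exists_twist` : `y(ζ q)` has coefficients in `A` and the same reduction as `y`;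
* `exists_prod` : `∏_{b < ℓ} (c - y(ζ^b q))` has coefficients in `A` and reduction
  `c̄^ℓ - ȳ^{Frob}(q^ℓ)`;
* `exists_unexpand` : if `Y(q) = g(q^m)` has coefficients in `A`, so has `g`, and
  `Ȳ(q) = ḡ(q^m)`;
* `exists_kronecker` : if `g(q^ℓ) = (c - y(q^{ℓ²})) ∏_{b < ℓ} (c - y(ζ^b q))`, then `g` has
  coefficients in `A` and reduction `(c̄ - ȳ(q^ℓ)) (c̄^ℓ - ȳ^{Frob}(q))`.
-/

set_option autoImplicit false

namespace Fermat.Agent.S37TwistRed

open ModularCurve HahnSeries Fermat.Agent.S18.Gauss Fermat.Agent.S24.Twist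

variable {L : Type*} [Field L] (A : ValuationSubring L)

/-! ### Series with coefficients in `A` -/

/-- A series all of whose coefficients lie in `A` comes from `A((q))`. -/
theorem exists_inc_of_coeff_mem {f : LaurentSeries L} (hf : ∀ n : ℤ, f.coeff n ∈ A) :
    ∃ y : LaurentSeries A, inc A y = f := by
  refine ⟨⟨fun n => ⟨f.coeff n, hf n⟩, f.isPWO_support.mono fun n hn => ?_⟩, ?_⟩
  · simp only [Function.mem_support, ne_eq] at hn
    simp only [HahnSeries.mem_support, ne_eq]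
    intro h
    exact hn (Subtype.ext h)
  · ext n
    rfl

theorem coeff_inc (y : LaurentSeries A) (n : ℤ) : (inc A y).coeff n = (y.coeff n : L) := rfl

theorem coeff_rd (y : LaurentSeries A) (n : ℤ) :
    (rd A y).coeff n = IsLocalRing.residue A (y.coeff n) := rfl

/-! ### Roots of unity -/

/-- Roots of unity lie in `A`. -/
theorem mem_of_pow_eq_one {ζ : L} {n : ℕ} (hn : n ≠ 0) (h : ζ ^ n = 1) : ζ ∈ A := by
  have hint : IsIntegral A ζ := by
    refine ⟨Polynomial.X ^ n - 1, Polynomial.monic_X_pow_sub_C (1 : A) hn, ?_⟩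
    simp [h]
  obtain ⟨y, hy⟩ := (IsIntegrallyClosed.isIntegral_iff (R := A) (K := L)).mp hint
  rw [← hy]
  exact y.2

/-- In residue characteristic `ℓ`, the `ℓ`-th roots of unity reduce to `1`. -/
theorem residue_eq_one (ℓ : ℕ) [ExpChar (IsLocalRing.ResidueField A) ℓ] {ζ : A}
    (h : ζ ^ ℓ = 1) : IsLocalRing.residue A ζ = 1 := by
  have h1 : (IsLocalRing.residue A ζ) ^ ℓ = 1 := by rw [← map_pow, h, map_one]
  have h2 : (IsLocalRing.residue A ζ - 1) ^ ℓ = 0 := by
    rw [sub_pow_expChar, h1, one_pow, sub_self]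
  exact sub_eq_zero.mp (pow_eq_zero_iff (expChar_ne_zero (IsLocalRing.ResidueField A) ℓ) |>.mp h2)

theorem zpow_pow_eq_one {ζ : L} {ℓ : ℕ} (h : ζ ^ ℓ = 1) (n : ℤ) : (ζ ^ n) ^ ℓ = 1 := by
  rw [← zpow_natCast, ← zpow_mul, mul_comm, zpow_mul, zpow_natCast, h, one_zpow]

theorem ne_zero_of_pow_eq_one {ζ : L} {ℓ : ℕ} (hℓ : ℓ ≠ 0) (h : ζ ^ ℓ = 1) : ζ ≠ 0 := by
  rintro rfl
  rw [zero_pow hℓ] at h
  exact zero_ne_one h

/-! ### The twist `q ↦ ζ q` -/

section Twist

variable (ℓ : ℕ) [NeZero ℓ] [ExpChar (IsLocalRing.ResidueField A) ℓ]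

/-- **(TR2)** For `ζ ^ ℓ = 1` the substitution `q ↦ ζ q` preserves `A((q))` and does not change
the reduction. -/
theorem exists_twist (ζ : L) (hζ0 : ζ ≠ 0) (hζ : ζ ^ ℓ = 1) (y : LaurentSeries A) :
    ∃ y' : LaurentSeries A, inc A y' = twist ζ hζ0 (inc A y) ∧ rd A y' = rd A y := by
  have hmem : ∀ n : ℤ, ζ ^ n ∈ A := fun n =>
    mem_of_pow_eq_one A (NeZero.ne ℓ) (zpow_pow_eq_one hζ n)
  obtain ⟨y', hy'⟩ := exists_inc_of_coeff_mem A (f := twist ζ hζ0 (inc A y)) (fun n => by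
    rw [coeff_twist, coeff_inc]
    exact A.mul_mem _ _ (hmem n) (y.coeff n).2)
  refine ⟨y', hy', ?_⟩
  ext n
  rw [coeff_rd, coeff_rd]
  have e1 : y'.coeff n = (⟨ζ ^ n, hmem n⟩ : A) * y.coeff n := by
    apply Subtype.ext
    have := congrArg (fun z : LaurentSeries L => z.coeff n) hy'
    simp only [coeff_twist] at this
    exact this
  have e2 : IsLocalRing.residue A (⟨ζ ^ n, hmem n⟩ : A) = 1 :=
    residue_eq_one A ℓ (Subtype.ext (zpow_pow_eq_one hζ n))
  rw [e1, map_mul, e2, one_mul]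

/-- **(TR3)** `∏_{b < ℓ} (c - y(ζ^b q)) ≡ c^ℓ - y^{Frob}(q^ℓ)`. -/
theorem exists_prod (ζ : L) (hζ : ζ ^ ℓ = 1) (c : A) (y : LaurentSeries A) :
    ∃ Y : LaurentSeries A,
      inc A Y = ∏ b ∈ Finset.range ℓ, (algebraMap L (LaurentSeries L) (c : L) -
        twist (ζ ^ b) (pow_ne_zero b (ne_zero_of_pow_eq_one (NeZero.ne ℓ) hζ)) (inc A y)) ∧
      rd A Y = algebraMap (IsLocalRing.ResidueField A) (LaurentSeries (IsLocalRing.ResidueField A))
          (IsLocalRing.residue A c ^ ℓ) -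
        qExpand (IsLocalRing.ResidueField A) ℓ
          (coeffMap (frobenius (IsLocalRing.ResidueField A) ℓ) (rd A y)) := by
  have hζ0 : ζ ≠ 0 := ne_zero_of_pow_eq_one (NeZero.ne ℓ) hζ
  have hb : ∀ b : ℕ, ∃ y' : LaurentSeries A,
      inc A y' = twist (ζ ^ b) (pow_ne_zero b hζ0) (inc A y) ∧ rd A y' = rd A y := fun b =>
    exists_twist A ℓ (ζ ^ b) (pow_ne_zero b hζ0)
      (by rw [← pow_mul, mul_comm, pow_mul, hζ, one_pow]) y
  choose y' hinc hrd using hb
  refine ⟨∏ b ∈ Finset.range ℓ, (HahnSeries.C c - y' b), ?_, ?_⟩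
  · rw [map_prod]
    refine Finset.prod_congr rfl fun b _ => ?_
    rw [map_sub, inc_C, hinc b]
  · rw [map_prod]
    have e1 : ∀ b ∈ Finset.range ℓ, rd A (HahnSeries.C c - y' b) =
        algebraMap (IsLocalRing.ResidueField A) (LaurentSeries (IsLocalRing.ResidueField A))
          (IsLocalRing.residue A c) - rd A y := fun b _ => by
      rw [map_sub, rd_C, hrd b]
    rw [Finset.prod_congr rfl e1, Finset.prod_const, Finset.card_range,
      Fermat.Agent.S37FrobPow.pow_eq_qExpand_coeffMap, map_sub, map_sub, coeffMap_algebraMap,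
      algebraMap_laurentSeries_eq_single, qExpand_single, mul_zero, frobenius_def,
      algebraMap_laurentSeries_eq_single]

end Twist

/-! ### Un-expansion -/

/-- **(TR4)** If `Y(q) = g(q^m)` has coefficients in `A`, so has `g`, and `Ȳ(q) = ḡ(q^m)`. -/
theorem exists_unexpand (m : ℕ) [NeZero m] (Y : LaurentSeries A) (g : LaurentSeries L)
    (h : inc A Y = qExpand L m g) :
    ∃ Y' : LaurentSeries A, inc A Y' = g ∧
      rd A Y = qExpand (IsLocalRing.ResidueField A) m (rd A Y') := by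
  have hc : ∀ n : ℤ, g.coeff n = (Y.coeff ((m : ℤ) * n) : L) := fun n => by
    rw [← coeff_inc, h, qExpand_coeff_mul]
  obtain ⟨Y', hY'⟩ := exists_inc_of_coeff_mem A (f := g) (fun n => by
    rw [hc n]
    exact (Y.coeff ((m : ℤ) * n)).2)
  refine ⟨Y', hY', ?_⟩
  have hY : Y = qExpand A m Y' := by
    apply inc_injective A
    ext n
    by_cases hn : (m : ℤ) ∣ n
    · obtain ⟨n', rfl⟩ := hn
      rw [coeff_inc, coeff_inc, qExpand_coeff_mul, ← coeff_inc, ← coeff_inc, hY', h,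
        qExpand_coeff_mul]
    · rw [h, qExpand_coeff_of_not_dvd m _ hn, coeff_inc, qExpand_coeff_of_not_dvd m _ hn]
      rfl
  ext n
  by_cases hn : (m : ℤ) ∣ n
  · obtain ⟨n', rfl⟩ := hn
    rw [qExpand_coeff_mul, coeff_rd, coeff_rd, hY, qExpand_coeff_mul]
  · rw [qExpand_coeff_of_not_dvd m _ hn, coeff_rd, hY, qExpand_coeff_of_not_dvd m _ hn, map_zero]

/-! ### The Kronecker congruence -/

section Kronecker

variable (ℓ : ℕ) [NeZero ℓ] [ExpChar (IsLocalRing.ResidueField A) ℓ]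

/-- **(TR5), the Kronecker congruence on series.**  If
`g(q^ℓ) = (c - y(q^{ℓ²})) ∏_{b < ℓ} (c - y(ζ^b q))` with `y ∈ A((q))`, `c ∈ A`, `ζ ^ ℓ = 1`, then
`g ∈ A((q))` and `ḡ = (c̄ - ȳ(q^ℓ)) (c̄^ℓ - ȳ^{Frob})`. -/
theorem exists_kronecker (ζ : L) (hζ : ζ ^ ℓ = 1) (c : A) (y : LaurentSeries A)
    (g : LaurentSeries L)
    (hg : qExpand L ℓ g =
      (algebraMap L (LaurentSeries L) (c : L) - qExpand L (ℓ ^ 2) (inc A y)) *
        ∏ b ∈ Finset.range ℓ, (algebraMap L (LaurentSeries L) (c : L) -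
          twist (ζ ^ b) (pow_ne_zero b (ne_zero_of_pow_eq_one (NeZero.ne ℓ) hζ)) (inc A y))) :
    ∃ G : LaurentSeries A, inc A G = g ∧
      rd A G =
        (algebraMap (IsLocalRing.ResidueField A) (LaurentSeries (IsLocalRing.ResidueField A))
            (IsLocalRing.residue A c) - qExpand (IsLocalRing.ResidueField A) ℓ (rd A y)) *
        (algebraMap (IsLocalRing.ResidueField A) (LaurentSeries (IsLocalRing.ResidueField A))
            (IsLocalRing.residue A c ^ ℓ) -
          coeffMap (frobenius (IsLocalRing.ResidueField A) ℓ) (rd A y)) := by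
  obtain ⟨Y, hYinc, hYrd⟩ := exists_prod A ℓ ζ hζ c y
  have hq : ∀ {R S : Type _} [CommRing R] [CommRing S] (φ : R →+* S) (d : ℕ) [NeZero d]
      (x : LaurentSeries R), coeffMap φ (qExpand R d x) = qExpand S d (coeffMap φ x) := by
    intro R S _ _ φ d _ x
    ext k
    by_cases hdk : (d : ℤ) ∣ k
    · obtain ⟨k', rfl⟩ := hdk
      rw [coeffMap_coeff, qExpand_coeff_mul, qExpand_coeff_mul, coeffMap_coeff]
    · rw [coeffMap_coeff, qExpand_coeff_of_not_dvd d _ hdk, qExpand_coeff_of_not_dvd d _ hdk,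
        map_zero]
  set Z : LaurentSeries A := (HahnSeries.C c - qExpand A (ℓ ^ 2) y) * Y with hZ
  have hZinc : inc A Z = qExpand L ℓ g := by
    rw [hg, hZ, map_mul, map_sub, inc_C, hYinc, hq]
  obtain ⟨G, hGinc, hGrd⟩ := exists_unexpand A ℓ Z g hZinc
  refine ⟨G, hGinc, ?_⟩
  apply qExpand_injective (R := IsLocalRing.ResidueField A) ℓ
  rw [← hGrd, hZ, map_mul, map_sub, rd_C, hYrd, hq, map_mul, map_sub, map_sub, qExpand_qExpand]
  have e1 : ∀ a : IsLocalRing.ResidueField A,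
      qExpand (IsLocalRing.ResidueField A) ℓ
        (algebraMap (IsLocalRing.ResidueField A) (LaurentSeries (IsLocalRing.ResidueField A)) a)
        = algebraMap (IsLocalRing.ResidueField A) (LaurentSeries (IsLocalRing.ResidueField A)) a :=
    fun a => by rw [algebraMap_laurentSeries_eq_single, qExpand_single, mul_zero]
  rw [e1, e1]
  congr 2
  exact qExpand_congr (pow_two ℓ) _

end Kronecker

end Fermat.Agent.S37TwistRed
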