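import Mathlib
import Fermat.Agent.S18.Charts
import Fermat.Agent.S18.HasseStab
import Fermat.Agent.S18.ResField
import Fermat.Agent.S37.ESNorm
import Fermat.Agent.S37.TwistRed

/-!
# S37 (E1): the Kronecker congruence for every Gauss-integral function

Let `ℓ ∤ N` be a prime, `A` a valuation ring of `KK` over `ℓ`, `k` its residue field.  For a
function `y` of level `N ℓ` let `normB y` be its norm to `FF N` along `β`.  For every `f` in the
Gauss ring `OO A N` (no integrality of the `q`-expansion is required):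

* `norm_mem_OO` : `normB (α f) ∈ OO A N`;
* `redN_norm` : its reduction is `f̄(q^ℓ) · f̄^{Frob}(q)`;
* `norm_sub_mem_OO`, `redN_norm_sub` : for `c ∈ A`, `normB (c - α f) ∈ OO A N` with reduction
  `(c̄ - f̄(q^ℓ)) (c̄^ℓ - f̄^{Frob}(q))`.
-/

set_option autoImplicit false
set_option linter.style.haveILetI false
set_option linter.unusedSectionVars false

noncomputable section

namespace Fermat.Agent.S37Kronecker

open ModularCurve AlgebraicCurve HahnSeries
open Fermat.Agent.S24 Fermat.Agent.S24.Eval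
open Fermat.Agent.S18.Gauss Fermat.Agent.S18.Lattice Fermat.Agent.S18

/-- the norm along `β` -/
def normB (N ℓ : ℕ) [NeZero N] [NeZero ℓ] (y : FF (N * ℓ)) : FF N :=
  letI := algebraAlong (heckeBetaBar KK N ℓ)
  Algebra.norm (FF N) y

theorem normB_def (N ℓ : ℕ) [NeZero N] [NeZero ℓ] (y : FF (N * ℓ)) :
    normB N ℓ y = (letI := algebraAlong (heckeBetaBar KK N ℓ); Algebra.norm (FF N) y) := rfl

theorem normB_mul (N ℓ : ℕ) [NeZero N] [NeZero ℓ] (x y : FF (N * ℓ)) :
    normB N ℓ (x * y) = normB N ℓ x * normB N ℓ y := by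
  letI := algebraAlong (heckeBetaBar KK N ℓ)
  exact map_mul (Algebra.norm (FF N)) x y

/-! ### The norm map on series in characteristic `ℓ` -/

section Nm

variable {k : Type*} [Field k] (ℓ : ℕ) [NeZero ℓ] [ExpChar k ℓ]

/-- `g ↦ g(q^ℓ) · g^{Frob}(q)` -/
def Nm (g : LaurentSeries k) : LaurentSeries k :=
  qExpand k ℓ g * coeffMap (frobenius k ℓ) g

theorem Nm_mul (g h : LaurentSeries k) : Nm ℓ (g * h) = Nm ℓ g * Nm ℓ h := by
  unfold Nm
  rw [map_mul, map_mul]
  ring

theorem Nm_ne_zero {g : LaurentSeries k} (hg : g ≠ 0) : Nm ℓ g ≠ 0 := by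
  unfold Nm
  refine mul_ne_zero (fun h => hg ((qExpand k ℓ).injective (by rw [h, map_zero])))
    (fun h => hg ?_)
  ext n
  have h1 := congrArg (fun z : LaurentSeries k => z.coeff n) h
  simp only [coeffMap_coeff, HahnSeries.coeff_zero] at h1
  rw [HahnSeries.coeff_zero]
  exact (frobenius k ℓ).injective (by rw [h1, map_zero])

theorem Nm_algebraMap_sub (c : k) (g : LaurentSeries k) :
    Nm ℓ (algebraMap k (LaurentSeries k) c - g) =
      (algebraMap k (LaurentSeries k) c - qExpand k ℓ g) *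
        (algebraMap k (LaurentSeries k) (c ^ ℓ) - coeffMap (frobenius k ℓ) g) := by
  unfold Nm
  rw [map_sub, map_sub, coeffMap_algebraMap, frobenius_def,
    Fermat.Agent.S37X.ESNorm.qExpand_algebraMap_KK]

end Nm

/-! ### Functions with integral `q`-expansion -/

section Main

variable {A : ValuationSubring KK} {ℓ : ℕ} [Fact ℓ.Prime] [NeZero ℓ] {N : ℕ} [NeZero N]

/-- **Step 1**: for a function `z` with `A`-integral `q`-expansion `y`, the norm of `α z` has an
`A`-integral `q`-expansion, with reduction `Nm ȳ`. -/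
theorem exists_norm_series (hA : A.LiesOverPrime ℓ) (hℓN : ¬ ℓ ∣ N) (z : FF N)
    (y : LaurentSeries A) (hy : inc A y = (z : LaurentSeries KK)) :
    haveI := ResField.charP_residueField hA
    ∃ G : LaurentSeries A,
      inc A G = ((normB N ℓ (heckeAlphaBar KK N ℓ z) : FF N) : LaurentSeries KK) ∧
      rd A G = Nm ℓ (rd A y) := by
  haveI := ResField.charP_residueField hA
  haveI : NeZero (N * ℓ) := ⟨mul_ne_zero (NeZero.ne N) (NeZero.ne ℓ)⟩
  obtain ⟨ζ, hζ0, hζ, hnorm⟩ :=
    Fermat.Agent.S37X.ESNorm.exists_norm_beta_sub N ℓ (Fact.out : ℓ.Prime) hℓN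
  have h1 := hnorm 0 (-z)
  have e1 : algebraMap KK (FF (N * ℓ)) 0 - heckeAlphaBar KK N ℓ (-z) =
      heckeAlphaBar KK N ℓ z := by
    rw [map_zero, map_neg, zero_sub, neg_neg]
  rw [e1] at h1
  have e2 : ((-z : FF N) : LaurentSeries KK) = inc A (-y) := by
    rw [map_neg, hy]
    rfl
  rw [e2] at h1
  have e3 : algebraMap KK (LaurentSeries KK) 0 =
      algebraMap KK (LaurentSeries KK) (((0 : A) : KK)) := rfl
  rw [e3] at h1
  obtain ⟨G, hG, hGrd⟩ := Fermat.Agent.S37TwistRed.exists_kronecker A ℓ ζ hζ (0 : A) (-y)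
    ((normB N ℓ (heckeAlphaBar KK N ℓ z) : FF N) : LaurentSeries KK) h1
  refine ⟨G, hG, ?_⟩
  rw [hGrd]
  unfold Nm
  rw [map_zero, zero_pow (NeZero.ne ℓ), map_zero, map_neg, map_neg, map_neg, zero_sub, zero_sub,
    neg_neg, neg_neg]

/-- a function of `FF N` with an `A`-integral `q`-expansion, as an integral series -/
theorem isInt_of_inc (hA : A.LiesOverPrime ℓ) (hℓN : ¬ ℓ ∣ N) (z : FF N)
    (y : LaurentSeries A) (hy : inc A y = (z : LaurentSeries KK)) :
    IsInt A (modularFunctionFieldBar N) (FkN A N) y :=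
  Charts.isInt_of_mem A N (HasseStab.mem_OO_of_inc A N hA hℓN hy) hy

/-- **Step 2**: the norm of `α f` is Gauss-integral for every Gauss-integral `f`, and its
reduction is `Nm f̄`. -/
theorem norm_mem_OO_and (hA : A.LiesOverPrime ℓ) (hℓN : ¬ ℓ ∣ N) (f : OO A N) :
    haveI := ResField.charP_residueField hA
    ∃ h : normB N ℓ (heckeAlphaBar KK N ℓ (f : FF N)) ∈ OO A N,
      ((redN A N ⟨_, h⟩ : FkN A N) : LaurentSeries (IsLocalRing.ResidueField A)) =
        Nm ℓ ((redN A N f : FkN A N) : LaurentSeries (IsLocalRing.ResidueField A)) := by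
  haveI := ResField.charP_residueField hA
  obtain ⟨n, Y, hn, hY, h⟩ := f.2
  set nF : FF N := ⟨inc A n, hn.1⟩ with hnF
  set YF : FF N := ⟨inc A Y, hY.1.1⟩ with hYF
  have hmul : (f : FF N) * YF = nF := Subtype.ext h
  have hnorm : normB N ℓ (heckeAlphaBar KK N ℓ (f : FF N)) *
      normB N ℓ (heckeAlphaBar KK N ℓ YF) = normB N ℓ (heckeAlphaBar KK N ℓ nF) := by
    rw [← normB_mul, ← map_mul, hmul]
  obtain ⟨GY, hGY, hGYrd⟩ := exists_norm_series hA hℓN YF Y rfl
  obtain ⟨Gn, hGn, hGnrd⟩ := exists_norm_series hA hℓN nF n rfl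
  have hIY : IsInt A (modularFunctionFieldBar N) (FkN A N) GY := isInt_of_inc hA hℓN _ GY hGY
  have hIn : IsInt A (modularFunctionFieldBar N) (FkN A N) Gn := isInt_of_inc hA hℓN _ Gn hGn
  have hUY : IsIntU A (modularFunctionFieldBar N) (FkN A N) GY := by
    refine ⟨hIY, ?_⟩
    rw [hGYrd]
    exact Nm_ne_zero ℓ hY.2
  have hpres : ((normB N ℓ (heckeAlphaBar KK N ℓ (f : FF N)) : FF N) : LaurentSeries KK) *
      inc A GY = inc A Gn := by
    rw [hGY, hGn, ← hnorm]
    rfl
  have hmem : normB N ℓ (heckeAlphaBar KK N ℓ (f : FF N)) ∈ OO A N := ⟨Gn, GY, hIn, hUY, hpres⟩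
  refine ⟨hmem, ?_⟩
  have h1 := red_mul_rd (F := modularFunctionFieldBar N) (Fk := FkN A N)
    ⟨normB N ℓ (heckeAlphaBar KK N ℓ (f : FF N)), hmem⟩ hIn hUY hpres
  have h2 := red_mul_rd (F := modularFunctionFieldBar N) (Fk := FkN A N) f hn hY h
  rw [hGYrd, hGnrd, ← h2, Nm_mul] at h1
  exact mul_right_cancel₀ (Nm_ne_zero ℓ hY.2) h1

theorem norm_mem_OO (hA : A.LiesOverPrime ℓ) (hℓN : ¬ ℓ ∣ N) (f : OO A N) :
    normB N ℓ (heckeAlphaBar KK N ℓ (f : FF N)) ∈ OO A N :=
  (norm_mem_OO_and hA hℓN f).1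

/-- **(E1)** for `α f`: the reduction of the norm is `f̄(q^ℓ) · f̄^{Frob}(q)`. -/
theorem redN_norm (hA : A.LiesOverPrime ℓ) (hℓN : ¬ ℓ ∣ N) (f : OO A N) :
    haveI := ResField.charP_residueField hA
    ((redN A N ⟨_, norm_mem_OO hA hℓN f⟩ : FkN A N) :
        LaurentSeries (IsLocalRing.ResidueField A)) =
      qExpand (IsLocalRing.ResidueField A) ℓ
          ((redN A N f : FkN A N) : LaurentSeries (IsLocalRing.ResidueField A)) *
        coeffMap (frobenius (IsLocalRing.ResidueField A) ℓ)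
          ((redN A N f : FkN A N) : LaurentSeries (IsLocalRing.ResidueField A)) :=
  (norm_mem_OO_and hA hℓN f).2

/-- `c - f` as an element of the Gauss ring -/
def cSub (c : A) (f : OO A N) : OO A N :=
  ⟨algebraMap KK (FF N) (c : KK), algebraMap_mem_gaussRing c⟩ - f

theorem coe_cSub (c : A) (f : OO A N) :
    ((cSub c f : OO A N) : FF N) = algebraMap KK (FF N) (c : KK) - (f : FF N) := rfl

theorem redN_cSub (c : A) (f : OO A N) :
    ((redN A N (cSub c f) : FkN A N) : LaurentSeries (IsLocalRing.ResidueField A)) =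
      algebraMap (IsLocalRing.ResidueField A) (LaurentSeries (IsLocalRing.ResidueField A))
          (IsLocalRing.residue A c) -
        ((redN A N f : FkN A N) : LaurentSeries (IsLocalRing.ResidueField A)) := by
  have h1 : redN A N (cSub c f) =
      redN A N ⟨algebraMap KK (FF N) (c : KK), algebraMap_mem_gaussRing c⟩ - redN A N f :=
    map_sub (redN A N) _ _
  have h2 := congrArg (fun x : FkN A N =>
    (x : LaurentSeries (IsLocalRing.ResidueField A)))
    (red_algebraMap (F := modularFunctionFieldBar N) (Fk := FkN A N) c)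
  rw [h1]
  show ((redN A N ⟨algebraMap KK (FF N) (c : KK), algebraMap_mem_gaussRing c⟩ : FkN A N) :
      LaurentSeries (IsLocalRing.ResidueField A)) - _ = _
  congr 1

theorem alpha_cSub (c : A) (f : OO A N) :
    heckeAlphaBar KK N ℓ ((cSub c f : OO A N) : FF N) =
      algebraMap KK (FF (N * ℓ)) (c : KK) - heckeAlphaBar KK N ℓ (f : FF N) := by
  rw [coe_cSub, map_sub, AlgHom.commutes]

/-- **(E1)**: for `c ∈ A` and `f` Gauss-integral, the norm of `c - α f` along `β` is
Gauss-integral. -/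
theorem norm_sub_mem_OO (hA : A.LiesOverPrime ℓ) (hℓN : ¬ ℓ ∣ N) (c : A) (f : OO A N) :
    (letI := algebraAlong (heckeBetaBar KK N ℓ)
     Algebra.norm (FF N)
      (algebraMap KK (FF (N * ℓ)) (c : KK) - heckeAlphaBar KK N ℓ (f : FF N))) ∈ OO A N := by
  have h := norm_mem_OO (ℓ := ℓ) hA hℓN (cSub c f)
  rw [alpha_cSub] at h
  exact h

/-- **(E1), the Kronecker congruence**: the reduction of the norm of `c - α f` along `β` is
`(c̄ - f̄(q^ℓ)) (c̄^ℓ - f̄^{Frob}(q))`. -/
theorem redN_norm_sub (hA : A.LiesOverPrime ℓ) (hℓN : ¬ ℓ ∣ N) (c : A) (f : OO A N) :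
    haveI := ResField.charP_residueField hA
    ((redN A N ⟨_, norm_sub_mem_OO hA hℓN c f⟩ : FkN A N) :
        LaurentSeries (IsLocalRing.ResidueField A)) =
      (algebraMap (IsLocalRing.ResidueField A) (LaurentSeries (IsLocalRing.ResidueField A))
          (IsLocalRing.residue A c) -
        qExpand (IsLocalRing.ResidueField A) ℓ
          ((redN A N f : FkN A N) : LaurentSeries (IsLocalRing.ResidueField A))) *
      (algebraMap (IsLocalRing.ResidueField A) (LaurentSeries (IsLocalRing.ResidueField A))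
          (IsLocalRing.residue A c ^ ℓ) -
        coeffMap (frobenius (IsLocalRing.ResidueField A) ℓ)
          ((redN A N f : FkN A N) : LaurentSeries (IsLocalRing.ResidueField A))) := by
  haveI := ResField.charP_residueField hA
  obtain ⟨hmem, h⟩ := norm_mem_OO_and (ℓ := ℓ) hA hℓN (cSub c f)
  have e : (⟨_, norm_sub_mem_OO hA hℓN c f⟩ : OO A N) =
      ⟨normB N ℓ (heckeAlphaBar KK N ℓ ((cSub c f : OO A N) : FF N)), hmem⟩ := by
    apply Subtype.ext
    show _ = normB N ℓ (heckeAlphaBar KK N ℓ ((cSub c f : OO A N) : FF N))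
    rw [alpha_cSub]
    rfl
  have key := congrArg (fun x : OO A N =>
    ((redN A N x : FkN A N) : LaurentSeries (IsLocalRing.ResidueField A))) e
  rw [key, h, redN_cSub]
  exact Nm_algebraMap_sub ℓ (IsLocalRing.residue A c) _

end Main

end Fermat.Agent.S37Kronecker
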