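import Mathlib
import Fermat.Agent.S37.Kronecker

/-!
# S37 (E1): the Kronecker congruence, existence forms

The statements of `Kronecker.lean` in the existence shape `∃ n : OO A N, (n : FF N) = norm ∧ …`,
with the primality of `ℓ` as an explicit hypothesis and an arbitrary instance of
`ExpChar k ℓ`.
-/

set_option autoImplicit false
set_option linter.style.haveILetI false
set_option linter.unusedSectionVars false
set_option linter.unusedVariables false

noncomputable section

namespace Fermat.Agent.S37KroneckerX

open ModularCurve AlgebraicCurve HahnSeries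
open Fermat.Agent.S24 Fermat.Agent.S24.Eval
open Fermat.Agent.S18.Gauss Fermat.Agent.S18.Lattice Fermat.Agent.S18

variable {A : ValuationSubring KK} {ℓ : ℕ} [NeZero ℓ] {N : ℕ} [NeZero N]
  [ExpChar (IsLocalRing.ResidueField A) ℓ]

/-- **(E1)** for `α f`, existence form. -/
theorem exists_norm_red (hA : A.LiesOverPrime ℓ) (hp : ℓ.Prime) (hℓN : ¬ ℓ ∣ N) (f : OO A N) :
    ∃ n : OO A N,
      (n : FF N) = (letI := algebraAlong (heckeBetaBar KK N ℓ)
        Algebra.norm (FF N) (heckeAlphaBar KK N ℓ (f : FF N))) ∧
      ((redN A N n : FkN A N) : LaurentSeries (IsLocalRing.ResidueField A)) =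
        qExpand (IsLocalRing.ResidueField A) ℓ
            ((redN A N f : FkN A N) : LaurentSeries (IsLocalRing.ResidueField A)) *
          coeffMap (frobenius (IsLocalRing.ResidueField A) ℓ)
            ((redN A N f : FkN A N) : LaurentSeries (IsLocalRing.ResidueField A)) := by
  haveI : Fact ℓ.Prime := ⟨hp⟩
  exact ⟨⟨_, Fermat.Agent.S37Kronecker.norm_mem_OO hA hℓN f⟩, rfl,
    Fermat.Agent.S37Kronecker.redN_norm hA hℓN f⟩

/-- **(E1), the Kronecker congruence**, existence form. -/
theorem exists_norm_sub_red (hA : A.LiesOverPrime ℓ) (hp : ℓ.Prime) (hℓN : ¬ ℓ ∣ N) (c : A)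
    (f : OO A N) :
    ∃ n : OO A N,
      (n : FF N) = (letI := algebraAlong (heckeBetaBar KK N ℓ)
        Algebra.norm (FF N)
          (algebraMap KK (FF (N * ℓ)) (c : KK) - heckeAlphaBar KK N ℓ (f : FF N))) ∧
      ((redN A N n : FkN A N) : LaurentSeries (IsLocalRing.ResidueField A)) =
        (algebraMap (IsLocalRing.ResidueField A) (LaurentSeries (IsLocalRing.ResidueField A))
            (IsLocalRing.residue A c) -
          qExpand (IsLocalRing.ResidueField A) ℓ
            ((redN A N f : FkN A N) : LaurentSeries (IsLocalRing.ResidueField A))) *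
        (algebraMap (IsLocalRing.ResidueField A) (LaurentSeries (IsLocalRing.ResidueField A))
            (IsLocalRing.residue A c ^ ℓ) -
          coeffMap (frobenius (IsLocalRing.ResidueField A) ℓ)
            ((redN A N f : FkN A N) : LaurentSeries (IsLocalRing.ResidueField A))) := by
  haveI : Fact ℓ.Prime := ⟨hp⟩
  exact ⟨⟨_, Fermat.Agent.S37Kronecker.norm_sub_mem_OO hA hℓN c f⟩, rfl,
    Fermat.Agent.S37Kronecker.redN_norm_sub hA hℓN c f⟩

end Fermat.Agent.S37KroneckerX
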