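import Mathlib
import Fermat.Agent.S37.GalRed
import Fermat.Agent.S37.FrobPow
import Fermat.Agent.S37.CentreVal

/-!
# S37, leaf (P3) of T4: the value of `g(q^ℓ) · g^{Frob}(q)` at a place

`k` a field of characteristic `ℓ` with a Frobenius automorphism `φ`, `Fk` the function field of
`X₀(N)` over `k`, `Φ := coeffAut k N φ` the coefficientwise action.  For `g ∈ Fk` the series
`qExpand ℓ g` is `(Φ⁻¹ g) ^ ℓ` and `coeffMap Frob g` is `Φ g`; hence if `g` has the value `b₁` at
`Φ Q` and the value `b₂` at `Φ⁻¹ Q`, then `n' = qExpand ℓ g * coeffMap Frob g` has the value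
`b₁ * b₂ ^ ℓ` at `Q` (`hasVal_nm`).

Values are multiplicative without any hypothesis on the residue field (`hasVal_mul`,
`hasVal_pow`).
-/

set_option autoImplicit false
set_option linter.style.haveILetI false
set_option linter.unusedSectionVars false
set_option synthInstance.maxHeartbeats 400000

noncomputable section

namespace Fermat.Agent.S37X.NmVal

open ModularCurve AlgebraicCurve HahnSeries
open Fermat.Agent.S24 Fermat.Agent.S37.CentreVal Fermat.Agent.S37GalRed

/-! ### Values are multiplicative -/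

section Generic

variable {K F : Type*} [Field K] [Field F] [Algebra K F] (P : Place K F)

/-- The value of a product, without any hypothesis on the residue field. -/
theorem hasVal_mul {f g : F} {a b : K} (hf : HasVal P f a) (hg : HasVal P g b) :
    HasVal P (f * g) (a * b) := by
  have h1 := (residue_eq_iff P ⟨f, hf.mem P⟩ a).mpr hf
  have h2 := (residue_eq_iff P ⟨g, hg.mem P⟩ b).mpr hg
  have h3 : IsLocalRing.residue P.toValuationSubring (⟨f, hf.mem P⟩ * ⟨g, hg.mem P⟩) =
      algebraMap K P.ResidueField (a * b) := by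
    rw [map_mul, h1, h2, map_mul]
  exact (residue_eq_iff P (⟨f, hf.mem P⟩ * ⟨g, hg.mem P⟩) (a * b)).mp h3

/-- The value of a power. -/
theorem hasVal_pow {f : F} {a : K} (hf : HasVal P f a) (n : ℕ) :
    HasVal P (f ^ n) (a ^ n) := by
  induction n with
  | zero =>
    rw [pow_zero, pow_zero]
    left
    rw [map_one]
  | succ n ih =>
    rw [pow_succ, pow_succ]
    exact hasVal_mul P ih hf

end Generic

/-! ### The two factors -/

section Factors

variable {k : Type*} [Field k] (N : ℕ) [NeZero N] (ℓ : ℕ) [NeZero ℓ] [ExpChar k ℓ]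

/-- A Frobenius automorphism is the Frobenius endomorphism. -/
theorem coe_eq_frobenius (φ : RingAut k) (hφ : ∀ x, φ x = x ^ ℓ) :
    ((φ : k ≃+* k) : k →+* k) = frobenius k ℓ :=
  RingHom.ext fun x => by
    rw [frobenius_def]
    exact hφ x

/-- `g^{Frob}(q) = Φ g`. -/
theorem coeffMap_frobenius_eq (φ : RingAut k) (hφ : ∀ x, φ x = x ^ ℓ)
    (g : modularFunctionFieldFullC k N) :
    coeffMap (frobenius k ℓ) (g : LaurentSeries k) =
      ((coeffAut k N φ • g : modularFunctionFieldFullC k N) : LaurentSeries k) := by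
  rw [coe_coeffAut_smul, coe_eq_frobenius ℓ φ hφ]

/-- `g(q^ℓ) = (Φ⁻¹ g) ^ ℓ`. -/
theorem qExpand_eq_smul_pow (φ : RingAut k) (hφ : ∀ x, φ x = x ^ ℓ)
    (g : modularFunctionFieldFullC k N) :
    qExpand k ℓ (g : LaurentSeries k) =
      (((coeffAut k N φ⁻¹ • g : modularFunctionFieldFullC k N) ^ ℓ :
        modularFunctionFieldFullC k N) : LaurentSeries k) := by
  have h1 : (((coeffAut k N φ⁻¹ • g : modularFunctionFieldFullC k N) ^ ℓ :
      modularFunctionFieldFullC k N) : LaurentSeries k) =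
      (coeffMap ((φ⁻¹ : RingAut k) : k →+* k) (g : LaurentSeries k)) ^ ℓ := rfl
  rw [h1, Fermat.Agent.S37FrobPow.pow_eq_qExpand_coeffMap, coeffMap_coeffMap,
    ← coe_eq_frobenius ℓ φ hφ]
  congr 1
  have h2 : ((φ : k ≃+* k) : k →+* k).comp ((φ⁻¹ : RingAut k) : k →+* k) = RingHom.id k :=
    RingHom.ext fun x => by
      show φ (φ⁻¹ x) = x
      exact RingEquiv.apply_symm_apply φ x
  rw [coeffMap_congr h2, coeffMap_id]

end Factors

/-! ### The value -/

/-- **(P3)** the value of `n' = g(q^ℓ) · g^{Frob}(q)` at `Q` is `b₁ * b₂ ^ ℓ`, where `b₁` is the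
value of `g` at `Φ Q` and `b₂` the value of `g` at `Φ⁻¹ Q`. -/
theorem hasVal_nm {k : Type*} [Field k] (N : ℕ) [NeZero N] (ℓ : ℕ) [NeZero ℓ] [ExpChar k ℓ]
    (φ : RingAut k) (hφ : ∀ x, φ x = x ^ ℓ) (Q : Place k (modularFunctionFieldFullC k N))
    (g n' : modularFunctionFieldFullC k N) (b₁ b₂ : k)
    (h₁ : HasVal (coeffAut k N φ • Q) g b₁) (h₂ : HasVal (coeffAut k N φ⁻¹ • Q) g b₂)
    (hn : (n' : LaurentSeries k) =
      qExpand k ℓ (g : LaurentSeries k) * coeffMap (frobenius k ℓ) (g : LaurentSeries k)) :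
    HasVal Q n' (b₁ * b₂ ^ ℓ) := by
  have e : n' = (coeffAut k N φ⁻¹ • g) ^ ℓ * (coeffAut k N φ • g) := by
    apply Subtype.ext
    rw [hn, qExpand_eq_smul_pow N ℓ φ hφ g, coeffMap_frobenius_eq N ℓ φ hφ g]
    rfl
  -- the value of `Φ⁻¹ g` at `Q`
  have v1 : HasVal Q (coeffAut k N φ⁻¹ • g) (φ⁻¹ b₁) := by
    have h := hasVal_smul k N φ⁻¹ (coeffAut k N φ • Q) g b₁ h₁
    rw [map_inv, inv_smul_smul] at h
    exact h
  -- the value of `Φ g` at `Q`
  have v2 : HasVal Q (coeffAut k N φ • g) (φ b₂) := by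
    have h := hasVal_smul k N φ (coeffAut k N φ⁻¹ • Q) g b₂ h₂
    rw [map_inv, smul_inv_smul] at h
    exact h
  have e1 : (φ⁻¹ b₁) ^ ℓ = b₁ := by
    rw [← hφ]
    exact RingEquiv.apply_symm_apply φ b₁
  have h := hasVal_mul Q (hasVal_pow Q v1 ℓ) v2
  rw [e1, hφ b₂] at h
  rw [e]
  exact h

end Fermat.Agent.S37X.NmVal
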