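import Mathlib
import Fermat.Prelude.Def_AlgebraicCurve_Correspondence
import Fermat.Agent.S24.FFPlaces
import Fermat.Agent.S24.FFFiber

/-!
# S37 gamble, leaf (E2)/(G2): the value of a norm at a place

For a finite separable extension `F'/F` of function fields over `K` (all residue fields of the
places of `F'` equal to `K`), a place `P` of `F` and `g : F'` regular at every place `W` over `P`
with value `c W`:

  `N_{F'/F}(g)` is regular at `P` with value `∏_{W | P} (c W) ^ e_W`.

* `det_piMap`: determinant of a diagonal endomorphism of a dependent product;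
* `norm_of_isNilpotent_sub`: `N(x) = c ^ dim` if `x - c` is nilpotent;
* `norm_quotient_mk`, `quotient_mk_norm_eq_prod`: the norm modulo the maximal ideal of a local
  base, as a product over the primes above it (Dedekind extension, finite free);
* `norm_hasVal_aux`: the statement for a discrete valuation ring `R ⊆ O_P` and a Dedekind
  domain `S`, finite free over `R`;
* `norm_hasVal`: the statement in instance form (`[Algebra F F']`);
* `norm_hasVal_along`: the statement along an algebra homomorphism `φ : F →ₐ[K] F'`, in the
  shape of the prelude (`fiberAlong`, `ramificationIndexAlong`).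
-/

set_option autoImplicit false
set_option linter.deprecated false
set_option linter.style.longLine false
set_option linter.unusedSectionVars false
set_option linter.unusedVariables false
set_option linter.style.haveILetI false

namespace Fermat.Agent.S37X.NormVal

open Module IsLocalRing Ideal UniqueFactorizationMonoid AlgebraicCurve IsDedekindDomain

section DetPi

variable {κ : Type*} [CommRing κ]

/-- determinant of a diagonal endomorphism of a dependent product -/
theorem det_piMap {ι : Type*} [Fintype ι] {M : ι → Type*}
    [∀ i, AddCommGroup (M i)] [∀ i, Module κ (M i)] [∀ i, Module.Free κ (M i)]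
    [∀ i, Module.Finite κ (M i)] (f : ∀ i, M i →ₗ[κ] M i) :
    LinearMap.det (LinearMap.piMap f) = ∏ i, LinearMap.det (f i) := by
  classical
  let n : ι → Type _ := fun i => Module.Free.ChooseBasisIndex κ (M i)
  let b : ∀ i, Module.Basis (n i) κ (M i) := fun i => Module.Free.chooseBasis κ (M i)
  let B : Module.Basis (Σ i, n i) κ (∀ i, M i) := Pi.basis b
  let _ : LinearOrder ι := LinearOrder.lift' (Fintype.equivFin ι) (Fintype.equivFin ι).injective
  set A := LinearMap.toMatrix B B (LinearMap.piMap f) with hA
  have hentry : ∀ (i : ι) (a : n i) (j : ι) (c : n j),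
      A ⟨i, a⟩ ⟨j, c⟩ = (b i).repr (f i ((Pi.single j (b j c) : ∀ i, M i) i)) a := by
    intro i a j c
    rw [hA, LinearMap.toMatrix_apply, Pi.basis_repr, Pi.basis_apply]
    rfl
  have htri : A.BlockTriangular Sigma.fst := by
    rintro ⟨i, a⟩ ⟨j, c⟩ hij
    have hne : i ≠ j := ne_of_gt hij
    rw [hentry, Pi.single_eq_of_ne hne, map_zero, map_zero, Finsupp.zero_apply]
  rw [← LinearMap.det_toMatrix B, ← hA, htri.det_fintype]
  refine Finset.prod_congr rfl fun k _ => ?_
  rw [← LinearMap.det_toMatrix (b k), Matrix.toSquareBlock_def,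
    ← Matrix.det_reindex_self (Equiv.sigmaSubtype k)]
  congr 1
  ext x y
  simp only [Matrix.reindex_apply, Matrix.submatrix_apply, Matrix.of_apply]
  rw [hentry, LinearMap.toMatrix_apply]
  simp [Equiv.sigmaSubtype]
  try rfl

end DetPi

section Nilp

variable {κ B : Type*} [Field κ] [CommRing B] [Algebra κ B] [Module.Finite κ B]

theorem norm_of_isNilpotent_sub (x : B) (c : κ) (h : IsNilpotent (x - algebraMap κ B c)) :
    Algebra.norm κ x = c ^ finrank κ B := by
  have h1 : IsNilpotent (-(Algebra.lmul κ B (x - algebraMap κ B c))) := (h.map _).neg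
  have h2 := h1.charpoly_eq_X_pow_finrank
  have h3 := LinearMap.eval_charpoly (-(Algebra.lmul κ B (x - algebraMap κ B c))) c
  rw [h2, Polynomial.eval_pow, Polynomial.eval_X] at h3
  rw [Algebra.norm_apply, h3]
  congr 1
  rw [sub_neg_eq_add, map_sub, AlgHom.commutes]
  abel

end Nilp

section PartA

variable {R S : Type*} [CommRing R] [CommRing S] [Algebra R S]

attribute [local instance] Ideal.Quotient.field

local notation "p" => maximalIdeal R
local notation "pS" => Ideal.map (algebraMap R S) p

theorem norm_quotient_mk [IsLocalRing R] [Module.Free R S] [Module.Finite R S] (x : S) :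
    Algebra.norm (R ⧸ p) (Ideal.Quotient.mk pS x) = Ideal.Quotient.mk p (Algebra.norm R x) := by
  classical
  let ι := Module.Free.ChooseBasisIndex R S
  let b : Module.Basis ι R S := Module.Free.chooseBasis R S
  rw [Algebra.norm_eq_matrix_det b, Algebra.norm_eq_matrix_det (basisQuotient b),
    RingHom.map_det]
  congr 1
  ext i j
  simp only [Algebra.leftMulMatrix_apply, Algebra.coe_lmul_eq_mul, LinearMap.toMatrix_apply,
    basisQuotient_apply, LinearMap.mul_apply', RingHom.mapMatrix_apply, Matrix.map_apply, ← map_mul,
    basisQuotient_repr]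

variable [IsLocalRing R] [IsDedekindDomain S] [Module.Free R S] [Module.Finite R S]

theorem quotient_mk_norm_eq_prod (hp : pS ≠ ⊥) (g : S) (c : Ideal S → R)
    (hc : ∀ Q ∈ (factors pS).toFinset, g - algebraMap R S (c Q) ∈ Q) :
    Ideal.Quotient.mk p (Algebra.norm R g) =
      ∏ Q ∈ (factors pS).toFinset,
        (Ideal.Quotient.mk p (c Q)) ^ (ramificationIdx' p Q * inertiaDeg' p Q) := by
  classical
  rw [← norm_quotient_mk, Algebra.norm_apply]
  set e := Factors.piQuotientLinearEquiv S p hp with he
  have hconj : (e : (S ⧸ pS) →ₗ[R ⧸ p] _) ∘ₗ (Algebra.lmul (R ⧸ p) (S ⧸ pS) (Ideal.Quotient.mk pS g)) ∘ₗ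
      (e.symm : _ →ₗ[R ⧸ p] (S ⧸ pS)) =
      LinearMap.piMap (fun P : (factors pS).toFinset =>
        Algebra.lmul (R ⧸ p) (S ⧸ (P : Ideal S) ^ ramificationIdx' p (P : Ideal S))
          (Ideal.Quotient.mk _ g)) := by
    apply LinearMap.ext
    intro v
    obtain ⟨u, rfl⟩ := e.surjective v
    obtain ⟨u, rfl⟩ := Ideal.Quotient.mk_surjective u
    funext P
    simp only [LinearMap.comp_apply, LinearEquiv.coe_coe, LinearEquiv.symm_apply_apply,
      Algebra.coe_lmul_eq_mul, LinearMap.mul_apply']
    rw [← map_mul]
    show (Factors.piQuotientEquiv p hp (Ideal.Quotient.mk pS (g * u))) P =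
      Ideal.Quotient.mk _ g * (Factors.piQuotientEquiv p hp (Ideal.Quotient.mk pS u)) P
    rw [Factors.piQuotientEquiv_mk, Factors.piQuotientEquiv_mk]
    exact map_mul _ _ _
  rw [← LinearMap.det_conj _ e, hconj, det_piMap]
  refine Eq.trans ?_ (Finset.prod_coe_sort (factors pS).toFinset
    (fun Q => (Ideal.Quotient.mk p (c Q)) ^ (ramificationIdx' p Q * inertiaDeg' p Q)))
  refine Finset.prod_congr rfl fun P _ => ?_
  have hnil : IsNilpotent ((Ideal.Quotient.mk ((P : Ideal S) ^ ramificationIdx' p (P : Ideal S)) g) -
      algebraMap (R ⧸ p) (S ⧸ (P : Ideal S) ^ ramificationIdx' p (P : Ideal S))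
        (Ideal.Quotient.mk p (c P))) := by
    refine ⟨ramificationIdx' p (P : Ideal S), ?_⟩
    rw [Quotient.algebraMap_quotient_pow_ramificationIdx, ← map_sub, ← map_pow,
      Ideal.Quotient.eq_zero_iff_mem]
    exact Ideal.pow_mem_pow (hc P P.2) _
  have := norm_of_isNilpotent_sub _ _ hnil
  rw [Algebra.norm_apply] at this
  rw [this, Factors.finrank_pow_ramificationIdx]

end PartA


section PartB

variable {K F F' : Type*} [Field K] [Field F] [Field F'] [Algebra K F] [Algebra K F']
  [Algebra F F'] [IsScalarTower K F F'] [Algebra.IsIntegral F F'] [HasPrincipalDivisors K F']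
variable {R : Type*} [CommRing R] [IsDomain R] [IsDiscreteValuationRing R] [Algebra K R]
  [Algebra R F] [IsScalarTower K R F] [IsFractionRing R F]
variable {S : Type*} [CommRing S] [IsDedekindDomain S] [Algebra K S] [Algebra S F']
  [IsScalarTower K S F'] [IsFractionRing S F'] [Algebra R S] [Algebra R F']
  [IsScalarTower R S F'] [IsScalarTower R F F'] [IsScalarTower K R S] [Module.IsTorsionFree R S]

variable (R) in
/-- the closed point of the discrete valuation ring `R` -/
noncomputable def v0 : HeightOneSpectrum R :=
  ⟨maximalIdeal R, inferInstance, IsDiscreteValuationRing.not_a_field R⟩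

omit [Algebra K R] [IsScalarTower K R F] in
theorem heightOne_eq_v0 (v : HeightOneSpectrum R) : v = v0 R :=
  HeightOneSpectrum.ext (IsLocalRing.eq_maximalIdeal v.isMaximal)

/-- a place of `F` whose valuation ring contains `R` is the place of `R` -/
theorem place_eq_of_mem (P : Place K F) (hRP : ∀ r : R, algebraMap R F r ∈ P.toValuationSubring) :
    P = Place.ofHeightOneSpectrum (K := K) (F := F) (v0 R) := by
  obtain ⟨v, hv, -⟩ := Fermat.Agent.S24.exists_eq_ofHeightOneSpectrum (R := R) P hRP
  rw [hv, heightOne_eq_v0 v]

variable (P : Place K F) (hRP : ∀ r : R, algebraMap R F r ∈ P.toValuationSubring)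

include hRP in
theorem restrict_eq_of_mem (W : Place K F')
    (hW : ∀ r : R, algebraMap R F' r ∈ W.toValuationSubring) : W.restrict F = P := by
  have h1 : ∀ r : R, algebraMap R F r ∈ (W.restrict F).toValuationSubring := by
    intro r
    rw [Place.mem_restrict_iff, ← IsScalarTower.algebraMap_apply]
    exact hW r
  rw [place_eq_of_mem (R := R) (W.restrict F) h1, ← place_eq_of_mem (R := R) P hRP]

include hRP in
theorem algebraMap_mem_of_mem_fiber (W : Place K F') (hW : W ∈ P.fiber F') (r : R) :
    algebraMap R F' r ∈ W.toValuationSubring := by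
  rw [Place.mem_fiber] at hW
  rw [IsScalarTower.algebraMap_apply R F F', ← Place.mem_restrict_iff, hW]
  exact hRP r

/-- the place of `F'` attached to a height one prime of `S` -/
noncomputable abbrev plS (w : HeightOneSpectrum S) : Place K F' :=
  Place.ofHeightOneSpectrum (K := K) (F := F') w

omit [Algebra.IsIntegral F F'] [HasPrincipalDivisors K F'] [IsScalarTower K F F'] [Algebra F F'] in
theorem algebraMap_mem_plS (w : HeightOneSpectrum S) (s : S) :
    algebraMap S F' s ∈ (plS (K := K) (F' := F') w).toValuationSubring := by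
  rw [Fermat.Agent.S24.mem_ofHeightOneSpectrum_iff]
  exact w.valuation_le_one s

include hRP in
theorem plS_restrict (w : HeightOneSpectrum S) : (plS (K := K) (F' := F') w).restrict F = P := by
  refine restrict_eq_of_mem P hRP _ fun r => ?_
  rw [IsScalarTower.algebraMap_apply R S F']
  exact algebraMap_mem_plS w _

include hRP in
theorem plS_mem_fiber (w : HeightOneSpectrum S) : plS (K := K) (F' := F') w ∈ P.fiber F' :=
  Place.mem_fiber.mpr (plS_restrict P hRP w)


section Integral

variable [Algebra.IsIntegral R S]

include hRP in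
theorem algebraMap_S_mem_of_mem_fiber (W : Place K F') (hW : W ∈ P.fiber F') (s : S) :
    algebraMap S F' s ∈ W.toValuationSubring := by
  obtain ⟨q, hq, hq0⟩ := Algebra.IsIntegral.isIntegral (R := R) s
  let φ : R →+* W.toValuationSubring :=
    (algebraMap R F').codRestrict W.toValuationSubring.toSubring
      (algebraMap_mem_of_mem_fiber P hRP W hW)
  have hφ : (algebraMap W.toValuationSubring F').comp φ = algebraMap R F' := rfl
  have hint : IsIntegral W.toValuationSubring (algebraMap S F' s) := by
    refine ⟨q.map φ, hq.map φ, ?_⟩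
    rw [Polynomial.eval₂_map, hφ, IsScalarTower.algebraMap_eq R S F', ← Polynomial.hom_eval₂,
      hq0, map_zero]
  obtain ⟨y, hy⟩ := IsIntegrallyClosed.isIntegral_iff.mp hint
  rw [← hy]
  exact y.2

include hRP in
theorem exists_eq_plS (W : Place K F') (hW : W ∈ P.fiber F') :
    ∃ w : HeightOneSpectrum S, W = plS (K := K) (F' := F') w := by
  obtain ⟨w, hw, -⟩ := Fermat.Agent.S24.exists_eq_ofHeightOneSpectrum (R := S) W
    (algebraMap_S_mem_of_mem_fiber P hRP W hW)
  exact ⟨w, hw⟩

omit [Algebra K R] [IsScalarTower K R F] [IsScalarTower K R S] [Algebra R F] [IsFractionRing R F]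
  [IsScalarTower R F F'] [Algebra R F'] [IsScalarTower R S F'] [Algebra.IsIntegral F F']
  [HasPrincipalDivisors K F'] [Algebra K S] [IsScalarTower K S F'] [Algebra S F']
  [IsFractionRing S F'] [IsScalarTower K F F'] [Algebra F F'] [Algebra K F] [Algebra K F'] in
theorem liesOver_maximalIdeal (w : HeightOneSpectrum S) :
    w.asIdeal.LiesOver (maximalIdeal R) := by
  haveI := w.isMaximal
  have hmax : (w.asIdeal.comap (algebraMap R S)).IsMaximal :=
    Ideal.isMaximal_comap_of_isIntegral_of_isMaximal w.asIdeal
  exact ⟨(IsLocalRing.eq_maximalIdeal hmax).symm⟩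

include hRP in
theorem ramificationIndex_plS (w : HeightOneSpectrum S) :
    (plS (K := K) (F' := F') w).ramificationIndex F =
      ramificationIdx' (maximalIdeal R) w.asIdeal := by
  haveI : w.asIdeal.LiesOver (v0 R).asIdeal := liesOver_maximalIdeal w
  obtain ⟨π, hπ0, hπ⟩ := Fermat.Agent.S24.exists_uniformizer P
  have h1 := (plS (K := K) (F' := F') w).ord_restrict (F := F) π
  rw [plS_restrict P hRP w, hπ, mul_one] at h1
  have h2 := HeightOneSpectrum.valuation_liesOver (K := F) F' (v0 R) w π
  have h3 : (plS (K := K) (F' := F') w).ord (algebraMap F F' π) =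
      -WithZero.log (w.valuation F' (algebraMap F F' π)) :=
    Fermat.Agent.S24.ord_ofHeightOneSpectrum w _
  have h4 : P.ord π = -WithZero.log ((v0 R).valuation F π) := by
    conv_lhs => rw [place_eq_of_mem (R := R) P hRP]
    exact Fermat.Agent.S24.ord_ofHeightOneSpectrum (v0 R) _
  have h5 : (Nat.cast ((plS (K := K) (F' := F') w).ramificationIndex F) : ℤ) =
      (ramificationIdx' (maximalIdeal R) w.asIdeal : ℤ) := by
    rw [← h1, h3, ← h2, WithZero.log_pow]
    have : WithZero.log ((v0 R).valuation F π) = -1 := by rw [hπ] at h4; omega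
    rw [this]
    show -(_ • (-1 : ℤ)) = _
    simp [v0]
  exact_mod_cast h5


omit [IsScalarTower K R F] [Algebra R F] [IsFractionRing R F] [IsScalarTower R F F'] [Algebra R F']
  [IsScalarTower R S F'] [Algebra.IsIntegral F F'] [HasPrincipalDivisors K F']
  [IsScalarTower K F F'] [Algebra F F'] [Algebra K F] in
theorem inertiaDeg_plS
    (hval : ∀ (W : Place K F') (f : F'), 0 ≤ W.ord f →
      ∃ a : K, f = algebraMap K F' a ∨ 0 < W.ord (f - algebraMap K F' a))
    (w : HeightOneSpectrum S) :
    inertiaDeg' (maximalIdeal R) w.asIdeal = 1 := by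
  haveI : w.asIdeal.LiesOver (maximalIdeal R) := liesOver_maximalIdeal w
  rw [Ideal.inertiaDeg'_algebraMap]
  letI := Ideal.Quotient.field (maximalIdeal R)
  rw [finrank_eq_one_iff_of_nonzero' (1 : S ⧸ w.asIdeal) one_ne_zero]
  intro z
  obtain ⟨b, rfl⟩ := Ideal.Quotient.mk_surjective z
  obtain ⟨a, ha⟩ := hval (plS (K := K) (F' := F') w) (algebraMap S F' b)
    (Fermat.Agent.S24.ord_nonneg_of_mem _ (algebraMap_mem_plS w b))
  refine ⟨Ideal.Quotient.mk _ (algebraMap K R a), ?_⟩
  rw [Algebra.smul_def, mul_one]
  have hmem : b - algebraMap K S a ∈ w.asIdeal := by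
    have hmap : algebraMap S F' (b - algebraMap K S a) = algebraMap S F' b - algebraMap K F' a := by
      rw [map_sub, ← IsScalarTower.algebraMap_apply]
    rcases eq_or_ne (b - algebraMap K S a) 0 with h0 | h0
    · rw [h0]
      exact zero_mem _
    · rw [Fermat.Agent.S24.FFFiber.mem_asIdeal_iff_ord_pos (k := K) (F := F') w _ h0, hmap]
      rcases ha with ha | ha
      · exfalso
        apply h0
        apply IsFractionRing.injective S F'
        rw [hmap, ha, sub_self, map_zero]
      · exact ha
  rw [← Ideal.Quotient.eq] at hmem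
  rw [hmem, IsScalarTower.algebraMap_apply K R S]
  rfl


variable [Module.Finite R S] [Module.Free R S] [Module.Finite F F']
  [IsLocalization (Algebra.algebraMapSubmonoid S (nonZeroDivisors R)) F']

variable (S) in
include hRP S in
/-- **Value of a norm at a place** (generic form, for a discrete valuation ring `R` of `F` inside
the valuation ring of `P` and a Dedekind domain `S`, finite free and integral over `R`, with
fraction field `F'`). -/
theorem norm_hasVal_aux
    (hval : ∀ (W : Place K F') (f : F'), 0 ≤ W.ord f →
      ∃ a : K, f = algebraMap K F' a ∨ 0 < W.ord (f - algebraMap K F' a))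
    (g : F') (c : Place K F' → K)
    (hc : ∀ W ∈ P.fiber F', g = algebraMap K F' (c W) ∨ 0 < W.ord (g - algebraMap K F' (c W))) :
    Algebra.norm F g = algebraMap K F (∏ W ∈ P.fiber F', c W ^ W.ramificationIndex F) ∨
      0 < P.ord (Algebra.norm F g -
        algebraMap K F (∏ W ∈ P.fiber F', c W ^ W.ramificationIndex F)) := by
  classical
  -- 1. `g` lies in `S`
  have hgS : g ∈ (algebraMap S F').range := by
    refine HeightOneSpectrum.mem_integers_of_valuation_le_one F' g fun w => ?_
    rw [← Fermat.Agent.S24.mem_ofHeightOneSpectrum_iff (k := K)]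
    rcases hc _ (plS_mem_fiber P hRP w) with h | h
    · rw [h]
      exact (plS (K := K) (F' := F') w).algebraMap_mem' _
    · have hne : g - algebraMap K F' (c (plS (K := K) (F' := F') w)) ≠ 0 := by
        intro h0
        rw [h0, Place.ord_zero] at h
        exact lt_irrefl _ h
      have h1 := Fermat.Agent.S24.mem_of_ord_nonneg _ hne h.le
      have h2 := add_mem h1 ((plS (K := K) (F' := F') w).algebraMap_mem'
        (c (plS (K := K) (F' := F') w)))
      rwa [sub_add_cancel] at h2
  obtain ⟨g', rfl⟩ := hgS
  -- 2. the norm comes from `R`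
  have hnorm : Algebra.norm F (algebraMap S F' g') = algebraMap R F (Algebra.norm R g') :=
    Algebra.norm_localization R (nonZeroDivisors R) g'
  -- 3. the values, as a function on ideals
  let c' : Ideal S → R := fun Q =>
    if h : Q.IsPrime ∧ Q ≠ ⊥ then algebraMap K R (c (plS (K := K) (F' := F') ⟨Q, h.1, h.2⟩))
    else 0
  have hinj : Function.Injective (algebraMap R S) := by
    have h1 : Function.Injective (algebraMap R F') := by
      rw [IsScalarTower.algebraMap_eq R F F']
      exact (algebraMap F F').injective.comp (IsFractionRing.injective R F)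
    rw [IsScalarTower.algebraMap_eq R S F'] at h1
    exact Function.Injective.of_comp h1
  have hp : Ideal.map (algebraMap R S) (maximalIdeal R) ≠ ⊥ := by
    rw [ne_eq, Ideal.map_eq_bot_iff_of_injective hinj]
    exact IsDiscreteValuationRing.not_a_field R
  have hmemfac : ∀ Q : Ideal S, Q ∈ (factors (Ideal.map (algebraMap R S) (maximalIdeal R))).toFinset ↔
      Q.IsPrime ∧ Q ≠ ⊥ := by
    intro Q
    rw [Multiset.mem_toFinset, factors_eq_normalizedFactors, Ideal.mem_normalizedFactors_iff hp]
    constructor
    · rintro ⟨h1, h2⟩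
      exact ⟨h1, fun h0 => hp (le_bot_iff.mp (h0 ▸ h2))⟩
    · rintro ⟨h1, h2⟩
      refine ⟨h1, ?_⟩
      have := (liesOver_maximalIdeal (R := R) ⟨Q, h1, h2⟩).over
      rw [Ideal.map_le_iff_le_comap]
      exact this.le
  have hc' : ∀ Q ∈ (factors (Ideal.map (algebraMap R S) (maximalIdeal R))).toFinset,
      g' - algebraMap R S (c' Q) ∈ Q := by
    intro Q hQ
    have hQ' := (hmemfac Q).mp hQ
    set w : HeightOneSpectrum S := ⟨Q, hQ'.1, hQ'.2⟩ with hw
    have hcQ : c' Q = algebraMap K R (c (plS (K := K) (F' := F') w)) := dif_pos hQ'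
    rw [hcQ, ← IsScalarTower.algebraMap_apply K R S]
    have hmap : algebraMap S F' (g' - algebraMap K S (c (plS (K := K) (F' := F') w))) =
        algebraMap S F' g' - algebraMap K F' (c (plS (K := K) (F' := F') w)) := by
      rw [map_sub, ← IsScalarTower.algebraMap_apply]
    rcases eq_or_ne (g' - algebraMap K S (c (plS (K := K) (F' := F') w))) 0 with h0 | h0
    · rw [h0]
      exact zero_mem _
    · show _ ∈ w.asIdeal
      rw [Fermat.Agent.S24.FFFiber.mem_asIdeal_iff_ord_pos (k := K) (F := F') w _ h0, hmap]
      rcases hc _ (plS_mem_fiber P hRP w) with h | h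
      · exfalso
        apply h0
        apply IsFractionRing.injective S F'
        rw [hmap, h, sub_self, map_zero]
      · exact h
  -- 4. Part A
  have hA := quotient_mk_norm_eq_prod hp g' c' hc'
  -- 5. reindex by the fibre
  have hre : ∏ Q ∈ (factors (Ideal.map (algebraMap R S) (maximalIdeal R))).toFinset,
      (Ideal.Quotient.mk (maximalIdeal R) (c' Q)) ^
        (ramificationIdx' (maximalIdeal R) Q * inertiaDeg' (maximalIdeal R) Q) =
      ∏ W ∈ P.fiber F', (Ideal.Quotient.mk (maximalIdeal R) (algebraMap K R (c W))) ^
        W.ramificationIndex F := by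
    refine Finset.prod_bij
      (fun Q hQ => plS (K := K) (F' := F') ⟨Q, ((hmemfac Q).mp hQ).1, ((hmemfac Q).mp hQ).2⟩)
      (fun Q hQ => plS_mem_fiber P hRP _) ?_ ?_ ?_
    · intro Q hQ Q' hQ' h
      have := Fermat.Agent.S24.FFFiber.ofHeightOneSpectrum_injective (k := K) (F := F') h
      exact congrArg HeightOneSpectrum.asIdeal this
    · intro W hW
      obtain ⟨w, rfl⟩ := exists_eq_plS (S := S) P hRP W hW
      exact ⟨w.asIdeal, (hmemfac _).mpr ⟨w.isPrime, w.ne_bot⟩, rfl⟩
    · intro Q hQ
      have hQ' := (hmemfac Q).mp hQ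
      have hcQ : c' Q = algebraMap K R (c (plS (K := K) (F' := F') ⟨Q, hQ'.1, hQ'.2⟩)) :=
        dif_pos hQ'
      rw [hcQ, ramificationIndex_plS P hRP ⟨Q, hQ'.1, hQ'.2⟩,
        inertiaDeg_plS (R := R) hval ⟨Q, hQ'.1, hQ'.2⟩, mul_one]
  rw [hre] at hA
  -- 6. conclusion
  have hd : Algebra.norm R g' - algebraMap K R (∏ W ∈ P.fiber F', c W ^ W.ramificationIndex F) ∈
      maximalIdeal R := by
    rw [← Ideal.Quotient.eq, hA, map_prod, map_prod]
    simp only [map_pow]
  rw [hnorm, IsScalarTower.algebraMap_apply K R F, ← map_sub]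
  set d := Algebra.norm R g' - algebraMap K R (∏ W ∈ P.fiber F', c W ^ W.ramificationIndex F)
    with hdd
  rcases eq_or_ne d 0 with h0 | h0
  · left
    have := congrArg (algebraMap R F) h0
    rw [hdd, map_sub, map_zero, sub_eq_zero] at this
    exact this
  · right
    have hP : P.ord (algebraMap R F d) =
        (Place.ofHeightOneSpectrum (K := K) (F := F) (v0 R)).ord (algebraMap R F d) := by
      rw [← place_eq_of_mem (R := R) P hRP]
    rw [hP]
    exact (Fermat.Agent.S24.FFFiber.mem_asIdeal_iff_ord_pos (k := K) (F := F) (v0 R) d h0).mp hd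

end Integral

end PartB

section Main

variable {K F F' : Type*} [Field K] [Field F] [Field F'] [Algebra K F] [Algebra K F']
  [Algebra F F'] [IsScalarTower K F F'] [FiniteDimensional F F'] [Algebra.IsSeparable F F']
  [HasPrincipalDivisors K F']

set_option synthInstance.maxHeartbeats 400000 in
set_option maxHeartbeats 1000000 in
/-- **(G2)/(E2): the value of a norm at a place.**  If `g ∈ F'` is regular at every place `W` of
`F'` over the place `P` of `F`, with value `c W`, then `N_{F'/F}(g)` is regular at `P` with value
`∏_{W | P} (c W)^{e_W}`.  (`hval`: every place of `F'` has residue field `K`.) -/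
theorem norm_hasVal
    (hval : ∀ (W : Place K F') (f : F'), 0 ≤ W.ord f →
      ∃ a : K, f = algebraMap K F' a ∨ 0 < W.ord (f - algebraMap K F' a))
    (P : Place K F) (g : F') (c : Place K F' → K)
    (hc : ∀ W ∈ P.fiber F', g = algebraMap K F' (c W) ∨ 0 < W.ord (g - algebraMap K F' (c W))) :
    Algebra.norm F g = algebraMap K F (∏ W ∈ P.fiber F', c W ^ W.ramificationIndex F) ∨
      0 < P.ord (Algebra.norm F g -
        algebraMap K F (∏ W ∈ P.fiber F', c W ^ W.ramificationIndex F)) := by
  letI iRF' : Algebra P.toValuationSubring F' :=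
    ((algebraMap F F').comp (algebraMap P.toValuationSubring F)).toAlgebra
  haveI : IsScalarTower P.toValuationSubring F F' := IsScalarTower.of_algebraMap_eq fun _ => rfl
  haveI : IsDedekindDomain (integralClosure P.toValuationSubring F') :=
    integralClosure.isDedekindDomain P.toValuationSubring F F'
  letI iKS : Algebra K (integralClosure P.toValuationSubring F') :=
    ((algebraMap P.toValuationSubring (integralClosure P.toValuationSubring F')).comp
      (algebraMap K P.toValuationSubring)).toAlgebra
  haveI : IsScalarTower K P.toValuationSubring (integralClosure P.toValuationSubring F') :=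
    IsScalarTower.of_algebraMap_eq fun _ => rfl
  haveI : IsScalarTower K (integralClosure P.toValuationSubring F') F' :=
    IsScalarTower.of_algebraMap_eq fun x => by
      rw [IsScalarTower.algebraMap_apply K F F', IsScalarTower.algebraMap_apply K P.toValuationSubring F]
      rfl
  haveI : IsFractionRing (integralClosure P.toValuationSubring F') F' :=
    IsIntegralClosure.isFractionRing_of_finite_extension P.toValuationSubring F F' _
  haveI : Module.Finite P.toValuationSubring (integralClosure P.toValuationSubring F') :=
    IsIntegralClosure.finite P.toValuationSubring F F' _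
  haveI : Module.IsTorsionFree P.toValuationSubring (integralClosure P.toValuationSubring F') := by
    rw [Module.isTorsionFree_iff_algebraMap_injective]
    have h1 : Function.Injective (algebraMap P.toValuationSubring F') :=
      (algebraMap F F').injective.comp (IsFractionRing.injective P.toValuationSubring F)
    rw [IsScalarTower.algebraMap_eq P.toValuationSubring
      (integralClosure P.toValuationSubring F') F', RingHom.coe_comp] at h1
    exact Function.Injective.of_comp h1
  haveI : Module.Free P.toValuationSubring (integralClosure P.toValuationSubring F') :=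
    Module.free_of_finite_type_torsion_free'
  haveI : IsLocalization (Algebra.algebraMapSubmonoid (integralClosure P.toValuationSubring F')
      (nonZeroDivisors P.toValuationSubring)) F' :=
    IsIntegralClosure.isLocalization P.toValuationSubring F F' _
  exact norm_hasVal_aux (R := P.toValuationSubring) (integralClosure P.toValuationSubring F') P
    (fun r => r.2) hval g c hc

end Main

section Along

variable {K F F' : Type*} [Field K] [Field F] [Field F'] [Algebra K F] [Algebra K F']
  [HasPrincipalDivisors K F']

/-- **(G2) along a homomorphism**: the value at `P` of the norm along `φ` of `g` is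
`∏_{W ∈ fiberAlong φ P} (value of g at W) ^ (ramificationIndexAlong φ W)`. -/
theorem norm_hasVal_along (φ : F →ₐ[K] F') (hφ : φ.toRingHom.IsIntegral)
    (hfin : FiniteAlong K φ) (hsep : SeparableAlong K φ)
    (hval : ∀ (W : Place K F') (f : F'), 0 ≤ W.ord f →
      ∃ a : K, f = algebraMap K F' a ∨ 0 < W.ord (f - algebraMap K F' a))
    (P : Place K F) (g : F') (c : Place K F' → K)
    (hc : ∀ W ∈ Place.fiberAlong φ hφ P,
      g = algebraMap K F' (c W) ∨ 0 < W.ord (g - algebraMap K F' (c W))) :
    letI := algebraAlong φ
    Algebra.norm F g =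
        algebraMap K F (∏ W ∈ Place.fiberAlong φ hφ P, c W ^ W.ramificationIndexAlong φ) ∨
      0 < P.ord (Algebra.norm F g -
        algebraMap K F (∏ W ∈ Place.fiberAlong φ hφ P, c W ^ W.ramificationIndexAlong φ)) := by
  letI := algebraAlong φ
  haveI := isScalarTower_along φ
  haveI : Module.Finite F F' := hfin
  haveI : Algebra.IsSeparable F F' := hsep
  exact norm_hasVal hval P g c hc

/-- In characteristic zero every finite extension is separable. -/
theorem separableAlong_of_charZero [CharZero F] (φ : F →ₐ[K] F') (hφ : φ.toRingHom.IsIntegral) :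
    SeparableAlong K φ := by
  letI := algebraAlong φ
  haveI := isIntegral_along φ hφ
  show Algebra.IsSeparable F F'
  infer_instance

end Along

end Fermat.Agent.S37X.NormVal
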