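import Mathlib
import Fermat.Agent.S18.Charts
import Fermat.Agent.S18.HauptParamFF
import Fermat.Agent.S37.ChartPres
import Fermat.Agent.S37.NormVal
import Fermat.Agent.S37.HeckeInt

/-!
# S37 (F-b): regularity of the norm along `β` on the two charts

Let `n = N_β(g)` be the norm along `β` of a function `g` of level `N ℓ`.

* `norm_mem_of_forall_mem` : if `g` is regular at every place `W` over `P` (along `β`), then
  `n` is regular at `P`;
* `norm_mem_regAt` (NR1) : if `f` is regular at the finite places, so is `N_β(c - α f)`;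
* `norm_ord_nonneg_of_not_jInt` (NR2) : if `f` is regular away from the zeros of `j`, then
  `N_β(c - α f)` is regular at every place with non-integral `j`-value.
-/

set_option autoImplicit false
set_option linter.style.haveILetI false
set_option linter.unusedSectionVars false

noncomputable section

namespace Fermat.Agent.S37NormReg

open ModularCurve AlgebraicCurve
open Fermat.Agent.S24 Fermat.Agent.S24.Eval
open Fermat.Agent.S18 Fermat.Agent.S18.Charts
open Fermat.Agent.S37ChartPres

variable {N ℓ : ℕ} [NeZero N] [NeZero ℓ]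

/-- every function of level `N ℓ` regular at `W` has a value at `W` -/
theorem hval (W : Place KK (FF (N * ℓ))) (f : FF (N * ℓ)) (hf : 0 ≤ W.ord f) :
    ∃ a : KK, f = algebraMap KK (FF (N * ℓ)) a ∨ 0 < W.ord (f - algebraMap KK (FF (N * ℓ)) a) :=
  haveI : NeZero (N * ℓ) := ⟨mul_ne_zero (NeZero.ne N) (NeZero.ne ℓ)⟩
  HauptParamFF.H1_FF (N * ℓ) W f hf

variable [HasPrincipalDivisors KK (FF (N * ℓ))]

/-- **The norm of a function regular over `P` is regular at `P`.** -/
theorem norm_mem_of_forall_mem (hβ : HeckeBetaBarIntegral KK N ℓ) (P : Place KK (FF N))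
    (g : FF (N * ℓ))
    (hg : ∀ W ∈ Place.fiberAlong (heckeBetaBar KK N ℓ) hβ P, g ∈ W.toValuationSubring) :
    (letI := algebraAlong (heckeBetaBar KK N ℓ)
     Algebra.norm (FF N) g) ∈ P.toValuationSubring := by
  classical
  have hex : ∀ W : Place KK (FF (N * ℓ)), ∃ a : KK,
      W ∈ Place.fiberAlong (heckeBetaBar KK N ℓ) hβ P →
        (g = algebraMap KK (FF (N * ℓ)) a ∨ 0 < W.ord (g - algebraMap KK (FF (N * ℓ)) a)) := by
    intro W
    by_cases hW : W ∈ Place.fiberAlong (heckeBetaBar KK N ℓ) hβ P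
    · obtain ⟨a, ha⟩ := hval W g (Fermat.Agent.S24.ord_nonneg_of_mem W (hg W hW))
      exact ⟨a, fun _ => ha⟩
    · exact ⟨0, fun h => absurd h hW⟩
  choose c hc using hex
  have h := Fermat.Agent.S37X.NormVal.norm_hasVal_along (heckeBetaBar KK N ℓ) hβ
    (Fermat.Agent.S37X.HeckeInt.finiteAlong_beta N ℓ)
    (Fermat.Agent.S37X.NormVal.separableAlong_of_charZero (heckeBetaBar KK N ℓ) hβ)
    (fun W f hf => hval W f hf) P g c (fun W hW => hc W hW)
  exact mem_of_hasVal P _ h

/-- `φ f` is regular at `w` iff `f` is regular at the restriction of `w` along `φ` -/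
theorem mem_restrictAlong_iff {K F F' : Type*} [Field K] [Field F] [Field F'] [Algebra K F]
    [Algebra K F'] (φ : F →ₐ[K] F') (hφ : φ.toRingHom.IsIntegral) (w : Place K F') (f : F) :
    φ f ∈ w.toValuationSubring ↔ f ∈ (w.restrictAlong φ hφ).toValuationSubring := by
  rcases eq_or_ne f 0 with rfl | hf
  · rw [map_zero]
    exact ⟨fun _ => zero_mem _, fun _ => zero_mem _⟩
  have hφf : φ f ≠ 0 := fun h => hf (φ.toRingHom.injective (by rw [RingHom.map_zero]; exact h))
  constructor
  · intro h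
    exact Fermat.Agent.S24.mem_of_ord_nonneg _ hf
      ((ord_restrictAlong_nonneg_iff φ hφ w f).mpr (Fermat.Agent.S24.ord_nonneg_of_mem w h))
  · intro h
    exact Fermat.Agent.S24.mem_of_ord_nonneg w hφf
      ((ord_restrictAlong_nonneg_iff φ hφ w f).mp (Fermat.Agent.S24.ord_nonneg_of_mem _ h))

/-- `α f` is regular at `W` iff `f` is regular at `W|α` -/
theorem alpha_mem_iff (hα : HeckeAlphaBarIntegral KK N ℓ) (W : Place KK (FF (N * ℓ)))
    (f : FF N) :
    heckeAlphaBar KK N ℓ f ∈ W.toValuationSubring ↔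
      f ∈ (W.restrictAlong (heckeAlphaBar KK N ℓ) hα).toValuationSubring :=
  mem_restrictAlong_iff (heckeAlphaBar KK N ℓ) hα W f

/-- `β f` is regular at `W` iff `f` is regular at `W|β` -/
theorem beta_mem_iff (hβ : HeckeBetaBarIntegral KK N ℓ) (W : Place KK (FF (N * ℓ)))
    (f : FF N) :
    heckeBetaBar KK N ℓ f ∈ W.toValuationSubring ↔
      f ∈ (W.restrictAlong (heckeBetaBar KK N ℓ) hβ).toValuationSubring :=
  mem_restrictAlong_iff (heckeBetaBar KK N ℓ) hβ W f

/-- **(NR1)**: if `f` is regular at the finite places, so is the norm of `c - α f`. -/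
theorem norm_mem_regAt (hα : HeckeAlphaBarIntegral KK N ℓ) (hβ : HeckeBetaBarIntegral KK N ℓ)
    (c : KK) (f : FF N) (hf : f ∈ regAt N (jF N)) :
    (letI := algebraAlong (heckeBetaBar KK N ℓ)
     Algebra.norm (FF N) (algebraMap KK (FF (N * ℓ)) c - heckeAlphaBar KK N ℓ f)) ∈
      regAt N (jF N) := by
  intro P hP
  refine norm_mem_of_forall_mem hβ P _ fun W hW => ?_
  have hWP : W.restrictAlong (heckeBetaBar KK N ℓ) hβ = P := Place.mem_fiberAlong.mp hW
  have h1 : heckeBetaBar KK N ℓ (jF N) ∈ W.toValuationSubring := by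
    rw [beta_mem_iff hβ, hWP]
    exact hP
  have h2 : heckeAlphaBar KK N ℓ (jF N) ∈ W.toValuationSubring :=
    (alpha_mem_iff_beta_mem W).mpr h1
  have h3 : heckeAlphaBar KK N ℓ f ∈ W.toValuationSubring :=
    (alpha_mem_iff hα W f).mpr (hf _ ((alpha_mem_iff hα W (jF N)).mp h2))
  exact sub_mem (W.algebraMap_mem' c) h3

/-- at a place with non-integral `j`-value, `1/j` is regular -/
theorem jinv_mem_of_not_jInt (A : ValuationSubring KK) {P : Place KK (FF N)}
    (hP : ¬ CuspAbs.JInt A N P) : (jF N)⁻¹ ∈ P.toValuationSubring := by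
  by_contra h
  apply hP
  refine ⟨0, A.zero_mem, ?_⟩
  rw [map_zero, sub_zero]
  have hj0 : (jF N)⁻¹ ≠ 0 := inv_ne_zero (jF_ne_zero N)
  by_contra hle
  have h1 : 0 ≤ P.ord (jF N)⁻¹ := by
    rw [P.ord_inv]
    omega
  exact h (Fermat.Agent.S24.mem_of_ord_nonneg P hj0 h1)

/-- **(NR2)**: if `f` is regular away from the zeros of `j`, then the norm of `c - α f` is
regular at every place with non-integral `j`-value. -/
theorem norm_ord_nonneg_of_not_jInt (A : ValuationSubring KK)
    (hα : HeckeAlphaBarIntegral KK N ℓ) (hβ : HeckeBetaBarIntegral KK N ℓ)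
    (c : KK) (f : FF N) (hf : f ∈ regAt N (jF N)⁻¹) (P₁ : Place KK (FF N))
    (hP₁ : ¬ CuspAbs.JInt A N P₁) :
    0 ≤ P₁.ord (letI := algebraAlong (heckeBetaBar KK N ℓ)
      Algebra.norm (FF N) (algebraMap KK (FF (N * ℓ)) c - heckeAlphaBar KK N ℓ f)) := by
  refine Fermat.Agent.S24.ord_nonneg_of_mem P₁ (norm_mem_of_forall_mem hβ P₁ _ fun W hW => ?_)
  have hWP : W.restrictAlong (heckeBetaBar KK N ℓ) hβ = P₁ := Place.mem_fiberAlong.mp hW
  have h1 : ¬ CuspAbs.JInt A N (W.restrictAlong (heckeAlphaBar KK N ℓ) hα) := by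
    rw [jInt_alpha_iff_beta hα hβ A W, hWP]
    exact hP₁
  have h3 : heckeAlphaBar KK N ℓ f ∈ W.toValuationSubring :=
    (alpha_mem_iff hα W f).mpr (hf _ (jinv_mem_of_not_jInt A h1))
  exact sub_mem (W.algebraMap_mem' c) h3

end Fermat.Agent.S37NormReg
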