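import Mathlib

/-!
# S37 gamble, the combinatorial end of (E3)

`sum_single_eq_of_prod_eq`: if `∏_i (c - v (x i)) ^ e i = (c - v Q₁) * (c - v Q₂) ^ ℓ` for every
`c` in an infinite field `k`, and `v` is injective on the finite set of points involved, then
`∑_i e i • [x i] = [Q₁] + ℓ • [Q₂]` as divisors (finitely supported functions).
-/

set_option autoImplicit false

namespace Fermat.Agent.S37X.RootCount

open Polynomial

section

variable {X ι k : Type*} [Field k]

open scoped Classical in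
/-- the root multiset of `∏ (X - v i) ^ e i` -/
theorem count_roots_prod (I : Finset ι) (w : ι → k) (e : ι → ℕ) (a : k) :
    Multiset.count a (∏ i ∈ I, (Polynomial.X - Polynomial.C (w i)) ^ e i).roots =
      ∑ i ∈ I, if w i = a then e i else 0 := by
  classical
  have hne : ∏ i ∈ I, (Polynomial.X - Polynomial.C (w i)) ^ e i ≠ 0 :=
    Finset.prod_ne_zero_iff.mpr fun i _ => pow_ne_zero _ (Polynomial.X_sub_C_ne_zero _)
  rw [Polynomial.roots_prod _ _ hne, Multiset.count_bind]
  rw [← Finset.sum_eq_multiset_sum]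
  refine Finset.sum_congr rfl fun i _ => ?_
  rw [Polynomial.roots_pow, Polynomial.roots_X_sub_C, Multiset.count_nsmul,
    Multiset.count_singleton]
  split_ifs with h1 h2 h2
  · simp
  · exact absurd h1.symm h2
  · exact absurd h2.symm h1
  · simp

variable [Infinite k]

theorem sum_single_eq_of_prod_eq (I : Finset ι) (x : ι → X) (e : ι → ℕ) (Q₁ Q₂ : X) (ℓ : ℕ)
    (v : X → k)
    (hinj : ∀ y, (y = Q₁ ∨ y = Q₂ ∨ ∃ i ∈ I, x i = y) →
      ∀ z, (z = Q₁ ∨ z = Q₂ ∨ ∃ i ∈ I, x i = z) → v y = v z → y = z)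
    (h : ∀ c : k, ∏ i ∈ I, (c - v (x i)) ^ e i = (c - v Q₁) * (c - v Q₂) ^ ℓ) :
    ∑ i ∈ I, Finsupp.single (x i) (e i : ℤ) =
      Finsupp.single Q₁ (1 : ℤ) + Finsupp.single Q₂ (ℓ : ℤ) := by
  classical
  -- the polynomial identity
  have hpoly : ∏ i ∈ I, (Polynomial.X - Polynomial.C (v (x i))) ^ e i =
      ∏ j ∈ (Finset.univ : Finset (Fin 2)),
        (Polynomial.X - Polynomial.C (v (if j = 0 then Q₁ else Q₂))) ^ (if j = 0 then 1 else ℓ) := by
    apply Polynomial.funext
    intro c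
    rw [Polynomial.eval_prod, Polynomial.eval_prod]
    simp only [Polynomial.eval_pow, Polynomial.eval_sub, Polynomial.eval_X, Polynomial.eval_C]
    rw [h c, Fin.prod_univ_two]
    simp
  have hcount : ∀ a : k, (∑ i ∈ I, if v (x i) = a then e i else 0) =
      (if v Q₁ = a then 1 else 0) + (if v Q₂ = a then ℓ else 0) := by
    intro a
    rw [← count_roots_prod I (fun i => v (x i)) e a, hpoly,
      count_roots_prod (Finset.univ : Finset (Fin 2)) (fun j => v (if j = 0 then Q₁ else Q₂))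
        (fun j => if j = 0 then 1 else ℓ) a, Fin.sum_univ_two]
    simp
  ext y
  rw [Finsupp.finsetSum_apply, Finsupp.add_apply]
  simp only [Finsupp.single_apply]
  by_cases hy : y = Q₁ ∨ y = Q₂ ∨ ∃ i ∈ I, x i = y
  · have h1 := hcount (v y)
    have e1 : ∀ i ∈ I, (v (x i) = v y ↔ x i = y) := fun i hi =>
      ⟨fun hv => hinj _ (Or.inr (Or.inr ⟨i, hi, rfl⟩)) _ hy hv, fun hxy => by rw [hxy]⟩
    have e2 : v Q₁ = v y ↔ Q₁ = y :=
      ⟨fun hv => hinj _ (Or.inl rfl) _ hy hv, fun hxy => by rw [hxy]⟩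
    have e3 : v Q₂ = v y ↔ Q₂ = y :=
      ⟨fun hv => hinj _ (Or.inr (Or.inl rfl)) _ hy hv, fun hxy => by rw [hxy]⟩
    have h2 : (∑ i ∈ I, if x i = y then e i else 0) =
        (if Q₁ = y then 1 else 0) + (if Q₂ = y then ℓ else 0) := by
      rw [← (Finset.sum_congr rfl fun i hi => by simp only [e1 i hi] :
        (∑ i ∈ I, if v (x i) = v y then e i else 0) = ∑ i ∈ I, if x i = y then e i else 0)]
      simp only [← e2, ← e3]
      exact h1
    have h3 := congrArg (Nat.cast : ℕ → ℤ) h2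
    push_cast at h3
    simp only [← h3]
  · simp only [not_or, not_exists, not_and] at hy
    obtain ⟨hy1, hy2, hy3⟩ := hy
    rw [if_neg (Ne.symm hy1), if_neg (Ne.symm hy2), add_zero]
    exact Finset.sum_eq_zero fun i hi => if_neg (hy3 i hi)

end

end Fermat.Agent.S37X.RootCount
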