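import Mathlib
import Fermat.Agent.S18.ChartLift
import Fermat.Agent.S18.KummerFinal

/-!
# S37, leaf (SEP): uniformisers on the charts that are units on a given finite set

For a place `Q₀` of the reduced function field on chart 1 (resp. chart 2) and a finite set `T` of
places of the same chart not containing `Q₀`, there is a function `w` of chart 1 (resp. chart 2)
of the Gauss ring whose reduction has order exactly `1` at `Q₀` and order `0` at every place of
`T`.  (Approximation on the chart `ChartLift.approx1/2`, induction on `T` with the ultrametric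
inequality; the lift into `O1`/`O2` is the normality of the charts.)
-/

set_option autoImplicit false
set_option synthInstance.maxHeartbeats 400000

noncomputable section

namespace Fermat.Agent.S37Sep

open ModularCurve AlgebraicCurve HahnSeries IsLocalRing
open Fermat.Agent.S18 Fermat.Agent.S18.Gauss Fermat.Agent.S18.Lattice
open Fermat.Agent.S18.Charts Fermat.Agent.S18.RedFibre Fermat.Agent.S18.LocalLift
open Fermat.Agent.S24 Fermat.Agent.S24.Eval

/-! ### The abstract statement -/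

section Abstract

variable {k F : Type*} [Field k] [Field F] [Algebra k F]

/-- On a chart with the approximation property there is, for every place `Q₀` of the chart and
every finite set `T` of places of the chart not containing `Q₀`, a function regular on the chart
with order `1` at `Q₀` and order `0` on `T`. -/
theorem exists_unif_of_approx (fin : Place k F → Prop)
    (hap : ∀ (E : Place k F →₀ ℤ), (∀ Q, 0 ≤ E Q) → ∀ Q₀, fin Q₀ →
      ∃ u : F, u ≠ 0 ∧ (∀ Q, fin Q → E Q ≤ Q.ord u) ∧ Q₀.ord u = E Q₀)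
    (Q₀ : Place k F) (hQ₀ : fin Q₀) (T : Finset (Place k F)) (hT : Q₀ ∉ T)
    (hTc : ∀ Q ∈ T, fin Q) :
    ∃ u : F, u ≠ 0 ∧ (∀ Q, fin Q → 0 ≤ Q.ord u) ∧ Q₀.ord u = 1 ∧ ∀ Q ∈ T, Q.ord u = 0 := by
  classical
  induction T using Finset.induction_on with
  | empty =>
    obtain ⟨u, hu0, hu, hu₀⟩ := hap (Finsupp.single Q₀ 1)
      (fun Q => by
        rw [Finsupp.single_apply]
        split_ifs <;> norm_num) Q₀ hQ₀
    refine ⟨u, hu0, fun Q hQ => ?_, by rw [hu₀, Finsupp.single_eq_same], fun Q hQ => ?_⟩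
    · have h1 := hu Q hQ
      have h2 : (0 : ℤ) ≤ Finsupp.single Q₀ (1 : ℤ) Q := by
        rw [Finsupp.single_apply]
        split_ifs <;> norm_num
      omega
    · exact absurd hQ (Finset.notMem_empty Q)
  | insert Q' T hQ'T ih =>
    have hT' : Q₀ ∉ T := fun h => hT (Finset.mem_insert_of_mem h)
    have hQ'0 : Q' ≠ Q₀ := fun h => hT (h ▸ Finset.mem_insert_self Q' T)
    have hQ'c : fin Q' := hTc Q' (Finset.mem_insert_self Q' T)
    obtain ⟨w, hw0, hwreg, hw₀, hwT⟩ := ih hT' fun Q hQ => hTc Q (Finset.mem_insert_of_mem hQ)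
    by_cases hwQ' : Q'.ord w = 0
    · refine ⟨w, hw0, hwreg, hw₀, fun Q hQ => ?_⟩
      rcases Finset.mem_insert.mp hQ with rfl | hQ
      · exact hwQ'
      · exact hwT Q hQ
    -- the correction term
    have hpos : 0 < Q'.ord w := lt_of_le_of_ne (hwreg Q' hQ'c) (Ne.symm hwQ')
    set S : Finset (Place k F) := insert Q₀ T with hS
    have hQ'S : Q' ∉ S := by
      rw [hS, Finset.mem_insert]
      rintro (h | h)
      · exact hQ'0 h
      · exact hQ'T h
    set E : Place k F →₀ ℤ := Finsupp.onFinset S (fun Q => if Q ∈ S then 2 else 0)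
      (fun Q hQ => by
        by_contra h
        rw [if_neg h] at hQ
        exact hQ rfl) with hE
    have hEapp : ∀ Q, E Q = if Q ∈ S then 2 else 0 := fun Q => rfl
    obtain ⟨v, hv0, hv, hv'⟩ := hap E (fun Q => by
      rw [hEapp]
      split_ifs <;> norm_num) Q' hQ'c
    have hvQ' : Q'.ord v = 0 := by rw [hv', hEapp, if_neg hQ'S]
    have hvS : ∀ Q ∈ S, 2 ≤ Q.ord v := by
      intro Q hQ
      have hQc : fin Q := by
        rcases Finset.mem_insert.mp hQ with rfl | hQ
        · exact hQ₀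
        · exact hTc Q (Finset.mem_insert_of_mem hQ)
      have := hv Q hQc
      rwa [hEapp, if_pos hQ] at this
    have hvreg : ∀ Q, fin Q → 0 ≤ Q.ord v := by
      intro Q hQ
      have h1 := hv Q hQ
      have h2 : (0 : ℤ) ≤ E Q := by
        rw [hEapp]
        split_ifs <;> norm_num
      omega
    have hsum₀ : Q₀.ord (w + v) = 1 := by
      rw [ord_add_eq_of_lt Q₀ hw0 hv0 (by
        have := hvS Q₀ (Finset.mem_insert_self Q₀ T)
        omega), hw₀]
    have hne : w + v ≠ 0 := by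
      intro h0
      rw [h0, Place.ord_zero] at hsum₀
      omega
    refine ⟨w + v, hne, fun Q hQ => ?_, hsum₀, fun Q hQ => ?_⟩
    · have := le_ord_add Q hw0 hv0 hne
      have h1 := hwreg Q hQ
      have h2 := hvreg Q hQ
      have h3 : 0 ≤ min (Q.ord w) (Q.ord v) := le_min h1 h2
      omega
    · rcases Finset.mem_insert.mp hQ with rfl | hQ
      · rw [add_comm, ord_add_eq_of_lt Q hv0 hw0 (by omega), hvQ']
      · rw [ord_add_eq_of_lt Q hw0 hv0 (by
          have := hvS Q (Finset.mem_insert_of_mem hQ)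
          have := hwT Q hQ
          omega), hwT Q hQ]

end Abstract

/-! ### The two charts of the modular function field -/

variable {A : ValuationSubring KK} {N : ℕ} [NeZero N] {ℓ : ℕ} [Fact ℓ.Prime]

/-- **(SEP), chart 1.** -/
theorem exists_unif1 (hA : A.LiesOverPrime ℓ) (hℓN : ¬ ℓ ∣ N)
    (Q₀ : Place (ResidueField A) (FkN A N)) (hQ₀ : 0 ≤ Q₀.ord (jb A N))
    (T : Finset (Place (ResidueField A) (FkN A N))) (hT : Q₀ ∉ T)
    (hTc : ∀ Q ∈ T, 0 ≤ Q.ord (jb A N)) :
    ∃ w : OO A N, (w : FF N) ∈ Charts.O1 A N ∧ Q₀.ord (redN A N w) = 1 ∧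
      ∀ Q ∈ T, Q.ord (redN A N w) = 0 := by
  have hN1 : NormalStmt1 A N := (KummerFinal.normalStmt hA hℓN).1
  obtain ⟨u, -, hureg, hu₀, huT⟩ := exists_unif_of_approx
    (fun Q : Place (ResidueField A) (FkN A N) => 0 ≤ Q.ord (redN A N (jO A N)))
    (ChartLift.approx1 A N) Q₀ (by rw [redN_jO]; exact hQ₀) T hT
    (fun Q hQ => by rw [redN_jO]; exact hTc Q hQ)
  obtain ⟨f, hf, hfreg⟩ := ChartLift.normalChart1 A N hN1 u hureg
  refine ⟨f, ?_, by rw [hf]; exact hu₀, fun Q hQ => by rw [hf]; exact huT Q hQ⟩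
  rw [mem_O1]
  refine ⟨f.2, ?_⟩
  rw [RegInt.mem_regAt_iff]
  intro P hP
  exact hfreg P hP

/-- **(SEP), chart 2.** -/
theorem exists_unif2 (hA : A.LiesOverPrime ℓ) (hℓN : ¬ ℓ ∣ N)
    (Q₀ : Place (ResidueField A) (FkN A N)) (hQ₀ : 0 ≤ Q₀.ord (jb A N)⁻¹)
    (T : Finset (Place (ResidueField A) (FkN A N))) (hT : Q₀ ∉ T)
    (hTc : ∀ Q ∈ T, 0 ≤ Q.ord (jb A N)⁻¹) :
    ∃ w : OO A N, (w : FF N) ∈ Charts.O2 A N ∧ Q₀.ord (redN A N w) = 1 ∧
      ∀ Q ∈ T, Q.ord (redN A N w) = 0 := by
  have hN2 : NormalStmt2 A N := (KummerFinal.normalStmt hA hℓN).2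
  obtain ⟨u, -, hureg, hu₀, huT⟩ := exists_unif_of_approx
    (fun Q : Place (ResidueField A) (FkN A N) => 0 ≤ Q.ord (redN A N (jinvO A N)))
    (ChartLift.approx2 A N) Q₀ (by rw [redN_jinvO]; exact hQ₀) T hT
    (fun Q hQ => by rw [redN_jinvO]; exact hTc Q hQ)
  obtain ⟨f, hf, hfreg⟩ := ChartLift.normalChart2 A N hN2 u hureg
  refine ⟨f, ?_, by rw [hf]; exact hu₀, fun Q hQ => by rw [hf]; exact huT Q hQ⟩
  rw [mem_O2]
  refine ⟨f.2, ?_⟩
  rw [RegInt.mem_regAt_iff]
  intro P hP
  exact hfreg P hP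

end Fermat.Agent.S37Sep
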