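import Mathlib
import Fermat.Agent.S37.Centre
import Fermat.Agent.S37.GalRed
import Fermat.Agent.S37.ChartPres
import Fermat.Agent.S37.NormVal
import Fermat.Agent.S37.RootCount
import Fermat.Agent.S37.Sep
import Fermat.Agent.S37.HeckeInt
import Fermat.Agent.S37.FrobPow
import Fermat.Agent.S37.GalRedJ
import Fermat.Agent.S37.CentreFlex
import Fermat.Agent.S37.NormReg
import Fermat.Agent.S37.HeckeSingle
import Fermat.Agent.S37.NmVal
import Fermat.Agent.S37.KroneckerX

/-!
# S37, leaf T4: the Eichler--Shimura congruence on divisors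

`r_* (T_ℓ P) = Φ (r P) + ℓ Φ⁻¹ (r P)` for every place `P` of the function field of `X₀(N)`.
-/

set_option autoImplicit false
set_option linter.unusedSectionVars false
set_option linter.style.haveILetI false
set_option linter.unusedVariables false
set_option synthInstance.maxHeartbeats 400000

noncomputable section

namespace Fermat.Agent.S37X.ESFinal

open ModularCurve AlgebraicCurve IntermediateField
open Fermat.Agent.S24 Fermat.Agent.S24.Eval
open Fermat.Agent.S18 Fermat.Agent.S18.Gauss Fermat.Agent.S18.Lattice Fermat.Agent.S18.Charts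
open Fermat.Agent.S37.CentreVal Fermat.Agent.S37.CentreChart Fermat.Agent.S37.Centre
open Fermat.Agent.S37GalRed

/-! ### Root count, point by point -/

section RootCount

variable {X ι k : Type*} [Field k] [Infinite k]

theorem sum_single_eq_of_forall (I : Finset ι) (x : ι → X) (e : ι → ℕ) (Q₁ Q₂ : X) (ℓ : ℕ)
    (h : ∀ Q₀, (Q₀ = Q₁ ∨ Q₀ = Q₂ ∨ ∃ i ∈ I, x i = Q₀) → ∃ v : X → k, v Q₀ = 0 ∧
      (∀ y, (y = Q₁ ∨ y = Q₂ ∨ ∃ i ∈ I, x i = y) → y ≠ Q₀ → v y ≠ 0) ∧
      ∀ c : k, ∏ i ∈ I, (c - v (x i)) ^ e i = (c - v Q₁) * (c - v Q₂) ^ ℓ) :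
    ∑ i ∈ I, Finsupp.single (x i) (e i : ℤ) =
      Finsupp.single Q₁ (1 : ℤ) + Finsupp.single Q₂ (ℓ : ℤ) := by
  classical
  ext y
  rw [Finsupp.finsetSum_apply, Finsupp.add_apply]
  simp only [Finsupp.single_apply]
  by_cases hy : y = Q₁ ∨ y = Q₂ ∨ ∃ i ∈ I, x i = y
  · obtain ⟨v, hv0, hvne, hv⟩ := h y hy
    have hpoly : ∏ i ∈ I, (Polynomial.X - Polynomial.C (v (x i))) ^ e i =
        ∏ j ∈ (Finset.univ : Finset (Fin 2)),
          (Polynomial.X - Polynomial.C (v (if j = 0 then Q₁ else Q₂))) ^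
            (if j = 0 then 1 else ℓ) := by
      apply Polynomial.funext
      intro c
      rw [Polynomial.eval_prod, Polynomial.eval_prod]
      simp only [Polynomial.eval_pow, Polynomial.eval_sub, Polynomial.eval_X,
        Polynomial.eval_C]
      rw [hv c, Fin.prod_univ_two]
      simp
    have hcount : (∑ i ∈ I, if v (x i) = 0 then e i else 0) =
        (if v Q₁ = 0 then 1 else 0) + (if v Q₂ = 0 then ℓ else 0) := by
      rw [← RootCount.count_roots_prod I (fun i => v (x i)) e 0, hpoly,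
        RootCount.count_roots_prod (Finset.univ : Finset (Fin 2))
          (fun j => v (if j = 0 then Q₁ else Q₂)) (fun j => if j = 0 then 1 else ℓ) 0,
        Fin.sum_univ_two]
      simp
    have key : ∀ z, (z = Q₁ ∨ z = Q₂ ∨ ∃ i ∈ I, x i = z) → (v z = 0 ↔ z = y) := by
      intro z hz
      constructor
      · intro hvz
        by_contra hne
        exact hvne z hz hne hvz
      · intro hzy
        rw [hzy]
        exact hv0
    have e1 : ∀ i ∈ I, (v (x i) = 0 ↔ x i = y) := fun i hi =>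
      key _ (Or.inr (Or.inr ⟨i, hi, rfl⟩))
    have e2 : v Q₁ = 0 ↔ Q₁ = y := key _ (Or.inl rfl)
    have e3 : v Q₂ = 0 ↔ Q₂ = y := key _ (Or.inr (Or.inl rfl))
    have h2 : (∑ i ∈ I, if x i = y then e i else 0) =
        (if Q₁ = y then 1 else 0) + (if Q₂ = y then ℓ else 0) := by
      rw [← (Finset.sum_congr rfl fun i hi => by simp only [e1 i hi] :
        (∑ i ∈ I, if v (x i) = 0 then e i else 0) = ∑ i ∈ I, if x i = y then e i else 0)]
      simp only [← e2, ← e3]
      exact hcount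
    have h3 := congrArg (Nat.cast : ℕ → ℤ) h2
    push_cast at h3
    simp only [← h3]
  · simp only [not_or, not_exists, not_and] at hy
    obtain ⟨hy1, hy2, hy3⟩ := hy
    rw [if_neg (Ne.symm hy1), if_neg (Ne.symm hy2), add_zero]
    exact Finset.sum_eq_zero fun i hi => if_neg (hy3 i hi)

end RootCount

/-! ### Values along a homomorphism -/

section Along

variable {K F F' : Type*} [Field K] [Field F] [Field F'] [Algebra K F] [Algebra K F']

theorem hasVal_of_restrictAlong (φ : F →ₐ[K] F') (hφ : φ.toRingHom.IsIntegral)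
    (W : Place K F') {g : F} {a : K} (h : HasVal (W.restrictAlong φ hφ) g a) :
    HasVal W (φ g) a := by
  rcases h with h | h
  · left
    rw [h, AlgHom.commutes]
  · right
    have h1 := (S37ChartPres.ord_restrictAlong_pos_iff φ hφ W
      (g - algebraMap K F a)).mp h
    rwa [map_sub, AlgHom.commutes] at h1

section Norm

variable {N ℓ : ℕ} [NeZero N] [NeZero ℓ] [HasPrincipalDivisors KK (FF (N * ℓ))]

/-- The value at `P` of the norm along `β` of `α g`, from the values of `g` at the points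
`W|α`, `W` over `P` along `β`. -/
theorem hasVal_norm (hα : HeckeAlphaBarIntegral KK N ℓ) (hβ : HeckeBetaBarIntegral KK N ℓ)
    (P : Place KK (FF N)) (g : FF N) (a : Place KK (FF (N * ℓ)) → KK)
    (ha : ∀ W ∈ Place.fiberAlong (heckeBetaBar KK N ℓ) hβ P,
      HasVal (W.restrictAlong (heckeAlphaBar KK N ℓ) hα) g (a W)) :
    HasVal P (letI := algebraAlong (heckeBetaBar KK N ℓ);
        Algebra.norm (FF N) (heckeAlphaBar KK N ℓ g))
      (∏ W ∈ Place.fiberAlong (heckeBetaBar KK N ℓ) hβ P,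
        a W ^ W.ramificationIndexAlong (heckeBetaBar KK N ℓ)) :=
  Fermat.Agent.S37X.NormVal.norm_hasVal_along (heckeBetaBar KK N ℓ) hβ
    (Fermat.Agent.S37X.HeckeInt.finiteAlong_beta N ℓ)
    (Fermat.Agent.S37X.NormVal.separableAlong_of_charZero (heckeBetaBar KK N ℓ) hβ)
    (fun W f hf => Fermat.Agent.S37NormReg.hval W f hf) P (heckeAlphaBar KK N ℓ g) a
    (fun W hW => hasVal_of_restrictAlong (heckeAlphaBar KK N ℓ) hα W (ha W hW))

end Norm

end Along

/-! ### The polynomial identity -/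

section Core

variable {A : ValuationSubring KK} {N ℓ : ℕ} [NeZero N] [NeZero ℓ] [Fact ℓ.Prime]

open Fermat.Agent.S37X.NmVal

set_option maxHeartbeats 3200000 in
/-- **The polynomial identity in `c̄`**, for one function `f` of the Gauss ring: the values of
`redN f` at the reductions of the points of `T_ℓ P` against its values at `Φ (r P)` and
`Φ⁻¹ (r P)`. -/
theorem prod_identity (hA : A.LiesOverPrime ℓ) (hℓN : ¬ ℓ ∣ N)
    (φ : RingAut (IsLocalRing.ResidueField A)) (hφ : ∀ x, φ x = x ^ ℓ)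
    (hα : HeckeAlphaBarIntegral KK N ℓ) (hβ : HeckeBetaBarIntegral KK N ℓ)
    [HasPrincipalDivisors KK (FF (N * ℓ))] (P : Place KK (FF N)) (f : OO A N)
    (hreg : ∀ W ∈ Place.fiberAlong (heckeBetaBar KK N ℓ) hβ P,
      (f : FF N) ∈ (W.restrictAlong (heckeAlphaBar KK N ℓ) hα).toValuationSubring)
    (hcp : ∀ W ∈ Place.fiberAlong (heckeBetaBar KK N ℓ) hβ P, ∀ a : KK,
      HasVal (W.restrictAlong (heckeAlphaBar KK N ℓ) hα) (f : FF N) a →
      ∃ ha' : a ∈ A, HasVal (rP hA hℓN (W.restrictAlong (heckeAlphaBar KK N ℓ) hα))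
        (redN A N f) (IsLocalRing.residue A ⟨a, ha'⟩))
    (hcpn : ∀ (n : OO A N) (c : A),
      (n : FF N) = (letI := algebraAlong (heckeBetaBar KK N ℓ);
        Algebra.norm (FF N) (heckeAlphaBar KK N ℓ ((CuspAbs.cst A N c - f : OO A N) : FF N))) →
      ∀ a : KK, HasVal P (n : FF N) a →
      ∃ ha' : a ∈ A, HasVal (rP hA hℓN P) (redN A N n) (IsLocalRing.residue A ⟨a, ha'⟩))
    (v : Place (IsLocalRing.ResidueField A) (FkN A N) → IsLocalRing.ResidueField A)
    (hv : ∀ W ∈ Place.fiberAlong (heckeBetaBar KK N ℓ) hβ P,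
      HasVal (rP hA hℓN (W.restrictAlong (heckeAlphaBar KK N ℓ) hα)) (redN A N f)
        (v (rP hA hℓN (W.restrictAlong (heckeAlphaBar KK N ℓ) hα))))
    (hv₁ : HasVal (coeffAut (IsLocalRing.ResidueField A) N φ • rP hA hℓN P) (redN A N f)
      (v (coeffAut (IsLocalRing.ResidueField A) N φ • rP hA hℓN P)))
    (hv₂ : HasVal (coeffAut (IsLocalRing.ResidueField A) N φ⁻¹ • rP hA hℓN P) (redN A N f)
      (v (coeffAut (IsLocalRing.ResidueField A) N φ⁻¹ • rP hA hℓN P)))
    (cb : IsLocalRing.ResidueField A) :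
    ∏ W ∈ Place.fiberAlong (heckeBetaBar KK N ℓ) hβ P,
        (cb - v (rP hA hℓN (W.restrictAlong (heckeAlphaBar KK N ℓ) hα))) ^
          W.ramificationIndexAlong (heckeBetaBar KK N ℓ) =
      (cb - v (coeffAut (IsLocalRing.ResidueField A) N φ • rP hA hℓN P)) *
        (cb - v (coeffAut (IsLocalRing.ResidueField A) N φ⁻¹ • rP hA hℓN P)) ^ ℓ := by
  have h0 : ∃ c : A, IsLocalRing.residue A c = cb := IsLocalRing.residue_surjective (R := A) cb
  obtain ⟨c, hc⟩ := h0
  subst hc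
  haveI := ResField.charP_residueField hA
  -- the function `c - f`
  set fc : OO A N := CuspAbs.cst A N c - f with hfc
  have hfc_red : redN A N fc = algebraMap (IsLocalRing.ResidueField A) (FkN A N)
      (IsLocalRing.residue A c) - redN A N f := by
    rw [hfc, map_sub, CuspAbs.redN_cst]
  have hfc_coe : (fc : FF N) = algebraMap KK (FF N) (c : KK) - (f : FF N) := rfl
  obtain ⟨n, hn, hnred⟩ := Fermat.Agent.S37KroneckerX.exists_norm_red hA Fact.out hℓN fc
  -- values upstairs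
  have hex : ∀ W ∈ Place.fiberAlong (heckeBetaBar KK N ℓ) hβ P, ∃ a : KK,
      HasVal (W.restrictAlong (heckeAlphaBar KK N ℓ) hα) (f : FF N) a :=
    fun W hW => hresF _ _ (hreg W hW)
  have hexA : ∀ W ∈ Place.fiberAlong (heckeBetaBar KK N ℓ) hβ P, ∃ a : A,
      HasVal (W.restrictAlong (heckeAlphaBar KK N ℓ) hα) (f : FF N) (a : KK) ∧
      v (rP hA hℓN (W.restrictAlong (heckeAlphaBar KK N ℓ) hα)) = IsLocalRing.residue A a := by
    intro W hW
    obtain ⟨a, ha⟩ := hex W hW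
    obtain ⟨ha', h1⟩ := hcp W hW a ha
    exact ⟨⟨a, ha'⟩, ha, HasVal.unique _ (hresK _) (hv W hW) h1⟩
  classical
  let aA : Place KK (FF (N * ℓ)) → A := fun W =>
    if hW : W ∈ Place.fiberAlong (heckeBetaBar KK N ℓ) hβ P then (hexA W hW).choose else 0
  have haA : ∀ W (hW : W ∈ Place.fiberAlong (heckeBetaBar KK N ℓ) hβ P),
      HasVal (W.restrictAlong (heckeAlphaBar KK N ℓ) hα) (f : FF N) (aA W : KK) ∧
      v (rP hA hℓN (W.restrictAlong (heckeAlphaBar KK N ℓ) hα)) =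
        IsLocalRing.residue A (aA W) := by
    intro W hW
    have := (hexA W hW).choose_spec
    simp only [aA, dif_pos hW]
    exact this
  -- the value of the norm at `P`
  have hnorm := hasVal_norm hα hβ P (fc : FF N) (fun W => (c : KK) - (aA W : KK))
    (fun W hW => by
      rw [hfc_coe]
      exact HasVal.sub _ (hresF _) (hasVal_algebraMap _ _) (haA W hW).1)
  rw [← hn] at hnorm
  obtain ⟨ha', hcen⟩ := hcpn n c hn _ hnorm
  have hprodA : (⟨∏ W ∈ Place.fiberAlong (heckeBetaBar KK N ℓ) hβ P,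
      ((c : KK) - (aA W : KK)) ^ W.ramificationIndexAlong (heckeBetaBar KK N ℓ), ha'⟩ : A) =
      ∏ W ∈ Place.fiberAlong (heckeBetaBar KK N ℓ) hβ P,
        (c - aA W) ^ W.ramificationIndexAlong (heckeBetaBar KK N ℓ) := by
    apply Subtype.ext
    show _ = A.subtype (∏ W ∈ Place.fiberAlong (heckeBetaBar KK N ℓ) hβ P,
        (c - aA W) ^ W.ramificationIndexAlong (heckeBetaBar KK N ℓ))
    rw [map_prod]
    rfl
  rw [hprodA, map_prod] at hcen
  -- the value of the reduction of the norm at `r P`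
  have h₁ : HasVal (coeffAut (IsLocalRing.ResidueField A) N φ • rP hA hℓN P) (redN A N fc)
      (IsLocalRing.residue A c - v (coeffAut (IsLocalRing.ResidueField A) N φ • rP hA hℓN P)) := by
    rw [hfc_red]
    exact HasVal.sub _ (hresK _) (hasVal_algebraMap _ _) hv₁
  have h₂ : HasVal (coeffAut (IsLocalRing.ResidueField A) N φ⁻¹ • rP hA hℓN P) (redN A N fc)
      (IsLocalRing.residue A c -
        v (coeffAut (IsLocalRing.ResidueField A) N φ⁻¹ • rP hA hℓN P)) := by
    rw [hfc_red]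
    exact HasVal.sub _ (hresK _) (hasVal_algebraMap _ _) hv₂
  have hnm := hasVal_nm N ℓ φ hφ (rP hA hℓN P) (redN A N fc) (redN A N n) _ _ h₁ h₂ hnred
  have huniq := HasVal.unique _ (hresK _) hcen hnm
  rw [← huniq]
  refine Finset.prod_congr rfl (fun W hW => ?_)
  rw [map_pow, map_sub, (haA W hW).2]

set_option maxHeartbeats 3200000 in
/-- From a function `w` of the Gauss ring whose reduction has a simple zero at `Q₀` and no other
zero on the finite set `T` of points involved: the value function of `redN w`. -/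
theorem exists_v (hA : A.LiesOverPrime ℓ) (hℓN : ¬ ℓ ∣ N)
    (φ : RingAut (IsLocalRing.ResidueField A)) (hφ : ∀ x, φ x = x ^ ℓ)
    (hα : HeckeAlphaBarIntegral KK N ℓ) (hβ : HeckeBetaBarIntegral KK N ℓ)
    [HasPrincipalDivisors KK (FF (N * ℓ))] (P : Place KK (FF N))
    (Q₀ : Place (IsLocalRing.ResidueField A) (FkN A N)) (w : OO A N)
    (hw₀ : Q₀.ord (redN A N w) = 1)
    (hwT : ∀ y : Place (IsLocalRing.ResidueField A) (FkN A N),
      (y = coeffAut (IsLocalRing.ResidueField A) N φ • rP hA hℓN P ∨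
        y = coeffAut (IsLocalRing.ResidueField A) N φ⁻¹ • rP hA hℓN P ∨
        ∃ W ∈ Place.fiberAlong (heckeBetaBar KK N ℓ) hβ P,
          rP hA hℓN (W.restrictAlong (heckeAlphaBar KK N ℓ) hα) = y) →
      y ≠ Q₀ → y.ord (redN A N w) = 0)
    (hreg : ∀ W ∈ Place.fiberAlong (heckeBetaBar KK N ℓ) hβ P,
      (w : FF N) ∈ (W.restrictAlong (heckeAlphaBar KK N ℓ) hα).toValuationSubring)
    (hcp : ∀ W ∈ Place.fiberAlong (heckeBetaBar KK N ℓ) hβ P, ∀ a : KK,
      HasVal (W.restrictAlong (heckeAlphaBar KK N ℓ) hα) (w : FF N) a →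
      ∃ ha' : a ∈ A, HasVal (rP hA hℓN (W.restrictAlong (heckeAlphaBar KK N ℓ) hα))
        (redN A N w) (IsLocalRing.residue A ⟨a, ha'⟩))
    (hcpn : ∀ (n : OO A N) (c : A),
      (n : FF N) = (letI := algebraAlong (heckeBetaBar KK N ℓ);
        Algebra.norm (FF N) (heckeAlphaBar KK N ℓ ((CuspAbs.cst A N c - w : OO A N) : FF N))) →
      ∀ a : KK, HasVal P (n : FF N) a →
      ∃ ha' : a ∈ A, HasVal (rP hA hℓN P) (redN A N n) (IsLocalRing.residue A ⟨a, ha'⟩)) :
    ∃ v : Place (IsLocalRing.ResidueField A) (FkN A N) → IsLocalRing.ResidueField A,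
      v Q₀ = 0 ∧
      (∀ y : Place (IsLocalRing.ResidueField A) (FkN A N),
        (y = coeffAut (IsLocalRing.ResidueField A) N φ • rP hA hℓN P ∨
          y = coeffAut (IsLocalRing.ResidueField A) N φ⁻¹ • rP hA hℓN P ∨
          ∃ W ∈ Place.fiberAlong (heckeBetaBar KK N ℓ) hβ P,
            rP hA hℓN (W.restrictAlong (heckeAlphaBar KK N ℓ) hα) = y) →
        y ≠ Q₀ → v y ≠ 0) ∧
      ∀ cb : IsLocalRing.ResidueField A,
        ∏ W ∈ Place.fiberAlong (heckeBetaBar KK N ℓ) hβ P,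
          (cb - v (rP hA hℓN (W.restrictAlong (heckeAlphaBar KK N ℓ) hα))) ^
            W.ramificationIndexAlong (heckeBetaBar KK N ℓ) =
        (cb - v (coeffAut (IsLocalRing.ResidueField A) N φ • rP hA hℓN P)) *
          (cb - v (coeffAut (IsLocalRing.ResidueField A) N φ⁻¹ • rP hA hℓN P)) ^ ℓ := by
  classical
  let v : Place (IsLocalRing.ResidueField A) (FkN A N) → IsLocalRing.ResidueField A :=
    fun Q => if h : ∃ a, HasVal Q (redN A N w) a then h.choose else 0
  have hvspec : ∀ Q : Place (IsLocalRing.ResidueField A) (FkN A N),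
      (∃ a, HasVal Q (redN A N w) a) → HasVal Q (redN A N w) (v Q) := by
    intro Q h
    simp only [v, dif_pos h]
    exact h.choose_spec
  have h0 : HasVal Q₀ (redN A N w) 0 := by
    right
    rw [map_zero, sub_zero, hw₀]
    exact one_pos
  have hT : ∀ y : Place (IsLocalRing.ResidueField A) (FkN A N),
      (y = coeffAut (IsLocalRing.ResidueField A) N φ • rP hA hℓN P ∨
        y = coeffAut (IsLocalRing.ResidueField A) N φ⁻¹ • rP hA hℓN P ∨
        ∃ W ∈ Place.fiberAlong (heckeBetaBar KK N ℓ) hβ P,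
          rP hA hℓN (W.restrictAlong (heckeAlphaBar KK N ℓ) hα) = y) →
      HasVal y (redN A N w) (v y) := by
    intro y hy
    by_cases hyQ : y = Q₀
    · rw [hyQ]
      exact hvspec Q₀ ⟨0, h0⟩
    · have h1 := hwT y hy hyQ
      exact hvspec y (hresK y _ (RegInt.mem_of_ord_nonneg₀ y _ (by rw [h1])))
  refine ⟨v, ?_, ?_, fun cb => prod_identity hA hℓN φ hφ hα hβ P w hreg hcp hcpn v
    (fun W hW => hT _ (Or.inr (Or.inr ⟨W, hW, rfl⟩))) (hT _ (Or.inl rfl))
    (hT _ (Or.inr (Or.inl rfl))) cb⟩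
  · exact HasVal.unique Q₀ (hresK Q₀) (hvspec Q₀ ⟨0, h0⟩) h0
  · intro y hy hyQ hvy
    have h1 := hwT y hy hyQ
    have h2 := hT y hy
    rw [hvy] at h2
    rcases h2 with h2 | h2
    · rw [map_zero] at h2
      rw [h2, Place.ord_zero] at hw₀
      exact zero_ne_one hw₀
    · rw [map_zero, sub_zero, h1] at h2
      exact lt_irrefl _ h2

theorem alpha_cst_sub (c : A) (w : OO A N) :
    heckeAlphaBar KK N ℓ ((CuspAbs.cst A N c - w : OO A N) : FF N) =
      algebraMap KK (FF (N * ℓ)) (c : KK) - heckeAlphaBar KK N ℓ (w : FF N) := by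
  show heckeAlphaBar KK N ℓ (algebraMap KK (FF N) (c : KK) - (w : FF N)) = _
  rw [map_sub, AlgHom.commutes]

set_option maxHeartbeats 3200000 in
/-- The chart `{j ≠ ∞}`. -/
theorem exists_v_chart1 (hA : A.LiesOverPrime ℓ) (hℓN : ¬ ℓ ∣ N)
    (φ : RingAut (IsLocalRing.ResidueField A)) (hφ : ∀ x, φ x = x ^ ℓ)
    (hα : HeckeAlphaBarIntegral KK N ℓ) (hβ : HeckeBetaBarIntegral KK N ℓ)
    [HasPrincipalDivisors KK (FF (N * ℓ))] (P : Place KK (FF N)) (hP : CuspAbs.JInt A N P)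
    (Q₀ : Place (IsLocalRing.ResidueField A) (FkN A N))
    (hQ₀ : Q₀ = coeffAut (IsLocalRing.ResidueField A) N φ • rP hA hℓN P ∨
        Q₀ = coeffAut (IsLocalRing.ResidueField A) N φ⁻¹ • rP hA hℓN P ∨
        ∃ W ∈ Place.fiberAlong (heckeBetaBar KK N ℓ) hβ P,
          rP hA hℓN (W.restrictAlong (heckeAlphaBar KK N ℓ) hα) = Q₀) :
    ∃ v : Place (IsLocalRing.ResidueField A) (FkN A N) → IsLocalRing.ResidueField A,
      v Q₀ = 0 ∧
      (∀ y : Place (IsLocalRing.ResidueField A) (FkN A N),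
        (y = coeffAut (IsLocalRing.ResidueField A) N φ • rP hA hℓN P ∨
          y = coeffAut (IsLocalRing.ResidueField A) N φ⁻¹ • rP hA hℓN P ∨
          ∃ W ∈ Place.fiberAlong (heckeBetaBar KK N ℓ) hβ P,
            rP hA hℓN (W.restrictAlong (heckeAlphaBar KK N ℓ) hα) = y) →
        y ≠ Q₀ → v y ≠ 0) ∧
      ∀ cb : IsLocalRing.ResidueField A,
        ∏ W ∈ Place.fiberAlong (heckeBetaBar KK N ℓ) hβ P,
          (cb - v (rP hA hℓN (W.restrictAlong (heckeAlphaBar KK N ℓ) hα))) ^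
            W.ramificationIndexAlong (heckeBetaBar KK N ℓ) =
        (cb - v (coeffAut (IsLocalRing.ResidueField A) N φ • rP hA hℓN P)) *
          (cb - v (coeffAut (IsLocalRing.ResidueField A) N φ⁻¹ • rP hA hℓN P)) ^ ℓ := by
  classical
  have hfinQ : 0 ≤ (rP hA hℓN P).ord (jb A N) := rP_finite hA hℓN P hP
  have hJW : ∀ W ∈ Place.fiberAlong (heckeBetaBar KK N ℓ) hβ P,
      CuspAbs.JInt A N (W.restrictAlong (heckeAlphaBar KK N ℓ) hα) := fun W hW =>
    (S37ChartPres.jInt_alpha_iff_beta hα hβ A W).mpr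
      (by rw [Place.mem_fiberAlong.mp hW]; exact hP)
  have hfin : ∀ y : Place (IsLocalRing.ResidueField A) (FkN A N),
      (y = coeffAut (IsLocalRing.ResidueField A) N φ • rP hA hℓN P ∨
        y = coeffAut (IsLocalRing.ResidueField A) N φ⁻¹ • rP hA hℓN P ∨
        ∃ W ∈ Place.fiberAlong (heckeBetaBar KK N ℓ) hβ P,
          rP hA hℓN (W.restrictAlong (heckeAlphaBar KK N ℓ) hα) = y) → 0 ≤ y.ord (jb A N) := by
    rintro y (rfl | rfl | ⟨W, hW, rfl⟩)
    · exact (ord_smul_jk (IsLocalRing.ResidueField A) N φ (rP hA hℓN P)).symm ▸ hfinQ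
    · exact (ord_smul_jk (IsLocalRing.ResidueField A) N φ⁻¹ (rP hA hℓN P)).symm ▸ hfinQ
    · exact rP_finite hA hℓN _ (hJW W hW)
  let T : Finset (Place (IsLocalRing.ResidueField A) (FkN A N)) :=
    insert (coeffAut (IsLocalRing.ResidueField A) N φ • rP hA hℓN P)
      (insert (coeffAut (IsLocalRing.ResidueField A) N φ⁻¹ • rP hA hℓN P)
        ((Place.fiberAlong (heckeBetaBar KK N ℓ) hβ P).image
          (fun W => rP hA hℓN (W.restrictAlong (heckeAlphaBar KK N ℓ) hα))))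
  have hTmem : ∀ y : Place (IsLocalRing.ResidueField A) (FkN A N), (y = coeffAut (IsLocalRing.ResidueField A) N φ • rP hA hℓN P ∨
        y = coeffAut (IsLocalRing.ResidueField A) N φ⁻¹ • rP hA hℓN P ∨
        ∃ W ∈ Place.fiberAlong (heckeBetaBar KK N ℓ) hβ P,
          rP hA hℓN (W.restrictAlong (heckeAlphaBar KK N ℓ) hα) = y) → y ∈ T := by
    rintro y (rfl | rfl | ⟨W, hW, rfl⟩)
    · exact Finset.mem_insert_self _ _
    · exact Finset.mem_insert_of_mem (Finset.mem_insert_self _ _)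
    · exact Finset.mem_insert_of_mem (Finset.mem_insert_of_mem
        (Finset.mem_image.mpr ⟨W, hW, rfl⟩))
  have hTof : ∀ y ∈ T, (y = coeffAut (IsLocalRing.ResidueField A) N φ • rP hA hℓN P ∨
        y = coeffAut (IsLocalRing.ResidueField A) N φ⁻¹ • rP hA hℓN P ∨
        ∃ W ∈ Place.fiberAlong (heckeBetaBar KK N ℓ) hβ P,
          rP hA hℓN (W.restrictAlong (heckeAlphaBar KK N ℓ) hα) = y) := by
    intro y hy
    rcases Finset.mem_insert.mp hy with h | h
    · exact Or.inl h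
    rcases Finset.mem_insert.mp h with h | h
    · exact Or.inr (Or.inl h)
    · obtain ⟨W, hW, hWy⟩ := Finset.mem_image.mp h
      exact Or.inr (Or.inr ⟨W, hW, hWy⟩)
  obtain ⟨w, hwO1, hw₀, hwT⟩ := Fermat.Agent.S37Sep.exists_unif1 hA hℓN Q₀ (hfin Q₀ hQ₀)
    (T.erase Q₀) (Finset.notMem_erase Q₀ T)
    (fun Q hQ => hfin Q (hTof Q (Finset.mem_of_mem_erase hQ)))
  have hwreg : (w : FF N) ∈ regAt N (jF N) := (Subring.mem_inf.mp hwO1).2
  refine exists_v hA hℓN φ hφ hα hβ P Q₀ w hw₀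
    (fun y hy hyQ => hwT y (Finset.mem_erase.mpr ⟨hyQ, hTmem y hy⟩)) ?_ ?_ ?_
  · intro W hW
    obtain ⟨a, -, ha⟩ := hJW W hW
    exact hwreg _ (HasVal.mem _ (Or.inr ha))
  · intro W hW a ha
    exact val_chart1 hA hℓN _ (hJW W hW) w hwreg a ha
  · intro n c hn a ha
    refine val_chart1 hA hℓN P hP n ?_ a ha
    rw [hn, alpha_cst_sub]
    exact Fermat.Agent.S37NormReg.norm_mem_regAt hα hβ (c : KK) (w : FF N) hwreg

set_option maxHeartbeats 3200000 in
/-- The chart `{1/j ≠ ∞}`. -/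
theorem exists_v_chart2 (hA : A.LiesOverPrime ℓ) (hℓN : ¬ ℓ ∣ N)
    (φ : RingAut (IsLocalRing.ResidueField A)) (hφ : ∀ x, φ x = x ^ ℓ)
    (hα : HeckeAlphaBarIntegral KK N ℓ) (hβ : HeckeBetaBarIntegral KK N ℓ)
    [HasPrincipalDivisors KK (FF (N * ℓ))] (P : Place KK (FF N)) (hP : ¬ CuspAbs.JInt A N P)
    (Q₀ : Place (IsLocalRing.ResidueField A) (FkN A N))
    (hQ₀ : Q₀ = coeffAut (IsLocalRing.ResidueField A) N φ • rP hA hℓN P ∨
        Q₀ = coeffAut (IsLocalRing.ResidueField A) N φ⁻¹ • rP hA hℓN P ∨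
        ∃ W ∈ Place.fiberAlong (heckeBetaBar KK N ℓ) hβ P,
          rP hA hℓN (W.restrictAlong (heckeAlphaBar KK N ℓ) hα) = Q₀) :
    ∃ v : Place (IsLocalRing.ResidueField A) (FkN A N) → IsLocalRing.ResidueField A,
      v Q₀ = 0 ∧
      (∀ y : Place (IsLocalRing.ResidueField A) (FkN A N),
        (y = coeffAut (IsLocalRing.ResidueField A) N φ • rP hA hℓN P ∨
          y = coeffAut (IsLocalRing.ResidueField A) N φ⁻¹ • rP hA hℓN P ∨
          ∃ W ∈ Place.fiberAlong (heckeBetaBar KK N ℓ) hβ P,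
            rP hA hℓN (W.restrictAlong (heckeAlphaBar KK N ℓ) hα) = y) →
        y ≠ Q₀ → v y ≠ 0) ∧
      ∀ cb : IsLocalRing.ResidueField A,
        ∏ W ∈ Place.fiberAlong (heckeBetaBar KK N ℓ) hβ P,
          (cb - v (rP hA hℓN (W.restrictAlong (heckeAlphaBar KK N ℓ) hα))) ^
            W.ramificationIndexAlong (heckeBetaBar KK N ℓ) =
        (cb - v (coeffAut (IsLocalRing.ResidueField A) N φ • rP hA hℓN P)) *
          (cb - v (coeffAut (IsLocalRing.ResidueField A) N φ⁻¹ • rP hA hℓN P)) ^ ℓ := by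
  classical
  have hcusp : ∀ R : Place KK (FF N), ¬ CuspAbs.JInt A N R →
      0 ≤ (rP hA hℓN R).ord (jb A N)⁻¹ := by
    intro R hR
    have := rP_cusp hA hℓN R hR
    rw [Place.ord_inv]
    omega
  have hJW : ∀ W ∈ Place.fiberAlong (heckeBetaBar KK N ℓ) hβ P,
      ¬ CuspAbs.JInt A N (W.restrictAlong (heckeAlphaBar KK N ℓ) hα) := fun W hW h =>
    hP (by
      have := (S37ChartPres.jInt_alpha_iff_beta hα hβ A W).mp h
      rwa [Place.mem_fiberAlong.mp hW] at this)
  have hfin : ∀ y : Place (IsLocalRing.ResidueField A) (FkN A N),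
      (y = coeffAut (IsLocalRing.ResidueField A) N φ • rP hA hℓN P ∨
        y = coeffAut (IsLocalRing.ResidueField A) N φ⁻¹ • rP hA hℓN P ∨
        ∃ W ∈ Place.fiberAlong (heckeBetaBar KK N ℓ) hβ P,
          rP hA hℓN (W.restrictAlong (heckeAlphaBar KK N ℓ) hα) = y) → 0 ≤ y.ord (jb A N)⁻¹ := by
    rintro y (rfl | rfl | ⟨W, hW, rfl⟩)
    · exact (ord_smul_jk_inv (IsLocalRing.ResidueField A) N φ (rP hA hℓN P)).symm ▸
        hcusp P hP
    · exact (ord_smul_jk_inv (IsLocalRing.ResidueField A) N φ⁻¹ (rP hA hℓN P)).symm ▸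
        hcusp P hP
    · exact hcusp _ (hJW W hW)
  let T : Finset (Place (IsLocalRing.ResidueField A) (FkN A N)) :=
    insert (coeffAut (IsLocalRing.ResidueField A) N φ • rP hA hℓN P)
      (insert (coeffAut (IsLocalRing.ResidueField A) N φ⁻¹ • rP hA hℓN P)
        ((Place.fiberAlong (heckeBetaBar KK N ℓ) hβ P).image
          (fun W => rP hA hℓN (W.restrictAlong (heckeAlphaBar KK N ℓ) hα))))
  have hTmem : ∀ y : Place (IsLocalRing.ResidueField A) (FkN A N), (y = coeffAut (IsLocalRing.ResidueField A) N φ • rP hA hℓN P ∨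
        y = coeffAut (IsLocalRing.ResidueField A) N φ⁻¹ • rP hA hℓN P ∨
        ∃ W ∈ Place.fiberAlong (heckeBetaBar KK N ℓ) hβ P,
          rP hA hℓN (W.restrictAlong (heckeAlphaBar KK N ℓ) hα) = y) → y ∈ T := by
    rintro y (rfl | rfl | ⟨W, hW, rfl⟩)
    · exact Finset.mem_insert_self _ _
    · exact Finset.mem_insert_of_mem (Finset.mem_insert_self _ _)
    · exact Finset.mem_insert_of_mem (Finset.mem_insert_of_mem
        (Finset.mem_image.mpr ⟨W, hW, rfl⟩))
  have hTof : ∀ y ∈ T, (y = coeffAut (IsLocalRing.ResidueField A) N φ • rP hA hℓN P ∨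
        y = coeffAut (IsLocalRing.ResidueField A) N φ⁻¹ • rP hA hℓN P ∨
        ∃ W ∈ Place.fiberAlong (heckeBetaBar KK N ℓ) hβ P,
          rP hA hℓN (W.restrictAlong (heckeAlphaBar KK N ℓ) hα) = y) := by
    intro y hy
    rcases Finset.mem_insert.mp hy with h | h
    · exact Or.inl h
    rcases Finset.mem_insert.mp h with h | h
    · exact Or.inr (Or.inl h)
    · obtain ⟨W, hW, hWy⟩ := Finset.mem_image.mp h
      exact Or.inr (Or.inr ⟨W, hW, hWy⟩)
  obtain ⟨w, hwO2, hw₀, hwT⟩ := Fermat.Agent.S37Sep.exists_unif2 hA hℓN Q₀ (hfin Q₀ hQ₀)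
    (T.erase Q₀) (Finset.notMem_erase Q₀ T)
    (fun Q hQ => hfin Q (hTof Q (Finset.mem_of_mem_erase hQ)))
  have hwreg : (w : FF N) ∈ regAt N (jF N)⁻¹ := (Subring.mem_inf.mp hwO2).2
  refine exists_v hA hℓN φ hφ hα hβ P Q₀ w hw₀
    (fun y hy hyQ => hwT y (Finset.mem_erase.mpr ⟨hyQ, hTmem y hy⟩)) ?_ ?_ ?_
  · intro W hW
    exact hwreg _ (Fermat.Agent.S37NormReg.jinv_mem_of_not_jInt A (hJW W hW))
  · intro W hW a ha
    exact val_chart2 hA hℓN _ (hJW W hW) w hwreg a ha
  · intro n c hn a ha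
    refine Fermat.Agent.S37CentreFlex.val_chart2_flex hA hℓN P hP n (fun P₁ hP₁ => ?_) a ha
    rw [hn, alpha_cst_sub]
    exact Fermat.Agent.S37NormReg.norm_ord_nonneg_of_not_jInt A hα hβ (c : KK) (w : FF N)
      hwreg P₁ hP₁

/-- **T4, the Eichler--Shimura congruence on divisors**: for every place `P` of the function
field of `X₀(N)`, `r_* (T_ℓ P) = Φ (r P) + ℓ Φ⁻¹ (r P)`, where `Φ` is the coefficientwise
Frobenius on the places of the reduced function field. -/
theorem red_hecke_single (hA : A.LiesOverPrime ℓ) (hℓN : ¬ ℓ ∣ N)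
    (φ : RingAut (IsLocalRing.ResidueField A)) (hφ : ∀ x, φ x = x ^ ℓ)
    (hα : HeckeAlphaBarIntegral KK N ℓ) (hβ : HeckeBetaBarIntegral KK N ℓ)
    [HasPrincipalDivisors KK (FF (N * ℓ))] (P : Place KK (FF N)) :
    Finsupp.mapDomain (rP hA hℓN) (heckeDivBar hα hβ (Finsupp.single P 1)) =
      Finsupp.single (coeffAut (IsLocalRing.ResidueField A) N φ • rP hA hℓN P) 1 +
        Finsupp.single (coeffAut (IsLocalRing.ResidueField A) N φ⁻¹ • rP hA hℓN P) (ℓ : ℤ) := by
  rw [Fermat.Agent.S37X.HeckeSingle.mapDomain_heckeDivBar_single]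
  haveI : Infinite (IsLocalRing.ResidueField A) := IsAlgClosed.instInfinite
  refine sum_single_eq_of_forall (k := IsLocalRing.ResidueField A)
    (Place.fiberAlong (heckeBetaBar KK N ℓ) hβ P)
    (fun W => rP hA hℓN (W.restrictAlong (heckeAlphaBar KK N ℓ) hα))
    (fun W => W.ramificationIndexAlong (heckeBetaBar KK N ℓ))
    (coeffAut (IsLocalRing.ResidueField A) N φ • rP hA hℓN P)
    (coeffAut (IsLocalRing.ResidueField A) N φ⁻¹ • rP hA hℓN P) ℓ (fun Q₀ hQ₀ => ?_)
  by_cases hP : CuspAbs.JInt A N P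
  · exact exists_v_chart1 hA hℓN φ hφ hα hβ P hP Q₀ hQ₀
  · exact exists_v_chart2 hA hℓN φ hφ hα hβ P hP Q₀ hQ₀

/-- **T4 in the shape of `Leaves.leaves_of`.** -/
theorem hES (hA : A.LiesOverPrime ℓ) (hℓN : ¬ ℓ ∣ N)
    {σ₀ : KK ≃ₐ[ℚ] KK} (h₀ : A.IsFrobeniusAt σ₀ ℓ)
    (hα : HeckeAlphaBarIntegral KK N ℓ) (hβ : HeckeBetaBarIntegral KK N ℓ)
    (_ : HasPrincipalDivisors KK (FF (N * ℓ))) (P : Place KK (FF N)) :
    Finsupp.mapDomain (rP hA hℓN) (heckeDivBar hα hβ (Finsupp.single P 1)) =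
      Finsupp.single (coeffAut (IsLocalRing.ResidueField A) N (frobAut h₀) • rP hA hℓN P) 1 +
        Finsupp.single (coeffAut (IsLocalRing.ResidueField A) N (frobAut h₀)⁻¹ • rP hA hℓN P)
          (ℓ : ℤ) :=
  red_hecke_single hA hℓN (frobAut h₀) (frobAut_apply h₀) hα hβ P

end Core

end Fermat.Agent.S37X.ESFinal
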