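import Mathlib
import Fermat.Agent.S54.Frobenius

/-!
# S37 (leaf T1): Frobenius lifts at an arbitrary place of `ℚ̄`

For every valuation subring `A` of `ℚ̄` lying over a prime `ℓ` there is an element `σ` of the
absolute Galois group of `ℚ` which is a Frobenius element at `A`
(`exists_isFrobeniusAt`); two Frobenius elements at `A` differ by an element of the inertia
group (`inv_mul_mem_inertiaSubgroupIn`).

The tools are those of `S54/Frobenius.lean` (which treats one place over `ℓ`).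
-/

set_option autoImplicit false
set_option linter.style.haveILetI false
set_option linter.unusedSectionVars false
set_option linter.unusedVariables false
open scoped Pointwise
open Polynomial

namespace Fermat.Agent.S37FrobLift

open Fermat.Agent.S54

attribute [local instance] Fermat.Agent.S54.instAlgQb Fermat.Agent.S54.instAlgClQb
  Fermat.Agent.S54.instNormalQb Fermat.Agent.S54.instGaloisQb Fermat.Agent.S54.instTopZb
  Fermat.Agent.S54.instDiscZb Fermat.Agent.S54.instContZb Fermat.Agent.S54.instInvZb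

/-- A valuation subring of `ℚ̄` contains all algebraic integers. -/
theorem valuation_le_one_of_isIntegral (A : ValuationSubring (AlgebraicClosure ℚ))
    (b : integralClosure ℤ (AlgebraicClosure ℚ)) :
    A.valuation (b : AlgebraicClosure ℚ) ≤ 1 := by
  rw [A.valuation_le_one_iff]
  have hb : IsIntegral ℤ (b : AlgebraicClosure ℚ) := b.2
  have hbA : IsIntegral A (b : AlgebraicClosure ℚ) := hb.tower_top
  obtain ⟨y, hy⟩ := (IsIntegrallyClosed.isIntegral_iff (R := A)
    (K := AlgebraicClosure ℚ)).mp hbA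
  rw [← hy]
  exact y.2

/-- The maximal ideal of `ℤ̄` cut out by a valuation subring of `ℚ̄`. -/
def idealOf (A : ValuationSubring (AlgebraicClosure ℚ)) :
    Ideal (integralClosure ℤ (AlgebraicClosure ℚ)) where
  carrier := {b | A.valuation (b : AlgebraicClosure ℚ) < 1}
  zero_mem' := by
    show A.valuation ((0 : integralClosure ℤ (AlgebraicClosure ℚ)) : AlgebraicClosure ℚ) < 1
    simp
  add_mem' := by
    intro a b ha hb
    show A.valuation ((a + b : integralClosure ℤ (AlgebraicClosure ℚ)) : AlgebraicClosure ℚ) < 1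
    have h : ((a + b : integralClosure ℤ (AlgebraicClosure ℚ)) : AlgebraicClosure ℚ) =
        (a : AlgebraicClosure ℚ) + (b : AlgebraicClosure ℚ) := rfl
    rw [h]
    exact lt_of_le_of_lt (Valuation.map_add _ _ _) (max_lt ha hb)
  smul_mem' := by
    intro c b hb
    show A.valuation ((c * b : integralClosure ℤ (AlgebraicClosure ℚ)) : AlgebraicClosure ℚ) < 1
    have h : ((c * b : integralClosure ℤ (AlgebraicClosure ℚ)) : AlgebraicClosure ℚ) =
        (c : AlgebraicClosure ℚ) * (b : AlgebraicClosure ℚ) := rfl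
    rw [h, map_mul]
    calc A.valuation (c : AlgebraicClosure ℚ) * A.valuation (b : AlgebraicClosure ℚ)
        ≤ 1 * A.valuation (b : AlgebraicClosure ℚ) := by
          gcongr
          exact valuation_le_one_of_isIntegral A c
      _ = A.valuation (b : AlgebraicClosure ℚ) := one_mul _
      _ < 1 := hb

theorem mem_idealOf (A : ValuationSubring (AlgebraicClosure ℚ))
    (b : integralClosure ℤ (AlgebraicClosure ℚ)) :
    b ∈ idealOf A ↔ A.valuation (b : AlgebraicClosure ℚ) < 1 := Iff.rfl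

theorem idealOf_ne_top (A : ValuationSubring (AlgebraicClosure ℚ)) : idealOf A ≠ ⊤ := by
  intro h
  have h1 : (1 : integralClosure ℤ (AlgebraicClosure ℚ)) ∈ idealOf A := by rw [h]; trivial
  rw [mem_idealOf] at h1
  have h2 : ((1 : integralClosure ℤ (AlgebraicClosure ℚ)) : AlgebraicClosure ℚ) = 1 := rfl
  rw [h2, map_one] at h1
  exact lt_irrefl _ h1

theorem idealOf_isPrime (A : ValuationSubring (AlgebraicClosure ℚ)) : (idealOf A).IsPrime := by
  refine ⟨idealOf_ne_top A, fun {a b} hab => ?_⟩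
  rw [mem_idealOf] at hab
  have h : ((a * b : integralClosure ℤ (AlgebraicClosure ℚ)) : AlgebraicClosure ℚ) =
      (a : AlgebraicClosure ℚ) * (b : AlgebraicClosure ℚ) := rfl
  rw [h, map_mul] at hab
  by_contra hcon
  rw [not_or] at hcon
  have ha : A.valuation (a : AlgebraicClosure ℚ) = 1 :=
    le_antisymm (valuation_le_one_of_isIntegral A a) (not_lt.mp hcon.1)
  have hb : A.valuation (b : AlgebraicClosure ℚ) = 1 :=
    le_antisymm (valuation_le_one_of_isIntegral A b) (not_lt.mp hcon.2)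
  rw [ha, hb, one_mul] at hab
  exact lt_irrefl _ hab

theorem comap_idealOf (ℓ : ℕ) (hℓ : ℓ.Prime) (A : ValuationSubring (AlgebraicClosure ℚ))
    (hA : A.LiesOverPrime ℓ) :
    (idealOf A).comap (algebraMap ℤ (integralClosure ℤ (AlgebraicClosure ℚ))) =
      Ideal.span {(ℓ : ℤ)} := by
  have hPmax : (Ideal.span {(ℓ : ℤ)}).IsMaximal :=
    PrincipalIdealRing.isMaximal_of_irreducible
      (Nat.prime_iff_prime_int.mp hℓ).irreducible
  have hle : Ideal.span {(ℓ : ℤ)} ≤
      (idealOf A).comap (algebraMap ℤ (integralClosure ℤ (AlgebraicClosure ℚ))) := by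
    rw [Ideal.span_le, Set.singleton_subset_iff]
    show algebraMap ℤ (integralClosure ℤ (AlgebraicClosure ℚ)) (ℓ : ℤ) ∈ idealOf A
    rw [mem_idealOf]
    have h1 : (ℓ : AlgebraicClosure ℚ) ∈ A.nonunits := hA
    rw [A.mem_nonunits_iff] at h1
    have h2 : ((algebraMap ℤ (integralClosure ℤ (AlgebraicClosure ℚ)) (ℓ : ℤ) :
        integralClosure ℤ (AlgebraicClosure ℚ)) : AlgebraicClosure ℚ) =
        (ℓ : AlgebraicClosure ℚ) := by simp
    rw [h2]
    exact h1
  have hne : (idealOf A).comap (algebraMap ℤ (integralClosure ℤ (AlgebraicClosure ℚ))) ≠ ⊤ := by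
    haveI := idealOf_isPrime A
    exact (Ideal.comap_isPrime _ _).ne_top
  exact (hPmax.eq_of_le hne hle).symm

theorem idealOf_isMaximal (ℓ : ℕ) (hℓ : ℓ.Prime) (A : ValuationSubring (AlgebraicClosure ℚ))
    (hA : A.LiesOverPrime ℓ) : (idealOf A).IsMaximal := by
  haveI := idealOf_isPrime A
  have hPmax : (Ideal.span {(ℓ : ℤ)}).IsMaximal :=
    PrincipalIdealRing.isMaximal_of_irreducible
      (Nat.prime_iff_prime_int.mp hℓ).irreducible
  refine Ideal.isMaximal_of_isIntegral_of_isMaximal_comap (R := ℤ) (idealOf A) ?_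
  rw [comap_idealOf ℓ hℓ A hA]
  exact hPmax

/-- **Existence of Frobenius elements at every place**: for every valuation subring `A` of `ℚ̄`
lying over the prime `ℓ` there is a Frobenius element at `A` in the absolute Galois group. -/
theorem exists_isFrobeniusAt (ℓ : ℕ) (hℓ : ℓ.Prime) (A : ValuationSubring (AlgebraicClosure ℚ))
    (hA : A.LiesOverPrime ℓ) :
    ∃ σ : AlgebraicClosure ℚ ≃ₐ[ℚ] AlgebraicClosure ℚ, A.IsFrobeniusAt σ ℓ := by
  obtain ⟨Q, hQdef⟩ : ∃ Q : Ideal (integralClosure ℤ (AlgebraicClosure ℚ)), Q = idealOf A :=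
    ⟨_, rfl⟩
  have hQmax : Q.IsMaximal := hQdef ▸ idealOf_isMaximal ℓ hℓ A hA
  have hQP : Q.comap (algebraMap ℤ (integralClosure ℤ (AlgebraicClosure ℚ))) =
      Ideal.span {(ℓ : ℤ)} := hQdef ▸ comap_idealOf ℓ hℓ A hA
  have hv1 : ∀ b : integralClosure ℤ (AlgebraicClosure ℚ),
      A.valuation (b : AlgebraicClosure ℚ) ≤ 1 := valuation_le_one_of_isIntegral A
  have hvQ : ∀ b : integralClosure ℤ (AlgebraicClosure ℚ),
      b ∈ Q ↔ A.valuation (b : AlgebraicClosure ℚ) < 1 := fun b => by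
    rw [hQdef]
    exact mem_idealOf A b
  haveI : Q.IsPrime := hQmax.isPrime
  haveI : Q.LiesOver (Ideal.span {(ℓ : ℤ)}) := ⟨hQP.symm⟩
  -- integers prime to ℓ are units
  have hmemQ : ∀ m : ℤ,
      (algebraMap ℤ (integralClosure ℤ (AlgebraicClosure ℚ)) m) ∈ Q ↔ (ℓ : ℤ) ∣ m := by
    intro m
    rw [← Ideal.mem_comap, hQP, Ideal.mem_span_singleton]
  have hvℓ : ∀ m : ℤ, ¬ (ℓ : ℤ) ∣ m → A.valuation ((m : ℤ) : AlgebraicClosure ℚ) = 1 := by
    intro m hm
    have h1 : A.valuation ((algebraMap ℤ (integralClosure ℤ (AlgebraicClosure ℚ)) m :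
        integralClosure ℤ (AlgebraicClosure ℚ)) : AlgebraicClosure ℚ) ≤ 1 := hv1 _
    have h2 : ¬ A.valuation ((algebraMap ℤ (integralClosure ℤ (AlgebraicClosure ℚ)) m :
        integralClosure ℤ (AlgebraicClosure ℚ)) : AlgebraicClosure ℚ) < 1 := fun h =>
      hm ((hmemQ m).mp ((hvQ _).mpr h))
    have h3 := le_antisymm h1 (not_lt.mp h2)
    simpa using h3
  have hden := exists_den A hv1 ℓ hℓ hvℓ
  obtain ⟨σ₀, hσ₀⟩ := exists_frob_quot ℓ hℓ Q hQmax hQP
  obtain ⟨⟨τ, hτ⟩, hτσ⟩ := Ideal.Quotient.stabilizerHom_surjective_of_profinite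
    (G := (AlgebraicClosure ℚ ≃ₐ[ℚ] AlgebraicClosure ℚ)) (Ideal.span {(ℓ : ℤ)}) Q σ₀
  have hτQ' : τ • Q = Q := hτ
  have hτQ : ∀ b : integralClosure ℤ (AlgebraicClosure ℚ), τ • b - b ^ ℓ ∈ Q := by
    intro b
    have h1 := DFunLike.congr_fun hτσ (Ideal.Quotient.mk Q b)
    rw [hσ₀, Ideal.Quotient.stabilizerHom_apply] at h1
    rw [← Ideal.Quotient.eq, map_pow]
    exact h1
  -- τ stabilizes A
  have hτV : τ ∈ A.decompositionSubgroup ℚ := by
    rw [MulAction.mem_stabilizer_iff]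
    apply SetLike.ext
    intro x
    rw [ValuationSubring.mem_pointwise_smul_iff_inv_smul_mem]
    constructor
    · intro hx
      have := stab_maps_V A Q hv1 hvQ hden τ hτQ' _ hx
      simpa using this
    · intro hx
      have hinv : τ⁻¹ • Q = Q := by
        conv_lhs => rw [← hτQ']
        rw [inv_smul_smul]
      exact stab_maps_V A Q hv1 hvQ hden τ⁻¹ hinv _ hx
  refine ⟨τ, hτV, ?_⟩
  intro y
  obtain ⟨y, rfl⟩ := IsLocalRing.residue_surjective y
  rw [← IsLocalRing.ResidueField.residue_smul, ← map_pow]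
  rw [← sub_eq_zero, ← map_sub, IsLocalRing.residue_eq_zero_iff,
    ← ValuationSubring.coe_mem_nonunits_iff, A.mem_nonunits_iff]
  show A.valuation (τ (y : AlgebraicClosure ℚ) - (y : AlgebraicClosure ℚ) ^ ℓ) < 1
  obtain ⟨s, hs, a, ha⟩ := hden y y.2
  have hsQ : s ∉ Q := fun h => by
    have := (hvQ s).mp h
    rw [hs] at this
    exact lt_irrefl _ this
  have hτsQ : τ • s ∉ Q := by
    intro h
    rw [← hτQ'] at h
    exact hsQ (Ideal.smul_mem_pointwise_smul_iff.mp h)
  have hτs1 : A.valuation (τ (s : AlgebraicClosure ℚ)) = 1 := by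
    have h1 : A.valuation (((τ • s : integralClosure ℤ (AlgebraicClosure ℚ))) :
        AlgebraicClosure ℚ) ≤ 1 := hv1 _
    have h2 : ¬ A.valuation (((τ • s : integralClosure ℤ (AlgebraicClosure ℚ))) :
        AlgebraicClosure ℚ) < 1 := fun h => hτsQ ((hvQ _).mpr h)
    exact le_antisymm h1 (not_lt.mp h2)
  -- the numerator
  have hnum : s ^ ℓ * (τ • a - a ^ ℓ) - a ^ ℓ * (τ • s - s ^ ℓ) ∈ Q :=
    Q.sub_mem (Q.mul_mem_left _ (hτQ a)) (Q.mul_mem_left _ (hτQ s))
  have hnumv := (hvQ _).mp hnum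
  have hkey : (((s ^ ℓ * (τ • a - a ^ ℓ) - a ^ ℓ * (τ • s - s ^ ℓ) :
      integralClosure ℤ (AlgebraicClosure ℚ))) : AlgebraicClosure ℚ)
      = (τ (s : AlgebraicClosure ℚ) * (s : AlgebraicClosure ℚ) ^ ℓ) *
        (τ (y : AlgebraicClosure ℚ) - (y : AlgebraicClosure ℚ) ^ ℓ) := by
    have hτa : ((τ • a : integralClosure ℤ (AlgebraicClosure ℚ)) : AlgebraicClosure ℚ) =
        τ (s : AlgebraicClosure ℚ) * τ (y : AlgebraicClosure ℚ) := by
      show τ (a : AlgebraicClosure ℚ) = _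
      rw [ha, map_mul]
    have hτs : ((τ • s : integralClosure ℤ (AlgebraicClosure ℚ)) : AlgebraicClosure ℚ) =
        τ (s : AlgebraicClosure ℚ) := rfl
    push_cast
    rw [hτa, hτs, ha]
    ring
  rw [hkey, map_mul, map_mul, map_pow, hτs1, hs, one_pow, one_mul, one_mul] at hnumv
  exact hnumv

/-- Two Frobenius elements at the same place differ by an element of the inertia group. -/
theorem inv_mul_mem_inertiaSubgroupIn {ℓ : ℕ} {A : ValuationSubring (AlgebraicClosure ℚ)}
    {σ σ' : AlgebraicClosure ℚ ≃ₐ[ℚ] AlgebraicClosure ℚ}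
    (h : A.IsFrobeniusAt σ ℓ) (h' : A.IsFrobeniusAt σ' ℓ) :
    σ⁻¹ * σ' ∈ A.inertiaSubgroupIn ℚ := by
  obtain ⟨hσ, hx⟩ := h
  obtain ⟨hσ', hx'⟩ := h'
  have hg : (⟨σ, hσ⟩ : A.decompositionSubgroup ℚ)⁻¹ * ⟨σ', hσ'⟩ ∈ A.inertiaSubgroup ℚ := by
    rw [ValuationSubring.inertiaSubgroup, MonoidHom.mem_ker]
    apply RingEquiv.ext
    intro x
    have e1 : (MulSemiringAction.toRingAut (A.decompositionSubgroup ℚ)
        (IsLocalRing.ResidueField A) ((⟨σ, hσ⟩ : A.decompositionSubgroup ℚ)⁻¹ * ⟨σ', hσ'⟩)) x =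
        ((⟨σ, hσ⟩ : A.decompositionSubgroup ℚ)⁻¹ * ⟨σ', hσ'⟩) • x := rfl
    rw [e1, mul_smul, hx', ← hx, inv_smul_smul]
    rfl
  exact Subgroup.mem_map.mpr ⟨_, hg, rfl⟩

end Fermat.Agent.S37FrobLift
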