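import Mathlib
import Fermat.Agent.S18.DecMod

/-!
# S37, leaf (a3): principal divisors are generated by divisors of integral functions

For a valuation ring `A` of `ℚ̄` over a prime `ℓ` and every level `N` prime to `ℓ` the hypothesis
`PrincipalGeneratedByIntegral A (residue A) N` of the prelude HOLDS: by the decomposition property
`DecMod.dec` every nonzero function is `c * Y₁ / Y₂` with a constant `c ≠ 0` and Gauss units
`Y₁`, `Y₂`, so its divisor is `div Y₁ - div Y₂`.
-/

set_option autoImplicit false

noncomputable section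

namespace Fermat.Agent.S37Hgen

open ModularCurve AlgebraicCurve HahnSeries IntermediateField
open Fermat.Agent.S18.Gauss Fermat.Agent.S18.Lattice Fermat.Agent.S24 Fermat.Agent.S24.Eval

variable {A : ValuationSubring KK} {ℓ : ℕ} [Fact ℓ.Prime] (N : ℕ) [NeZero N]

omit [NeZero N] in
/-- The divisor of a Gauss unit is an integral principal divisor. -/
theorem dv_mem_integral {y : LaurentSeries A}
    (hy : IsIntU A (modularFunctionFieldBar N) (FkN A N) y)
    {D : Divisor KK (modularFunctionFieldBar N)}
    (hD : ∀ P, D P = P.ord (⟨inc A y, hy.1.1⟩ : modularFunctionFieldBar N)) :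
    D ∈ integralPrincipalDivisors A (IsLocalRing.residue A) N :=
  ⟨y, hy.1.1, hy.1.2, hy.2, hD⟩

/-- The decomposition property implies `PrincipalGeneratedByIntegral`. -/
theorem hgen_of_dec (hdec : Dec A (modularFunctionFieldBar N) (FkN A N)) :
    PrincipalGeneratedByIntegral A (IsLocalRing.residue A) N := by
  classical
  intro D hD
  obtain ⟨f, hf, hDf⟩ := hD
  obtain ⟨c, hc, Y₁, Y₂, h₁, h₂, h⟩ := hdec f hf
  -- the two functions
  set y₁ : modularFunctionFieldBar N := ⟨inc A Y₁, h₁.1.1⟩ with hy₁
  set y₂ : modularFunctionFieldBar N := ⟨inc A Y₂, h₂.1.1⟩ with hy₂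
  have hy₁0 : y₁ ≠ 0 := fun h0 => h₁.inc_ne_zero (congrArg Subtype.val h0)
  have hy₂0 : y₂ ≠ 0 := fun h0 => h₂.inc_ne_zero (congrArg Subtype.val h0)
  have hcF : algebraMap KK (modularFunctionFieldBar N) c ≠ 0 := fun h0 =>
    hc ((map_eq_zero (algebraMap KK (modularFunctionFieldBar N))).mp h0)
  have hF : f * y₂ = algebraMap KK (modularFunctionFieldBar N) c * y₁ := Subtype.ext h
  -- the two divisors
  have hfin : ∀ g : modularFunctionFieldBar N, g ≠ 0 →
      ∃ E : Divisor KK (modularFunctionFieldBar N), ∀ P, E P = P.ord g :=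
    fun g _ => ⟨dv N g, fun P => dv_apply N g P⟩
  obtain ⟨E₁, hE₁⟩ := hfin y₁ hy₁0
  obtain ⟨E₂, hE₂⟩ := hfin y₂ hy₂0
  have e : D = E₁ - E₂ := by
    ext P
    rw [Finsupp.sub_apply, hDf P, hE₁ P, hE₂ P]
    have h1 := congrArg P.ord hF
    rw [P.ord_mul hf hy₂0, P.ord_mul hcF hy₁0, Fermat.Agent.S24.ord_algebraMap] at h1
    omega
  rw [e]
  exact AddSubgroup.sub_mem _
    (AddSubgroup.subset_closure (dv_mem_integral N h₁ hE₁))
    (AddSubgroup.subset_closure (dv_mem_integral N h₂ hE₂))

/-- **Leaf (a3)**: at every level prime to `ℓ` the principal divisors of the modular function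
field are generated by the divisors of integral functions with nonzero reduction. -/
theorem hgen (hA : A.LiesOverPrime ℓ) (hℓN : ¬ ℓ ∣ N) :
    PrincipalGeneratedByIntegral A (IsLocalRing.residue A) N :=
  hgen_of_dec N (Fermat.Agent.S18.DecMod.dec N hA hℓN)

end Fermat.Agent.S37Hgen
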