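import Mathlib
import Fermat.Agent.S18.Assemble
import Fermat.Agent.S18.CuspFinal
import Fermat.Agent.S18.Cusp0A
import Fermat.Agent.S18.CuspSep

/-!
# S37, leaf T6: the injectivity of S18 for an arbitrary place reduction map

The proof of the frozen statement S18 is generic in the place reduction map `r`.  Here it is
restated for a GIVEN `r` (not the one chosen by `reductionModL`): for every `r` with the prelude's
two properties, the map `reductionPic0Along r hr hgen` is injective on the torsion prime to `ℓ`.
-/

set_option autoImplicit false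
set_option synthInstance.maxHeartbeats 400000

namespace Fermat.Agent.S37Inj

open ModularCurve AlgebraicCurve HahnSeries IsLocalRing
open Fermat.Agent.S18 Fermat.Agent.S18.Step0
open Fermat.Agent.S18.Gauss Fermat.Agent.S18.Lattice
open Fermat.Agent.S18.EndGame Fermat.Agent.S18.EndGame2
open Fermat.Agent.S24.Eval

variable (N : ℕ) [NeZero N] {ℓ : ℕ} [Fact ℓ.Prime]
variable (A : ValuationSubring KK)

/-- The divisor-level statement of S18 for every place reduction map `r` and every prime
exponent different from `ℓ`. -/
theorem divStmt (hℓN : ¬ ℓ ∣ N) (hA : A.LiesOverPrime ℓ)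
    (r : Place KK (FF N) → Place (ResidueField A) (FkN A N))
    (hr : IsPlaceReductionModL A N r)
    (hgen : PrincipalGeneratedByIntegral A (residue A) N)
    (p : ℕ) (hp : p.Prime) (hpℓ : p ≠ ℓ) : DivStmt N r p := by
  have hN1 := Assemble.normalStmt1 N A hℓN hA
  have hN : Charts.NormalStmt A N :=
    ⟨hN1, CuspFinal.normalStmt2 hA hℓN hr hN1 (Cusp0A.cuspA A N) (CuspSep.cuspB N hA hℓN)⟩
  have hUnit : DivStmtUnit A (residue A) N r p :=
    Final.divStmtUnit_of_lift_loc N A hℓN hA r hgen (LiftMod.Cj N) (LiftMod.Cj_nonneg N)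
      (fun G hG => LiftFin.lift_of_normal hr hA hℓN hN G hG) p hp hpℓ
      (fun D f _ hrD hf hfD Ep Em hEp hEm hE =>
        Loc.locNZ hr hA hℓN hN (Arch.arch Fact.out hA) p
          (ResField.natCast_residue_ne_zero hA hp hpℓ) D Ep Em hEp hEm hE hrD f hf hfD)
  exact divStmt_of_zero hr (Step0Lift.principalLift hr IsLocalRing.residue_surjective)
    (divStmtZero_of_unit hr hgen IsLocalRing.residue_surjective
      (DegZeroFbar.constantsSpecial N hA hℓN) hUnit)

variable {N A}

/-- The class-level statement for one exponent and a given `r`. -/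
def ClassStmtAt (r : Place KK (FF N) → Place (ResidueField A) (FkN A N))
    (hr : IsPlaceReductionModL A N r)
    (hgen : PrincipalGeneratedByIntegral A (residue A) N) (m : ℕ) : Prop :=
  ∀ z : JZero N, m • z = 0 → reductionPic0Along r hr hgen z = 0 → z = 0

section Class

variable {r : Place KK (FF N) → Place (ResidueField A) (FkN A N)}
  {hr : IsPlaceReductionModL A N r} {hgen : PrincipalGeneratedByIntegral A (residue A) N}

theorem classStmtAt_one : ClassStmtAt r hr hgen 1 := by
  intro z hz _
  simpa using hz

theorem classStmtAt_mul {a b : ℕ} (ha : ClassStmtAt r hr hgen a) (hb : ClassStmtAt r hr hgen b) :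
    ClassStmtAt r hr hgen (a * b) := by
  intro z hz hred
  apply hb z _ hred
  apply ha (b • z)
  · rw [← mul_smul]; exact hz
  · rw [map_nsmul, hred, smul_zero]

theorem classStmtAt_of_prime {ℓ : ℕ}
    (hp : ∀ p : ℕ, p.Prime → p ≠ ℓ → ClassStmtAt r hr hgen p)
    (m : ℕ) (hm : ¬ ℓ ∣ m) : ClassStmtAt r hr hgen m := by
  induction m using Nat.recOnMul with
  | zero => exact absurd (dvd_zero ℓ) hm
  | one => exact classStmtAt_one
  | prime p hp' =>
    exact hp p hp' (fun h => hm (h ▸ dvd_rfl))
  | mul a b iha ihb =>
    exact classStmtAt_mul (iha fun h => hm (h.mul_right b)) (ihb fun h => hm (h.mul_left a))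

theorem classStmtAt_of_divStmt {m : ℕ} (hD : DivStmt N r m) : ClassStmtAt r hr hgen m := by
  intro z hmz hz
  obtain ⟨D, rfl⟩ := Pic0.mk_surjective z
  rw [reductionPic0Along_mk] at hz
  have h1 : Divisor.IsPrincipal
      (m • (D : Divisor (AlgebraicClosure ℚ) (modularFunctionFieldBar N))) := by
    have : (m • D : Divisor.degZero (K := AlgebraicClosure ℚ) (F := modularFunctionFieldBar N)) ∈
        (Divisor.principal (K := AlgebraicClosure ℚ) (F := modularFunctionFieldBar N)).addSubgroupOf
          (Divisor.degZero (K := AlgebraicClosure ℚ) (F := modularFunctionFieldBar N)) := by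
      rw [← QuotientAddGroup.eq_zero_iff]
      exact hmz
    rw [AddSubgroup.mem_addSubgroupOf, AddSubgroupClass.coe_nsmul] at this
    exact this
  have h2 : Divisor.IsPrincipal (Finsupp.mapDomain r
      (D : Divisor (AlgebraicClosure ℚ) (modularFunctionFieldBar N))) := by
    have := (QuotientAddGroup.eq_zero_iff _).1 hz
    rw [AddSubgroup.mem_addSubgroupOf, coe_reductionDegZeroAlong] at this
    exact this
  have h3 := hD D D.2 h1 h2
  show (QuotientAddGroup.mk D : JZero N) = 0
  rw [QuotientAddGroup.eq_zero_iff, AddSubgroup.mem_addSubgroupOf]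
  exact h3

end Class

/-- **S18 for a given place reduction map.**  For every `r` with the prelude's two properties the
map `reductionPic0Along r hr hgen` is injective on the torsion prime to `ℓ`. -/
theorem eq_zero_of_reductionPic0Along_eq_zero (hℓN : ¬ ℓ ∣ N) (hA : A.LiesOverPrime ℓ)
    (r : Place KK (FF N) → Place (ResidueField A) (FkN A N))
    (hr : IsPlaceReductionModL A N r)
    (hgen : PrincipalGeneratedByIntegral A (residue A) N)
    (m : ℕ) (hm : ¬ ℓ ∣ m) (z : JZero N) (hmz : m • z = 0)
    (hz : reductionPic0Along r hr hgen z = 0) : z = 0 :=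
  classStmtAt_of_prime (fun p hp hpℓ =>
    classStmtAt_of_divStmt (divStmt N A hℓN hA r hr hgen p hp hpℓ)) m hm z hmz hz

end Fermat.Agent.S37Inj
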