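import Fermat.Prelude.Def_ModularCurve_HeckeModule

/-!
# S37, formal shell

`SpecializationExists N p (JZero N)` follows, prime by prime, from
* the existence of one Frobenius lift at `A`;
* an additive map `red` on `JZero N` which is invariant under the inertia group,
  kills `σ²x - T_ℓ σ x + ℓ x` for every Frobenius lift `σ`, and is injective on the
  `p`-power torsion.

The specialization is the quotient of `JZero N` by the additive span of the elements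
`τ x - x` (`τ` in the inertia group) and `σ²x - T_ℓ σ x + ℓ x` (`σ` a Frobenius lift).
-/

set_option autoImplicit false

noncomputable section

namespace Fermat.Agent.S37Shell

open ModularCurve

/-- The absolute Galois group of `ℚ`. -/
abbrev GalQ : Type := AlgebraicClosure ℚ ≃ₐ[ℚ] AlgebraicClosure ℚ

section Residue

variable {A : ValuationSubring (AlgebraicClosure ℚ)} {ℓ : ℕ}

/-- The quotient of two Frobenius lifts lies in the inertia group. -/
theorem mul_inv_mem_inertiaSubgroupIn {σ σ₀ : GalQ}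
    (hσ : A.IsFrobeniusAt σ ℓ) (hσ₀ : A.IsFrobeniusAt σ₀ ℓ) :
    σ * σ₀⁻¹ ∈ A.inertiaSubgroupIn ℚ := by
  have hmem : σ * σ₀⁻¹ ∈ A.decompositionSubgroup ℚ :=
    Subgroup.mul_mem _ hσ.mem_decompositionSubgroup
      (Subgroup.inv_mem _ hσ₀.mem_decompositionSubgroup)
  refine ⟨⟨σ * σ₀⁻¹, hmem⟩, ?_, rfl⟩
  rw [SetLike.mem_coe, ValuationSubring.inertiaSubgroup, MonoidHom.mem_ker]
  ext x
  set s : A.decompositionSubgroup ℚ := ⟨σ, hσ.mem_decompositionSubgroup⟩ with hs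
  set s₀ : A.decompositionSubgroup ℚ := ⟨σ₀, hσ₀.mem_decompositionSubgroup⟩ with hs₀
  have hprod : (⟨σ * σ₀⁻¹, hmem⟩ : A.decompositionSubgroup ℚ) = s * s₀⁻¹ := rfl
  rw [hprod]
  show (s * s₀⁻¹) • x = x
  rw [mul_smul]
  have h1 : s • (s₀⁻¹ • x) = (s₀⁻¹ • x) ^ ℓ := hσ.smul_residue_eq _
  have h2 : s₀ • (s₀⁻¹ • x) = (s₀⁻¹ • x) ^ ℓ := hσ₀.smul_residue_eq _
  rw [h1, ← h2, smul_inv_smul]

/-- A conjugate of an inertia element by an element of the decomposition group is in the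
inertia group. -/
theorem conj_mem_inertiaSubgroupIn {τ σ₀ : GalQ}
    (hτ : τ ∈ A.inertiaSubgroupIn ℚ) (hσ₀ : σ₀ ∈ A.decompositionSubgroup ℚ) :
    σ₀ * τ * σ₀⁻¹ ∈ A.inertiaSubgroupIn ℚ := by
  obtain ⟨t, ht, rfl⟩ := hτ
  rw [SetLike.mem_coe, ValuationSubring.inertiaSubgroup, MonoidHom.mem_ker] at ht
  set s₀ : A.decompositionSubgroup ℚ := ⟨σ₀, hσ₀⟩ with hs₀
  refine ⟨s₀ * t * s₀⁻¹, ?_, rfl⟩
  rw [SetLike.mem_coe, ValuationSubring.inertiaSubgroup, MonoidHom.mem_ker, map_mul, map_mul,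
    ht, mul_one, ← map_mul, mul_inv_cancel, map_one]

/-- A conjugate of a Frobenius lift by an element of the decomposition group is a Frobenius
lift. -/
theorem conj_isFrobeniusAt {σ σ₀ : GalQ}
    (hσ : A.IsFrobeniusAt σ ℓ) (hσ₀ : σ₀ ∈ A.decompositionSubgroup ℚ) :
    A.IsFrobeniusAt (σ₀ * σ * σ₀⁻¹) ℓ := by
  set s : A.decompositionSubgroup ℚ := ⟨σ, hσ.mem_decompositionSubgroup⟩ with hs
  set s₀ : A.decompositionSubgroup ℚ := ⟨σ₀, hσ₀⟩ with hs₀
  have hmem : σ₀ * σ * σ₀⁻¹ ∈ A.decompositionSubgroup ℚ := (s₀ * s * s₀⁻¹).2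
  refine ⟨hmem, fun x => ?_⟩
  have hprod : (⟨σ₀ * σ * σ₀⁻¹, hmem⟩ : A.decompositionSubgroup ℚ) = s₀ * s * s₀⁻¹ := rfl
  rw [hprod, mul_smul, mul_smul]
  have h1 : s • (s₀⁻¹ • x) = (s₀⁻¹ • x) ^ ℓ := hσ.smul_residue_eq _
  rw [h1, smul_pow', smul_inv_smul]

end Residue

section Quotient

variable (N : ℕ) [NeZero N] (A : ValuationSubring (AlgebraicClosure ℚ)) (ℓ : ℕ) (hℓ : ℓ.Prime)

/-- The generators of the relation subgroup. -/
def relGen : Set (JZero N) :=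
  {y | ∃ τ ∈ A.inertiaSubgroupIn ℚ, ∃ x : JZero N, y = τ • x - x} ∪
    {y | ∃ σ : GalQ, A.IsFrobeniusAt σ ℓ ∧ ∃ x : JZero N,
      y = σ • σ • x - heckeOperatorBar N ⟨ℓ, hℓ⟩ (σ • x) + ℓ • x}

/-- The relation subgroup. -/
def relGroup : AddSubgroup (JZero N) := AddSubgroup.closure (relGen N A ℓ hℓ)

variable {N A ℓ hℓ}

theorem inertia_mem_relGroup {τ : GalQ} (hτ : τ ∈ A.inertiaSubgroupIn ℚ) (x : JZero N) :
    τ • x - x ∈ relGroup N A ℓ hℓ :=
  AddSubgroup.subset_closure (Or.inl ⟨τ, hτ, x, rfl⟩)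

theorem frob_mem_relGroup {σ : GalQ} (hσ : A.IsFrobeniusAt σ ℓ) (x : JZero N) :
    σ • σ • x - heckeOperatorBar N ⟨ℓ, hℓ⟩ (σ • x) + ℓ • x ∈ relGroup N A ℓ hℓ :=
  AddSubgroup.subset_closure (Or.inr ⟨σ, hσ, x, rfl⟩)

/-- An additive map killing the generators kills the relation subgroup. -/
theorem red_eq_zero_of_mem_relGroup {X : Type*} [AddCommGroup X] (red : JZero N →+ X)
    (h1 : ∀ τ ∈ A.inertiaSubgroupIn ℚ, ∀ x : JZero N, red (τ • x) = red x)
    (h2 : ∀ σ : GalQ, A.IsFrobeniusAt σ ℓ → ∀ x : JZero N,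
      red (σ • σ • x - heckeOperatorBar N ⟨ℓ, hℓ⟩ (σ • x) + ℓ • x) = 0)
    {y : JZero N} (hy : y ∈ relGroup N A ℓ hℓ) : red y = 0 := by
  induction hy using AddSubgroup.closure_induction with
  | mem y hy =>
    rcases hy with ⟨τ, hτ, x, rfl⟩ | ⟨σ, hσ, x, rfl⟩
    · rw [map_sub, h1 τ hτ x, sub_self]
    · exact h2 σ hσ x
  | zero => exact map_zero red
  | add a b _ _ ha hb => rw [map_add, ha, hb, add_zero]
  | neg a _ ha => rw [map_neg, ha, neg_zero]

/-- The relation subgroup is stable under every additive endomorphism commuting with the Galois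
action and with the Hecke operator `T_ℓ`. -/
theorem map_mem_relGroup (t : JZero N →+ JZero N)
    (htG : ∀ (σ : GalQ) (x : JZero N), t (σ • x) = σ • t x)
    (htT : ∀ x : JZero N, t (heckeOperatorBar N ⟨ℓ, hℓ⟩ x) = heckeOperatorBar N ⟨ℓ, hℓ⟩ (t x))
    {y : JZero N} (hy : y ∈ relGroup N A ℓ hℓ) : t y ∈ relGroup N A ℓ hℓ := by
  induction hy using AddSubgroup.closure_induction with
  | mem y hy =>
    rcases hy with ⟨τ, hτ, x, rfl⟩ | ⟨σ, hσ, x, rfl⟩
    · rw [map_sub, htG]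
      exact inertia_mem_relGroup hτ (t x)
    · rw [map_add, map_sub, htG, htG, htT, htG, map_nsmul]
      exact frob_mem_relGroup hσ (t x)
  | zero => rw [map_zero]; exact AddSubgroup.zero_mem _
  | add a b _ _ ha hb => rw [map_add]; exact AddSubgroup.add_mem _ ha hb
  | neg a _ ha => rw [map_neg]; exact AddSubgroup.neg_mem _ ha

/-- The relation subgroup is stable under the decomposition group. -/
theorem smul_mem_relGroup
    (hTG : ∀ (σ : GalQ) (x : JZero N),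
      heckeOperatorBar N ⟨ℓ, hℓ⟩ (σ • x) = σ • heckeOperatorBar N ⟨ℓ, hℓ⟩ x)
    {σ₀ : GalQ} (hσ₀ : σ₀ ∈ A.decompositionSubgroup ℚ)
    {y : JZero N} (hy : y ∈ relGroup N A ℓ hℓ) : σ₀ • y ∈ relGroup N A ℓ hℓ := by
  induction hy using AddSubgroup.closure_induction with
  | mem y hy =>
    rcases hy with ⟨τ, hτ, x, rfl⟩ | ⟨σ, hσ, x, rfl⟩
    · have h := inertia_mem_relGroup (hℓ := hℓ) (conj_mem_inertiaSubgroupIn hτ hσ₀) (σ₀ • x)
      have e : ∀ z : JZero N, (σ₀ * τ * σ₀⁻¹) • (σ₀ • z) = σ₀ • τ • z := fun z => by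
        rw [mul_smul, mul_smul, inv_smul_smul]
      rw [e] at h
      rwa [smul_sub]
    · have h := frob_mem_relGroup (hℓ := hℓ) (conj_isFrobeniusAt hσ hσ₀) (σ₀ • x)
      have e : ∀ z : JZero N, (σ₀ * σ * σ₀⁻¹) • (σ₀ • z) = σ₀ • σ • z := fun z => by
        rw [mul_smul, mul_smul, inv_smul_smul]
      rw [e, e, hTG σ₀] at h
      have e3 : σ₀ • (ℓ • x) = ℓ • (σ₀ • x) :=
        map_nsmul (DistribSMul.toAddMonoidHom (JZero N) σ₀) ℓ x
      rwa [smul_add, smul_sub, e3]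
  | zero =>
    have e : σ₀ • (0 : JZero N) = 0 := map_zero (DistribSMul.toAddMonoidHom (JZero N) σ₀)
    rw [e]; exact AddSubgroup.zero_mem _
  | add a b _ _ ha hb => rw [smul_add]; exact AddSubgroup.add_mem _ ha hb
  | neg a _ ha => rw [smul_neg]; exact AddSubgroup.neg_mem _ ha

end Quotient

section Main

variable (N p : ℕ) [NeZero N]

/-- The hypothesis of the shell at one prime `ℓ` and one place `A` over `ℓ`. -/
def RedInputs (ℓ : ℕ) (hℓ : ℓ.Prime) (A : ValuationSubring (AlgebraicClosure ℚ)) : Prop :=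
  (∃ σ : GalQ, A.IsFrobeniusAt σ ℓ) ∧
    ∃ (X : Type) (_ : AddCommGroup X) (red : JZero N →+ X),
      (∀ τ ∈ A.inertiaSubgroupIn ℚ, ∀ x : JZero N, red (τ • x) = red x) ∧
      (∀ σ : GalQ, A.IsFrobeniusAt σ ℓ → ∀ x : JZero N,
        red (σ • σ • x - heckeOperatorBar N ⟨ℓ, hℓ⟩ (σ • x) + ℓ • x) = 0) ∧
      (∀ x : JZero N, (∃ n : ℕ, p ^ n • x = 0) → red x = 0 → x = 0)

/-- **The formal shell of S37.** -/
theorem specializationExists_of_redInputs (hcomm : HeckeOperatorsCommuteBar N)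
    (H : ∀ ℓ : ℕ, (hℓ : ℓ.Prime) → ¬ ℓ ∣ N * p →
      ∀ A : ValuationSubring (AlgebraicClosure ℚ), A.LiesOverPrime ℓ → RedInputs N p ℓ hℓ A) :
    letI := heckeModuleBar N
    ∀ (_ : SMulCommClass (AlgebraicClosure ℚ ≃ₐ[ℚ] AlgebraicClosure ℚ) HeckeAlg (JZero N)),
      SpecializationExists (K := ℚ) (L := AlgebraicClosure ℚ) N p (JZero N) := by
  let _ := heckeModuleBar N
  intro hSC ℓ hℓ hnd A hA
  obtain ⟨⟨σ₀, hσ₀⟩, X, _, red, hR1, hR2, hR3⟩ := H ℓ hℓ hnd A hA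
  -- the Hecke operator `T_ℓ` is the action of `heckeGen`
  have hT : ∀ x : JZero N, heckeGen ⟨ℓ, hℓ⟩ • x = heckeOperatorBar N ⟨ℓ, hℓ⟩ x :=
    fun x => heckeModuleBar_heckeGen_smul hcomm ⟨ℓ, hℓ⟩ x
  have hTG : ∀ (σ : GalQ) (x : JZero N),
      heckeOperatorBar N ⟨ℓ, hℓ⟩ (σ • x) = σ • heckeOperatorBar N ⟨ℓ, hℓ⟩ x := by
    intro σ x
    rw [← hT, ← hT]
    exact (smul_comm σ (heckeGen ⟨ℓ, hℓ⟩) x).symm
  -- the relation submodule
  let M : Submodule HeckeAlg (JZero N) :=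
    { carrier := relGroup N A ℓ hℓ
      add_mem' := fun ha hb => AddSubgroup.add_mem _ ha hb
      zero_mem' := AddSubgroup.zero_mem _
      smul_mem' := fun t y hy => by
        have h := map_mem_relGroup (A := A) (ℓ := ℓ) (hℓ := hℓ)
          (DistribSMul.toAddMonoidHom (JZero N) t)
          (fun σ x => (smul_comm σ t x).symm)
          (fun x => by
            show t • heckeOperatorBar N ⟨ℓ, hℓ⟩ x = heckeOperatorBar N ⟨ℓ, hℓ⟩ (t • x)
            rw [← hT, ← hT]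
            exact smul_comm t (heckeGen ⟨ℓ, hℓ⟩) x) hy
        exact h }
  have hM : ∀ y : JZero N, y ∈ M ↔ y ∈ relGroup N A ℓ hℓ := fun y => Iff.rfl
  -- the Frobenius lift as a linear endomorphism
  let φ : JZero N →ₗ[HeckeAlg] JZero N :=
    { toFun := fun x => σ₀ • x
      map_add' := fun x y => smul_add σ₀ x y
      map_smul' := fun t x => (smul_comm σ₀ t x) }
  have hφ : ∀ x, φ x = σ₀ • x := fun x => rfl
  have hφM : M ≤ M.comap φ := fun y hy =>
    (hM _).2 (smul_mem_relGroup hTG hσ₀.mem_decompositionSubgroup ((hM _).1 hy))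
  refine ⟨JZero N ⧸ M, inferInstance, inferInstance, M.mkQ.toAddMonoidHom,
    (M.mapQ M φ hφM).toAddMonoidHom, ⟨?_, ?_, ?_, ?_⟩, ?_⟩
  · -- hecke_comm
    intro T x
    exact M.mkQ.map_smul T x
  · -- inertia_comm
    intro τ hτ x
    show M.mkQ (τ • x) = M.mkQ x
    rw [← sub_eq_zero, ← map_sub, Submodule.mkQ_apply, Submodule.Quotient.mk_eq_zero]
    exact (hM _).2 (inertia_mem_relGroup hτ x)
  · -- frobenius_comm
    intro σ hσ x
    show M.mkQ (σ • x) = M.mapQ M φ hφM (M.mkQ x)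
    rw [Submodule.mkQ_apply, Submodule.mkQ_apply, Submodule.mapQ_apply, hφ, ← sub_eq_zero,
      ← Submodule.Quotient.mk_sub, Submodule.Quotient.mk_eq_zero]
    have h := inertia_mem_relGroup (hℓ := hℓ) (mul_inv_mem_inertiaSubgroupIn hσ hσ₀) (σ₀ • x)
    rw [mul_smul, inv_smul_smul] at h
    exact (hM _).2 h
  · -- injective_torsion
    intro x hx hspx
    have hxM : x ∈ M := by
      have : M.mkQ x = 0 := hspx
      rwa [Submodule.mkQ_apply, Submodule.Quotient.mk_eq_zero] at this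
    exact hR3 x hx (red_eq_zero_of_mem_relGroup red hR1 hR2 ((hM _).1 hxM))
  · -- the special fibre relation
    intro y
    obtain ⟨x, rfl⟩ := M.mkQ_surjective y
    have key : M.mkQ (σ₀ • σ₀ • x - heckeGen ⟨ℓ, hℓ⟩ • (σ₀ • x) + ℓ • x) = 0 := by
      rw [Submodule.mkQ_apply, Submodule.Quotient.mk_eq_zero, hT]
      exact (hM _).2 (frob_mem_relGroup hσ₀ x)
    have e1 : M.mkQ (heckeGen ⟨ℓ, hℓ⟩ • (σ₀ • x)) = heckeGen ⟨ℓ, hℓ⟩ • M.mkQ (σ₀ • x) :=
      M.mkQ.map_smul _ _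
    rw [map_add, map_sub, map_nsmul, e1] at key
    exact key

end Main

end Fermat.Agent.S37Shell
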