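import Mathlib
import Fermat.Agent.S37.Shell
import Fermat.Agent.S37.Inj
import Fermat.Agent.S37.FrobLift
import Fermat.Agent.S37.Hgen

/-!
# S37, leaf T7: the assembly

`RedInputs N p ℓ hℓ A` (the hypothesis of the shell) from

* a Frobenius lift at `A` (T1);
* a place reduction map `r` with the prelude's two properties (T2);
* the Galois equivariance of `r`: `r (τ P) = r P` for `τ` in the inertia group and
  `r (σ P) = Φ (r P)` for Frobenius lifts `σ` (T3);
* the Hecke inputs at level `N`, `ℓ` (T5);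
* the Eichler–Shimura congruence on divisors (T4):
  `r_* (T_ℓ P) = Φ (r P) + ℓ • Ψ (r P)` with `Ψ (Φ Q) = Q`.

The injectivity on torsion is `S37Inj.eq_zero_of_reductionPic0Along_eq_zero` (T6).
-/

set_option autoImplicit false
set_option synthInstance.maxHeartbeats 400000

noncomputable section

namespace Fermat.Agent.S37Assembly

open ModularCurve AlgebraicCurve HahnSeries IsLocalRing
open Fermat.Agent.S18 Fermat.Agent.S18.Gauss Fermat.Agent.S18.Lattice
open Fermat.Agent.S24.Eval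
open Fermat.Agent.S37Shell

variable {N : ℕ} [NeZero N] {A : ValuationSubring KK}

/-- The Galois action on places. -/
abbrev gal (σ : GalQ) : SemilinearAut KK (FF N) := arithmeticGalois (modularFunctionFieldFull N) σ

section Divisors

variable (r : Place KK (FF N) → Place (ResidueField A) (FkN A N))

/-- `r_*` on divisors, as an additive map. -/
abbrev rStar : Divisor KK (FF N) →+ Divisor (ResidueField A) (FkN A N) :=
  Finsupp.mapDomain.addMonoidHom r

/-- The Galois action on divisors, as an additive map. -/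
abbrev gStar (σ : GalQ) : Divisor KK (FF N) →+ Divisor KK (FF N) :=
  DistribSMul.toAddMonoidHom (Divisor KK (FF N)) (gal (N := N) σ)

theorem rStar_gStar_single (σ : GalQ) (P : Place KK (FF N)) (n : ℤ) :
    rStar r (gStar σ (Finsupp.single P n)) = Finsupp.single (r (gal (N := N) σ • P)) n := by
  show Finsupp.mapDomain r (gal (N := N) σ • Finsupp.single P n) = _
  rw [SemilinearAut.smul_single, Finsupp.mapDomain_single]

/-- Invariance of `r_*` under a Galois element fixing `r`. -/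
theorem rStar_gStar_of_fix (τ : GalQ) (hτ : ∀ P, r (gal (N := N) τ • P) = r P)
    (D : Divisor KK (FF N)) : rStar r (gStar τ D) = rStar r D := by
  induction D using Finsupp.induction with
  | zero => simp
  | single_add P n D _ _ ih =>
    rw [map_add, map_add, map_add, ih, rStar_gStar_single, hτ]
    show _ = Finsupp.mapDomain r (Finsupp.single P n) + _
    rw [Finsupp.mapDomain_single]

end Divisors

section Generic

variable {α β : Type*}

/-- The formal Eichler–Shimura computation on finitely supported functions. -/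
theorem mapDomain_relation (r : α → β) (g : α → α) (ℓ : ℕ) (T : (α →₀ ℤ) →+ (α →₀ ℤ))
    (Φ Ψ : β → β) (hΨΦ : ∀ Q, Ψ (Φ Q) = Q) (hσ : ∀ P, r (g P) = Φ (r P))
    (hT : ∀ P, Finsupp.mapDomain r (T (Finsupp.single P 1)) =
      Finsupp.single (Φ (r P)) 1 + Finsupp.single (Ψ (r P)) (ℓ : ℤ))
    (D : α →₀ ℤ) :
    Finsupp.mapDomain r (Finsupp.mapDomain g (Finsupp.mapDomain g D))
      - Finsupp.mapDomain r (T (Finsupp.mapDomain g D)) + ℓ • Finsupp.mapDomain r D = 0 := by
  classical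
  have hTn : ∀ (P : α) (n : ℤ), Finsupp.mapDomain r (T (Finsupp.single P n)) =
      Finsupp.single (Φ (r P)) n + Finsupp.single (Ψ (r P)) (n * (ℓ : ℤ)) := by
    intro P n
    have e : (Finsupp.single P n : α →₀ ℤ) = n • Finsupp.single P 1 := by
      rw [Finsupp.smul_single, smul_eq_mul, mul_one]
    have e2 : Finsupp.mapDomain r (T (n • Finsupp.single P 1)) =
        n • Finsupp.mapDomain r (T (Finsupp.single P 1)) := by
      rw [map_zsmul]
      exact map_zsmul (Finsupp.mapDomain.addMonoidHom r) n _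
    rw [e, e2, hT, smul_add, Finsupp.smul_single, Finsupp.smul_single,
      smul_eq_mul, smul_eq_mul, mul_one]
  induction D using Finsupp.induction with
  | zero => simp
  | single_add P n D _ _ ih =>
    have key : Finsupp.mapDomain r (Finsupp.mapDomain g (Finsupp.mapDomain g (Finsupp.single P n)))
        - Finsupp.mapDomain r (T (Finsupp.mapDomain g (Finsupp.single P n)))
        + ℓ • Finsupp.mapDomain r (Finsupp.single P n) = 0 := by
      rw [Finsupp.mapDomain_single, Finsupp.mapDomain_single, Finsupp.mapDomain_single, hTn,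
        Finsupp.mapDomain_single, hσ, hσ, hΨΦ, Finsupp.smul_single, nsmul_eq_mul,
        mul_comm (ℓ : ℤ) n]
      abel
    rw [Finsupp.mapDomain_add, Finsupp.mapDomain_add, Finsupp.mapDomain_add, map_add,
      Finsupp.mapDomain_add, Finsupp.mapDomain_add, smul_add]
    have e : ∀ a b c a' b' c' : β →₀ ℤ,
        a + a' - (b + b') + (c + c') = (a - b + c) + (a' - b' + c') := by
      intro a b c a' b' c'; abel
    rw [e, key, ih, add_zero]

/-- The same with one `mapDomain`. -/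
theorem mapDomain_relation' (r : α → β) (g : α → α) (ℓ : ℕ) (T : (α →₀ ℤ) →+ (α →₀ ℤ))
    (Φ Ψ : β → β) (hΨΦ : ∀ Q, Ψ (Φ Q) = Q) (hσ : ∀ P, r (g P) = Φ (r P))
    (hT : ∀ P, Finsupp.mapDomain r (T (Finsupp.single P 1)) =
      Finsupp.single (Φ (r P)) 1 + Finsupp.single (Ψ (r P)) (ℓ : ℤ))
    (D : α →₀ ℤ) :
    Finsupp.mapDomain r (Finsupp.mapDomain g (Finsupp.mapDomain g D)
      - T (Finsupp.mapDomain g D) + ℓ • D) = 0 := by
  have h := mapDomain_relation r g ℓ T Φ Ψ hΨΦ hσ hT D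
  have e : Finsupp.mapDomain r (ℓ • D) = ℓ • Finsupp.mapDomain r D :=
    map_nsmul (Finsupp.mapDomain.addMonoidHom r) ℓ D
  rw [Finsupp.mapDomain_add, Finsupp.mapDomain_sub, e]
  exact h

end Generic

section Divisors2

variable (r : Place KK (FF N) → Place (ResidueField A) (FkN A N))

/-- The Eichler–Shimura relation on divisors: with `r (σ P) = Φ (r P)`,
`r_* (T P) = Φ (r P) + ℓ Ψ (r P)` and `Ψ ∘ Φ = id`, the divisor
`r_* (σ σ D - T (σ D) + ℓ D)` vanishes. -/
theorem rStar_relation (σ : GalQ) (ℓ : ℕ) (T : Divisor KK (FF N) →+ Divisor KK (FF N))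
    (Φ Ψ : Place (ResidueField A) (FkN A N) → Place (ResidueField A) (FkN A N))
    (hΨΦ : ∀ Q, Ψ (Φ Q) = Q)
    (hσ : ∀ P, r (gal (N := N) σ • P) = Φ (r P))
    (hT : ∀ P, Finsupp.mapDomain r (T (Finsupp.single P 1)) =
      Finsupp.single (Φ (r P)) 1 + Finsupp.single (Ψ (r P)) (ℓ : ℤ))
    (D : Divisor KK (FF N)) :
    Finsupp.mapDomain r (gal (N := N) σ • (gal (N := N) σ • D)
      - T (gal (N := N) σ • D) + ℓ • D) = 0 :=
  mapDomain_relation' r (fun P => gal (N := N) σ • P) ℓ T Φ Ψ hΨΦ hσ hT D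

end Divisors2

section Classes

variable (r : Place KK (FF N) → Place (ResidueField A) (FkN A N))
  (hr : IsPlaceReductionModL A N r) (hgen : PrincipalGeneratedByIntegral A (residue A) N)

/-- The Galois action on the class of a divisor. -/
theorem gal_smul_mk (σ : GalQ) (D : Divisor.degZero (K := KK) (F := FF N)) :
    σ • (Pic0.mk D : JZero N) = Pic0.mk (SemilinearAut.degZeroSMulHom (gal (N := N) σ) D) :=
  rfl

/-- (R1): the reduction of classes is invariant under the Galois elements fixing `r`. -/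
theorem red_smul_of_fix (τ : GalQ) (hτ : ∀ P, r (gal (N := N) τ • P) = r P) (x : JZero N) :
    reductionPic0Along r hr hgen (τ • x) = reductionPic0Along r hr hgen x := by
  obtain ⟨D, rfl⟩ := Pic0.mk_surjective x
  rw [gal_smul_mk, reductionPic0Along_mk, reductionPic0Along_mk]
  congr 1
  apply Subtype.ext
  rw [coe_reductionDegZeroAlong, coe_reductionDegZeroAlong, SemilinearAut.coe_degZeroSMulHom]
  exact rStar_gStar_of_fix r τ hτ (D : Divisor KK (FF N))

/-- (R2): the Eichler–Shimura relation for the reduction of classes. -/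
theorem red_relation (σ : GalQ) (ℓ : ℕ) [NeZero ℓ]
    (hα : HeckeAlphaBarIntegral KK N ℓ) (hβ : HeckeBetaBarIntegral KK N ℓ)
    [HasPrincipalDivisors KK (FF (N * ℓ))]
    (hFI : FundamentalIdentityAlong KK (heckeBetaBar KK N ℓ) hβ)
    (hfin : FiniteAlong KK (heckeAlphaBar KK N ℓ))
    (hN : NormFormulaAlong KK (heckeAlphaBar KK N ℓ) hfin)
    (Φ Ψ : Place (ResidueField A) (FkN A N) → Place (ResidueField A) (FkN A N))
    (hΨΦ : ∀ Q, Ψ (Φ Q) = Q)
    (hσ : ∀ P, r (gal (N := N) σ • P) = Φ (r P))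
    (hT : ∀ P, Finsupp.mapDomain r (heckeDivBar hα hβ (Finsupp.single P 1)) =
      Finsupp.single (Φ (r P)) 1 + Finsupp.single (Ψ (r P)) (ℓ : ℤ))
    (x : JZero N) :
    reductionPic0Along r hr hgen
      (σ • σ • x - heckePic0Bar hα hβ hFI hfin hN (σ • x) + ℓ • x) = 0 := by
  obtain ⟨D, rfl⟩ := Pic0.mk_surjective x
  set g := SemilinearAut.degZeroSMulHom (gal (N := N) σ) with hg
  set Tz := Pic0.degZeroCorrespondence (heckeBetaBar KK N ℓ) (heckeAlphaBar KK N ℓ) hβ hα hFI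
    with hTz
  have e0 : σ • σ • (Pic0.mk D : JZero N)
      - heckePic0Bar hα hβ hFI hfin hN (σ • (Pic0.mk D : JZero N)) + ℓ • (Pic0.mk D : JZero N)
      = Pic0.mk (g (g D) - Tz (g D) + ℓ • D) := rfl
  rw [e0, reductionPic0Along_mk]
  have e3 : reductionDegZeroAlong r hr.1 (g (g D) - Tz (g D) + ℓ • D) = 0 := by
    apply Subtype.ext
    rw [coe_reductionDegZeroAlong]
    exact rStar_relation r σ ℓ (heckeDivBar hα hβ) Φ Ψ hΨΦ hσ hT (D : Divisor KK (FF N))
  rw [e3]
  rfl

end Classes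

section Final

variable (N) (p : ℕ) {ℓ : ℕ} [Fact ℓ.Prime] (A)

/-- **The assembly.**  `RedInputs` from the leaves. -/
theorem redInputs (hℓ : ℓ.Prime) (hℓN : ¬ ℓ ∣ N) (hℓp : ¬ ℓ ∣ p) (hA : A.LiesOverPrime ℓ)
    (hfrob : ∃ σ : GalQ, A.IsFrobeniusAt σ ℓ)
    (r : Place KK (FF N) → Place (ResidueField A) (FkN A N))
    (hr : IsPlaceReductionModL A N r) (hgen : PrincipalGeneratedByIntegral A (residue A) N)
    (hI : ∀ τ ∈ A.inertiaSubgroupIn ℚ, ∀ P, r (gal (N := N) τ • P) = r P)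
    (Φ Ψ : Place (ResidueField A) (FkN A N) → Place (ResidueField A) (FkN A N))
    (hΨΦ : ∀ Q, Ψ (Φ Q) = Q)
    (hF : ∀ σ : GalQ, A.IsFrobeniusAt σ ℓ → ∀ P, r (gal (N := N) σ • P) = Φ (r P))
    (hH : haveI : NeZero ℓ := ⟨hℓ.ne_zero⟩; HeckeInputsAlong KK N ℓ)
    (hES : haveI : NeZero ℓ := ⟨hℓ.ne_zero⟩;
      ∀ (hα : HeckeAlphaBarIntegral KK N ℓ) (hβ : HeckeBetaBarIntegral KK N ℓ)
        (_ : HasPrincipalDivisors KK (FF (N * ℓ))) (P : Place KK (FF N)),
        Finsupp.mapDomain r (heckeDivBar hα hβ (Finsupp.single P 1)) =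
          Finsupp.single (Φ (r P)) 1 + Finsupp.single (Ψ (r P)) (ℓ : ℤ)) :
    RedInputs N p ℓ hℓ A := by
  have : NeZero ℓ := ⟨hℓ.ne_zero⟩
  refine ⟨hfrob, JZeroC (ResidueField A) N, inferInstance, reductionPic0Along r hr hgen,
    fun τ hτ x => red_smul_of_fix r hr hgen τ (hI τ hτ) x, fun σ hσ x => ?_, fun x hx hx0 => ?_⟩
  · obtain ⟨hα, hβ, hP, hfin, hFI, hN⟩ := hH
    have := hP
    have e : heckeOperatorBar N ⟨ℓ, hℓ⟩ (σ • x) = heckePic0Bar hα hβ hFI hfin hN (σ • x) := by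
      have e' : heckeOperatorBar N ⟨ℓ, hℓ⟩ (σ • x) = heckeOperatorAlong KK N ℓ (σ • x) := rfl
      rw [e']
      exact congrArg (fun f => f (σ • x)) (heckeOperatorAlong_eq hα hβ hFI hfin hN)
    rw [e]
    exact red_relation r hr hgen σ ℓ hα hβ hFI hfin hN Φ Ψ hΨΦ (hF σ hσ) (hES hα hβ hP) x
  · obtain ⟨n, hn⟩ := hx
    refine S37Inj.eq_zero_of_reductionPic0Along_eq_zero hℓN hA r hr hgen (p ^ n) ?_ x hn hx0
    exact fun h => hℓp (hℓ.dvd_of_dvd_pow h)

end Final

section Leaves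

/-- **The leaves T2 (without `hgen`), T3, T4, T5 for one level `N`, one prime `ℓ` and one place
`A` over `ℓ`**: a place reduction map `r`, two maps `Φ`, `Ψ` on the places of the special fibre
with `Ψ ∘ Φ = id`, such that `r` is invariant under inertia, `r ∘ σ = Φ ∘ r` for Frobenius lifts,
the Hecke inputs hold at `(N, ℓ)` and `r_* (T_ℓ P) = Φ (r P) + ℓ Ψ (r P)`. -/
def Leaves (N : ℕ) [NeZero N] (ℓ : ℕ) [NeZero ℓ] (A : ValuationSubring KK) : Prop :=
  ∃ (r : Place KK (FF N) → Place (ResidueField A) (FkN A N))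
    (Φ Ψ : Place (ResidueField A) (FkN A N) → Place (ResidueField A) (FkN A N)),
    IsPlaceReductionModL A N r ∧
    (∀ Q, Ψ (Φ Q) = Q) ∧
    (∀ τ ∈ A.inertiaSubgroupIn ℚ, ∀ P, r (gal (N := N) τ • P) = r P) ∧
    (∀ σ : GalQ, A.IsFrobeniusAt σ ℓ → ∀ P, r (gal (N := N) σ • P) = Φ (r P)) ∧
    HeckeInputsAlong KK N ℓ ∧
    ∀ (hα : HeckeAlphaBarIntegral KK N ℓ) (hβ : HeckeBetaBarIntegral KK N ℓ)
      (_ : HasPrincipalDivisors KK (FF (N * ℓ))) (P : Place KK (FF N)),
      Finsupp.mapDomain r (heckeDivBar hα hβ (Finsupp.single P 1)) =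
        Finsupp.single (Φ (r P)) 1 + Finsupp.single (Ψ (r P)) (ℓ : ℤ)

/-- **S37 from the leaves.** -/
theorem s37_of_leaves (N p : ℕ) [NeZero N] (hcomm : HeckeOperatorsCommuteBar N)
    (H : ∀ ℓ : ℕ, (hℓ : ℓ.Prime) → ¬ ℓ ∣ N → ∀ A : ValuationSubring KK, A.LiesOverPrime ℓ →
      haveI : NeZero ℓ := ⟨hℓ.ne_zero⟩; Leaves N ℓ A) :
    letI := heckeModuleBar N
    ∀ (_ : SMulCommClass (AlgebraicClosure ℚ ≃ₐ[ℚ] AlgebraicClosure ℚ) HeckeAlg (JZero N)),
      SpecializationExists (K := ℚ) (L := AlgebraicClosure ℚ) N p (JZero N) := by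
  refine specializationExists_of_redInputs N p hcomm fun ℓ hℓ hnd A hA => ?_
  have hℓN : ¬ ℓ ∣ N := fun h => hnd (h.mul_right p)
  have hℓp : ¬ ℓ ∣ p := fun h => hnd (h.mul_left N)
  have : Fact ℓ.Prime := ⟨hℓ⟩
  obtain ⟨r, Φ, Ψ, hr, hΨΦ, hI, hF, hH, hES⟩ := H ℓ hℓ hℓN A hA
  exact redInputs N A p hℓ hℓN hℓp hA (S37FrobLift.exists_isFrobeniusAt ℓ hℓ A hA) r hr
    (S37Hgen.hgen N hA hℓN) hI Φ Ψ hΨΦ hF hH hES

end Leaves


end Fermat.Agent.S37Assembly
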