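import Mathlib
import Fermat.Agent.S37.Centre

/-!
# S37 gamble, leaf (T3), generic part: equivariance of the reduction of places

Let `g` be a semilinear automorphism of `F_N` over `ℚ̄` and `Φ₀` a semilinear automorphism of the
reduced function field `F̄_N` over `k`, such that `g` fixes `j`, the base automorphism of `g`
preserves `A`, `g⁻¹` preserves the Gauss ring and `Φ₀ (red (g⁻¹ f)) = red f`, and the base
automorphism of `Φ₀` is induced by the base automorphism of `g`.  Then

  `rP (g • P) = Φ₀ • rP P`  for every place `P` of `F_N`.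

(For `g` in the inertia group, `Φ₀ = 1`; for a Frobenius lift, `Φ₀` is the coefficientwise
Frobenius.)
-/

set_option autoImplicit false
set_option linter.style.haveILetI false
set_option linter.unusedSectionVars false
set_option synthInstance.maxHeartbeats 400000
set_option maxHeartbeats 1600000

noncomputable section

namespace Fermat.Agent.S37.FrobEquivGen

open ModularCurve AlgebraicCurve IsDedekindDomain IntermediateField HahnSeries
open Fermat.Agent.S24 Fermat.Agent.S24.Eval Fermat.Agent.S18 Fermat.Agent.S18.Gauss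
open Fermat.Agent.S18.Lattice Fermat.Agent.S18.Charts
open Fermat.Agent.S37.CentreVal Fermat.Agent.S37.Centre

section Generic

variable {K F : Type*} [Field K] [Field F] [Algebra K F]

/-- values transform under semilinear automorphisms -/
theorem hasVal_smul (g : SemilinearAut K F) (P : Place K F) {f : F} {a : K}
    (h : HasVal P f a) : HasVal (g • P) (g • f) (SemilinearAut.baseAut g a) := by
  rcases h with h | h
  · left
    rw [h, SemilinearAut.smul_algebraMap]
  · right
    rw [← SemilinearAut.smul_algebraMap, ← smul_sub, SemilinearAut.ord_smul]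
    exact h

theorem hasVal_inv_smul (g : SemilinearAut K F) (P : Place K F) {f : F} {a : K}
    (h : HasVal (g • P) f a) : HasVal P (g⁻¹ • f) ((SemilinearAut.baseAut g).symm a) := by
  have h1 := hasVal_smul g⁻¹ (g • P) h
  rwa [inv_smul_smul, SemilinearAut.baseAut_inv] at h1

theorem mem_smul_iff (g : SemilinearAut K F) (P : Place K F) (f : F) :
    f ∈ (g • P).toValuationSubring ↔ g⁻¹ • f ∈ P.toValuationSubring := by
  rw [SemilinearAut.smul_toValuationSubring]
  exact ValuationSubring.mem_pointwise_smul_iff_inv_smul_mem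

end Generic

variable {A : ValuationSubring KK} {N : ℕ} [NeZero N]

/-- the functions regular where `y` is regular are stable under an automorphism fixing `y` -/
theorem inv_smul_mem_regAt (g : SemilinearAut KK (FF N)) {y : FF N} (hy : g • y = y)
    {f : FF N} (hf : f ∈ regAt N y) : g⁻¹ • f ∈ regAt N y := by
  intro P hP
  rw [← mem_smul_iff]
  apply hf
  rw [mem_smul_iff]
  have h1 : g⁻¹ • y = y := by
    conv_lhs => rw [← hy]
    exact inv_smul_smul g y
  rw [h1]
  exact hP

variable {ℓ : ℕ} [Fact ℓ.Prime]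

/-- **Equivariance of the reduction of places**, generic form. -/
theorem rP_smul (hA : A.LiesOverPrime ℓ) (hℓN : ¬ ℓ ∣ N)
    (g : SemilinearAut KK (FF N))
    (Φ₀ : SemilinearAut (IsLocalRing.ResidueField A) (FkN A N))
    (hj : g • jF N = jF N)
    (hAmem : ∀ a : KK, a ∈ A ↔ SemilinearAut.baseAut g a ∈ A)
    (hOO : ∀ f : FF N, f ∈ OO A N → g⁻¹ • f ∈ OO A N)
    (hred : ∀ f : OO A N, Φ₀ • redN A N ⟨g⁻¹ • (f : FF N), hOO f f.2⟩ = redN A N f)
    (hbase : ∀ (a : A) (ha : (SemilinearAut.baseAut g).symm (a : KK) ∈ A),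
      SemilinearAut.baseAut Φ₀ (IsLocalRing.residue A ⟨_, ha⟩) = IsLocalRing.residue A a)
    (P : Place KK (FF N)) :
    rP hA hℓN (g • P) = Φ₀ • rP hA hℓN P := by
  have hjinv : g⁻¹ • jF N = jF N := by
    conv_lhs => rw [← hj]
    exact inv_smul_smul g _
  have hjI : g • (jF N)⁻¹ = (jF N)⁻¹ := by
    rw [smul_inv'', hj]
  have hjb : Φ₀ • jb A N = jb A N := by
    have h1 := hred (CuspAbs.jO A N)
    have h2 : (⟨g⁻¹ • ((CuspAbs.jO A N : OO A N) : FF N), hOO _ (CuspAbs.jO A N).2⟩ : OO A N)
        = CuspAbs.jO A N := Subtype.ext hjinv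
    rw [h2, CuspAbs.redN_jO] at h1
    exact h1
  have hordjb : ∀ Q : Place (IsLocalRing.ResidueField A) (FkN A N),
      (Φ₀ • Q).ord (jb A N) = Q.ord (jb A N) := by
    intro Q
    conv_lhs => rw [← hjb]
    exact SemilinearAut.ord_smul Φ₀ Q _
  have hJ : CuspAbs.JInt A N (g • P) ↔ CuspAbs.JInt A N P := by
    constructor
    · rintro ⟨a, haA, hpos⟩
      refine ⟨(SemilinearAut.baseAut g).symm a, ?_, ?_⟩
      · rw [hAmem, RingEquiv.apply_symm_apply]
        exact haA
      · have h1 := SemilinearAut.ord_smul g P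
          (jF N - algebraMap KK (FF N) ((SemilinearAut.baseAut g).symm a))
        rw [smul_sub, hj, SemilinearAut.smul_algebraMap, RingEquiv.apply_symm_apply] at h1
        rw [← h1]
        exact hpos
    · rintro ⟨a, haA, hpos⟩
      refine ⟨SemilinearAut.baseAut g a, (hAmem a).mp haA, ?_⟩
      have h1 := SemilinearAut.ord_smul g P (jF N - algebraMap KK (FF N) a)
      rw [smul_sub, hj, SemilinearAut.smul_algebraMap] at h1
      rw [h1]
      exact hpos
  -- the common core of the two charts
  have core : ∀ (y : FF N), g • y = y →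
      (∀ (f : OO A N), (f : FF N) ∈ regAt N y → ∀ a : KK, HasVal P (f : FF N) a →
        ∃ ha' : a ∈ A, HasVal (rP hA hℓN P) (redN A N f) (IsLocalRing.residue A ⟨a, ha'⟩)) →
      ∀ f : OO A N, (f : FF N) ∈ regAt N y → ∀ a : A, HasVal (g • P) (f : FF N) (a : KK) →
        HasVal (Φ₀ • rP hA hℓN P) (redN A N f) (IsLocalRing.residue A a) := by
    intro y hy hval f hf a ha
    have hf' : g⁻¹ • (f : FF N) ∈ regAt N y := inv_smul_mem_regAt g hy hf
    have ha' := hasVal_inv_smul g P ha
    obtain ⟨hmem, hv⟩ := hval ⟨g⁻¹ • (f : FF N), hOO f f.2⟩ hf' _ ha'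
    have h3 := hasVal_smul Φ₀ (rP hA hℓN P) hv
    rw [hred f, hbase a hmem] at h3
    exact h3
  by_cases hP : CuspAbs.JInt A N P
  · refine rP_eq_of_val1 hA hℓN (g • P) (hJ.mpr hP) _ ?_ ?_
    · rw [hordjb]
      exact rP_finite hA hℓN P hP
    · exact core (jF N) hj (val_chart1 hA hℓN P hP)
  · refine rP_eq_of_val2 hA hℓN (g • P) (fun h => hP (hJ.mp h)) _ ?_ ?_
    · rw [hordjb]
      exact (rP_cusp hA hℓN P hP).le
    · exact core (jF N)⁻¹ hjI (val_chart2 hA hℓN P hP)

end Fermat.Agent.S37.FrobEquivGen
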