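import Mathlib
import Fermat.Agent.S37.FrobEquivGen
import Fermat.Agent.S37.GalRedJ

/-!
# S37 gamble, leaf (T3): Galois equivariance of the reduction of places

For `g` in the decomposition group of `A` with residue automorphism `ḡ`:
`rP (g • P) = ḡ • rP P`.  Hence

* (T3-I) `rP (τ • P) = rP P` for `τ` in the inertia group;
* (T3-F) `rP (σ • P) = Frob • rP P` for every Frobenius lift `σ`, where `Frob` is the
  coefficientwise Frobenius of the reduced function field.
-/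

set_option autoImplicit false
set_option linter.style.haveILetI false
set_option linter.unusedSectionVars false
set_option synthInstance.maxHeartbeats 400000
set_option maxHeartbeats 1600000

noncomputable section

namespace Fermat.Agent.S37.FrobEquiv

open ModularCurve AlgebraicCurve IsDedekindDomain IntermediateField HahnSeries IsLocalRing
open Fermat.Agent.S24 Fermat.Agent.S24.Eval Fermat.Agent.S18 Fermat.Agent.S18.Gauss
open Fermat.Agent.S18.Lattice Fermat.Agent.S18.Charts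
open Fermat.Agent.S37.CentreVal Fermat.Agent.S37.Centre Fermat.Agent.S37GalRed

variable {A : ValuationSubring KK} {N : ℕ} [NeZero N] {ℓ : ℕ} [Fact ℓ.Prime]

/-- the decomposition group preserves `A` -/
theorem mem_iff_apply_mem (g₀ : A.decompositionSubgroup ℚ) (a : KK) :
    a ∈ A ↔ (g₀ : KK ≃ₐ[ℚ] KK) a ∈ A := by
  constructor
  · intro ha
    have h := (actA g₀ ⟨a, ha⟩).2
    rwa [subtype_actA] at h
  · intro ha
    have h := (actA g₀⁻¹ ⟨_, ha⟩).2
    rw [subtype_actA] at h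
    have h2 : ((g₀⁻¹ : A.decompositionSubgroup ℚ) : KK ≃ₐ[ℚ] KK) ((g₀ : KK ≃ₐ[ℚ] KK) a) = a := by
      show ((g₀ : KK ≃ₐ[ℚ] KK))⁻¹ ((g₀ : KK ≃ₐ[ℚ] KK) a) = a
      exact (g₀ : KK ≃ₐ[ℚ] KK).symm_apply_apply a
    rwa [h2] at h

/-- **Equivariance of the reduction of places for the decomposition group.** -/
theorem rP_smul_decomposition (hA : A.LiesOverPrime ℓ) (hℓN : ¬ ℓ ∣ N)
    (g₀ : A.decompositionSubgroup ℚ) (P : Place KK (FF N)) :
    rP hA hℓN (arithmeticGalois (modularFunctionFieldFull N) (g₀ : KK ≃ₐ[ℚ] KK) • P)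
      = coeffAut (ResidueField A) N (resAut g₀) • rP hA hℓN P := by
  have hOO : ∀ f : FF N, f ∈ OO A N →
      (arithmeticGalois (modularFunctionFieldFull N) (g₀ : KK ≃ₐ[ℚ] KK))⁻¹ • f ∈ OO A N := by
    intro f hf
    rw [← map_inv]
    exact smul_inv_mem_OO g₀ hf
  refine FrobEquivGen.rP_smul hA hℓN
    (arithmeticGalois (modularFunctionFieldFull N) (g₀ : KK ≃ₐ[ℚ] KK))
    (coeffAut (ResidueField A) N (resAut g₀)) (smul_jF _) ?_ hOO ?_ ?_ P
  · intro a
    exact mem_iff_apply_mem g₀ a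
  · intro f
    have h1 := redN_smulOO g₀
      ⟨(arithmeticGalois (modularFunctionFieldFull N) (g₀ : KK ≃ₐ[ℚ] KK))⁻¹ • (f : FF N),
        hOO f f.2⟩
    have h2 : smulOO g₀
        ⟨(arithmeticGalois (modularFunctionFieldFull N) (g₀ : KK ≃ₐ[ℚ] KK))⁻¹ • (f : FF N),
          hOO f f.2⟩ = f := by
      apply Subtype.ext
      rw [coe_smulOO]
      exact smul_inv_smul _ _
    rw [h2] at h1
    exact h1.symm
  · intro a ha
    rw [baseAut_coeffAut, ← residue_actA]
    congr 1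
    apply Subtype.ext
    rw [subtype_actA]
    exact (g₀ : KK ≃ₐ[ℚ] KK).apply_symm_apply (a : KK)

/-- **(T3-I)** the reduction of places is invariant under the inertia group. -/
theorem rP_smul_of_mem_inertia (hA : A.LiesOverPrime ℓ) (hℓN : ¬ ℓ ∣ N)
    {τ : KK ≃ₐ[ℚ] KK} (hτ : τ ∈ A.inertiaSubgroupIn ℚ) (P : Place KK (FF N)) :
    rP hA hℓN (arithmeticGalois (modularFunctionFieldFull N) τ • P) = rP hA hℓN P := by
  obtain ⟨g₀, rfl, hg⟩ := exists_of_mem_inertia hτ
  rw [rP_smul_decomposition hA hℓN g₀ P, hg, map_one, one_smul]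

/-- **(T3-F)** a Frobenius lift acts on the reductions of the places by the coefficientwise
Frobenius. -/
theorem rP_smul_of_isFrobeniusAt (hA : A.LiesOverPrime ℓ) (hℓN : ¬ ℓ ∣ N)
    {σ : KK ≃ₐ[ℚ] KK} (h : A.IsFrobeniusAt σ ℓ) (P : Place KK (FF N)) :
    rP hA hℓN (arithmeticGalois (modularFunctionFieldFull N) σ • P)
      = coeffAut (ResidueField A) N (frobAut h) • rP hA hℓN P :=
  rP_smul_decomposition hA hℓN ⟨σ, h.mem_decompositionSubgroup⟩ P

/-- **(T3-F)**, with a fixed Frobenius lift `σ₀` defining `Φ`: literally the conjunct of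
`Assembly.Leaves`. -/
theorem rP_smul_frob (hA : A.LiesOverPrime ℓ) (hℓN : ¬ ℓ ∣ N)
    {σ₀ : KK ≃ₐ[ℚ] KK} (h₀ : A.IsFrobeniusAt σ₀ ℓ) :
    ∀ σ : KK ≃ₐ[ℚ] KK, A.IsFrobeniusAt σ ℓ → ∀ P : Place KK (FF N),
      rP hA hℓN (arithmeticGalois (modularFunctionFieldFull N) σ • P)
        = coeffAut (ResidueField A) N (frobAut h₀) • rP hA hℓN P := by
  intro σ h P
  rw [rP_smul_of_isFrobeniusAt hA hℓN h P, frobAut_eq h h₀]

/-- `Ψ ∘ Φ = id` for `Φ = Frob •`, `Ψ = Frob⁻¹ •`. -/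
theorem inv_smul_smul_frob {σ₀ : KK ≃ₐ[ℚ] KK} (h₀ : A.IsFrobeniusAt σ₀ ℓ)
    (Q : Place (ResidueField A) (FkN A N)) :
    coeffAut (ResidueField A) N (frobAut h₀)⁻¹ • coeffAut (ResidueField A) N (frobAut h₀) • Q
      = Q := by
  rw [map_inv, inv_smul_smul]

end Fermat.Agent.S37.FrobEquiv
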