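import Mathlib
import Fermat.Prelude.Def_AlgebraicCurve_Correspondence
import Fermat.Agent.S24.FFPlaces
import Fermat.Agent.S24.FFFiber
import Fermat.Agent.S18.NormOrd

set_option autoImplicit false
set_option linter.style.haveILetI false
set_option linter.unusedSectionVars false

open AlgebraicCurve IsDedekindDomain Fermat.Agent.S24

namespace Fermat.Agent.S37X.HeckeGen

section Count

variable {k F : Type*} [Field k] [Field F] [Algebra k F]
variable {R : Type*} [CommRing R] [IsDedekindDomain R] [Algebra R F] [IsFractionRing R F]
  [Algebra k R] [IsScalarTower k R F]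

/-- the order of an element of a Dedekind domain at the place of a height one prime is the
multiplicity of the prime in the principal ideal -/
theorem ord_algebraMap_eq_count (w : HeightOneSpectrum R) (r : R) (hr : r ≠ 0) :
    (Place.ofHeightOneSpectrum (K := k) (F := F) w).ord (algebraMap R F r)
      = ((Associates.mk w.asIdeal).count (Associates.mk (Ideal.span {r})).factors : ℤ) := by
  rw [ord_ofHeightOneSpectrum, HeightOneSpectrum.valuation_of_algebraMap,
    HeightOneSpectrum.intValuation_if_neg _ hr]
  simp

end Count

section Local

open Ideal Module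

variable {R S : Type*} [CommRing R] [IsDedekindDomain R] [IsLocalRing R]
  [CommRing S] [IsDedekindDomain S]
  [Algebra R S] [Module.Finite R S] [Module.IsTorsionFree R S]

/-- every height one prime of `S` lies over the maximal ideal of the local ring `R` -/
theorem mem_primesOver_maximalIdeal (P : HeightOneSpectrum S) :
    P.asIdeal ∈ (IsLocalRing.maximalIdeal R).primesOver S := by
  refine ⟨P.isPrime, ⟨?_⟩⟩
  haveI := P.isPrime
  have h1 : (P.asIdeal.under R).IsPrime := Ideal.IsPrime.under R P.asIdeal
  have h2 : P.asIdeal.under R ≠ ⊥ := fun h0 => P.ne_bot (Ideal.eq_bot_of_comap_eq_bot h0)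
  have h3 : (P.asIdeal.under R).IsMaximal := Ring.DimensionLEOne.maximalOfPrime h2 h1
  exact (IsLocalRing.eq_maximalIdeal h3).symm

theorem maximalIdeal_ne_bot_of (P : HeightOneSpectrum S) : IsLocalRing.maximalIdeal R ≠ ⊥ := by
  haveI := P.isPrime
  have h2 : P.asIdeal.under R ≠ ⊥ := fun h0 => P.ne_bot (Ideal.eq_bot_of_comap_eq_bot h0)
  have h := (mem_primesOver_maximalIdeal (R := R) P).2
  rw [h.over]
  exact h2

theorem finite_heightOneSpectrum (R : Type*) {S : Type*} [CommRing R] [IsDedekindDomain R]
    [IsLocalRing R] [CommRing S] [IsDedekindDomain S] [Algebra R S] [Module.Finite R S]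
    [Module.IsTorsionFree R S] : Finite (HeightOneSpectrum S) := by
  classical
  refine Finite.of_injective
    (fun P : HeightOneSpectrum S =>
      (⟨P.asIdeal, mem_primesOver_maximalIdeal (R := R) P⟩ :
        (IsLocalRing.maximalIdeal R).primesOver S)) ?_
  intro P Q h
  exact HeightOneSpectrum.ext (congrArg Subtype.val h)

/-- the relative norm of a nonzero ideal, all residue degrees being one -/
theorem relNorm_eq_pow_sum [Fintype (HeightOneSpectrum S)]
    (hf : ∀ Q ∈ (IsLocalRing.maximalIdeal R).primesOver S, Q.inertiaDeg R = 1)
    (I : Ideal S) (hI : I ≠ ⊥) :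
    relNorm R I = (IsLocalRing.maximalIdeal R) ^
      (∑ P : HeightOneSpectrum S, (Associates.mk P.asIdeal).count (Associates.mk I).factors) := by
  classical
  have hfac := Ideal.finprod_heightOneSpectrum_factorization (I := I) hI
  rw [finprod_eq_prod_of_fintype] at hfac
  conv_lhs => rw [← hfac]
  rw [map_prod, ← Finset.prod_pow_eq_pow_sum]
  refine Finset.prod_congr rfl fun P _ => ?_
  have hm0 : IsLocalRing.maximalIdeal R ≠ ⊥ := maximalIdeal_ne_bot_of P
  rw [HeightOneSpectrum.maxPowDividing, map_pow,
    Fermat.Agent.S18.NormOrd.relNorm_eq (IsLocalRing.maximalIdeal R) hm0 hf P.asIdeal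
      (mem_primesOver_maximalIdeal P)]

end Local


section FunctionField

open Ideal Module

variable {K F F' : Type*} [Field K] [Field F] [Field F'] [Algebra K F] [Algebra K F']
  [Algebra F F'] [IsScalarTower K F F'] [Module.Finite F F']
variable (v : Place K F)
variable {S : Type*} [CommRing S] [IsDedekindDomain S] [Algebra S F'] [IsFractionRing S F']
  [Algebra K S] [IsScalarTower K S F']
  [Algebra v.toValuationSubring S]
  [IsScalarTower v.toValuationSubring S F']
  [Module.Finite v.toValuationSubring S] [Module.IsTorsionFree v.toValuationSubring S]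
  [IsIntegralClosure S v.toValuationSubring F']

/-- the place of a height one prime of the integral closure of `O_v` lies over `v` -/
theorem restrict_ofHeightOneSpectrum (P : HeightOneSpectrum S) :
    (Place.ofHeightOneSpectrum (K := K) (F := F') P).restrict F = v := by
  apply Place.ext
  symm
  refine ValuationSubring.eq_of_le_of_ne_top v.toValuationSubring ?_ (Place.ne_top' _)
  intro a ha
  rw [Place.restrict_toValuationSubring, ValuationSubring.mem_comap,
    Place.ofHeightOneSpectrum_toValuationSubring, Valuation.mem_valuationSubring_iff]
  have h1 : algebraMap F F' a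
      = algebraMap S F' (algebraMap v.toValuationSubring S ⟨a, ha⟩) := by
    rw [← IsScalarTower.algebraMap_apply v.toValuationSubring S F',
      IsScalarTower.algebraMap_apply v.toValuationSubring F F']
    rfl
  rw [h1]
  exact P.valuation_le_one _

/-- every place over `v` is the place of a height one prime of the integral closure of `O_v` -/
theorem exists_of_restrict_eq (w : Place K F') (hw : w.restrict F = v) :
    ∃ P : HeightOneSpectrum S, w = Place.ofHeightOneSpectrum (K := K) (F := F') P := by
  have hmem : ∀ a : v.toValuationSubring,
      ((algebraMap F F').comp v.toValuationSubring.subtype) a ∈ w.toValuationSubring.toSubring := by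
    intro a
    have h1 : (a : F) ∈ (w.restrict F).toValuationSubring := by
      rw [hw]
      exact a.2
    exact h1
  have hS : ∀ s : S, algebraMap S F' s ∈ w.toValuationSubring := by
    intro s
    have hint : IsIntegral v.toValuationSubring (algebraMap S F' s) :=
      (IsIntegralClosure.isIntegral_iff (A := S)).mpr ⟨s, rfl⟩
    let φ : v.toValuationSubring →+* w.toValuationSubring :=
      ((algebraMap F F').comp v.toValuationSubring.subtype).codRestrict
        w.toValuationSubring.toSubring hmem
    have h2 : IsIntegral w.toValuationSubring (algebraMap S F' s) := by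
      have h3 := IsIntegral.map_of_comp_eq φ (RingHom.id F') (by
        ext a
        simp only [RingHom.comp_apply, RingHom.id_apply]
        rw [IsScalarTower.algebraMap_apply v.toValuationSubring F F']
        rfl) hint
      simpa using h3
    obtain ⟨y, hy⟩ := IsIntegrallyClosed.isIntegral_iff.mp h2
    rw [← hy]
    exact y.2
  obtain ⟨P, hP, -⟩ := exists_eq_ofHeightOneSpectrum w hS
  exact ⟨P, hP⟩

/-- **The norm formula at `v`, for integral elements.** -/
theorem sum_ord_eq_ord_norm_of_mem [Fintype (HeightOneSpectrum S)]
    (hf : ∀ Q ∈ (IsLocalRing.maximalIdeal v.toValuationSubring).primesOver S,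
      Q.inertiaDeg v.toValuationSubring = 1)
    (s : S) (hs : s ≠ 0) :
    ∑ P : HeightOneSpectrum S,
        (Place.ofHeightOneSpectrum (K := K) (F := F') P).ord (algebraMap S F' s)
      = v.ord (Algebra.norm F (algebraMap S F' s)) := by
  classical
  obtain ⟨w₀, hw₀, -⟩ :=
    exists_eq_ofHeightOneSpectrum (R := v.toValuationSubring) v (fun r => r.2)
  have hw₀m : w₀.asIdeal = IsLocalRing.maximalIdeal v.toValuationSubring :=
    IsLocalRing.eq_maximalIdeal w₀.isMaximal
  have hnorm : Algebra.norm F (algebraMap S F' s)
      = algebraMap v.toValuationSubring F (Algebra.intNorm v.toValuationSubring S s) :=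
    (Algebra.algebraMap_intNorm s).symm
  have hN0 : Algebra.intNorm v.toValuationSubring S s ≠ 0 := Algebra.intNorm_ne_zero.mpr hs
  have hv : v.ord (algebraMap v.toValuationSubring F (Algebra.intNorm v.toValuationSubring S s))
      = (Place.ofHeightOneSpectrum (K := K) (F := F) w₀).ord
          (algebraMap v.toValuationSubring F (Algebra.intNorm v.toValuationSubring S s)) := by
    rw [← hw₀]
  have hI : Ideal.span ({s} : Set S) ≠ ⊥ := by
    rw [Ne, Ideal.span_singleton_eq_bot]
    exact hs
  rw [hnorm, hv, ord_algebraMap_eq_count w₀ _ hN0, ← Ideal.relNorm_singleton,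
    relNorm_eq_pow_sum hf _ hI, ← hw₀m, Associates.mk_pow,
    Associates.count_pow (Associates.mk_ne_zero.mpr w₀.ne_bot) w₀.associates_irreducible,
    Associates.count_self w₀.associates_irreducible, mul_one]
  push_cast
  refine Finset.sum_congr rfl fun P _ => ?_
  rw [ord_algebraMap_eq_count P s hs]

/-- **The norm formula at `v`.** -/
theorem sum_ord_eq_ord_norm [Fintype (HeightOneSpectrum S)]
    (hf : ∀ Q ∈ (IsLocalRing.maximalIdeal v.toValuationSubring).primesOver S,
      Q.inertiaDeg v.toValuationSubring = 1)
    (f : F') (hf0 : f ≠ 0) :
    ∑ P : HeightOneSpectrum S, (Place.ofHeightOneSpectrum (K := K) (F := F') P).ord f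
      = v.ord (Algebra.norm F f) := by
  obtain ⟨a, b, hb, rfl⟩ := IsFractionRing.div_surjective (A := S) f
  have hb0 : b ≠ 0 := nonZeroDivisors.ne_zero hb
  have hb' : algebraMap S F' b ≠ 0 := by
    intro h0
    exact hb0 ((IsFractionRing.injective S F') (by rw [h0, map_zero]))
  have ha' : algebraMap S F' a ≠ 0 := by
    intro h0
    rw [h0, zero_div] at hf0
    exact hf0 rfl
  have ha0 : a ≠ 0 := by
    rintro rfl
    exact ha' (map_zero _)
  have hmul : Algebra.norm F (algebraMap S F' a / algebraMap S F' b)
      * Algebra.norm F (algebraMap S F' b) = Algebra.norm F (algebraMap S F' a) := by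
    rw [← map_mul, div_mul_cancel₀ _ hb']
  have hord := v.ord_mul (Algebra.norm_ne_zero_iff.mpr hf0) (Algebra.norm_ne_zero_iff.mpr hb')
  rw [hmul, ← sum_ord_eq_ord_norm_of_mem v hf a ha0,
    ← sum_ord_eq_ord_norm_of_mem v hf b hb0] at hord
  have hsum : ∑ P : HeightOneSpectrum S,
      (Place.ofHeightOneSpectrum (K := K) (F := F') P).ord
        (algebraMap S F' a / algebraMap S F' b)
      = ∑ P : HeightOneSpectrum S,
          (Place.ofHeightOneSpectrum (K := K) (F := F') P).ord (algebraMap S F' a)
        - ∑ P : HeightOneSpectrum S,
          (Place.ofHeightOneSpectrum (K := K) (F := F') P).ord (algebraMap S F' b) := by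
    rw [← Finset.sum_sub_distrib]
    refine Finset.sum_congr rfl fun P _ => ?_
    exact ord_div _ ha' hb'
  rw [hsum]
  omega

theorem algebraMap_const (c : K) :
    algebraMap S F' (algebraMap v.toValuationSubring S (algebraMap K v.toValuationSubring c))
      = algebraMap K F' c := by
  rw [← IsScalarTower.algebraMap_apply v.toValuationSubring S F',
    IsScalarTower.algebraMap_apply v.toValuationSubring F F',
    IsScalarTower.algebraMap_apply K F F']
  rfl

theorem maximalIdeal_toValuationSubring_ne_bot :
    IsLocalRing.maximalIdeal v.toValuationSubring ≠ ⊥ :=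
  IsDiscreteValuationRing.not_a_field _

/-- all residue degrees over `v` are one when the residue fields of the places of `F'` are
the constants -/
theorem inertiaDeg_eq_one_of_hres
    (hres : ∀ (w : Place K F') (f : F'), 0 ≤ w.ord f →
      ∃ c : K, f = algebraMap K F' c ∨ 0 < w.ord (f - algebraMap K F' c))
    (Q : Ideal S) (hQ : Q ∈ (IsLocalRing.maximalIdeal v.toValuationSubring).primesOver S) :
    Q.inertiaDeg v.toValuationSubring = 1 := by
  have hQ0 : Q ≠ ⊥ := by
    rintro rfl
    have h1 := hQ.2.over
    rw [Ideal.under_bot] at h1
    exact maximalIdeal_toValuationSubring_ne_bot v h1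
  let P : HeightOneSpectrum S := ⟨Q, hQ.1, hQ0⟩
  refine Fermat.Agent.S18.NormOrd.inertiaDeg_eq_one _ Q hQ fun x => ?_
  have hmem : algebraMap S F' x ∈
      (Place.ofHeightOneSpectrum (K := K) (F := F') P).toValuationSubring := by
    rw [mem_ofHeightOneSpectrum_iff]
    exact P.valuation_le_one x
  obtain ⟨c, hc⟩ := hres _ _ (ord_nonneg_of_mem _ hmem)
  refine ⟨algebraMap K v.toValuationSubring c, ?_⟩
  have himg : algebraMap S F'
      (x - algebraMap v.toValuationSubring S (algebraMap K v.toValuationSubring c))
      = algebraMap S F' x - algebraMap K F' c := by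
    rw [map_sub, algebraMap_const]
  by_cases h0 : x - algebraMap v.toValuationSubring S (algebraMap K v.toValuationSubring c) = 0
  · rw [h0]
    exact Q.zero_mem
  · rcases hc with hc | hc
    · exfalso
      apply h0
      apply IsFractionRing.injective S F'
      rw [himg, map_zero, hc, sub_self]
    · have := (FFFiber.mem_asIdeal_iff_ord_pos (k := K) (F := F') P _ h0).mpr (by rw [himg]; exact hc)
      exact this

/-- the push-forward of the divisor of `f` at `v`, as a sum over the height one primes of the
integral closure of `O_v` -/
theorem pushforward_apply_eq_sum [Fintype (HeightOneSpectrum S)]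
    (hdeg : ∀ w : Place K F', w.deg = 1) (f : F') (D : Divisor K F')
    (hD : ∀ w, D w = w.ord f) :
    Divisor.pushforward F D v
      = ∑ P : HeightOneSpectrum S, (Place.ofHeightOneSpectrum (K := K) (F := F') P).ord f := by
  classical
  have hone : ∀ w : Place K F', w.inertiaDeg F = 1 := by
    intro w
    have h1 := w.deg_restrict_mul_inertiaDeg (F := F)
    rw [hdeg w] at h1
    exact Nat.eq_one_of_mul_eq_one_left h1
  rw [Divisor.pushforward_apply, ← Finset.sum_filter]
  have hinj : Function.Injective
      (fun P : HeightOneSpectrum S => Place.ofHeightOneSpectrum (K := K) (F := F') P) :=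
    FFFiber.ofHeightOneSpectrum_injective
  rw [← Finset.sum_image (s := Finset.univ)
    (g := fun P : HeightOneSpectrum S => Place.ofHeightOneSpectrum (K := K) (F := F') P)
    (f := fun w : Place K F' => w.ord f) (fun P _ Q _ h => hinj h)]
  have hsub : D.support.filter (fun w => w.restrict F = v)
      ⊆ Finset.univ.image
        (fun P : HeightOneSpectrum S => Place.ofHeightOneSpectrum (K := K) (F := F') P) := by
    intro w hw
    rw [Finset.mem_filter] at hw
    obtain ⟨P, hP⟩ := exists_of_restrict_eq (S := S) v w hw.2
    rw [Finset.mem_image]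
    exact ⟨P, Finset.mem_univ _, hP.symm⟩
  rw [← Finset.sum_subset hsub]
  · refine Finset.sum_congr rfl fun w _ => ?_
    rw [hD w, hone w]
    simp
  · intro w hw hnot
    rw [Finset.mem_image] at hw
    obtain ⟨P, -, rfl⟩ := hw
    rw [Finset.mem_filter, not_and] at hnot
    by_contra hne
    apply hnot ?_ (restrict_ofHeightOneSpectrum v P)
    rw [Finsupp.mem_support_iff, hD]
    exact hne

end FunctionField

section Global

open Ideal Module

variable {K F F' : Type*} [Field K] [Field F] [Field F'] [Algebra K F] [Algebra K F']
  [Algebra F F'] [IsScalarTower K F F'] [Module.Finite F F'] [CharZero F]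

/-- **The norm formula** for a finite extension of function fields all of whose places have
the constants as residue field. -/
theorem pushforwardNormFormula
    (hdeg : ∀ w : Place K F', w.deg = 1)
    (hres : ∀ (w : Place K F') (f : F'), 0 ≤ w.ord f →
      ∃ c : K, f = algebraMap K F' c ∨ 0 < w.ord (f - algebraMap K F' c)) :
    Divisor.PushforwardNormFormula K F F' := by
  classical
  intro f hf0 D hD v
  haveI : IsDedekindDomain (integralClosure v.toValuationSubring F') :=
    IsIntegralClosure.isDedekindDomain v.toValuationSubring F F' _
  haveI : Module.Finite v.toValuationSubring (integralClosure v.toValuationSubring F') :=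
    IsIntegralClosure.finite v.toValuationSubring F F' _
  haveI : IsFractionRing (integralClosure v.toValuationSubring F') F' :=
    integralClosure.isFractionRing_of_finite_extension F F'
  letI : Algebra K (integralClosure v.toValuationSubring F') :=
    ((algebraMap v.toValuationSubring (integralClosure v.toValuationSubring F')).comp
      (algebraMap K v.toValuationSubring)).toAlgebra
  haveI : IsScalarTower K (integralClosure v.toValuationSubring F') F' :=
    IsScalarTower.of_algebraMap_eq fun c => by
      show algebraMap K F' c = algebraMap (integralClosure v.toValuationSubring F') F'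
        (algebraMap v.toValuationSubring (integralClosure v.toValuationSubring F')
          (algebraMap K v.toValuationSubring c))
      rw [← IsScalarTower.algebraMap_apply v.toValuationSubring
        (integralClosure v.toValuationSubring F') F',
        IsScalarTower.algebraMap_apply v.toValuationSubring F F',
        IsScalarTower.algebraMap_apply K F F']
      rfl
  haveI : Module.IsTorsionFree v.toValuationSubring F' :=
    Module.IsTorsionFree.trans_faithfulSMul v.toValuationSubring F F'
  haveI : Module.IsTorsionFree v.toValuationSubring (integralClosure v.toValuationSubring F') :=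
    IsIntegralClosure.isTorsionFree v.toValuationSubring F'
  haveI : Finite (HeightOneSpectrum (integralClosure v.toValuationSubring F')) :=
    finite_heightOneSpectrum v.toValuationSubring
  letI : Fintype (HeightOneSpectrum (integralClosure v.toValuationSubring F')) :=
    Fintype.ofFinite _
  rw [pushforward_apply_eq_sum (S := integralClosure v.toValuationSubring F') v hdeg f D hD]
  exact sum_ord_eq_ord_norm v (inertiaDeg_eq_one_of_hres v hres) f hf0

/-- **The fundamental identity** `∑ e f = n` follows from the norm formula (applied to a local
parameter of the base). -/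
theorem sumRamificationInertia_of_normFormula [HasPrincipalDivisors K F']
    (H : Divisor.PushforwardNormFormula K F F') : SumRamificationInertia K F F' := by
  classical
  refine ⟨fun v => ?_⟩
  obtain ⟨π, hπ0, hπ⟩ := exists_uniformizer v
  have hπ' : algebraMap F F' π ≠ 0 := by simpa using hπ0
  obtain ⟨D, hD, -⟩ := HasPrincipalDivisors.exists_divisor (K := K) (algebraMap F F' π) hπ'
  have h := H (algebraMap F F' π) hπ' D hD v
  rw [Algebra.norm_algebraMap, ord_pow, hπ, mul_one, Divisor.pushforward_apply,
    ← Finset.sum_filter] at h
  have hfil : D.support.filter (fun w => w.restrict F = v) = v.fiber F' := by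
    ext w
    rw [Finset.mem_filter, Place.mem_fiber, Finsupp.mem_support_iff, hD]
    constructor
    · exact fun h => h.2
    · intro hw
      refine ⟨?_, hw⟩
      exact w.ord_algebraMap_ne_zero_of_restrict_eq (by omega) hw
  rw [hfil] at h
  rw [← h]
  refine Finset.sum_congr rfl fun w hw => ?_
  rw [hD w, w.ord_restrict π, Place.mem_fiber.mp hw, hπ, mul_one]

end Global

section Along

variable {K F F' : Type*} [Field K] [Field F] [Field F'] [Algebra K F] [Algebra K F']
  [CharZero F]

/-- the norm formula along a finite morphism of function fields -/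
theorem normFormulaAlong (φ : F →ₐ[K] F') (hfin : FiniteAlong K φ)
    (hdeg : ∀ w : Place K F', w.deg = 1)
    (hres : ∀ (w : Place K F') (f : F'), 0 ≤ w.ord f →
      ∃ c : K, f = algebraMap K F' c ∨ 0 < w.ord (f - algebraMap K F' c)) :
    NormFormulaAlong K φ hfin := by
  letI := algebraAlong φ
  haveI := isScalarTower_along φ
  haveI : Module.Finite F F' := hfin
  exact pushforwardNormFormula hdeg hres

/-- the fundamental identity along a finite morphism of function fields -/
theorem fundamentalIdentityAlong [HasPrincipalDivisors K F'] (φ : F →ₐ[K] F')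
    (hφ : φ.toRingHom.IsIntegral) (hfin : FiniteAlong K φ)
    (hdeg : ∀ w : Place K F', w.deg = 1)
    (hres : ∀ (w : Place K F') (f : F'), 0 ≤ w.ord f →
      ∃ c : K, f = algebraMap K F' c ∨ 0 < w.ord (f - algebraMap K F' c)) :
    FundamentalIdentityAlong K φ hφ := by
  letI := algebraAlong φ
  haveI := isScalarTower_along φ
  haveI := isIntegral_along φ hφ
  haveI : Module.Finite F F' := hfin
  haveI : SumRamificationInertia K F F' :=
    sumRamificationInertia_of_normFormula (pushforwardNormFormula hdeg hres)
  exact instFundamentalIdentityOfSumRamificationInertia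

/-- a finite morphism is integral -/
theorem isIntegral_of_finiteAlong (φ : F →ₐ[K] F') (hfin : FiniteAlong K φ) :
    φ.toRingHom.IsIntegral := by
  letI := algebraAlong φ
  haveI : Module.Finite F F' := hfin
  intro x
  exact Algebra.IsIntegral.isIntegral (R := F) x

end Along

end Fermat.Agent.S37X.HeckeGen
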