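import Mathlib
import Fermat.Prelude.Def_ModularCurve_HeckeOperatorTotal
import Fermat.Agent.S24.Degree
import Fermat.Agent.S24.FFPlaces
import Fermat.Agent.S24.FFPrincipal
import Fermat.Agent.S37.HeckeGen

/-!
# S37 gamble, leaf T5: the four inputs of the Hecke correspondence on `J₀(N)`

`heckeInputsAlong N ℓ : ModularCurve.HeckeInputsAlong (AlgebraicClosure ℚ) N ℓ`:
the two degeneracy maps `α, β : F_N → F_{Nℓ}` are finite (hence integral), `F_{Nℓ}` has principal
divisors, the fundamental identity holds along `β` and the norm formula holds along `α`.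
-/

set_option autoImplicit false
set_option linter.style.haveILetI false
set_option linter.unusedSectionVars false

open AlgebraicCurve ModularCurve IntermediateField
open Fermat.Agent.S24 Fermat.Agent.S24.Eval Fermat.Agent.S24.Degree

namespace Fermat.Agent.S37X.HeckeInputs

section Generic

variable {K F F' : Type*} [Field K] [Field F] [Field F'] [Algebra K F] [Algebra K F']

/-- a morphism of function fields is finite as soon as the target is finite over `K(φ x)` -/
theorem finiteAlong_of_adjoin (φ : F →ₐ[K] F') (x : F) [FiniteDimensional K⟮φ x⟯ F'] :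
    FiniteAlong K φ := by
  letI := algebraAlong φ
  show Module.Finite F F'
  obtain ⟨s, hs⟩ := (Module.finite_def.mp (inferInstance : Module.Finite K⟮φ x⟯ F'))
  have hle : K⟮φ x⟯ ≤ φ.fieldRange := by
    rw [IntermediateField.adjoin_le_iff]
    rintro _ rfl
    exact ⟨x, rfl⟩
  refine ⟨s, ?_⟩
  rw [eq_top_iff]
  rintro m -
  have hm : m ∈ Submodule.span K⟮φ x⟯ (s : Set F') := by
    rw [hs]
    exact Submodule.mem_top
  induction hm using Submodule.span_induction with
  | mem y hy => exact Submodule.subset_span hy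
  | zero => exact Submodule.zero_mem _
  | add y z _ _ hy hz => exact Submodule.add_mem _ hy hz
  | smul c y _ hy =>
    obtain ⟨a, ha⟩ := hle c.2
    have h1 : c • y = a • y := by
      show (c : F') * y = φ a * y
      rw [← ha]
      rfl
    rw [h1]
    exact Submodule.smul_mem _ a hy

theorem transcendental_map (φ : F →ₐ[K] F') {x : F} (hx : Transcendental K x) :
    Transcendental K (φ x) := by
  intro h
  exact hx ((isAlgebraic_algHom_iff φ φ.toRingHom.injective).mp h)

end Generic

variable (N ℓ : ℕ) [NeZero N] [NeZero ℓ]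

theorem finiteAlong_of_algHom (φ : FF N →ₐ[KK] FF (N * ℓ)) : FiniteAlong KK φ := by
  haveI := finiteDimensional_jF (N * ℓ)
  haveI : FiniteDimensional KK⟮φ (jF N)⟯ (FF (N * ℓ)) :=
    finiteDimensional_adjoin (jF (N * ℓ)) (transcendental_jF (N * ℓ)) (φ (jF N))
      (transcendental_map φ (transcendental_jF N))
  exact finiteAlong_of_adjoin φ (jF N)

/-- **Leaf T5.** -/
theorem heckeInputsAlong : HeckeInputsAlong (AlgebraicClosure ℚ) N ℓ := by
  haveI := finiteDimensional_jF (N * ℓ)
  have htr := transcendental_jF (N * ℓ)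
  haveI hP : HasPrincipalDivisors KK (FF (N * ℓ)) :=
    FFPrincipal.hasPrincipalDivisors (jF (N * ℓ)) htr
  have hdeg : ∀ w : Place KK (FF (N * ℓ)), w.deg = 1 := place_deg_eq_one (jF (N * ℓ)) htr
  have hres : ∀ (w : Place KK (FF (N * ℓ))) (f : FF (N * ℓ)), 0 ≤ w.ord f →
      ∃ c : KK, f = algebraMap KK (FF (N * ℓ)) c ∨
        0 < w.ord (f - algebraMap KK (FF (N * ℓ)) c) :=
    fun w f hf => exists_sub_algebraMap_ord_pos (jF (N * ℓ)) htr w hf
  have hfinα : FiniteAlong KK (heckeAlphaBar KK N ℓ) := finiteAlong_of_algHom N ℓ _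
  have hfinβ : FiniteAlong KK (heckeBetaBar KK N ℓ) := finiteAlong_of_algHom N ℓ _
  have hα : HeckeAlphaBarIntegral KK N ℓ := HeckeGen.isIntegral_of_finiteAlong _ hfinα
  have hβ : HeckeBetaBarIntegral KK N ℓ := HeckeGen.isIntegral_of_finiteAlong _ hfinβ
  exact heckeInputsAlong_intro hα hβ
    (HeckeGen.fundamentalIdentityAlong _ hβ hfinβ hdeg hres) hfinα
    (HeckeGen.normFormulaAlong _ hfinα hdeg hres)

end Fermat.Agent.S37X.HeckeInputs
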