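import Mathlib
import Fermat.Agent.S37.Assembly
import Fermat.Agent.S37.FrobEquiv
import Fermat.Agent.S37.HeckeInputs

/-!
# S37, the final wiring

`Assembly.Leaves N ℓ A` from the two remaining leaves, stated as hypotheses:

* `hr`  : the centre map `Centre.rP` is a place reduction map (`IsPlaceReductionModL`);
* `hES` : the Eichler–Shimura congruence on divisors for `Centre.rP` and the coefficientwise
  Frobenius on the places of the special fibre.

Everything else is discharged here: the Frobenius lift (`S37FrobLift`), the equivariance of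
`Centre.rP` under inertia and Frobenius lifts (`FrobEquiv`), the Hecke inputs (`HeckeInputs`).
-/

set_option autoImplicit false
set_option linter.style.haveILetI false
set_option linter.unusedSectionVars false
set_option synthInstance.maxHeartbeats 400000
set_option maxHeartbeats 1600000

noncomputable section

namespace Fermat.Agent.S37Leaves

open ModularCurve AlgebraicCurve IsLocalRing
open Fermat.Agent.S24 Fermat.Agent.S24.Eval Fermat.Agent.S18 Fermat.Agent.S18.Gauss
open Fermat.Agent.S18.Lattice Fermat.Agent.S18.Charts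
open Fermat.Agent.S37.Centre Fermat.Agent.S37GalRed
open Fermat.Agent.S37Shell Fermat.Agent.S37Assembly

variable {A : ValuationSubring KK} {N : ℕ} [NeZero N] {ℓ : ℕ} [Fact ℓ.Prime]

/-- **`Leaves` from the two remaining leaves.** -/
theorem leaves_of [NeZero ℓ] (hA : A.LiesOverPrime ℓ) (hℓN : ¬ ℓ ∣ N)
    (hr : IsPlaceReductionModL A N (rP hA hℓN))
    (hES : ∀ {σ₀ : KK ≃ₐ[ℚ] KK} (h₀ : A.IsFrobeniusAt σ₀ ℓ)
      (hα : HeckeAlphaBarIntegral KK N ℓ) (hβ : HeckeBetaBarIntegral KK N ℓ)
      (_ : HasPrincipalDivisors KK (FF (N * ℓ))) (P : Place KK (FF N)),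
      Finsupp.mapDomain (rP hA hℓN) (heckeDivBar hα hβ (Finsupp.single P 1)) =
        Finsupp.single (coeffAut (ResidueField A) N (frobAut h₀) • rP hA hℓN P) 1 +
          Finsupp.single (coeffAut (ResidueField A) N (frobAut h₀)⁻¹ • rP hA hℓN P) (ℓ : ℤ)) :
    Leaves N ℓ A := by
  obtain ⟨σ₀, h₀⟩ := S37FrobLift.exists_isFrobeniusAt ℓ Fact.out A hA
  exact ⟨rP hA hℓN, fun Q => coeffAut (ResidueField A) N (frobAut h₀) • Q,
    fun Q => coeffAut (ResidueField A) N (frobAut h₀)⁻¹ • Q, hr,
    fun Q => S37.FrobEquiv.inv_smul_smul_frob h₀ Q,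
    fun τ hτ P => S37.FrobEquiv.rP_smul_of_mem_inertia hA hℓN hτ P,
    S37.FrobEquiv.rP_smul_frob hA hℓN h₀,
    S37X.HeckeInputs.heckeInputsAlong N ℓ,
    fun hα hβ hP P => hES h₀ hα hβ hP P⟩

end Fermat.Agent.S37Leaves
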