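import Mathlib
import Fermat.Prelude.Def_ModularCurve_ReductionModL
import Fermat.Agent.S18.CuspAbs
import Fermat.Agent.S18.ChartApprox
import Fermat.Agent.S18.ChartLift

/-!
# S37, leaf (LOCAL) of T2: the local inequality on a chart

Abstract setting: a map `r` from the places of `FF N` to the places of the reduced function field,
a chart coordinate `x` (`j` or `1/j`), the set `In` of the places of the chart with integral
coordinate and the set `Ink` of the places of the reduced chart.  From

* the centre property `cp` (values of chart functions reduce to values),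
* the uniqueness `uni` of the zero of a lift of a uniformiser in a residue class,
* the existence `sep` of uniformisers which are units on a given finite set,

we prove the **local inequality**: for a chart function `y` with nonzero reduction and a place
`Q₀` of the reduced chart, `∑_{r P = Q₀} ord_P y ≤ ord_{Q₀} ȳ`.
-/

set_option autoImplicit false
set_option synthInstance.maxHeartbeats 400000

noncomputable section

namespace Fermat.Agent.S37Local

open ModularCurve AlgebraicCurve IsLocalRing
open Fermat.Agent.S18 Fermat.Agent.S18.Gauss Fermat.Agent.S18.Lattice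
open Fermat.Agent.S18.Charts Fermat.Agent.S18.RedFibre Fermat.Agent.S18.LocalLift
open Fermat.Agent.S24 Fermat.Agent.S24.Eval

variable {A : ValuationSubring KK} {N : ℕ} [NeZero N]

/-- The hypotheses on one chart. -/
structure Chart (r : Place KK (FF N) → Place (ResidueField A) (FkN A N)) (x : FF N)
    (In : Place KK (FF N) → Prop) (Ink : Place (ResidueField A) (FkN A N) → Prop)
    (Fib : Place (ResidueField A) (FkN A N) → Finset (Place (ResidueField A) (FkN A N))) :
    Prop where
  in_of : ∀ P, Ink (r P) → In P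
  ink_of : ∀ P, In P → Ink (r P)
  reg : ∀ P, In P → x ∈ P.toValuationSubring
  val : ∀ (P : Place KK (FF N)) (f : FF N), f ∈ P.toValuationSubring →
    ∃ a : KK, f = algebraMap KK (FF N) a ∨ 0 < P.ord (f - algebraMap KK (FF N) a)
  cp : ∀ P, In P → ∀ f : OO A N, (f : FF N) ∈ regAt N x → ∀ a : KK,
    ((f : FF N) = algebraMap KK (FF N) a ∨ 0 < P.ord ((f : FF N) - algebraMap KK (FF N) a)) →
    ∃ ha : a ∈ A,
      (redN A N (f - cO ⟨a, ha⟩) = 0 ∨ 0 < (r P).ord (redN A N (f - cO ⟨a, ha⟩)))
  redreg : ∀ Q, Ink Q → ∀ f : OO A N, (f : FF N) ∈ regAt N x → redN A N f ≠ 0 →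
    0 ≤ Q.ord (redN A N f)
  uni : ∀ Q₀, Ink Q₀ → ∀ t : OO A N, (t : FF N) ∈ regAt N x → Q₀.ord (redN A N t) = 1 →
    (∀ Q ∈ Fib Q₀, Q ≠ Q₀ → Q.ord (redN A N t) = 0) →
    ∀ P P', r P = Q₀ → r P' = Q₀ → 0 < P.ord (t : FF N) → 0 < P'.ord (t : FF N) →
      P = P' ∧ P.ord (t : FF N) = 1
  fib : ∀ Q₀, Ink Q₀ → ∀ Q ∈ Fib Q₀, Ink Q
  sep : ∀ Q₀, Ink Q₀ → ∀ T : Finset (Place (ResidueField A) (FkN A N)), Q₀ ∉ T →
    (∀ Q ∈ T, Ink Q) →
    ∃ w : OO A N, (w : FF N) ∈ regAt N x ∧ Q₀.ord (redN A N w) = 1 ∧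
      ∀ Q ∈ T, Q.ord (redN A N w) = 0
  out : ∀ P, x ∈ P.toValuationSubring → ¬ In P → ∀ Q₀, Ink Q₀ →
    ∃ g : OO A N, (g : FF N) ∈ regAt N x ∧ 0 < P.ord (g : FF N) ∧ redN A N g ≠ 0 ∧
      Q₀.ord (redN A N g) = 0

variable {r : Place KK (FF N) → Place (ResidueField A) (FkN A N)} {x : FF N}
  {In : Place KK (FF N) → Prop} {Ink : Place (ResidueField A) (FkN A N) → Prop}
  {Fib : Place (ResidueField A) (FkN A N) → Finset (Place (ResidueField A) (FkN A N))}

/-! ### Elementary facts on orders -/

section Ord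

variable {k F : Type*} [Field k] [Field F] [Algebra k F]

theorem ne_zero_of_ord_pos (P : Place k F) {f : F} (h : 0 < P.ord f) : f ≠ 0 := by
  rintro rfl
  rw [P.ord_zero] at h
  exact lt_irrefl _ h

theorem ne_zero_of_ord_ne (P : Place k F) {f : F} (h : P.ord f ≠ 0) : f ≠ 0 := by
  rintro rfl
  exact h P.ord_zero

/-- a function with a nonzero value has order `0` -/
theorem ord_eq_zero_of_val (P : Place k F) {f : F} {a : k} (ha : a ≠ 0)
    (h : f = algebraMap k F a ∨ 0 < P.ord (f - algebraMap k F a)) : P.ord f = 0 := by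
  rcases h with h | h
  · rw [h, ord_algebraMap]
  · have h1 : f - algebraMap k F a ≠ 0 := ne_zero_of_ord_pos P h
    have h2 : algebraMap k F a ≠ 0 := fun h0 => ha (by
      have := (algebraMap k F).injective (h0.trans (map_zero _).symm)
      exact this)
    have h3 : P.ord (algebraMap k F a) < P.ord (f - algebraMap k F a) := by
      rw [ord_algebraMap]; exact h
    have h4 := ord_add_eq_of_lt P h2 h1 h3
    rw [add_sub_cancel, ord_algebraMap] at h4
    exact h4

/-- a function of positive order has the value `0` -/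
theorem val_eq_zero_of_ord_pos (P : Place k F) {f : F} {a : k} (hf : 0 < P.ord f)
    (h : f = algebraMap k F a ∨ 0 < P.ord (f - algebraMap k F a)) : a = 0 := by
  by_contra ha
  have := ord_eq_zero_of_val P ha h
  omega

end Ord


/-! ### Fibre sums -/

section Sums

variable {α β : Type*}

theorem mapDomain_eq_zero_of_fibre (φ : α → β) (D : α →₀ ℤ) (b : β)
    (h : ∀ a, φ a = b → D a = 0) : Finsupp.mapDomain φ D b = 0 := by
  rw [ChartLift.mapDomain_congr_fibre φ D 0 b (fun a ha => by
    rw [h a ha, Finsupp.zero_apply]), Finsupp.mapDomain_zero, Finsupp.zero_apply]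

theorem mapDomain_eq_one_of_fibre (φ : α → β) (D : α →₀ ℤ) (b : β) (a₀ : α) (h₀ : φ a₀ = b)
    (h1 : D a₀ = 1) (h : ∀ a, φ a = b → a ≠ a₀ → D a = 0) : Finsupp.mapDomain φ D b = 1 := by
  classical
  rw [ChartLift.mapDomain_congr_fibre φ D (Finsupp.single a₀ 1) b (fun a ha => by
    by_cases e : a = a₀
    · rw [e, h1, Finsupp.single_eq_same]
    · rw [h a ha e, Finsupp.single_apply, if_neg (fun h' => e h'.symm)]),
    Finsupp.mapDomain_single, Finsupp.single_apply, if_pos h₀]

theorem exists_pos_of_mapDomain_pos (φ : α → β) (D : α →₀ ℤ) (b : β)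
    (h : 0 < Finsupp.mapDomain φ D b) : ∃ a, φ a = b ∧ 0 < D a := by
  classical
  by_contra hcon
  push Not at hcon
  rw [CuspAbs.mapDomain_apply_eq_sum] at h
  have : ∑ P ∈ D.support.filter (fun P => φ P = b), D P ≤ 0 :=
    Finset.sum_nonpos fun a ha => hcon a (Finset.mem_filter.mp ha).2
  omega

end Sums

/-! ### The chart calculus -/

section ChartCalc

theorem redN_cO_of_nonunit {c : A} (hc : c ∈ nonunits A) : redN A N (cO c) = 0 := by
  rw [redN_cO]
  have : residue A c = 0 := (residue_eq_zero_iff c).mpr ((mem_maximalIdeal c).mpr hc)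
  rw [this, map_zero]

theorem ord_redN_cO (Q : Place (ResidueField A) (FkN A N)) (c : A) :
    Q.ord (redN A N (cO c)) = 0 := by
  rw [redN_cO]
  exact ord_algebraMap Q _

theorem redN_cO_ne_zero {c : A} (hc : c ∉ nonunits A) : redN A N (cO c) ≠ 0 := by
  rw [redN_cO]
  intro h0
  apply hc
  have h1 : residue A c = 0 :=
    (algebraMap (ResidueField A) (FkN A N)).injective (h0.trans (map_zero _).symm)
  exact (mem_maximalIdeal c).mp ((residue_eq_zero_iff c).mp h1)

theorem mapDomain_dv_mul (r : Place KK (FF N) → Place (ResidueField A) (FkN A N))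
    {f g : FF N} (hf : f ≠ 0) (hg : g ≠ 0) (Q : Place (ResidueField A) (FkN A N)) :
    Finsupp.mapDomain r (dv N (f * g)) Q =
      Finsupp.mapDomain r (dv N f) Q + Finsupp.mapDomain r (dv N g) Q := by
  rw [dv_eq_divF, RedExt.divF_mul N hf hg, Finsupp.mapDomain_add, Finsupp.add_apply,
    ← dv_eq_divF, ← dv_eq_divF]

theorem coe_ne_zero_of_red {f : OO A N} (hf : redN A N f ≠ 0) : (f : FF N) ≠ 0 := by
  intro h0
  apply hf
  have : f = 0 := Subtype.ext h0
  rw [this, map_zero]

variable (h : Chart r x In Ink Fib)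
include h

/-- chart functions are regular at the integral places of the chart -/
theorem mem_of_in {P : Place KK (FF N)} (hP : In P) {f : FF N} (hf : f ∈ regAt N x) :
    f ∈ P.toValuationSubring := hf P (h.reg P hP)

theorem ord_nonneg_of_in {P : Place KK (FF N)} (hP : In P) {f : FF N} (hf : f ∈ regAt N x) :
    0 ≤ P.ord f :=
  ord_nonneg_of_mem P (mem_of_in h hP hf)

/-- the value of a chart function at an integral place of the chart -/
theorem exists_val {P : Place KK (FF N)} (hP : In P) (f : OO A N)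
    (hf : (f : FF N) ∈ regAt N x) :
    ∃ a : A, ((f : FF N) = algebraMap KK (FF N) (a : KK) ∨
        0 < P.ord ((f : FF N) - algebraMap KK (FF N) (a : KK))) ∧
      (redN A N (f - cO a) = 0 ∨ 0 < (r P).ord (redN A N (f - cO a))) := by
  obtain ⟨a, ha⟩ := h.val P f (mem_of_in h hP hf)
  obtain ⟨ha', hred⟩ := h.cp P hP f hf a ha
  exact ⟨⟨a, ha'⟩, ha, hred⟩

/-- **(F1)** a chart function whose reduction is a unit at `Q₀` has no zero in the class of
`Q₀`. -/
theorem ord_eq_zero_of_red {Q₀ : Place (ResidueField A) (FkN A N)} (hQ₀ : Ink Q₀) (y : OO A N)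
    (hy : (y : FF N) ∈ regAt N x) (hy0 : redN A N y ≠ 0) (h0 : Q₀.ord (redN A N y) = 0)
    (P : Place KK (FF N)) (hP : r P = Q₀) : P.ord (y : FF N) = 0 := by
  have hIn : In P := h.in_of P (hP ▸ hQ₀)
  obtain ⟨a, ha, hred⟩ := exists_val h hIn y hy
  have hau : a ∉ nonunits A := by
    intro hnon
    have e : redN A N (y - cO a) = redN A N y := by
      rw [map_sub, redN_cO_of_nonunit hnon, sub_zero]
    rw [e, hP] at hred
    rcases hred with h1 | h1
    · exact hy0 h1
    · omega
  have ha0 : (a : KK) ≠ 0 := by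
    intro h0'
    apply hau
    have : a = 0 := Subtype.ext h0'
    rw [this]
    exact zero_mem_nonunits.mpr zero_ne_one
  exact ord_eq_zero_of_val P ha0 ha

/-- the value of a chart function whose reduction vanishes at `Q₀`, at a place of the class of
`Q₀`, is a non-unit of `A` -/
theorem exists_val_nonunit {Q₀ : Place (ResidueField A) (FkN A N)} (hQ₀ : Ink Q₀) (w : OO A N)
    (hw : (w : FF N) ∈ regAt N x) (hw1 : 0 < Q₀.ord (redN A N w))
    (P : Place KK (FF N)) (hP : r P = Q₀) :
    ∃ a : A, a ∈ nonunits A ∧ ((w : FF N) = algebraMap KK (FF N) (a : KK) ∨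
        0 < P.ord ((w : FF N) - algebraMap KK (FF N) (a : KK))) := by
  have hIn : In P := h.in_of P (hP ▸ hQ₀)
  obtain ⟨a, ha, hred⟩ := exists_val h hIn w hw
  refine ⟨a, ?_, ha⟩
  by_contra hau
  have hC0 : redN A N (cO (N := N) a) ≠ 0 := redN_cO_ne_zero hau
  have hCo : Q₀.ord (redN A N (cO (N := N) a)) = 0 := ord_redN_cO Q₀ a
  rw [map_sub, hP] at hred
  rcases hred with h1 | h1
  · have : redN A N w = redN A N (cO a) := sub_eq_zero.mp h1
    rw [this, hCo] at hw1
    exact lt_irrefl _ hw1
  · have h2 : redN A N w - redN A N (cO (N := N) a) ≠ 0 := ne_zero_of_ord_pos Q₀ h1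
    have h3 : Q₀.ord (redN A N (cO (N := N) a)) <
        Q₀.ord (redN A N w - redN A N (cO (N := N) a)) := by
      rw [hCo]; exact h1
    have h4 := ord_add_eq_of_lt Q₀ hC0 h2 h3
    rw [add_sub_cancel, hCo] at h4
    omega

end ChartCalc

end Fermat.Agent.S37Local
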