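import Mathlib
import Fermat.Agent.S37.Local
import Fermat.Agent.S37.Centre
import Fermat.Agent.S37.Sep
import Fermat.Agent.S37.CentreFlex

/-!
# S37, leaf (CHART) of T2: the two charts of the modular function field

The abstract chart hypotheses `S37Local.Chart` hold for the reduction of places `Centre.rP` on
the chart `{j ≠ ∞}` (places with integral `j`-value, finite places of the reduced function
field) and on the chart `{1/j ≠ ∞}` (the other places, the cusps of the reduced function field),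
with the uniqueness statement (UNI) as a hypothesis.
-/

set_option autoImplicit false
set_option synthInstance.maxHeartbeats 400000

noncomputable section

namespace Fermat.Agent.S37ChartInst

open ModularCurve AlgebraicCurve IsLocalRing
open Fermat.Agent.S18 Fermat.Agent.S18.Gauss Fermat.Agent.S18.Lattice
open Fermat.Agent.S18.Charts Fermat.Agent.S18.LocalLift
open Fermat.Agent.S24 Fermat.Agent.S24.Eval
open Fermat.Agent.S37.CentreVal Fermat.Agent.S37.CentreChart Fermat.Agent.S37.Centre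
open Fermat.Agent.S37Local

variable {A : ValuationSubring KK} {N : ℕ} [NeZero N] {ℓ : ℕ} [Fact ℓ.Prime]

/-! ### Generalities -/

/-- the centre property in `cO`-form -/
theorem cp_of_hasVal {Q : Place (ResidueField A) (FkN A N)} {f : OO A N} {a : A}
    (h : HasVal Q (redN A N f) (residue A a)) :
    redN A N (f - cO a) = 0 ∨ 0 < Q.ord (redN A N (f - cO a)) := by
  rw [map_sub, redN_cO]
  rcases h with h | h
  · left
    rw [h, sub_self]
  · right
    exact h

omit [NeZero N] in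
/-- a value of a transcendental function is attained with positive order -/
theorem ord_pos_of_hasVal_jb {Q : Place (ResidueField A) (FkN A N)} {a : ResidueField A}
    (h : HasVal Q (jb A N) a) : 0 < Q.ord (jb A N - algebraMap _ _ a) := by
  rcases h with h | h
  · exfalso
    apply DegEq.transcendental_jk (ResidueField A) N
    rw [show DegEq.jk (ResidueField A) N = jb A N from rfl, h]
    exact isAlgebraic_algebraMap _
  · exact h

/-- the fibre of `j̄` through a finite place -/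
def fib1 (A : ValuationSubring KK) (N : ℕ) [NeZero N] (Q₀ : Place (ResidueField A) (FkN A N)) :
    Finset (Place (ResidueField A) (FkN A N)) :=
  open Classical in
  if h : ∃ a₀ : ResidueField A, HasVal Q₀ (jb A N) a₀ then
    (FbarSep.placesOver_finite (A := A) N h.choose).toFinset
  else ∅

theorem mem_fib1 {Q₀ Q : Place (ResidueField A) (FkN A N)} {a₀ : ResidueField A}
    (h₀ : HasVal Q₀ (jb A N) a₀) : Q ∈ fib1 A N Q₀ ↔ HasVal Q (jb A N) a₀ := by
  have hex : ∃ a₀ : ResidueField A, HasVal Q₀ (jb A N) a₀ := ⟨a₀, h₀⟩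
  have e : hex.choose = a₀ := HasVal.unique Q₀ (hresK Q₀) hex.choose_spec h₀
  unfold fib1
  rw [dif_pos hex, Set.Finite.mem_toFinset, e]
  constructor
  · intro h
    exact Or.inr h
  · intro h
    exact ord_pos_of_hasVal_jb h

/-- the cusps of the reduced function field -/
def fib2 (A : ValuationSubring KK) (N : ℕ) [NeZero N] :
    Finset (Place (ResidueField A) (FkN A N)) :=
  (FbarSep.placesOverInfty_finite (A := A) N).toFinset

theorem mem_fib2 {Q : Place (ResidueField A) (FkN A N)} :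
    Q ∈ fib2 A N ↔ Q.ord (jb A N) < 0 := by
  unfold fib2
  rw [Set.Finite.mem_toFinset]
  exact Iff.rfl

/-- a finite place of the reduced function field carries a value of `j̄` -/
theorem exists_hasVal_jb {Q : Place (ResidueField A) (FkN A N)} (hQ : 0 ≤ Q.ord (jb A N)) :
    ∃ a₀ : ResidueField A, HasVal Q (jb A N) a₀ :=
  FbarSep.exists_sub_algebraMap_ord_pos N Q hQ

omit [NeZero N] in
theorem ord_jb_nonneg_of_hasVal {Q : Place (ResidueField A) (FkN A N)} {a : ResidueField A}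
    (h : HasVal Q (jb A N) a) : 0 ≤ Q.ord (jb A N) :=
  ord_nonneg_of_mem Q (HasVal.mem Q h)

omit [NeZero N] in
/-- a function with the value `1` at a place is nonzero of order `0` there -/
theorem ne_zero_and_ord_of_hasVal_one {Q : Place (ResidueField A) (FkN A N)} {f : FkN A N}
    (h : HasVal Q f 1) : f ≠ 0 ∧ Q.ord f = 0 := by
  have h0 : Q.ord f = 0 := ord_eq_zero_of_val Q one_ne_zero h
  refine ⟨?_, h0⟩
  intro hf
  rcases h with h | h
  · rw [hf, map_one] at h
    exact zero_ne_one h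
  · rw [hf, zero_sub, map_one, ord_neg, Place.ord_one] at h
    exact lt_irrefl _ h

/-! ### Chart 1 : the places with integral `j`-value -/

/-- the reduction of a function of chart 1 is regular at the finite places -/
theorem redreg1 (hA : A.LiesOverPrime ℓ) (hℓN : ¬ ℓ ∣ N)
    (Q : Place (ResidueField A) (FkN A N)) (hQ : 0 ≤ Q.ord (jb A N)) (f : OO A N)
    (hf : (f : FF N) ∈ regAt N (jF N)) : 0 ≤ Q.ord (redN A N f) := by
  have h1 : redN A N f ∈ R1 A N :=
    (mem_redImage A N).mpr ⟨f, (mem_O1 A N).mpr ⟨f.2, hf⟩, rfl⟩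
  have h2 : redN A N f ∈ B1b A N := IntRedMod.R1_le_B1b N hA hℓN h1
  exact (RegInt.mem_B1b_iff A N _).mp h2 Q hQ

/-- the reduction of a function of chart 2 is regular at the cusps -/
theorem redreg2 (hA : A.LiesOverPrime ℓ) (hℓN : ¬ ℓ ∣ N)
    (Q : Place (ResidueField A) (FkN A N)) (hQ : 0 ≤ Q.ord (jb A N)⁻¹) (f : OO A N)
    (hf : (f : FF N) ∈ regAt N (jF N)⁻¹) : 0 ≤ Q.ord (redN A N f) := by
  have h1 : redN A N f ∈ R2 A N :=
    (mem_redImage A N).mpr ⟨f, (mem_O2 A N).mpr ⟨f.2, hf⟩, rfl⟩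
  have h2 : redN A N f ∈ B2b A N := IntRedInv.R2_le_B2b N hA hℓN h1
  exact (RegInt.mem_B2b_iff A N _).mp h2 Q hQ

omit [NeZero N] in
theorem ord_inv_nonneg_of_neg {Q : Place (ResidueField A) (FkN A N)}
    (hQ : Q.ord (jb A N) < 0) : 0 ≤ Q.ord (jb A N)⁻¹ := by
  rw [Place.ord_inv]
  omega

/-- a place outside chart 1 at which `j` is regular is separated from the special fibre -/
theorem out1 (P : Place KK (FF N)) (hP : ¬ CuspAbs.JInt A N P)
    (hj : jF N ∈ P.toValuationSubring) (Q₀ : Place (ResidueField A) (FkN A N)) :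
    ∃ g : OO A N, (g : FF N) ∈ regAt N (jF N) ∧ 0 < P.ord (g : FF N) ∧ redN A N g ≠ 0 ∧
      Q₀.ord (redN A N g) = 0 := by
  obtain ⟨a, ⟨ha, hnu⟩, hv⟩ := exists_hasVal_inv hP
  have hj0 : jF N ≠ 0 := fun h0 =>
    (Degree.transcendental_jF N) (by rw [h0]; exact isAlgebraic_zero)
  have hv' : 0 < P.ord ((jF N)⁻¹ - algebraMap KK (FF N) a) := by
    rw [CuspAbs.coe_jinvO] at hv
    rcases hv with hv | hv
    · exfalso
      apply Degree.transcendental_jF N
      have : jF N = algebraMap KK (FF N) a⁻¹ := by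
        rw [map_inv₀, ← hv, inv_inv]
      rw [this]
      exact isAlgebraic_algebraMap _
    · exact hv
  have hne : (jF N)⁻¹ - algebraMap KK (FF N) a ≠ 0 := by
    intro h0
    rw [h0, Place.ord_zero] at hv'
    exact lt_irrefl _ hv'
  refine ⟨1 - cO ⟨a, ha⟩ * CuspAbs.jO A N, ?_, ?_, ?_, ?_⟩
  · have e : ((1 - cO ⟨a, ha⟩ * CuspAbs.jO A N : OO A N) : FF N) =
        1 - algebraMap KK (FF N) a * jF N := rfl
    rw [e]
    exact sub_mem (one_mem _) (mul_mem (algebraMap_mem_regAt N _ _) (self_mem_regAt N _))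
  · have e : ((1 - cO ⟨a, ha⟩ * CuspAbs.jO A N : OO A N) : FF N) =
        jF N * ((jF N)⁻¹ - algebraMap KK (FF N) a) := by
      have e0 : ((1 - cO ⟨a, ha⟩ * CuspAbs.jO A N : OO A N) : FF N) =
          1 - algebraMap KK (FF N) a * jF N := rfl
      rw [e0, mul_sub, mul_inv_cancel₀ hj0, mul_comm]
    rw [e, P.ord_mul hj0 hne]
    have := ord_nonneg_of_mem P hj
    omega
  · have e : redN A N (1 - cO ⟨a, ha⟩ * CuspAbs.jO A N) = 1 := by
      rw [map_sub, map_one, map_mul, redN_cO_of_nonunit (hnu ha), zero_mul, sub_zero]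
    rw [e]
    exact one_ne_zero
  · have e : redN A N (1 - cO ⟨a, ha⟩ * CuspAbs.jO A N) = 1 := by
      rw [map_sub, map_one, map_mul, redN_cO_of_nonunit (hnu ha), zero_mul, sub_zero]
    rw [e]
    exact Place.ord_one _

/-- a place outside chart 2 at which `1/j` is regular is separated from the cusps of the special
fibre -/
theorem out2 (P : Place KK (FF N)) (hP : CuspAbs.JInt A N P)
    (hj : (jF N)⁻¹ ∈ P.toValuationSubring) (Q₀ : Place (ResidueField A) (FkN A N))
    (hQ₀ : Q₀.ord (jb A N) < 0) :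
    ∃ g : OO A N, (g : FF N) ∈ regAt N (jF N)⁻¹ ∧ 0 < P.ord (g : FF N) ∧ redN A N g ≠ 0 ∧
      Q₀.ord (redN A N g) = 0 := by
  obtain ⟨s, hs, hv⟩ := hP
  have h1 := S37CentreFlex.one_le_ord_fac (N := N) (⟨s, hs⟩ : A) P hv hj
  have h2 := ne_zero_and_ord_of_hasVal_one
    (S37CentreFlex.hasVal_redN_fac (N := N) (⟨s, hs⟩ : A) Q₀ hQ₀)
  refine ⟨S37CentreFlex.fac ⟨s, hs⟩, S37CentreFlex.fac_mem_regAt _, ?_, h2.1, h2.2⟩
  have := h1.2
  omega

/-- **(CHART 1)** the chart of the places with integral `j`-value, with the uniqueness statement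
as a hypothesis. -/
theorem exists_chart1 (hA : A.LiesOverPrime ℓ) (hℓN : ¬ ℓ ∣ N)
    (huni : ∀ (Q₀ : Place (ResidueField A) (FkN A N)) (a₀ : ResidueField A),
      HasVal Q₀ (jb A N) a₀ → ∀ t : OO A N, (t : FF N) ∈ regAt N (jF N) →
      Q₀.ord (redN A N t) = 1 →
      (∀ Q, Q ≠ Q₀ → HasVal Q (jb A N) a₀ → Q.ord (redN A N t) = 0) →
      ∀ P P' : Place KK (FF N), CuspAbs.JInt A N P → CuspAbs.JInt A N P' →
      rP hA hℓN P = Q₀ → rP hA hℓN P' = Q₀ →
      0 < P.ord (t : FF N) → 0 < P'.ord (t : FF N) → P = P' ∧ P.ord (t : FF N) = 1) :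
    ∃ Fib, S37Local.Chart (rP hA hℓN) (jF N) (CuspAbs.JInt A N)
      (fun Q => 0 ≤ Q.ord (jb A N)) Fib := by
  have hin : ∀ P : Place KK (FF N), 0 ≤ (rP hA hℓN P).ord (jb A N) → CuspAbs.JInt A N P := by
    intro P h
    by_contra hP
    have := rP_cusp hA hℓN P hP
    omega
  refine ⟨fib1 A N, ?_⟩
  refine
    { in_of := hin
      ink_of := fun P hP => rP_finite hA hℓN P hP
      reg := ?_
      val := fun P => hresF P
      cp := ?_
      redreg := fun Q hQ f hf _ => redreg1 hA hℓN Q hQ f hf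
      uni := ?_
      fib := ?_
      sep := ?_
      out := fun P hj hP Q₀ _ => out1 P hP hj Q₀ }
  · rintro P ⟨a, -, ha⟩
    exact HasVal.mem P (Or.inr ha)
  · intro P hP f hf a hv
    obtain ⟨ha', h⟩ := val_chart1 hA hℓN P hP f hf a hv
    exact ⟨ha', cp_of_hasVal h⟩
  · intro Q₀ hQ₀ t ht h1 hfib P P' hr hr' h0 h0'
    obtain ⟨a₀, ha₀⟩ := exists_hasVal_jb hQ₀
    have hQP : 0 ≤ (rP hA hℓN P).ord (jb A N) := by rw [hr]; exact hQ₀
    have hQP' : 0 ≤ (rP hA hℓN P').ord (jb A N) := by rw [hr']; exact hQ₀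
    exact huni Q₀ a₀ ha₀ t ht h1 (fun Q hne hv => hfib Q ((mem_fib1 ha₀).mpr hv) hne) P P'
      (hin P hQP) (hin P' hQP') hr hr' h0 h0'
  · intro Q₀ hQ₀ Q hQ
    obtain ⟨a₀, ha₀⟩ := exists_hasVal_jb hQ₀
    exact ord_jb_nonneg_of_hasVal ((mem_fib1 ha₀).mp hQ)
  · intro Q₀ hQ₀ T hT hTc
    obtain ⟨w, hw, h1, h2⟩ := S37Sep.exists_unif1 hA hℓN Q₀ hQ₀ T hT hTc
    exact ⟨w, ((mem_O1 A N).mp hw).2, h1, h2⟩

/-- **(CHART 2)** the chart of the places with non-integral `j`-value, with the uniqueness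
statement as a hypothesis. -/
theorem exists_chart2 (hA : A.LiesOverPrime ℓ) (hℓN : ¬ ℓ ∣ N)
    (huni : ∀ (Q₀ : Place (ResidueField A) (FkN A N)), Q₀.ord (jb A N) < 0 →
      ∀ t : OO A N, (t : FF N) ∈ regAt N (jF N)⁻¹ →
      Q₀.ord (redN A N t) = 1 →
      (∀ Q, Q ≠ Q₀ → Q.ord (jb A N) < 0 → Q.ord (redN A N t) = 0) →
      ∀ P P' : Place KK (FF N), ¬ CuspAbs.JInt A N P → ¬ CuspAbs.JInt A N P' →
      rP hA hℓN P = Q₀ → rP hA hℓN P' = Q₀ →
      0 < P.ord (t : FF N) → 0 < P'.ord (t : FF N) → P = P' ∧ P.ord (t : FF N) = 1) :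
    ∃ Fib, S37Local.Chart (rP hA hℓN) (jF N)⁻¹ (fun P => ¬ CuspAbs.JInt A N P)
      (fun Q => Q.ord (jb A N) < 0) Fib := by
  have hin : ∀ P : Place KK (FF N), (rP hA hℓN P).ord (jb A N) < 0 → ¬ CuspAbs.JInt A N P := by
    intro P h hP
    have := rP_finite hA hℓN P hP
    omega
  refine ⟨fun _ => fib2 A N, ?_⟩
  refine
    { in_of := hin
      ink_of := fun P hP => rP_cusp hA hℓN P hP
      reg := fun P hP => S37CentreFlex.jinv_mem_of_not_jInt hP
      val := fun P => hresF P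
      cp := ?_
      redreg := fun Q hQ f hf _ => redreg2 hA hℓN Q (ord_inv_nonneg_of_neg hQ) f hf
      uni := ?_
      fib := fun Q₀ _ Q hQ => mem_fib2.mp hQ
      sep := ?_
      out := fun P hj hP Q₀ hQ₀ => out2 P (not_not.mp hP) hj Q₀ hQ₀ }
  · intro P hP f hf a hv
    obtain ⟨ha', h⟩ := val_chart2 hA hℓN P hP f hf a hv
    exact ⟨ha', cp_of_hasVal h⟩
  · intro Q₀ hQ₀ t ht h1 hfib P P' hr hr' h0 h0'
    have hQP : (rP hA hℓN P).ord (jb A N) < 0 := by rw [hr]; exact hQ₀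
    have hQP' : (rP hA hℓN P').ord (jb A N) < 0 := by rw [hr']; exact hQ₀
    exact huni Q₀ hQ₀ t ht h1 (fun Q hne hQ => hfib Q (mem_fib2.mpr hQ) hne) P P'
      (hin P hQP) (hin P' hQP') hr hr' h0 h0'
  · intro Q₀ hQ₀ T hT hTc
    obtain ⟨w, hw, h1, h2⟩ := S37Sep.exists_unif2 hA hℓN Q₀ (ord_inv_nonneg_of_neg hQ₀) T hT
      (fun Q hQ => ord_inv_nonneg_of_neg (hTc Q hQ))
    exact ⟨w, ((mem_O2 A N).mp hw).2, h1, h2⟩

end Fermat.Agent.S37ChartInst
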