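import Mathlib
import Fermat.Agent.S37.Local

/-!
# S37, leaf (LOCAL) of T2, part 2: division by a coordinate and the local inequality

* `exists_coord`: for a place `P` of the class of `Q₀` there is a chart function `t` with nonzero
  reduction, `ord_{Q₀} t̄ = 1`, a simple zero at `P` and no other zero in the class of `Q₀`;
* `exists_div`: every chart function `y` vanishing at `P` satisfies `y u = t g` with chart
  functions `u, g`, the reduction of `u` being a unit at `Q₀`;
* `mapDomain_le_ord`: the local inequality `∑_{r P = Q₀} ord_P y ≤ ord_{Q₀} ȳ`.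
-/

set_option autoImplicit false
set_option synthInstance.maxHeartbeats 400000

noncomputable section

namespace Fermat.Agent.S37Local

open ModularCurve AlgebraicCurve IsLocalRing
open Fermat.Agent.S18 Fermat.Agent.S18.Gauss Fermat.Agent.S18.Lattice
open Fermat.Agent.S18.Charts Fermat.Agent.S18.RedFibre Fermat.Agent.S18.LocalLift
open Fermat.Agent.S24 Fermat.Agent.S24.Eval

variable {A : ValuationSubring KK} {N : ℕ} [NeZero N]
variable {r : Place KK (FF N) → Place (ResidueField A) (FkN A N)} {x : FF N}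
  {In : Place KK (FF N) → Prop} {Ink : Place (ResidueField A) (FkN A N) → Prop}
  {Fib : Place (ResidueField A) (FkN A N) → Finset (Place (ResidueField A) (FkN A N))}

variable (h : Chart r x In Ink Fib)
include h

/-- a chart function vanishing at a place `P` whose reduction is a unit at `Q₀`, for `P` in the
class of another place of the reduced chart -/
theorem exists_kill_in {Q₀ : Place (ResidueField A) (FkN A N)} (hQ₀ : Ink Q₀)
    (P : Place KK (FF N)) (hP : In P) (hne : r P ≠ Q₀) :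
    ∃ g : OO A N, (g : FF N) ∈ regAt N x ∧ 0 < P.ord (g : FF N) ∧ redN A N g ≠ 0 ∧
      Q₀.ord (redN A N g) = 0 := by
  classical
  have hQ : Ink (r P) := h.ink_of P hP
  obtain ⟨w, hw, hw1, hwT⟩ := h.sep (r P) hQ {Q₀} (by
    rw [Finset.mem_singleton]; exact hne) (fun Q hQ' => by
    rw [Finset.mem_singleton] at hQ'; rw [hQ']; exact hQ₀)
  have hw0 : redN A N w ≠ 0 := ne_zero_of_ord_ne (r P) (by rw [hw1]; norm_num)
  obtain ⟨a, hanon, hval⟩ := exists_val_nonunit h hQ w hw (by rw [hw1]; norm_num) P rfl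
  have hred : redN A N (w - cO a) = redN A N w := by
    rw [map_sub, redN_cO_of_nonunit hanon, sub_zero]
  have hg0 : ((w - cO a : OO A N) : FF N) ≠ 0 :=
    coe_ne_zero_of_red (by rw [hred]; exact hw0)
  refine ⟨w - cO a, ?_, ?_, by rw [hred]; exact hw0, by
    rw [hred]; exact hwT Q₀ (Finset.mem_singleton_self Q₀)⟩
  · exact sub_mem hw (algebraMap_mem_regAt N x _)
  · rcases hval with hv | hv
    · exact absurd (sub_eq_zero.mpr hv) hg0
    · exact hv

/-- a chart function vanishing at a given place of the chart domain outside the class of `Q₀`,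
whose reduction is a unit at `Q₀` -/
theorem exists_kill {Q₀ : Place (ResidueField A) (FkN A N)} (hQ₀ : Ink Q₀)
    (P : Place KK (FF N)) (hx : x ∈ P.toValuationSubring) (hne : r P ≠ Q₀) :
    ∃ g : OO A N, (g : FF N) ∈ regAt N x ∧ 0 < P.ord (g : FF N) ∧ redN A N g ≠ 0 ∧
      Q₀.ord (redN A N g) = 0 := by
  by_cases hP : In P
  · exact exists_kill_in h hQ₀ P hP hne
  · exact h.out P hx hP Q₀ hQ₀

/-- **Coordinates**: a lift of a uniformiser at `Q₀` with a simple zero at `P` and no other zero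
in the class of `Q₀`. -/
theorem exists_coord {Q₀ : Place (ResidueField A) (FkN A N)} (hQ₀ : Ink Q₀)
    (P : Place KK (FF N)) (hP : r P = Q₀) :
    ∃ t : OO A N, (t : FF N) ∈ regAt N x ∧ Q₀.ord (redN A N t) = 1 ∧ P.ord (t : FF N) = 1 ∧
      ∀ P', r P' = Q₀ → P' ≠ P → P'.ord (t : FF N) = 0 := by
  classical
  obtain ⟨w, hw, hw1, hwT⟩ := h.sep Q₀ hQ₀ ((Fib Q₀).erase Q₀) (Finset.notMem_erase _ _)
    (fun Q hQ => h.fib Q₀ hQ₀ Q (Finset.mem_of_mem_erase hQ))
  have hw0 : redN A N w ≠ 0 := ne_zero_of_ord_ne Q₀ (by rw [hw1]; norm_num)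
  obtain ⟨a, hanon, hval⟩ := exists_val_nonunit h hQ₀ w hw (by rw [hw1]; norm_num) P hP
  have hred : redN A N (w - cO a) = redN A N w := by
    rw [map_sub, redN_cO_of_nonunit hanon, sub_zero]
  have ht0 : ((w - cO a : OO A N) : FF N) ≠ 0 :=
    coe_ne_zero_of_red (by rw [hred]; exact hw0)
  have htreg : ((w - cO a : OO A N) : FF N) ∈ regAt N x :=
    sub_mem hw (algebraMap_mem_regAt N x _)
  have hpos : 0 < P.ord ((w - cO a : OO A N) : FF N) := by
    rcases hval with hv | hv
    · exact absurd (sub_eq_zero.mpr hv) ht0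
    · exact hv
  have huni := h.uni Q₀ hQ₀ (w - cO a) htreg (by rw [hred]; exact hw1)
    (fun Q hQ hne => by
      rw [hred]; exact hwT Q (Finset.mem_erase.mpr ⟨hne, hQ⟩))
  refine ⟨w - cO a, htreg, by rw [hred]; exact hw1, (huni P P hP hP hpos hpos).2, ?_⟩
  intro P' hP' hne
  have hIn' : In P' := h.in_of P' (hP' ▸ hQ₀)
  have h0 : 0 ≤ P'.ord ((w - cO a : OO A N) : FF N) := ord_nonneg_of_in h hIn' htreg
  by_contra hcon
  have hpos' : 0 < P'.ord ((w - cO a : OO A N) : FF N) := lt_of_le_of_ne h0 (Ne.symm hcon)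
  exact hne (huni P' P hP' hP hpos' hpos).1


set_option maxHeartbeats 1000000 in
/-- **Division by the coordinate**: a chart function vanishing at `P` is, up to a chart function
whose reduction is a unit at `Q₀`, divisible by the coordinate `t` in the chart ring. -/
theorem exists_div {Q₀ : Place (ResidueField A) (FkN A N)} (hQ₀ : Ink Q₀)
    (P : Place KK (FF N)) (t : OO A N) (ht : (t : FF N) ∈ regAt N x)
    (ht0 : redN A N t ≠ 0) (htP : P.ord (t : FF N) = 1)
    (htc : ∀ P', r P' = Q₀ → P' ≠ P → P'.ord (t : FF N) = 0)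
    (y : OO A N) (hy : (y : FF N) ∈ regAt N x) (hyP : 0 < P.ord (y : FF N)) :
    ∃ u g : OO A N, (u : FF N) ∈ regAt N x ∧ (g : FF N) ∈ regAt N x ∧ redN A N u ≠ 0 ∧
      Q₀.ord (redN A N u) = 0 ∧ y * u = t * g := by
  classical
  have htF : (t : FF N) ≠ 0 := coe_ne_zero_of_red ht0
  have hyF : (y : FF N) ≠ 0 := ne_zero_of_ord_pos P hyP
  set S : Finset (Place KK (FF N)) :=
    (dv N (t : FF N)).support.filter (fun P' => P' ≠ P ∧ x ∈ P'.toValuationSubring) with hS
  have hSprop : ∀ P' ∈ S, 0 < P'.ord (t : FF N) ∧ r P' ≠ Q₀ ∧ x ∈ P'.toValuationSubring := by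
    intro P' hP'
    rw [hS, Finset.mem_filter, Finsupp.mem_support_iff, dv_apply] at hP'
    obtain ⟨hne0, hneP, hx⟩ := hP'
    have h0 : 0 ≤ P'.ord (t : FF N) := ord_nonneg_of_mem P' (ht P' hx)
    have hpos : 0 < P'.ord (t : FF N) := lt_of_le_of_ne h0 (Ne.symm hne0)
    refine ⟨hpos, ?_, hx⟩
    intro hr
    have := htc P' hr hneP
    omega
  have hex : ∀ P' : Place KK (FF N), ∃ g : OO A N, P' ∈ S →
      ((g : FF N) ∈ regAt N x ∧ 0 < P'.ord (g : FF N) ∧ redN A N g ≠ 0 ∧
        Q₀.ord (redN A N g) = 0) := by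
    intro P'
    by_cases hP' : P' ∈ S
    · obtain ⟨g, hg⟩ := exists_kill h hQ₀ P' (hSprop P' hP').2.2 (hSprop P' hP').2.1
      exact ⟨g, fun _ => hg⟩
    · exact ⟨0, fun h' => absurd h' hP'⟩
  choose G hG using hex
  set m : Place KK (FF N) → ℕ := fun P' => (P'.ord (t : FF N)).toNat with hm
  set u : OO A N := ∏ P' ∈ S, G P' ^ m P' with hu
  have hGF : ∀ P' ∈ S, ((G P' : OO A N) : FF N) ≠ 0 := fun P' hP' =>
    ne_zero_of_ord_pos P' (hG P' hP').2.1
  have hucoe : (u : FF N) = ∏ P' ∈ S, ((G P' : OO A N) : FF N) ^ m P' := by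
    rw [hu]
    have := map_prod (OO A N).subtype (fun P' => G P' ^ m P') S
    simpa only [Subring.coe_subtype, map_pow] using this
  have huF : (u : FF N) ≠ 0 := by
    rw [hucoe]
    exact Finset.prod_ne_zero_iff.mpr fun P' hP' => pow_ne_zero _ (hGF P' hP')
  have hureg : (u : FF N) ∈ regAt N x := by
    rw [hucoe]
    exact Subring.prod_mem _ fun P' hP' => pow_mem (hG P' hP').1 _
  have hured : redN A N u = ∏ P' ∈ S, redN A N (G P') ^ m P' := by
    rw [hu, map_prod]
    exact Finset.prod_congr rfl fun P' _ => map_pow _ _ _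
  have hu0 : redN A N u ≠ 0 := by
    rw [hured]
    exact Finset.prod_ne_zero_iff.mpr fun P' hP' => pow_ne_zero _ (hG P' hP').2.2.1
  have huord : Q₀.ord (redN A N u) = 0 := by
    rw [hured, ChartApprox.ord_prod_pow Q₀ S (fun P' => redN A N (G P')) m
      (fun P' hP' => (hG P' hP').2.2.1)]
    exact Finset.sum_eq_zero fun P' hP' => by rw [(hG P' hP').2.2.2, mul_zero]
  -- the quotient
  set tinv : OO A N := ⟨((t : FF N))⁻¹, inv_mem_of_red_ne_zero ht0⟩ with htinv
  have htt : t * tinv = 1 := Subtype.ext (mul_inv_cancel₀ htF)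
  refine ⟨u, y * u * tinv, hureg, ?_, hu0, huord, ?_⟩
  · -- regularity of the quotient
    intro P₁ hx₁
    apply RegInt.mem_of_ord_nonneg₀
    have hcoe : ((y * u * tinv : OO A N) : FF N) = (y : FF N) * (u : FF N) * ((t : FF N))⁻¹ := rfl
    rw [hcoe, P₁.ord_mul (mul_ne_zero hyF huF) (inv_ne_zero htF), P₁.ord_mul hyF huF,
      P₁.ord_inv]
    have hy1 : 0 ≤ P₁.ord (y : FF N) := ord_nonneg_of_mem P₁ (hy P₁ hx₁)
    have ht1 : 0 ≤ P₁.ord (t : FF N) := ord_nonneg_of_mem P₁ (ht P₁ hx₁)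
    have hGnn : ∀ P' ∈ S, 0 ≤ (m P' : ℤ) * P₁.ord ((G P' : OO A N) : FF N) := fun P' hP' =>
      mul_nonneg (Int.natCast_nonneg _) (ord_nonneg_of_mem P₁ ((hG P' hP').1 P₁ hx₁))
    have hu1 : P₁.ord (u : FF N) = ∑ P' ∈ S, (m P' : ℤ) * P₁.ord ((G P' : OO A N) : FF N) := by
      rw [hucoe]
      exact ChartApprox.ord_prod_pow P₁ S (fun P' => ((G P' : OO A N) : FF N)) m hGF
    have hu1nn : 0 ≤ P₁.ord (u : FF N) := by
      rw [hu1]; exact Finset.sum_nonneg hGnn
    by_cases hPP : P₁ = P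
    · rw [hPP] at hy1 hu1nn ⊢
      omega
    · by_cases ht10 : P₁.ord (t : FF N) = 0
      · omega
      · have hmem : P₁ ∈ S := by
          rw [hS, Finset.mem_filter, Finsupp.mem_support_iff, dv_apply]
          exact ⟨ht10, hPP, hx₁⟩
        have hle : (m P₁ : ℤ) * P₁.ord ((G P₁ : OO A N) : FF N) ≤ P₁.ord (u : FF N) := by
          rw [hu1]
          exact Finset.single_le_sum hGnn hmem
        have hG1 : 1 ≤ P₁.ord ((G P₁ : OO A N) : FF N) := (hG P₁ hmem).2.1
        have hm1 : (m P₁ : ℤ) = P₁.ord (t : FF N) := by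
          rw [hm]; exact Int.toNat_of_nonneg ht1
        have : (m P₁ : ℤ) * 1 ≤ (m P₁ : ℤ) * P₁.ord ((G P₁ : OO A N) : FF N) :=
          mul_le_mul_of_nonneg_left hG1 (Int.natCast_nonneg _)
        omega
  · rw [mul_comm t, mul_assoc, mul_comm tinv, htt, mul_one]

/-- **The local inequality**, by induction on the number of zeros in the class. -/
theorem mapDomain_le_ord_aux {Q₀ : Place (ResidueField A) (FkN A N)} (hQ₀ : Ink Q₀) :
    ∀ (n : ℕ) (y : OO A N), (y : FF N) ∈ regAt N x → redN A N y ≠ 0 →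
      Finsupp.mapDomain r (dv N (y : FF N)) Q₀ ≤ n →
        Finsupp.mapDomain r (dv N (y : FF N)) Q₀ ≤ Q₀.ord (redN A N y) := by
  intro n
  induction n with
  | zero =>
    intro y hy hy0 hZ
    have := h.redreg Q₀ hQ₀ y hy hy0
    push_cast at hZ
    omega
  | succ n ih =>
    intro y hy hy0 hZ
    by_cases hZn : Finsupp.mapDomain r (dv N (y : FF N)) Q₀ ≤ n
    · exact ih y hy hy0 hZn
    · push Not at hZn
      obtain ⟨P, hP, hpos⟩ := exists_pos_of_mapDomain_pos r (dv N (y : FF N)) Q₀ (by omega)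
      rw [dv_apply] at hpos
      obtain ⟨t, ht, ht1, htP, htc⟩ := exists_coord h hQ₀ P hP
      have ht0 : redN A N t ≠ 0 := ne_zero_of_ord_ne Q₀ (by rw [ht1]; norm_num)
      obtain ⟨u, g, hu, hg, hu0, huord, hyu⟩ := exists_div h hQ₀ P t ht ht0 htP htc y hy hpos
      have hyF : (y : FF N) ≠ 0 := coe_ne_zero_of_red hy0
      have huF : (u : FF N) ≠ 0 := coe_ne_zero_of_red hu0
      have htF : (t : FF N) ≠ 0 := coe_ne_zero_of_red ht0
      have hred : redN A N y * redN A N u = redN A N t * redN A N g := by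
        rw [← map_mul, ← map_mul, hyu]
      have hg0 : redN A N g ≠ 0 := by
        intro h0
        rw [h0, mul_zero] at hred
        exact mul_ne_zero hy0 hu0 hred
      have hgF : (g : FF N) ≠ 0 := coe_ne_zero_of_red hg0
      have hcoe : (y : FF N) * (u : FF N) = (t : FF N) * (g : FF N) := congrArg Subtype.val hyu
      have hZeq : Finsupp.mapDomain r (dv N ((y : FF N) * (u : FF N))) Q₀ =
          Finsupp.mapDomain r (dv N ((t : FF N) * (g : FF N))) Q₀ := by rw [hcoe]
      rw [mapDomain_dv_mul r hyF huF, mapDomain_dv_mul r htF hgF] at hZeq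
      have hZu : Finsupp.mapDomain r (dv N (u : FF N)) Q₀ = 0 :=
        mapDomain_eq_zero_of_fibre r _ Q₀ fun P' hP' => by
          rw [dv_apply]
          exact ord_eq_zero_of_red h hQ₀ u hu hu0 huord P' hP'
      have hZt : Finsupp.mapDomain r (dv N (t : FF N)) Q₀ = 1 :=
        mapDomain_eq_one_of_fibre r _ Q₀ P hP (by rw [dv_apply]; exact htP) fun P' hP' hne => by
          rw [dv_apply]
          exact htc P' hP' hne
      have hord := congrArg Q₀.ord hred
      rw [Q₀.ord_mul hy0 hu0, Q₀.ord_mul ht0 hg0, huord, ht1] at hord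
      have hih := ih g hg hg0 (by omega)
      omega

/-- **The local inequality**: for a chart function `y` with nonzero reduction and a place `Q₀`
of the reduced chart, `∑_{r P = Q₀} ord_P y ≤ ord_{Q₀} ȳ`. -/
theorem mapDomain_le_ord {Q₀ : Place (ResidueField A) (FkN A N)} (hQ₀ : Ink Q₀) (y : OO A N)
    (hy : (y : FF N) ∈ regAt N x) (hy0 : redN A N y ≠ 0) :
    Finsupp.mapDomain r (dv N (y : FF N)) Q₀ ≤ Q₀.ord (redN A N y) :=
  mapDomain_le_ord_aux h hQ₀ (Finsupp.mapDomain r (dv N (y : FF N)) Q₀).toNat y hy hy0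
    (Int.self_le_toNat _)

end Fermat.Agent.S37Local
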