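import Mathlib
import Fermat.Agent.S18.NormGlue

/-!
# S37 gamble, leaf (NR): the norm to `ℚ̄(j)` commutes with reduction

For a Gauss-integral function `t` of level `N` prime to `ℓ`, the norm of `t` to `ℚ̄(j)` is
Gauss-integral and its reduction is the norm of the reduction of `t` to `k(j̄)`.
-/

set_option autoImplicit false
set_option linter.style.haveILetI false
set_option linter.unusedSectionVars false
set_option synthInstance.maxHeartbeats 400000
set_option maxHeartbeats 1600000

noncomputable section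

namespace Fermat.Agent.S37.NormRedJ

open ModularCurve AlgebraicCurve HahnSeries IntermediateField
open Fermat.Agent.S18.Gauss Fermat.Agent.S18.Lattice Fermat.Agent.S24 Fermat.Agent.S24.Eval
open Fermat.Agent.S18.Charts Fermat.Agent.S18.OrthoMod Fermat.Agent.S18.NormGlue
open Fermat.Agent.S18

section Bridge

variable {k L : Type*} [Field k] [Field L] [Algebra k L] {E E' : IntermediateField k L}

/-- `E = k(μ)` inside `L`, `μ ∈ E'`: the field `E` is `k(μ)` formed inside `E'` -/
theorem exists_equiv_adjoin (h : E ≤ E') (μ : E')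
    (hμ : E = IntermediateField.adjoin k {(μ : L)}) :
    ∃ e₁ : E ≃+* k⟮μ⟯, ∀ a : E, (((e₁ a : k⟮μ⟯) : E') : L) = (a : L) := by
  have hmap : (IntermediateField.adjoin k {μ}).map E'.val = E := by
    rw [IntermediateField.adjoin_map, Set.image_singleton, hμ]
    rfl
  have hmem : ∀ a : E, (⟨(a : L), h a.2⟩ : E') ∈ k⟮μ⟯ := by
    intro a
    have h1 : (a : L) ∈ (IntermediateField.adjoin k {μ}).map E'.val := by
      rw [hmap]
      exact a.2
    obtain ⟨b, hb, hba⟩ := h1
    have h2 : b = ⟨(a : L), h a.2⟩ := Subtype.ext hba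
    rw [← h2]
    exact hb
  let g : E →+* k⟮μ⟯ :=
    { toFun := fun a => ⟨⟨(a : L), h a.2⟩, hmem a⟩
      map_one' := rfl
      map_mul' := fun a b => rfl
      map_zero' := rfl
      map_add' := fun a b => rfl }
  have hbij : Function.Bijective g := by
    constructor
    · intro a b hab
      apply Subtype.ext
      exact congrArg (fun z : k⟮μ⟯ => ((z : E') : L)) hab
    · intro b
      have h1 : ((b : E') : L) ∈ E := by
        rw [← hmap]
        exact ⟨(b : E'), b.2, rfl⟩
      exact ⟨⟨_, h1⟩, rfl⟩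
  exact ⟨RingEquiv.ofBijective g hbij, fun a => rfl⟩

/-- the norm to `E = k(μ)` does not depend on where `k(μ)` is formed -/
theorem algebraMap_norm_eq (h : E ≤ E') (μ : E')
    (hμ : E = IntermediateField.adjoin k {(μ : L)}) (x : E') :
    letI := incAlg h
    algebraMap E E' (Algebra.norm E x) = algebraMap k⟮μ⟯ E' (Algebra.norm k⟮μ⟯ x) := by
  letI := incAlg h
  obtain ⟨e₁, he₁⟩ := exists_equiv_adjoin h μ hμ
  have he : RingHom.comp (algebraMap k⟮μ⟯ E') (e₁ : E →+* k⟮μ⟯)
      = RingHom.comp ((RingEquiv.refl E' : E' ≃+* E') : E' →+* E') (algebraMap E E') := by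
    ext a
    exact he₁ a
  rw [Algebra.norm_eq_of_equiv_equiv e₁ (RingEquiv.refl E') he x]
  apply Subtype.ext
  have h1 := he₁ (e₁.symm (Algebra.norm k⟮μ⟯ x))
  rw [RingEquiv.apply_symm_apply] at h1
  exact h1.symm

end Bridge

section Levels

variable {A : ValuationSubring KK} {ℓ : ℕ} [Fact ℓ.Prime] {N : ℕ} [NeZero N]

/-- **(NR)** the norm to `ℚ̄(j)` of a Gauss-integral function is Gauss-integral and reduces to the
norm of the reduction. -/
theorem norm_red (hA : A.LiesOverPrime ℓ) (hℓN : ¬ ℓ ∣ N) (t : OO A N) :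
    ∃ n : OO A N,
      (n : FF N) = algebraMap KK⟮jF N⟯ (FF N) (Algebra.norm KK⟮jF N⟯ (t : FF N)) ∧
      redN A N n = algebraMap (IsLocalRing.ResidueField A)⟮jb A N⟯ (FkN A N)
        (Algebra.norm (IsLocalRing.ResidueField A)⟮jb A N⟯ (redN A N t)) := by
  classical
  have h : 1 ∣ N := one_dvd N
  have hFF := ff_le h
  have hFk := fk_le (IsLocalRing.ResidueField A) h
  letI aF : Algebra (FF 1) (FF N) := incAlg hFF
  letI aK : Algebra (FkN A 1) (FkN A N) := incAlg hFk
  haveI tF : IsScalarTower KK (FF 1) (FF N) := isScalarTower_base hFF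
  haveI tK : IsScalarTower (IsLocalRing.ResidueField A) (FkN A 1) (FkN A N) :=
    isScalarTower_base hFk
  obtain ⟨U, hli, hspan, hli0, hspan0⟩ := exists_orthonormal (A := A) hA h hℓN
  obtain ⟨e, he⟩ := exists_basis hFF (fun i => ((U i : OO A N) : FF N)) hli0 hspan0
  obtain ⟨eb, heb⟩ := exists_basis hFk (fun i => redN A N (U i)) hli hspan
  have hOO' : ∀ x : OO A 1, algebraMap (FF 1) (FF N) (x : FF 1) ∈ OO A N :=
    fun x => inclusion_mem_OO h x.2
  have hcompat : ∀ x : OO A 1, redN A N ⟨algebraMap (FF 1) (FF N) (x : FF 1), hOO' x⟩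
      = algebraMap (FkN A 1) (FkN A N) (redN A 1 x) :=
    fun x => Subtype.ext (redN_inclusion h x)
  have he' : ∀ i, e i ∈ OO A N := fun i => by
    rw [he i]
    exact (U i).2
  have hcoord : ∀ x ∈ OO A N, ∀ i, e.repr x i ∈ OO A 1 := by
    intro x hx
    refine coord_mem_OO hA h hℓN U hli (fun i => e.repr x i) ?_
    have h1 : ∑ i, IntermediateField.inclusion (ff_le h) (e.repr x i) *
        ((U i : OO A N) : FF N) = x := by
      conv_rhs => rw [← e.sum_repr x]
      refine Finset.sum_congr rfl fun i _ => ?_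
      rw [Algebra.smul_def, he i]
      rfl
    rw [h1]
    exact hx
  have heb' : ∀ i, redN A N ⟨e i, he' i⟩ = eb i := by
    intro i
    rw [heb i]
    congr 1
    exact Subtype.ext (he i)
  have hnm : Algebra.norm (FF 1) (t : FF N) ∈ OO A 1 := NormRed.norm_mem e he' hcoord t
  have hres := NormRed.residue_norm (redN A 1) (redN A N) hOO' hcompat e he' hcoord eb heb' t
  -- the two bridges
  have hμ : modularFunctionFieldBar 1
      = IntermediateField.adjoin KK {((jF N : FF N) : LaurentSeries KK)} := by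
    rw [DecMod.inc_J (A := A) N]
    exact IntRedMod.ff_one A
  have hμk : FkN A 1 = IntermediateField.adjoin (IsLocalRing.ResidueField A)
      {((jb A N : FkN A N) : LaurentSeries (IsLocalRing.ResidueField A))} := by
    rw [DegEq.coe_jk, ← DecMod.rd_J (A := A)]
    exact IntRedMod.fk_one A
  have hb1 := algebraMap_norm_eq hFF (jF N) hμ (t : FF N)
  have hb2 := algebraMap_norm_eq hFk (jb A N) hμk (redN A N t)
  refine ⟨⟨algebraMap (FF 1) (FF N) (Algebra.norm (FF 1) (t : FF N)), hOO' ⟨_, hnm⟩⟩, hb1, ?_⟩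
  rw [← hb2, ← hres]
  exact hcompat ⟨_, hnm⟩

end Levels

end Fermat.Agent.S37.NormRedJ
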