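import Mathlib
import Fermat.Prelude.Def_AlgebraicCurve_CanonicalDivisor
import Fermat.Agent.S24.FFBasic
import Fermat.Agent.S24.FFPlaces
import Fermat.Agent.S24.FFFiber
import Fermat.Agent.S18.FFSep
import Fermat.Agent.S18.FFSepFiber
import Fermat.Agent.S18.NormOrd

/-!
# S37, leaf (UNI), abstract part: the norm of a function to `k(y)` and its zeros

`k` algebraically closed (any characteristic), `F` a function field over `k`, `y ∈ F` a
separating transcendental element, `R = k[y]`, `S` the integral closure of `R` in `F`.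

* `exists_prime` : a place over `y = c` is the place of a prime of `S` over `(y - c)`;
* `intNorm_notMem_sq` : if `t ∈ S` has a simple zero at one place over `y = a` and no other zero
  over `y = a`, then `Algebra.intNorm R S t ∉ (y - a) ^ 2`;
* `intNorm_mem_mul` : if `t ∈ S` has two zeros over `y = c`, `y = c'` (or a double zero), then
  `Algebra.intNorm R S t ∈ (y - c) * (y - c')`;
* `mem_span_of_mul_eq` : `k[y]` is integrally closed in `F` relative to `S`.
-/

set_option autoImplicit false
set_option linter.deprecated false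
set_option linter.style.haveILetI false
set_option linter.unusedSectionVars false
set_option synthInstance.maxHeartbeats 400000
set_option maxHeartbeats 1600000

open AlgebraicCurve IntermediateField IsDedekindDomain WithZero

namespace Fermat.Agent.S37.UniFF

open Fermat.Agent.S24 Fermat.Agent.S24.FFFiber Fermat.Agent.S18.FFSep Fermat.Agent.S18

variable {k F : Type*} [Field k] [Field F] [Algebra k F]

section Main
open IntermediateField.algebraAdjoinAdjoin

variable [IsAlgClosed k] (y : F) [FiniteDimensional k⟮y⟯ F] [Algebra.IsSeparable k⟮y⟯ F]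

/-- a place over `y = c` is the place of a prime of the integral closure over `(y - c)` -/
theorem exists_prime (hy : Transcendental k y) (c : k) (v : Place k F)
    (hv : 0 < v.ord (y - algebraMap k F c)) :
    haveI := isDedekindDomain_B y hy
    haveI := isFractionRing_B (k := k) y
    ∃ w : HeightOneSpectrum (integralClosure (Algebra.adjoin k {y}) F),
      v = Place.ofHeightOneSpectrum (K := k) (F := F) w ∧
      w.asIdeal ∈ (pt y c).primesOver (integralClosure (Algebra.adjoin k {y}) F) := by
  haveI := isDedekindDomain_B y hy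
  haveI := isFractionRing_B (k := k) y
  obtain ⟨w, hw, hwmem⟩ := exists_eq_ofHeightOneSpectrum_B y hy v
    (ord_nonneg_of_mem_placesOver y c v hv)
  have hgenmem : algebraMap (Algebra.adjoin k {y})
      (integralClosure (Algebra.adjoin k {y}) F) (gen y c) ∈ w.asIdeal := by
    rw [hwmem]
    left
    refine ⟨?_, hv⟩
    intro h0
    have h1 := congrArg Subtype.val h0
    exact gen_ne_zero y hy c (Subtype.ext h1)
  exact ⟨w, hw, w.isPrime, liesOver_of_mem y hy c w.asIdeal w.isPrime hgenmem⟩

/-- membership in the square of a prime forces order at least two -/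
theorem two_le_ord_of_mem_sq (hy : Transcendental k y)
    (w : haveI := isDedekindDomain_B y hy
      HeightOneSpectrum (integralClosure (Algebra.adjoin k {y}) F))
    (t : integralClosure (Algebra.adjoin k {y}) F) (ht0 : t ≠ 0) :
    haveI := isDedekindDomain_B y hy
    haveI := isFractionRing_B (k := k) y
    t ∈ w.asIdeal ^ 2 ↔ 2 ≤ (Place.ofHeightOneSpectrum (K := k) (F := F) w).ord (t : F) := by
  haveI := isDedekindDomain_B y hy
  haveI := isFractionRing_B (k := k) y
  rw [← HeightOneSpectrum.intValuation_le_pow_iff_mem, ord_ofHeightOneSpectrum]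
  have h1 : w.valuation F (t : F) = w.intValuation t :=
    HeightOneSpectrum.valuation_of_algebraMap w t
  rw [h1]
  have hval : w.intValuation t ≠ 0 := HeightOneSpectrum.intValuation_ne_zero w t ht0
  obtain ⟨m, hm⟩ : ∃ m : ℤ, w.intValuation t = WithZero.exp m :=
    ⟨WithZero.log (w.intValuation t), (WithZero.exp_log hval).symm⟩
  rw [hm, WithZero.log_exp, WithZero.exp_le_exp]
  push_cast
  omega

/-- the inertia degrees over a point of the line are one -/
theorem inertiaDeg_eq_one' (hy : Transcendental k y) (a : k) :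
    haveI := isDedekindDomain_adjoin y hy
    haveI := isDedekindDomain_B y hy
    ∀ Q ∈ (pt y a).primesOver (integralClosure (Algebra.adjoin k {y}) F),
      Q.inertiaDeg (Algebra.adjoin k {y}) = 1 := by
  haveI := isDedekindDomain_adjoin y hy
  haveI := isDedekindDomain_B y hy
  haveI := isFractionRing_B (k := k) y
  haveI := finite_B (F := F) y hy
  haveI := pt_isMaximal y hy a
  have hp0 := pt_ne_bot y hy a
  intro Q hQ
  haveI := hQ.1
  haveI := hQ.2
  have hQ0 : Q ≠ ⊥ := Ideal.ne_bot_of_liesOver_of_ne_bot hp0 Q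
  refine NormOrd.inertiaDeg_eq_one (pt y a) Q hQ (fun x => ?_)
  obtain ⟨c, hc⟩ := residue_B y hy ⟨Q, hQ.1, hQ0⟩ x
  refine ⟨algebraMap k (Algebra.adjoin k {y}) c, ?_⟩
  rw [← IsScalarTower.algebraMap_apply]
  exact hc

/-- **(L2)** a function with a simple zero at one place over `y = a` and no other zero over
`y = a`: its norm has a simple zero at `a`. -/
theorem intNorm_notMem_sq (hy : Transcendental k y) (a : k)
    (t : integralClosure (Algebra.adjoin k {y}) F) (Q₀ : Place k F)
    (hQ₀ : 0 < Q₀.ord (y - algebraMap k F a)) (h1 : Q₀.ord (t : F) = 1)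
    (hother : ∀ Q : Place k F, Q ≠ Q₀ → 0 < Q.ord (y - algebraMap k F a) →
      Q.ord (t : F) = 0) :
    haveI := isDedekindDomain_adjoin y hy
    haveI := isDedekindDomain_B y hy
    haveI := finite_B (F := F) y hy
    Algebra.intNorm (Algebra.adjoin k {y}) (integralClosure (Algebra.adjoin k {y}) F) t ∉
      (pt y a) ^ 2 := by
  haveI := isDedekindDomain_adjoin y hy
  haveI := isDedekindDomain_B y hy
  haveI := isFractionRing_B (k := k) y
  haveI := finite_B (F := F) y hy
  haveI := pt_isMaximal y hy a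
  have hp0 := pt_ne_bot y hy a
  obtain ⟨w₀, hw₀, hw₀over⟩ := exists_prime y hy a Q₀ hQ₀
  have ht0 : t ≠ 0 := by
    rintro rfl
    rw [ZeroMemClass.coe_zero, Place.ord_zero] at h1
    exact zero_ne_one h1
  refine NormOrd.intNorm_notMem_sq (pt y a) hp0 (inertiaDeg_eq_one' y hy a) w₀.asIdeal hw₀over t
    ?_ ?_ ?_
  · rw [mem_asIdeal_iff_ord_pos (k := k) (F := F) w₀ t ht0, ← hw₀]
    show 0 < Q₀.ord (t : F)
    omega
  · rw [two_le_ord_of_mem_sq y hy w₀ t ht0, ← hw₀]
    omega
  · intro Q hQ hne htQ
    haveI := hQ.1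
    haveI := hQ.2
    have hQ0 : Q ≠ ⊥ := Ideal.ne_bot_of_liesOver_of_ne_bot hp0 Q
    set w : HeightOneSpectrum (integralClosure (Algebra.adjoin k {y}) F) := ⟨Q, hQ.1, hQ0⟩
      with hwdef
    have hwne : Place.ofHeightOneSpectrum (K := k) (F := F) w ≠ Q₀ := by
      rw [hw₀]
      intro h
      apply hne
      exact congrArg HeightOneSpectrum.asIdeal (ofHeightOneSpectrum_injective (k := k) (F := F) h)
    have hgen0 : algebraMap (Algebra.adjoin k {y})
        (integralClosure (Algebra.adjoin k {y}) F) (gen y a) ≠ 0 := by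
      intro h0
      have h1 := congrArg Subtype.val h0
      exact gen_ne_zero y hy a (Subtype.ext h1)
    have hgen : algebraMap (Algebra.adjoin k {y})
        (integralClosure (Algebra.adjoin k {y}) F) (gen y a) ∈ w.asIdeal := by
      have h2 : gen y a ∈ pt y a := Ideal.mem_span_singleton_self _
      rw [Ideal.over_def Q (pt y a)] at h2
      exact h2
    have hpos := (mem_asIdeal_iff_ord_pos (k := k) (F := F) w _ hgen0).mp hgen
    have h0 := hother _ hwne hpos
    have h3 := (mem_asIdeal_iff_ord_pos (k := k) (F := F) w t ht0).mp htQ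
    have h4 : (Place.ofHeightOneSpectrum (K := k) (F := F) w).ord (t : F) = 0 := h0
    have h5 : 0 < (Place.ofHeightOneSpectrum (K := k) (F := F) w).ord (t : F) := h3
    omega

/-- **(L1)** a function with two zeros over `y = c` and `y = c'` (or a double zero): its norm
is divisible by `(y - c) (y - c')`. -/
theorem intNorm_mem_mul (hy : Transcendental k y) (c c' : k)
    (t : integralClosure (Algebra.adjoin k {y}) F) (P P' : Place k F)
    (hP : 0 < P.ord (y - algebraMap k F c)) (hP' : 0 < P'.ord (y - algebraMap k F c'))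
    (h0 : 0 < P.ord (t : F)) (h0' : 0 < P'.ord (t : F))
    (h : P ≠ P' ∨ 2 ≤ P.ord (t : F)) :
    haveI := isDedekindDomain_adjoin y hy
    haveI := isDedekindDomain_B y hy
    haveI := finite_B (F := F) y hy
    Algebra.intNorm (Algebra.adjoin k {y}) (integralClosure (Algebra.adjoin k {y}) F) t ∈
      pt y c * pt y c' := by
  haveI := isDedekindDomain_adjoin y hy
  haveI := isDedekindDomain_B y hy
  haveI := isFractionRing_B (k := k) y
  haveI := finite_B (F := F) y hy
  haveI := pt_isMaximal y hy c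
  haveI := pt_isMaximal y hy c'
  obtain ⟨w, hw, hwover⟩ := exists_prime y hy c P hP
  obtain ⟨w', hw', hwover'⟩ := exists_prime y hy c' P' hP'
  have ht0 : t ≠ 0 := by
    rintro rfl
    rw [ZeroMemClass.coe_zero, Place.ord_zero] at h0
    exact lt_irrefl _ h0
  have htw : t ∈ w.asIdeal := by
    rw [mem_asIdeal_iff_ord_pos (k := k) (F := F) w t ht0, ← hw]
    exact h0
  have htw' : t ∈ w'.asIdeal := by
    rw [mem_asIdeal_iff_ord_pos (k := k) (F := F) w' t ht0, ← hw']
    exact h0'
  have hdvd : w.asIdeal * w'.asIdeal ∣ Ideal.span ({t} : Set _) := by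
    by_cases hPP : P = P'
    · have h2 : 2 ≤ P.ord (t : F) := h.resolve_left (not_not.mpr hPP)
      have hww : w = w' :=
        ofHeightOneSpectrum_injective (k := k) (F := F) (hw.symm.trans (hPP.trans hw'))
      rw [← hww, ← pow_two, Ideal.dvd_iff_le, Ideal.span_singleton_le_iff_mem,
        two_le_ord_of_mem_sq y hy w t ht0, ← hw]
      exact h2
    · have hne : w.asIdeal ≠ w'.asIdeal := by
        intro h
        apply hPP
        rw [hw, hw', HeightOneSpectrum.ext h]
      have h1 : w.asIdeal ∣ Ideal.span ({t} : Set _) :=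
        Ideal.dvd_iff_le.mpr ((Ideal.span_singleton_le_iff_mem _).mpr htw)
      have h1' : w'.asIdeal ∣ Ideal.span ({t} : Set _) :=
        Ideal.dvd_iff_le.mpr ((Ideal.span_singleton_le_iff_mem _).mpr htw')
      obtain ⟨J, hJ⟩ := h1
      have hprime' : Prime w'.asIdeal := Ideal.prime_of_isPrime w'.ne_bot w'.isPrime
      rw [hJ] at h1'
      rcases hprime'.dvd_or_dvd h1' with h | h
      · exfalso
        have hle : w.asIdeal ≤ w'.asIdeal := Ideal.dvd_iff_le.mp h
        exact hne (w.isMaximal.eq_of_le w'.isPrime.ne_top hle)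
      · obtain ⟨J', hJ'⟩ := h
        exact ⟨J', by rw [hJ, hJ', mul_assoc]⟩
  obtain ⟨J, hJ⟩ := hdvd
  have hrel : Ideal.relNorm (Algebra.adjoin k {y}) (Ideal.span ({t} : Set _)) =
      pt y c * pt y c' * Ideal.relNorm (Algebra.adjoin k {y}) J := by
    rw [hJ, map_mul, map_mul,
      NormOrd.relNorm_eq (pt y c) (pt_ne_bot y hy c) (inertiaDeg_eq_one' y hy c) w.asIdeal hwover,
      NormOrd.relNorm_eq (pt y c') (pt_ne_bot y hy c') (inertiaDeg_eq_one' y hy c') w'.asIdeal
        hwover']
  rw [Ideal.relNorm_singleton] at hrel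
  have hmem : Algebra.intNorm (Algebra.adjoin k {y}) (integralClosure (Algebra.adjoin k {y}) F) t
      ∈ Ideal.span ({Algebra.intNorm (Algebra.adjoin k {y})
        (integralClosure (Algebra.adjoin k {y}) F) t} : Set _) := Ideal.mem_span_singleton_self _
  rw [hrel] at hmem
  exact Ideal.mul_le_left hmem

/-- **(L4)** the integral norm is the field norm over `k(y)`. -/
theorem coe_intNorm (hy : Transcendental k y)
    (t : integralClosure (Algebra.adjoin k {y}) F) :
    haveI := isDedekindDomain_adjoin y hy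
    haveI := isDedekindDomain_B y hy
    haveI := finite_B (F := F) y hy
    ((Algebra.intNorm (Algebra.adjoin k {y}) (integralClosure (Algebra.adjoin k {y}) F) t :
      Algebra.adjoin k {y}) : F) = algebraMap k⟮y⟯ F (Algebra.norm k⟮y⟯ (t : F)) := by
  haveI := isDedekindDomain_adjoin y hy
  haveI := isDedekindDomain_B y hy
  haveI := isFractionRing_B (k := k) y
  haveI := finite_B (F := F) y hy
  have h1 := Algebra.algebraMap_intNorm (A := Algebra.adjoin k {y}) (K := k⟮y⟯) (L := F)
    (B := integralClosure (Algebra.adjoin k {y}) F) t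
  have h2 := congrArg (algebraMap k⟮y⟯ F) h1
  exact h2

/-- **(L3)** `k[y]` is integrally closed: a quotient of two elements of `k[y]` which is
integral over `k[y]` lies in `k[y]`. -/
theorem mem_span_of_mul_eq (hy : Transcendental k y) (r s : Algebra.adjoin k {y}) (hs : s ≠ 0)
    (g : F) (hg : IsIntegral (Algebra.adjoin k {y}) g) (h : (r : F) = (s : F) * g) :
    r ∈ Ideal.span ({s} : Set (Algebra.adjoin k {y})) := by
  haveI := isDedekindDomain_adjoin y hy
  have hs' : algebraMap (Algebra.adjoin k {y}) k⟮y⟯ s ≠ 0 := by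
    intro h0
    exact hs ((IsFractionRing.injective (Algebra.adjoin k {y}) k⟮y⟯) (by rw [h0, map_zero]))
  set x : k⟮y⟯ := algebraMap (Algebra.adjoin k {y}) k⟮y⟯ r /
    algebraMap (Algebra.adjoin k {y}) k⟮y⟯ s with hx
  have hsF : (s : F) ≠ 0 := by
    intro h0
    exact hs (Subtype.ext h0)
  have hxg : algebraMap k⟮y⟯ F x = g := by
    rw [hx, map_div₀]
    have e1 : algebraMap k⟮y⟯ F (algebraMap (Algebra.adjoin k {y}) k⟮y⟯ r) = (r : F) := rfl
    have e2 : algebraMap k⟮y⟯ F (algebraMap (Algebra.adjoin k {y}) k⟮y⟯ s) = (s : F) := rfl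
    rw [e1, e2, h]
    field_simp
  have hxint : IsIntegral (Algebra.adjoin k {y}) x := by
    rw [← isIntegral_algebraMap_iff (algebraMap k⟮y⟯ F).injective, hxg]
    exact hg
  obtain ⟨b, hb⟩ := IsIntegrallyClosed.isIntegral_iff.mp hxint
  rw [Ideal.mem_span_singleton']
  refine ⟨b, ?_⟩
  apply IsFractionRing.injective (Algebra.adjoin k {y}) k⟮y⟯
  rw [map_mul, hb, hx]
  field_simp

end Main

section Core
open IntermediateField.algebraAdjoinAdjoin

/-- **(UNI), abstract core.**  `F / K(y)` and `Fk / k(yb)` function fields, `O ⊆ F` a subring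
with a reduction map `ρ : O → Fk` (the Gauss valuation ring), such that the norm to `K(y)`
commutes with the reduction.  If the reduction of `t` has a simple zero at `Q₀` and no other
zero over `yb = a`, then `t` has at most one zero over the points `y = c` with `c ↦ a`, and
this zero is simple. -/
theorem core {K F k Fk : Type*} [Field K] [Field F] [Algebra K F] [Field k] [Field Fk]
    [Algebra k Fk] [IsAlgClosed K] [IsAlgClosed k]
    (y : F) [FiniteDimensional K⟮y⟯ F] [Algebra.IsSeparable K⟮y⟯ F] (hy : Transcendental K y)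
    (yb : Fk) [FiniteDimensional k⟮yb⟯ Fk] [Algebra.IsSeparable k⟮yb⟯ Fk]
    (hyb : Transcendental k yb)
    (O : Subring F) (ρ : O →+* Fk)
    (hinv : ∀ u : O, ρ u ≠ 0 → (u : F)⁻¹ ∈ O)
    (hint : ∀ g : O, IsIntegral (Algebra.adjoin K {y}) (g : F) →
      IsIntegral (Algebra.adjoin k {yb}) (ρ g))
    (t : O) (ht : IsIntegral (Algebra.adjoin K {y}) (t : F))
    (n : O) (hn : (n : F) = algebraMap K⟮y⟯ F (Algebra.norm K⟮y⟯ (t : F)))
    (hnb : ρ n = algebraMap k⟮yb⟯ Fk (Algebra.norm k⟮yb⟯ (ρ t)))
    (c c' : K) (a : k) (u u' : O) (hu : (u : F) = y - algebraMap K F c)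
    (hu' : (u' : F) = y - algebraMap K F c')
    (hρu : ρ u = yb - algebraMap k Fk a) (hρu' : ρ u' = yb - algebraMap k Fk a)
    (P P' : Place K F) (hP : 0 < P.ord (y - algebraMap K F c))
    (hP' : 0 < P'.ord (y - algebraMap K F c'))
    (h0 : 0 < P.ord (t : F)) (h0' : 0 < P'.ord (t : F))
    (Q₀ : Place k Fk) (hQ₀ : 0 < Q₀.ord (yb - algebraMap k Fk a)) (h1 : Q₀.ord (ρ t) = 1)
    (hother : ∀ Q : Place k Fk, Q ≠ Q₀ → 0 < Q.ord (yb - algebraMap k Fk a) →
      Q.ord (ρ t) = 0) :
    P = P' ∧ P.ord (t : F) = 1 := by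
  by_contra hcon
  have h : P ≠ P' ∨ 2 ≤ P.ord (t : F) := by
    by_cases hPP : P = P'
    · right
      have h2 : P.ord (t : F) ≠ 1 := fun h => hcon ⟨hPP, h⟩
      omega
    · exact Or.inl hPP
  haveI := isDedekindDomain_adjoin y hy
  haveI := isDedekindDomain_B y hy
  haveI := finite_B (F := F) y hy
  haveI := isDedekindDomain_adjoin yb hyb
  haveI := isDedekindDomain_B yb hyb
  haveI := finite_B (F := Fk) yb hyb
  have hL1 := intNorm_mem_mul y hy c c' ⟨(t : F), ht⟩ P P' hP hP' h0 h0' h
  have hL2 := intNorm_notMem_sq yb hyb a ⟨ρ t, hint t ht⟩ Q₀ hQ₀ h1 hother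
  apply hL2
  unfold pt at hL1
  rw [Ideal.span_singleton_mul_span_singleton, Ideal.mem_span_singleton'] at hL1
  obtain ⟨g, hg⟩ := hL1
  have hgF : (n : F) = (u : F) * (u' : F) * (g : F) := by
    rw [hn, ← coe_intNorm y hy ⟨(t : F), ht⟩, ← hg, hu, hu']
    simp only [MulMemClass.coe_mul, coe_gen]
    ring
  have hyb0 : yb - algebraMap k Fk a ≠ 0 := by
    intro h0
    apply hyb
    rw [sub_eq_zero.mp h0]
    exact isAlgebraic_algebraMap a
  have hρuu : ρ (u * u') ≠ 0 := by
    rw [map_mul, hρu, hρu']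
    exact mul_ne_zero hyb0 hyb0
  have huu0 : ((u * u' : O) : F) ≠ 0 := by
    intro h0
    apply hρuu
    have : (u * u' : O) = 0 := Subtype.ext h0
    rw [this, map_zero]
  have hgO : (g : F) ∈ O := by
    have h1 : (g : F) = (n : F) * ((u * u' : O) : F)⁻¹ := by
      rw [hgF]
      rw [Subring.coe_mul] at huu0 ⊢
      rw [mul_comm ((u : F) * (u' : F)) (g : F), mul_assoc, mul_inv_cancel₀ huu0, mul_one]
    rw [h1]
    exact O.mul_mem n.2 (hinv _ hρuu)
  have hnO : n = u * u' * ⟨(g : F), hgO⟩ := Subtype.ext hgF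
  have hρn : ρ n = (yb - algebraMap k Fk a) * (yb - algebraMap k Fk a) * ρ ⟨(g : F), hgO⟩ := by
    rw [hnO, map_mul, map_mul, hρu, hρu']
  have hgint : IsIntegral (Algebra.adjoin k {yb}) (ρ ⟨(g : F), hgO⟩) :=
    hint _ (isIntegral_algebraMap (R := Algebra.adjoin K {y}) (A := F) (x := g))
  rw [pow_two]
  unfold pt
  rw [Ideal.span_singleton_mul_span_singleton]
  refine mem_span_of_mul_eq yb hyb _ (gen yb a * gen yb a)
    (mul_ne_zero (gen_ne_zero yb hyb a) (gen_ne_zero yb hyb a)) (ρ ⟨(g : F), hgO⟩) hgint ?_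
  rw [coe_intNorm yb hyb]
  show algebraMap k⟮yb⟯ Fk (Algebra.norm k⟮yb⟯ (ρ t)) = _
  rw [← hnb, hρn]
  rfl

end Core

end Fermat.Agent.S37.UniFF
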