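import Mathlib
import Fermat.Agent.S18.IntRedMod
import Fermat.Agent.S18.IntRedInv
import Fermat.Agent.S18.CuspAbs
import Fermat.Agent.S18.RegInt
import Fermat.Agent.S18.FbarSep
import Fermat.Agent.S18.ResField
import Fermat.Agent.S37.NormRedJ
import Fermat.Agent.S37.UniFF
import Fermat.Agent.S37.Centre

/-!
# S37, leaf (UNI) of the reduction map: uniqueness and simplicity of the zero of a lifted
uniformiser

`A` a valuation ring of `ℚ̄` over `ℓ`, `N` prime to `ℓ`.  Let `t` be a function of the chart ring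
`O1` (resp. `O2`) whose reduction has a simple zero at the place `Q₀` of the reduced function
field and no other zero in the fibre of `j̄` (resp. `1/j̄`) through `Q₀`.  Then `t` has at most
one zero among the places `P` with `j(P) ∈ A` reducing to `j̄(Q₀)` (resp. with `(1/j)(P) ∈ A`
reducing to `(1/j̄)(Q₀)`), and this zero is simple.

Proof: `UniFF.core` (norm to `ℚ̄(j)`) with `NormRedJ.norm_red` (the norm commutes with the
reduction).
-/

set_option autoImplicit false
set_option linter.deprecated false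
set_option linter.style.haveILetI false
set_option linter.unusedSectionVars false
set_option synthInstance.maxHeartbeats 400000
set_option maxHeartbeats 1600000

noncomputable section

namespace Fermat.Agent.S37.Uni

open ModularCurve AlgebraicCurve HahnSeries IntermediateField IsLocalRing
open Fermat.Agent.S18.Gauss Fermat.Agent.S18.Lattice Fermat.Agent.S24 Fermat.Agent.S24.Eval
open Fermat.Agent.S18.Charts Fermat.Agent.S18

variable {A : ValuationSubring KK} {ℓ : ℕ} [Fact ℓ.Prime] {N : ℕ} [NeZero N]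

/-- **(UNI), chart 1, raw form.** -/
theorem uni1_raw (hA : A.LiesOverPrime ℓ) (hℓN : ¬ ℓ ∣ N)
    {P P' : Place KK (FF N)} {Q₀ : Place (ResidueField A) (FkN A N)}
    (c c' : A) (hc : 0 < P.ord (jF N - algebraMap KK (FF N) (c : KK)))
    (hc' : 0 < P'.ord (jF N - algebraMap KK (FF N) (c' : KK)))
    (hcc' : residue A c' = residue A c)
    (hQ₀ : 0 < Q₀.ord (jb A N - algebraMap (ResidueField A) (FkN A N) (residue A c)))
    (t : OO A N) (ht : (t : FF N) ∈ regAt N (jF N))
    (h1 : Q₀.ord (redN A N t) = 1)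
    (hother : ∀ Q : Place (ResidueField A) (FkN A N), Q ≠ Q₀ →
      0 < Q.ord (jb A N - algebraMap (ResidueField A) (FkN A N) (residue A c)) →
      Q.ord (redN A N t) = 0)
    (h0 : 0 < P.ord (t : FF N)) (h0' : 0 < P'.ord (t : FF N)) :
    P = P' ∧ P.ord (t : FF N) = 1 := by
  haveI := Degree.finiteDimensional_jF N
  haveI := RegInt.isSeparable_jF N
  haveI := DegEq.finiteDimensional_residue (A := A) N
  haveI := FbarSep.isSeparable_residue (A := A) N
  obtain ⟨n, hn, hnb⟩ := NormRedJ.norm_red hA hℓN t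
  refine UniFF.core (K := KK) (F := FF N) (k := ResidueField A) (Fk := FkN A N)
    (jF N) (Degree.transcendental_jF N) (jb A N) (DegEq.transcendental_jk _ N)
    (OO A N) (redN A N) (fun u hu => inv_mem_of_red_ne_zero hu)
    (fun g hg => IntRedMod.isIntegral_redN N hA hℓN g hg)
    t (IntRedMod.isIntegral_of_mem_regAt N ht) n hn hnb
    (c : KK) (c' : KK) (residue A c)
    (CuspAbs.jO A N - CuspAbs.cst A N c) (CuspAbs.jO A N - CuspAbs.cst A N c') rfl rfl
    ?_ ?_ P P' hc hc' h0 h0' Q₀ hQ₀ h1 hother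
  · rw [map_sub, CuspAbs.redN_jO, CuspAbs.redN_cst]
  · rw [map_sub, CuspAbs.redN_jO, CuspAbs.redN_cst, hcc']

/-- the norm to an intermediate field only depends on the field -/
theorem norm_congr {k F : Type*} [Field k] [Field F] [Algebra k F]
    {E₁ E₂ : IntermediateField k F} (h : E₁ = E₂) (x : F) :
    algebraMap E₁ F (Algebra.norm E₁ x) = algebraMap E₂ F (Algebra.norm E₂ x) := by
  subst h
  rfl

/-- **(UNI), chart 2, raw form.** -/
theorem uni2_raw (hA : A.LiesOverPrime ℓ) (hℓN : ¬ ℓ ∣ N)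
    {P P' : Place KK (FF N)} {Q₀ : Place (ResidueField A) (FkN A N)}
    (c c' : A) (hc : 0 < P.ord ((jF N)⁻¹ - algebraMap KK (FF N) (c : KK)))
    (hc' : 0 < P'.ord ((jF N)⁻¹ - algebraMap KK (FF N) (c' : KK)))
    (hcc' : residue A c' = residue A c)
    (hQ₀ : 0 < Q₀.ord ((jb A N)⁻¹ - algebraMap (ResidueField A) (FkN A N) (residue A c)))
    (t : OO A N) (ht : (t : FF N) ∈ regAt N (jF N)⁻¹)
    (h1 : Q₀.ord (redN A N t) = 1)
    (hother : ∀ Q : Place (ResidueField A) (FkN A N), Q ≠ Q₀ →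
      0 < Q.ord ((jb A N)⁻¹ - algebraMap (ResidueField A) (FkN A N) (residue A c)) →
      Q.ord (redN A N t) = 0)
    (h0 : 0 < P.ord (t : FF N)) (h0' : 0 < P'.ord (t : FF N)) :
    P = P' ∧ P.ord (t : FF N) = 1 := by
  haveI := Degree.finiteDimensional_jF N
  haveI := RegInt.isSeparable_jF N
  haveI := DegEq.finiteDimensional_residue (A := A) N
  haveI := FbarSep.isSeparable_residue (A := A) N
  haveI := FFSep.finiteDimensional_inv (k := KK) (jF N)
  haveI := FFSep.isSeparable_inv (k := KK) (jF N)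
  haveI := FFSep.finiteDimensional_inv (k := ResidueField A) (jb A N)
  haveI := FFSep.isSeparable_inv (k := ResidueField A) (jb A N)
  obtain ⟨n, hn, hnb⟩ := NormRedJ.norm_red hA hℓN t
  rw [← norm_congr (FFFiber.adjoin_inv_eq (k := KK) (jF N))] at hn
  rw [← norm_congr (FFFiber.adjoin_inv_eq (k := ResidueField A) (jb A N))] at hnb
  refine UniFF.core (K := KK) (F := FF N) (k := ResidueField A) (Fk := FkN A N)
    (jF N)⁻¹ (FFFiber.transcendental_inv (jF N) (Degree.transcendental_jF N)) (jb A N)⁻¹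
    (FFFiber.transcendental_inv (jb A N) (DegEq.transcendental_jk _ N))
    (OO A N) (redN A N) (fun u hu => inv_mem_of_red_ne_zero hu)
    (fun g hg => IntRedInv.isIntegral_redN_inv N hA hℓN g hg)
    t ((RegInt.mem_regAt_jinv_iff N _).mp ht) n hn hnb
    (c : KK) (c' : KK) (residue A c)
    (CuspAbs.jinvO A N - CuspAbs.cst A N c) (CuspAbs.jinvO A N - CuspAbs.cst A N c') rfl rfl
    ?_ ?_ P P' hc hc' h0 h0' Q₀ hQ₀ h1 hother
  · rw [map_sub, CuspAbs.redN_jinvO, CuspAbs.redN_cst]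
  · rw [map_sub, CuspAbs.redN_jinvO, CuspAbs.redN_cst, hcc']

open Fermat.Agent.S37.CentreVal Fermat.Agent.S37.CentreChart

/-- **(UNI), chart 1.**  Let `t` be a chart function whose reduction has a simple zero at the
finite place `Q₀` and no other zero in the fibre of `j̄` through `Q₀`.  Then `t` has at most one
zero in the residue class of `Q₀`, and it is simple. -/
theorem uni1 (hA : A.LiesOverPrime ℓ) (hℓN : ¬ ℓ ∣ N)
    (Q₀ : Place (ResidueField A) (FkN A N)) (a₀ : ResidueField A)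
    (ha₀ : HasVal Q₀ (jb A N) a₀) (t : OO A N) (ht : (t : FF N) ∈ regAt N (jF N))
    (h1 : Q₀.ord (redN A N t) = 1)
    (hfib : ∀ Q : Place (ResidueField A) (FkN A N), Q ≠ Q₀ → HasVal Q (jb A N) a₀ →
      Q.ord (redN A N t) = 0)
    (P P' : Place KK (FF N)) (hP : CuspAbs.JInt A N P) (hP' : CuspAbs.JInt A N P')
    (hr : Centre.rP hA hℓN P = Q₀) (hr' : Centre.rP hA hℓN P' = Q₀)
    (h0 : 0 < P.ord (t : FF N)) (h0' : 0 < P'.ord (t : FF N)) :
    P = P' ∧ P.ord (t : FF N) = 1 := by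
  have hjb : ∀ a : ResidueField A, jb A N ≠ algebraMap (ResidueField A) (FkN A N) a := by
    intro a h
    have h2 : IsAlgebraic (ResidueField A) (jb A N) := by
      rw [h]
      exact isAlgebraic_algebraMap a
    exact DegEq.transcendental_jk (ResidueField A) N h2
  obtain ⟨c, hcA, hc⟩ := hP
  obtain ⟨c', hcA', hc'⟩ := hP'
  have hP₁ : CuspAbs.JInt A N P := ⟨c, hcA, hc⟩
  have hP₁' : CuspAbs.JInt A N P' := ⟨c', hcA', hc'⟩
  obtain ⟨hcA₂, hv⟩ := Centre.val_chart1 hA hℓN P hP₁ (CuspAbs.jO A N)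
    (self_mem_regAt N (jF N)) c (Or.inr hc)
  obtain ⟨hcA₂', hv'⟩ := Centre.val_chart1 hA hℓN P' hP₁' (CuspAbs.jO A N)
    (self_mem_regAt N (jF N)) c' (Or.inr hc')
  rw [hr, CuspAbs.redN_jO] at hv
  rw [hr', CuspAbs.redN_jO] at hv'
  have e : residue A ⟨c, hcA⟩ = a₀ := HasVal.unique Q₀ (hresK Q₀) hv ha₀
  have e' : residue A ⟨c', hcA'⟩ = a₀ := HasVal.unique Q₀ (hresK Q₀) hv' ha₀
  refine uni1_raw hA hℓN ⟨c, hcA⟩ ⟨c', hcA'⟩ hc hc' (e'.trans e.symm) ?_ t ht h1 ?_ h0 h0'
  · exact hv.resolve_left (hjb _)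
  · intro Q hQ hpos
    refine hfib Q hQ (Or.inr ?_)
    rw [← e]
    exact hpos

/-- **(UNI), chart 2.**  Let `t` be a function of the cusp chart whose reduction has a simple
zero at the cusp `Q₀` and no other zero at the cusps.  Then `t` has at most one zero among the
places with non-integral `j`-invariant, and it is simple. -/
theorem uni2 (hA : A.LiesOverPrime ℓ) (hℓN : ¬ ℓ ∣ N)
    (Q₀ : Place (ResidueField A) (FkN A N)) (hQ₀ : Q₀.ord (jb A N) < 0)
    (t : OO A N) (ht : (t : FF N) ∈ regAt N (jF N)⁻¹)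
    (h1 : Q₀.ord (redN A N t) = 1)
    (hfib : ∀ Q : Place (ResidueField A) (FkN A N), Q ≠ Q₀ → Q.ord (jb A N) < 0 →
      Q.ord (redN A N t) = 0)
    (P P' : Place KK (FF N)) (hP : ¬ CuspAbs.JInt A N P) (hP' : ¬ CuspAbs.JInt A N P')
    (h0 : 0 < P.ord (t : FF N)) (h0' : 0 < P'.ord (t : FF N)) :
    P = P' ∧ P.ord (t : FF N) = 1 := by
  have hjinv : ∀ a : KK, (jF N)⁻¹ ≠ algebraMap KK (FF N) a := by
    intro a h
    have h2 : IsAlgebraic KK (jF N)⁻¹ := by
      rw [h]
      exact isAlgebraic_algebraMap a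
    exact FFFiber.transcendental_inv (jF N) (Degree.transcendental_jF N) h2
  obtain ⟨c, ⟨hcA, hnu⟩, hval⟩ := Centre.exists_hasVal_inv hP
  obtain ⟨c', ⟨hcA', hnu'⟩, hval'⟩ := Centre.exists_hasVal_inv hP'
  have hc : 0 < P.ord ((jF N)⁻¹ - algebraMap KK (FF N) c) := hval.resolve_left (hjinv c)
  have hc' : 0 < P'.ord ((jF N)⁻¹ - algebraMap KK (FF N) c') := hval'.resolve_left (hjinv c')
  have e : residue A ⟨c, hcA⟩ = 0 := by
    rw [IsLocalRing.residue_eq_zero_iff, IsLocalRing.mem_maximalIdeal]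
    exact hnu hcA
  have e' : residue A ⟨c', hcA'⟩ = 0 := by
    rw [IsLocalRing.residue_eq_zero_iff, IsLocalRing.mem_maximalIdeal]
    exact hnu' hcA'
  refine uni2_raw hA hℓN ⟨c, hcA⟩ ⟨c', hcA'⟩ hc hc' (e'.trans e.symm) ?_ t ht h1 ?_ h0 h0'
  · rw [e, map_zero, sub_zero, Place.ord_inv]
    omega
  · intro Q hQ hpos
    refine hfib Q hQ ?_
    rw [e, map_zero, sub_zero, Place.ord_inv] at hpos
    omega

end Fermat.Agent.S37.Uni
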