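import Mathlib
import Fermat.Agent.S37.LocalIneq
import Fermat.Agent.S37.ChartInst
import Fermat.Agent.S37.Uni

/-!
# S37, leaf of T2: the local inequalities on the two charts

The local inequality `∑_{r P = Q} ord_P y ≤ ord_Q ȳ` of `S37Local.mapDomain_le_ord` for the
reduction of places `Centre.rP` on the two charts of the modular function field
(`ChartInst.exists_chart1`, `ChartInst.exists_chart2` with the uniqueness statements of `Uni`).
-/

set_option autoImplicit false
set_option synthInstance.maxHeartbeats 400000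

noncomputable section

namespace Fermat.Agent.S37ChartIneq

open ModularCurve AlgebraicCurve IsLocalRing
open Fermat.Agent.S18 Fermat.Agent.S18.Gauss Fermat.Agent.S18.Lattice
open Fermat.Agent.S18.Charts
open Fermat.Agent.S24 Fermat.Agent.S24.Eval
open Fermat.Agent.S37.Centre

variable {A : ValuationSubring KK} {N : ℕ} [NeZero N] {ℓ : ℕ} [Fact ℓ.Prime]

/-- the chart of the places with integral `j`-value -/
theorem chart1 (hA : A.LiesOverPrime ℓ) (hℓN : ¬ ℓ ∣ N) :
    ∃ Fib, S37Local.Chart (rP hA hℓN) (jF N) (CuspAbs.JInt A N)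
      (fun Q => 0 ≤ Q.ord (jb A N)) Fib :=
  S37ChartInst.exists_chart1 hA hℓN (Fermat.Agent.S37.Uni.uni1 hA hℓN)

/-- the chart of the places with non-integral `j`-value -/
theorem chart2 (hA : A.LiesOverPrime ℓ) (hℓN : ¬ ℓ ∣ N) :
    ∃ Fib, S37Local.Chart (rP hA hℓN) (jF N)⁻¹ (fun P => ¬ CuspAbs.JInt A N P)
      (fun Q => Q.ord (jb A N) < 0) Fib :=
  S37ChartInst.exists_chart2 hA hℓN
    (fun Q₀ hQ₀ t ht h1 hfib P P' hP hP' _ _ h0 h0' =>
      Fermat.Agent.S37.Uni.uni2 hA hℓN Q₀ hQ₀ t ht h1 hfib P P' hP hP' h0 h0')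

/-- **(LI 1)** the local inequality at the finite places of the special fibre -/
theorem li1 (hA : A.LiesOverPrime ℓ) (hℓN : ¬ ℓ ∣ N) :
    ∀ Q : Place (ResidueField A) (FkN A N), 0 ≤ Q.ord (jb A N) →
      ∀ y : OO A N, (y : FF N) ∈ regAt N (jF N) → redN A N y ≠ 0 →
        Finsupp.mapDomain (rP hA hℓN) (dv N (y : FF N)) Q ≤ Q.ord (redN A N y) := by
  obtain ⟨Fib, h⟩ := chart1 hA hℓN
  intro Q hQ y hy hy0
  exact S37Local.mapDomain_le_ord h hQ y hy hy0

/-- **(LI 2)** the local inequality at the cusps of the special fibre -/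
theorem li2 (hA : A.LiesOverPrime ℓ) (hℓN : ¬ ℓ ∣ N) :
    ∀ Q : Place (ResidueField A) (FkN A N), Q.ord (jb A N) < 0 →
      ∀ y : OO A N, (y : FF N) ∈ regAt N (jF N)⁻¹ → redN A N y ≠ 0 →
        Finsupp.mapDomain (rP hA hℓN) (dv N (y : FF N)) Q ≤ Q.ord (redN A N y) := by
  obtain ⟨Fib, h⟩ := chart2 hA hℓN
  intro Q hQ y hy hy0
  exact S37Local.mapDomain_le_ord h hQ y hy hy0

end Fermat.Agent.S37ChartIneq
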