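import Mathlib
import Fermat.Agent.S18.CuspFinal

/-!
# S37, global fractions for the two charts (for `S37/Local`, `S37/Conserve`)

`A` is a valuation ring of `KK = ℚ̄` over `ℓ ∤ N`, `OO A N` the Gauss ring of `FF N` and
`redN A N` its reduction.

* `exists_frac1` : every Gauss-integral function with nonzero reduction is a quotient `a / b` of
  two functions of chart 1 (Gauss-integral, regular wherever `j` is) with nonzero reductions;
* `exists_shift` : a function of chart 1 times a large power of `1 / j` is a function of chart 2.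
-/

set_option autoImplicit false
set_option linter.style.haveILetI false
set_option linter.unusedSectionVars false
set_option linter.unusedVariables false
set_option synthInstance.maxHeartbeats 400000
set_option maxHeartbeats 1000000

noncomputable section

namespace Fermat.Agent.S37Frac

open ModularCurve AlgebraicCurve Fermat.Agent.S24 Fermat.Agent.S24.Eval
  Fermat.Agent.S18 Fermat.Agent.S18.Gauss Fermat.Agent.S18.Lattice Fermat.Agent.S18.Charts
  Fermat.Agent.S18.CuspAbs

variable {A : ValuationSubring KK} {N : ℕ} [NeZero N]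

/-! ### Bounded poles -/

/-- The pole orders of a function are bounded. -/
theorem exists_pole_bound (f : FF N) : ∃ M : ℕ, ∀ P : Place KK (FF N), -(M : ℤ) ≤ P.ord f := by
  classical
  refine ⟨∑ P ∈ (dv N f).support, (P.ord f).natAbs, fun P => ?_⟩
  by_cases hP : P.ord f = 0
  · rw [hP]
    have : (0 : ℤ) ≤ ((∑ P ∈ (dv N f).support, (P.ord f).natAbs : ℕ) : ℤ) := Int.natCast_nonneg _
    omega
  · have hmem : P ∈ (dv N f).support := by
      rw [Finsupp.mem_support_iff, dv_apply]
      exact hP
    have h1 : (P.ord f).natAbs ≤ ∑ P ∈ (dv N f).support, (P.ord f).natAbs :=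
      Finset.single_le_sum (f := fun P : Place KK (FF N) => (P.ord f).natAbs)
        (fun _ _ => Nat.zero_le _) hmem
    have h2 : ((P.ord f).natAbs : ℤ) ≤ ((∑ P ∈ (dv N f).support, (P.ord f).natAbs : ℕ) : ℤ) := by
      exact_mod_cast h1
    omega

/-- A zero of order `≥ 1`, raised to the power `M`, kills a pole of order `≤ M`. -/
theorem pow_mul_mem_of_bound (P : Place KK (FF N)) {t f : FF N} (ht : 1 ≤ P.ord t) {M : ℕ}
    (hM : -(M : ℤ) ≤ P.ord f) : t ^ M * f ∈ P.toValuationSubring := by
  rcases eq_or_ne f 0 with rfl | hf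
  · rw [mul_zero]; exact zero_mem _
  have ht0 : t ≠ 0 := by
    rintro rfl
    rw [P.ord_zero] at ht
    omega
  apply mem_of_ord_nonneg P (mul_ne_zero (pow_ne_zero _ ht0) hf)
  rw [P.ord_mul (pow_ne_zero _ ht0) hf, ord_pow]
  nlinarith

/-! ### The factors -/

/-- `j̄ - c` does not vanish. -/
theorem jb_sub_ne_zero (c : IsLocalRing.ResidueField A) :
    jb A N - algebraMap (IsLocalRing.ResidueField A) (FkN A N) c ≠ 0 := by
  intro h
  have hy : Transcendental (IsLocalRing.ResidueField A) (jb A N) :=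
    Fermat.Agent.S18.DegEq.transcendental_jk _ N
  exact hy ((sub_eq_zero.mp h) ▸ isAlgebraic_algebraMap c)

/-- `1 - c j̄` does not vanish. -/
theorem one_sub_mul_jb_ne_zero (c : IsLocalRing.ResidueField A) :
    1 - algebraMap (IsLocalRing.ResidueField A) (FkN A N) c * jb A N ≠ 0 := by
  rcases eq_or_ne c 0 with rfl | hc
  · rw [map_zero, zero_mul, sub_zero]
    exact one_ne_zero
  · intro h
    have hc0 : algebraMap (IsLocalRing.ResidueField A) (FkN A N) c ≠ 0 := by
      rwa [Ne, map_eq_zero]
    have h2 : jb A N - algebraMap (IsLocalRing.ResidueField A) (FkN A N) c⁻¹ = 0 := by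
      rw [map_inv₀]
      have h3 : algebraMap (IsLocalRing.ResidueField A) (FkN A N) c * jb A N = 1 := by
        linear_combination -h
      field_simp
      linear_combination h3
    exact jb_sub_ne_zero (A := A) (N := N) c⁻¹ h2

/-- At every place where `j` is regular there is a Gauss-integral polynomial in `j` of degree
one, with nonzero reduction, vanishing at the place. -/
theorem exists_factor (P : Place KK (FF N)) (hP : jF N ∈ P.toValuationSubring) :
    ∃ t : OO A N, (t : FF N) ∈ regAt N (jF N) ∧ redN A N t ≠ 0 ∧ 1 ≤ P.ord (t : FF N) := by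
  haveI := Degree.finiteDimensional_jF N
  obtain ⟨β, hβ⟩ := Fermat.Agent.S24.exists_sub_algebraMap_ord_pos (jF N)
    (Degree.transcendental_jF N) P (ord_nonneg_of_mem P hP)
  have hne : jF N ≠ algebraMap KK (FF N) β := fun h =>
    (Degree.transcendental_jF N) (h ▸ isAlgebraic_algebraMap β)
  have hpos : 0 < P.ord (jF N - algebraMap KK (FF N) β) := hβ.resolve_left hne
  have hsub0 : jF N - algebraMap KK (FF N) β ≠ 0 := sub_ne_zero.mpr hne
  by_cases hβA : β ∈ A
  · refine ⟨jO A N - cst A N ⟨β, hβA⟩, ?_, ?_, ?_⟩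
    · exact sub_mem (self_mem_regAt N _) (algebraMap_mem_regAt N _ _)
    · rw [map_sub, redN_jO, redN_cst]
      exact jb_sub_ne_zero _
    · show 1 ≤ P.ord (jF N - algebraMap KK (FF N) β)
      omega
  · have hβ0 : β ≠ 0 := fun h => hβA (h ▸ zero_mem A)
    have hinv : β⁻¹ ∈ A := (A.mem_or_inv_mem β).resolve_left hβA
    refine ⟨1 - cst A N ⟨β⁻¹, hinv⟩ * jO A N, ?_, ?_, ?_⟩
    · exact sub_mem (one_mem _) (mul_mem (algebraMap_mem_regAt N _ _) (self_mem_regAt N _))
    · rw [map_sub, map_one, map_mul, redN_jO, redN_cst]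
      exact one_sub_mul_jb_ne_zero _
    · show 1 ≤ P.ord (1 - algebraMap KK (FF N) β⁻¹ * jF N)
      have hc0 : algebraMap KK (FF N) β ≠ 0 := by
        rwa [Ne, map_eq_zero]
      have he : 1 - algebraMap KK (FF N) β⁻¹ * jF N =
          algebraMap KK (FF N) (-β⁻¹) * (jF N - algebraMap KK (FF N) β) := by
        rw [map_neg, map_inv₀]
        field_simp
        ring
      have hc1 : algebraMap KK (FF N) (-β⁻¹) ≠ 0 := by
        rw [Ne, map_eq_zero, neg_eq_zero, inv_eq_zero]
        exact hβ0
      rw [he, P.ord_mul hc1 hsub0, ord_algebraMap]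
      omega

/-! ### Fractions of chart 1 -/

/-- Every Gauss-integral function with nonzero reduction is a quotient of two functions of
chart 1 with nonzero reductions. -/
theorem exists_frac1 {ℓ : ℕ} [Fact ℓ.Prime] (hA : A.LiesOverPrime ℓ) (hℓN : ¬ ℓ ∣ N)
    (y : OO A N) (hy : redN A N y ≠ 0) :
    ∃ a b : OO A N, (a : FF N) ∈ Charts.O1 A N ∧ (b : FF N) ∈ Charts.O1 A N ∧
      redN A N a ≠ 0 ∧ redN A N b ≠ 0 ∧ y * b = a := by
  classical
  -- the factors
  have hex : ∀ P : Place KK (FF N), ∃ t : OO A N, (t : FF N) ∈ regAt N (jF N) ∧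
      redN A N t ≠ 0 ∧ (jF N ∈ P.toValuationSubring → 1 ≤ P.ord (t : FF N)) := by
    intro P
    by_cases hP : jF N ∈ P.toValuationSubring
    · obtain ⟨t, h1, h2, h3⟩ := exists_factor (A := A) P hP
      exact ⟨t, h1, h2, fun _ => h3⟩
    · exact ⟨1, one_mem _, by rw [map_one]; exact one_ne_zero, fun h => absurd h hP⟩
  choose t ht1 ht2 ht3 using hex
  obtain ⟨M, hM⟩ := exists_pole_bound (y : FF N)
  set S := (dv N (y : FF N)).support with hS
  set b : OO A N := ∏ P ∈ S, t P ^ M with hb
  have hbc : (b : FF N) = ∏ P ∈ S, ((t P : OO A N) : FF N) ^ M := by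
    rw [hb]
    simp
  have hbreg : (b : FF N) ∈ regAt N (jF N) := by
    rw [hbc]
    exact Subring.prod_mem _ fun P _ => pow_mem (ht1 P) _
  have hbred : redN A N b ≠ 0 := by
    rw [hb, map_prod]
    exact Finset.prod_ne_zero_iff.mpr fun P _ => by
      rw [map_pow]
      exact pow_ne_zero _ (ht2 P)
  refine ⟨y * b, b, (mem_O1 A N).mpr ⟨(y * b).2, ?_⟩, (mem_O1 A N).mpr ⟨b.2, hbreg⟩, ?_,
    hbred, rfl⟩
  · -- regularity of `y * b` where `j` is regular
    intro P hP
    show (y : FF N) * (b : FF N) ∈ P.toValuationSubring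
    by_cases hf : 0 ≤ P.ord (y : FF N)
    · exact mul_mem (mem_of_ord_nonneg' P _ hf) (hbreg P hP)
    · rw [not_le] at hf
      have hPS : P ∈ S := by
        rw [hS, Finsupp.mem_support_iff, dv_apply]
        exact hf.ne
      have hsplit : (b : FF N) = ((t P : OO A N) : FF N) ^ M *
          ∏ P' ∈ S.erase P, ((t P' : OO A N) : FF N) ^ M := by
        rw [hbc]
        exact (Finset.mul_prod_erase S (fun P' : Place KK (FF N) =>
          ((t P' : OO A N) : FF N) ^ M) hPS).symm
      rw [hsplit, ← mul_assoc, mul_comm (y : FF N)]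
      refine mul_mem (pow_mul_mem_of_bound P (ht3 P hP) (hM P))
        (prod_mem fun P' _ => pow_mem (ht1 P' P hP) _)
  · rw [map_mul]
    exact mul_ne_zero hy hbred

/-! ### From chart 1 to chart 2 -/

/-- A function of chart 1 times a large power of `1 / j` is a function of chart 2. -/
theorem exists_shift (a : OO A N) (ha : (a : FF N) ∈ Charts.O1 A N) :
    ∃ M : ℕ, (a : FF N) * ((jF N)⁻¹) ^ M ∈ Charts.O2 A N := by
  obtain ⟨M, hM⟩ := exists_pole_bound (a : FF N)
  refine ⟨M, (mem_O2 A N).mpr ⟨mul_mem a.2 (pow_mem (jF_inv_mem_OO A N) _), fun P hP => ?_⟩⟩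
  have hj0 := jF_ne_zero N
  have hPj : P.ord (jF N) ≤ 0 := by
    have := ord_nonneg_of_mem P hP
    rw [P.ord_inv] at this
    omega
  by_cases hcusp : P.ord (jF N) < 0
  · rw [mul_comm]
    refine pow_mul_mem_of_bound P ?_ (hM P)
    rw [P.ord_inv]
    omega
  · have hj0' : P.ord (jF N) = 0 := le_antisymm hPj (not_lt.mp hcusp)
    have hjP : jF N ∈ P.toValuationSubring := mem_of_ord_nonneg P hj0 hj0'.ge
    exact mul_mem (((mem_O1 A N).mp ha).2 P hjP) (pow_mem hP _)

end Fermat.Agent.S37Frac
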