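import Mathlib
import Fermat.Prelude.Def_ModularCurve_ReductionModL
import Fermat.Agent.S18.Lattice
import Fermat.Agent.S18.Charts
import Fermat.Agent.S18.FbarSep
import Fermat.Agent.S18.DegZeroFbar
import Fermat.Agent.S24.FFPrincipal

/-!
# S37, leaf T2 (reduction map), the two end pieces

`A` a valuation ring of `ℚ̄` over `ℓ`, `r` a map from the places of `FF N` to the places of the
reduced function field which preserves degrees.

* `conserve_of_le` : if `r_* (div y) ≤ div (red y)` at every place, for a Gauss unit `y`, then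
  `r_* (div y) = div (red y)` (both divisors have degree `0`);
* `isPlaceReduction_of_conserve` : the prelude's `IsPlaceReductionModL A N r` from the
  conservation statement `r_* (div y) = div (red y)` for the units `y` of the Gauss ring.
-/

set_option autoImplicit false
set_option synthInstance.maxHeartbeats 400000
set_option linter.style.haveILetI false
set_option linter.unusedSectionVars false

noncomputable section

namespace Fermat.Agent.S37RedWrap

open ModularCurve AlgebraicCurve IsLocalRing HahnSeries
open Fermat.Agent.S18 Fermat.Agent.S18.Gauss Fermat.Agent.S18.Lattice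
open Fermat.Agent.S18.Charts
open Fermat.Agent.S24 Fermat.Agent.S24.Eval

variable {A : ValuationSubring KK} {N : ℕ} [NeZero N]

/-- **(W1)** the prelude's place reduction property from conservation for the Gauss units. -/
theorem isPlaceReduction_of_conserve
    (r : Place KK (FF N) → Place (ResidueField A) (FkN A N))
    (hdeg : ∀ P, (r P).deg = P.deg)
    (hcons : ∀ y : OO A N, redN A N y ≠ 0 → ∀ Q : Place (ResidueField A) (FkN A N),
      Finsupp.mapDomain r (dv N (y : FF N)) Q = Q.ord (redN A N y)) :
    IsPlaceReductionModL A N r := by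
  refine ⟨hdeg, ?_⟩
  intro y hy hyk hne D hD Q
  have hI : IsInt A (modularFunctionFieldBar N) (FkN A N) y := ⟨hy, hyk⟩
  have hmem : (⟨inc A y, hy⟩ : FF N) ∈ OO A N :=
    ⟨y, 1, hI, IsIntU.one, by simp⟩
  have hred : redN A N ⟨⟨inc A y, hy⟩, hmem⟩ = ⟨rd A y, hyk⟩ :=
    Subtype.ext (redN_eq_rd A N hmem rfl)
  have hne' : redN A N ⟨⟨inc A y, hy⟩, hmem⟩ ≠ 0 := by
    rw [hred]
    intro h0
    exact hne (congrArg Subtype.val h0)
  have h1 := hcons ⟨⟨inc A y, hy⟩, hmem⟩ hne' Q
  rw [hred] at h1
  rw [dv_eq N hD]
  exact h1

variable {ℓ : ℕ} [Fact ℓ.Prime]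

/-- **(W2)** an inequality `r_* (div y) ≤ div (red y)` at every place is an equality. -/
theorem conserve_of_le (hA : A.LiesOverPrime ℓ)
    (r : Place KK (FF N) → Place (ResidueField A) (FkN A N))
    (hdeg : ∀ P, (r P).deg = P.deg) (y : OO A N) (hy : redN A N y ≠ 0)
    (hle : ∀ Q : Place (ResidueField A) (FkN A N),
      Finsupp.mapDomain r (dv N (y : FF N)) Q ≤ Q.ord (redN A N y))
    (Q : Place (ResidueField A) (FkN A N)) :
    Finsupp.mapDomain r (dv N (y : FF N)) Q = Q.ord (redN A N y) := by
  haveI := Degree.finiteDimensional_jF N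
  set D' : Divisor (ResidueField A) (FkN A N) := Finsupp.mapDomain r (dv N (y : FF N)) with hD'
  have hdeg0 : Divisor.degree D' = 0 := by
    rw [hD', degree_mapDomain_of_deg_eq hdeg]
    exact FFPrincipal.degree_divOf (jF N) (Degree.transcendental_jF N) (y : FF N)
  have hsum1 : ∑ᶠ Q : Place (ResidueField A) (FkN A N), D' Q = 0 := by
    rw [← FFPrincipal.degree_eq_finsum (FbarSep.place_deg_eq_one (A := A) N) D']
    exact hdeg0
  have hsum2 := DegZeroFbar.finsum_ord_eq_zero N hA (redN A N y) hy
  have hfin2 := DegZeroFbar.finite_ord_ne_zero N hA (redN A N y) hy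
  have hfin1 : (Function.support fun Q : Place (ResidueField A) (FkN A N) => D' Q).Finite := by
    refine D'.support.finite_toSet.subset ?_
    intro v hv
    simpa [Finsupp.mem_support_iff] using hv
  have hfin2' : (Function.support fun Q : Place (ResidueField A) (FkN A N) =>
      Q.ord (redN A N y)).Finite := hfin2
  have hsum : ∑ᶠ Q : Place (ResidueField A) (FkN A N), (Q.ord (redN A N y) - D' Q) = 0 := by
    rw [finsum_sub_distrib hfin2' hfin1, hsum1, hsum2, sub_zero]
  have hfin : (Function.support fun Q : Place (ResidueField A) (FkN A N) =>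
      Q.ord (redN A N y) - D' Q).Finite := by
    refine (hfin2'.union hfin1).subset ?_
    intro v hv
    simp only [Function.mem_support, Set.mem_union] at hv ⊢
    by_contra hcon
    push Not at hcon
    apply hv
    rw [hcon.1, hcon.2, sub_zero]
  have h0 := DegZeroFbar.eq_zero_of_finsum_eq_zero'
    (fun Q : Place (ResidueField A) (FkN A N) => Q.ord (redN A N y) - D' Q) hfin
    (fun Q => sub_nonneg.mpr (hle Q)) hsum Q
  have h1 : Q.ord (redN A N y) - D' Q = 0 := h0
  omega

end Fermat.Agent.S37RedWrap
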