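import Mathlib
import Fermat.Agent.S37.LocalIneq
import Fermat.Agent.S18.FbarSep
import Fermat.Agent.S18.DegZeroFbar
import Fermat.Agent.S18.DegEq
import Fermat.Agent.S24.FFFiber
import Fermat.Agent.S24.FFPrincipal
import Fermat.Agent.S37.Frac
import Fermat.Agent.S37.RedWrap

/-!
# S37, leaf (GLOBAL) of T2: conservation of the divisor under reduction

From the local inequality on the two charts (`S37Local.mapDomain_le_ord`), the fundamental
identities over `0` and `∞` on both sides and the fact that principal divisors have degree `0`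
on both sides, we prove: for every Gauss-integral function `y` with nonzero reduction and every
place `Q` of the reduced function field, `∑_{r P = Q} ord_P y = ord_Q ȳ`.
-/

set_option autoImplicit false
set_option synthInstance.maxHeartbeats 400000

noncomputable section

namespace Fermat.Agent.S37Conserve

open ModularCurve AlgebraicCurve IsLocalRing
open Fermat.Agent.S18 Fermat.Agent.S18.Gauss Fermat.Agent.S18.Lattice
open Fermat.Agent.S18.Charts Fermat.Agent.S18.LocalLift
open Fermat.Agent.S24 Fermat.Agent.S24.Eval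
open Fermat.Agent.S37Local

/-! ### Generic lemmas on finitely supported functions -/

section Generic

variable {α β : Type*}

/-- the total sum of a finitely supported integer function -/
def tot (D : α →₀ ℤ) : ℤ := D.sum fun _ n => n

theorem tot_eq_finsum (D : α →₀ ℤ) : tot D = ∑ᶠ a, D a := by
  rw [finsum_eq_sum_of_support_subset (s := D.support) (fun a => D a) (by
    intro a ha
    rw [Function.mem_support] at ha
    exact Finset.mem_coe.mpr (Finsupp.mem_support_iff.mpr ha))]
  rfl

theorem tot_mapDomain (φ : α → β) (D : α →₀ ℤ) : tot (Finsupp.mapDomain φ D) = tot D := by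
  unfold tot
  rw [Finsupp.sum_mapDomain_index (fun _ => rfl) (fun _ _ _ => rfl)]

theorem tot_sub (D E : α →₀ ℤ) : tot (D - E) = tot D - tot E := by
  unfold tot
  exact Finsupp.sum_sub_index fun _ _ _ => rfl

/-- a pointwise inequality between finitely supported functions with the same total sum is an
equality -/
theorem eq_of_le_of_tot_eq (Z G : β →₀ ℤ) (hle : ∀ b, Z b ≤ G b) (hsum : tot Z = tot G) :
    Z = G := by
  classical
  have h0 : tot (G - Z) = 0 := by rw [tot_sub, hsum, sub_self]
  have hnn : ∀ b ∈ (G - Z).support, 0 ≤ (G - Z) b := fun b _ => by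
    rw [Finsupp.sub_apply]
    have := hle b
    omega
  have hz : ∀ b ∈ (G - Z).support, (G - Z) b = 0 :=
    (Finset.sum_eq_zero_iff_of_nonneg hnn).mp h0
  have hGZ : G - Z = 0 := by
    ext b
    by_cases hb : b ∈ (G - Z).support
    · rw [hz b hb, Finsupp.zero_apply]
    · rw [Finsupp.notMem_support_iff.mp hb, Finsupp.zero_apply]
  exact (sub_eq_zero.mp hGZ).symm

/-- the total sum of a filtered function as a `finsum` over a set -/
theorem tot_filter_eq_finsum (D : α →₀ ℤ) (q : α → Prop) [DecidablePred q] (S : Set α)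
    (hS : ∀ a, a ∈ S ↔ (q a ∧ D a ≠ 0)) :
    tot (D.filter q) = ∑ᶠ a ∈ S, D a := by
  classical
  have hS' : S = ((D.filter q).support : Set α) := by
    ext a
    rw [hS a, Finset.mem_coe, Finsupp.support_filter, Finset.mem_filter,
      Finsupp.mem_support_iff]
    tauto
  rw [hS', finsum_mem_coe_finset]
  unfold tot
  rw [Finsupp.sum]
  apply Finset.sum_congr rfl
  intro a ha
  rw [Finsupp.support_filter, Finset.mem_filter] at ha
  rw [Finsupp.filter_apply_pos q D ha.2]

theorem mapDomain_filter_of_fibre (φ : α → β) (D : α →₀ ℤ) (q : α → Prop) [DecidablePred q]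
    (b : β) (h : ∀ a, φ a = b → ¬ q a → D a = 0) :
    Finsupp.mapDomain φ (D.filter q) b = Finsupp.mapDomain φ D b :=
  ChartLift.mapDomain_congr_fibre φ _ _ b fun a ha => by
    by_cases hq : q a
    · rw [Finsupp.filter_apply_pos q D hq]
    · rw [Finsupp.filter_apply_neg q D hq, h a ha hq]

theorem mapDomain_filter_eq_zero (φ : α → β) (D : α →₀ ℤ) (q : α → Prop) [DecidablePred q]
    (b : β) (h : ∀ a, φ a = b → ¬ q a) :
    Finsupp.mapDomain φ (D.filter q) b = 0 :=
  mapDomain_eq_zero_of_fibre φ _ b fun a ha => Finsupp.filter_apply_neg q D (h a ha)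

end Generic

variable {A : ValuationSubring KK} {N : ℕ} [NeZero N] {ℓ : ℕ} [Fact ℓ.Prime]

/-! ### Divisors on the two sides and their total degrees -/

section Divisors

open Classical in
/-- the divisor of a function of the reduced function field -/
def dk (hA : A.LiesOverPrime ℓ) (g : FkN A N) : Place (ResidueField A) (FkN A N) →₀ ℤ :=
  if hg : g = 0 then 0 else
    Finsupp.ofSupportFinite (fun Q => Q.ord g) (DegZeroFbar.finite_ord_ne_zero N hA g hg)

theorem dk_apply (hA : A.LiesOverPrime ℓ) (g : FkN A N) (Q : Place (ResidueField A) (FkN A N)) :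
    dk hA g Q = Q.ord g := by
  unfold dk
  split_ifs with hg
  · rw [hg, Q.ord_zero, Finsupp.zero_apply]
  · rfl

theorem tot_dk (hA : A.LiesOverPrime ℓ) (g : FkN A N) : tot (dk hA g) = 0 := by
  rw [tot_eq_finsum]
  by_cases hg : g = 0
  · have : ∀ Q : Place (ResidueField A) (FkN A N), dk hA g Q = 0 := fun Q => by
      rw [dk_apply, hg, Q.ord_zero]
    simp only [this, finsum_zero]
  · have h := DegZeroFbar.finsum_ord_eq_zero N hA g hg
    rw [← h]
    exact finsum_congr fun Q => dk_apply hA g Q

theorem tot_dv (f : FF N) : tot (dv N f) = 0 := by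
  have := Degree.finiteDimensional_jF N
  rw [tot_eq_finsum]
  have h := Fermat.Agent.S24.FFPrincipal.finsum_ord_eq_zero' (jF N) (Degree.transcendental_jF N) f
  rw [← h]
  exact finsum_congr fun P => dv_apply N f P

theorem tot_zero_up :
    tot ((dv N (jF N)).filter fun P => 0 < P.ord (jF N)) = (dedekindPsi N : ℤ) := by
  have := Degree.finiteDimensional_jF N
  rw [tot_filter_eq_finsum _ _ (placesOver (k := KK) (jF N) 0) (fun P => by
    rw [mem_placesOver, map_zero, sub_zero, dv_apply]
    constructor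
    · intro h; exact ⟨h, by omega⟩
    · intro h; exact h.1)]
  rw [← DegEq.finrank_jF_eq N,
    ← Fermat.Agent.S24.finsum_ord_placesOver (jF N) (Degree.transcendental_jF N) 0]
  apply finsum_mem_congr rfl
  intro P _
  rw [dv_apply, map_zero, sub_zero]

theorem tot_pole_up :
    tot ((dv N (jF N)).filter fun P => P.ord (jF N) < 0) = -(dedekindPsi N : ℤ) := by
  have := Degree.finiteDimensional_jF N
  rw [tot_filter_eq_finsum _ _ (placesOverInfty (k := KK) (jF N)) (fun P => by
    rw [mem_placesOverInfty, dv_apply]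
    constructor
    · intro h; exact ⟨h, by omega⟩
    · intro h; exact h.1)]
  rw [← DegEq.finrank_jF_eq N,
    ← Fermat.Agent.S24.finsum_ord_placesOverInfty (jF N) (Degree.transcendental_jF N),
    finsum_mem_neg_distrib _
      (Fermat.Agent.S24.placesOverInfty_finite (jF N) (Degree.transcendental_jF N)), neg_neg]
  apply finsum_mem_congr rfl
  intro P _
  rw [dv_apply]

theorem tot_zero_down (hA : A.LiesOverPrime ℓ) (hℓN : ¬ ℓ ∣ N) :
    tot ((dk hA (jb A N)).filter fun Q => 0 < Q.ord (jb A N)) = (dedekindPsi N : ℤ) := by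
  rw [tot_filter_eq_finsum _ _
    (placesOver (k := ResidueField A) (DegEq.jk (ResidueField A) N) 0) (fun Q => by
    rw [mem_placesOver, map_zero, sub_zero, dk_apply]
    constructor
    · intro h; exact ⟨h, ne_of_gt h⟩
    · intro h; exact h.1)]
  rw [← FbarSep.finsum_ord_placesOver N hA hℓN 0]
  apply finsum_mem_congr rfl
  intro Q _
  rw [dk_apply, map_zero, sub_zero]

theorem tot_pole_down (hA : A.LiesOverPrime ℓ) (hℓN : ¬ ℓ ∣ N) :
    tot ((dk hA (jb A N)).filter fun Q => Q.ord (jb A N) < 0) = -(dedekindPsi N : ℤ) := by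
  rw [tot_filter_eq_finsum _ _
    (placesOverInfty (k := ResidueField A) (DegEq.jk (ResidueField A) N)) (fun Q => by
    rw [mem_placesOverInfty, dk_apply]
    constructor
    · intro h; exact ⟨h, ne_of_lt h⟩
    · intro h; exact h.1)]
  rw [← FbarSep.finsum_ord_placesOverInfty N hA hℓN,
    finsum_mem_neg_distrib _ (FbarSep.placesOverInfty_finite (A := A) N), neg_neg]
  apply finsum_mem_congr rfl
  intro Q _
  rw [dk_apply]

end Divisors

/-! ### Conservation for `j` -/

section Global

variable {r : Place KK (FF N) → Place (ResidueField A) (FkN A N)}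
  {Fib1 Fib2 : Place (ResidueField A) (FkN A N) → Finset (Place (ResidueField A) (FkN A N))}

theorem mapDomain_dv_inv (r : Place KK (FF N) → Place (ResidueField A) (FkN A N)) (f : FF N)
    (Q : Place (ResidueField A) (FkN A N)) :
    Finsupp.mapDomain r (dv N f⁻¹) Q = - Finsupp.mapDomain r (dv N f) Q := by
  rw [dv_eq_divF, RedExt.divF_inv, ← dv_eq_divF]
  have h := map_neg (Finsupp.mapDomain.addMonoidHom (M := ℤ) r) (dv N f)
  exact DFunLike.congr_fun h Q

theorem mapDomain_dv_pow (r : Place KK (FF N) → Place (ResidueField A) (FkN A N)) {f : FF N}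
    (hf : f ≠ 0) (M : ℕ) (Q : Place (ResidueField A) (FkN A N)) :
    Finsupp.mapDomain r (dv N (f ^ M)) Q = (M : ℤ) * Finsupp.mapDomain r (dv N f) Q := by
  induction M with
  | zero =>
    rw [pow_zero, dv_eq_divF, RedExt.divF_one, Finsupp.mapDomain_zero, Finsupp.zero_apply]
    push_cast
    ring
  | succ M ih =>
    rw [pow_succ, mapDomain_dv_mul r (pow_ne_zero M hf) hf, ih]
    push_cast
    ring

section Charts

variable (h1 : Chart r (jF N) (CuspAbs.JInt A N) (fun Q => 0 ≤ Q.ord (jb A N)) Fib1)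
  (h2 : Chart r (jF N)⁻¹ (fun P => ¬ CuspAbs.JInt A N P) (fun Q => Q.ord (jb A N) < 0) Fib2)

include h1 in
/-- at a place reducing to a finite place, `j` is regular -/
theorem ord_jF_nonneg_of_finite {P : Place KK (FF N)} (hQ : 0 ≤ (r P).ord (jb A N)) :
    0 ≤ P.ord (jF N) :=
  ord_nonneg_of_mem P (h1.reg P (h1.in_of P hQ))

include h2 in
/-- at a place reducing to a cusp, `j` has no zero -/
theorem ord_jF_nonpos_of_cusp {P : Place KK (FF N)} (hQ : (r P).ord (jb A N) < 0) :
    P.ord (jF N) ≤ 0 := by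
  by_contra hpos
  push Not at hpos
  exact h2.in_of P hQ ⟨0, A.zero_mem, by rwa [map_zero, sub_zero]⟩

set_option maxHeartbeats 2000000 in
include h1 h2 in
/-- **Conservation for `j` at the cusps.** -/
theorem mapDomain_dv_jF_of_cusp (hA : A.LiesOverPrime ℓ) (hℓN : ¬ ℓ ∣ N)
    (Q : Place (ResidueField A) (FkN A N)) (hQ : Q.ord (jb A N) < 0) :
    Finsupp.mapDomain r (dv N (jF N)) Q = Q.ord (jb A N) := by
  have hcusp : ∀ Q' : Place (ResidueField A) (FkN A N), Q'.ord (jb A N) < 0 →
      Finsupp.mapDomain r ((dv N (jF N)).filter fun P => P.ord (jF N) < 0) Q' =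
        Finsupp.mapDomain r (dv N (jF N)) Q' := fun Q' hQ' =>
    mapDomain_filter_of_fibre r _ _ Q' (fun P hP hn => by
      rw [dv_apply]
      have := ord_jF_nonpos_of_cusp h2 (P := P) (by rw [hP]; exact hQ')
      omega)
  have hG : ∀ Q' : Place (ResidueField A) (FkN A N), Q'.ord (jb A N) < 0 →
      (dk hA (jb A N)).filter (fun Q => Q.ord (jb A N) < 0) Q' = Q'.ord (jb A N) := by
    intro Q' hQ'
    have e := Finsupp.filter_apply_pos (fun Q => Q.ord (jb A N) < 0) (dk hA (jb A N)) hQ'
    rw [e, dk_apply]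
  have key : (dk hA (jb A N)).filter (fun Q => Q.ord (jb A N) < 0) =
      Finsupp.mapDomain r ((dv N (jF N)).filter fun P => P.ord (jF N) < 0) := by
    apply eq_of_le_of_tot_eq
    · intro Q'
      by_cases hQ' : Q'.ord (jb A N) < 0
      · rw [hG Q' hQ', hcusp Q' hQ']
        have hli := mapDomain_le_ord h2 (Q₀ := Q') hQ' (CuspAbs.jinvO A N)
          (self_mem_regAt N _) (by
            rw [CuspAbs.redN_jinvO]
            exact inv_ne_zero (CuspAbs.jb_ne_zero A N))
        rw [CuspAbs.redN_jinvO, Q'.ord_inv, CuspAbs.coe_jinvO, mapDomain_dv_inv] at hli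
        omega
      · have e := Finsupp.filter_apply_neg (fun Q => Q.ord (jb A N) < 0) (dk hA (jb A N)) hQ'
        rw [e, mapDomain_filter_eq_zero r _ _ Q' (fun P hP => by
            have := ord_jF_nonneg_of_finite h1 (P := P) (by rw [hP]; omega)
            omega)]
    · rw [tot_mapDomain, tot_pole_up, tot_pole_down hA hℓN]
  have h := DFunLike.congr_fun key Q
  rw [hG Q hQ, hcusp Q hQ] at h
  exact h.symm

set_option maxHeartbeats 2000000 in
include h1 h2 in
/-- **Conservation for `j` at the finite places.** -/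
theorem mapDomain_dv_jF_of_finite (hA : A.LiesOverPrime ℓ) (hℓN : ¬ ℓ ∣ N)
    (Q : Place (ResidueField A) (FkN A N)) (hQ : 0 ≤ Q.ord (jb A N)) :
    Finsupp.mapDomain r (dv N (jF N)) Q = Q.ord (jb A N) := by
  have hfin : ∀ Q' : Place (ResidueField A) (FkN A N), 0 ≤ Q'.ord (jb A N) →
      Finsupp.mapDomain r ((dv N (jF N)).filter fun P => 0 < P.ord (jF N)) Q' =
        Finsupp.mapDomain r (dv N (jF N)) Q' := fun Q' hQ' =>
    mapDomain_filter_of_fibre r _ _ Q' (fun P hP hn => by
      rw [dv_apply]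
      have := ord_jF_nonneg_of_finite h1 (P := P) (by rw [hP]; exact hQ')
      omega)
  have hG : ∀ Q' : Place (ResidueField A) (FkN A N), 0 ≤ Q'.ord (jb A N) →
      (dk hA (jb A N)).filter (fun Q => 0 < Q.ord (jb A N)) Q' = Q'.ord (jb A N) := by
    intro Q' hQ'
    by_cases hpos : 0 < Q'.ord (jb A N)
    · have e := Finsupp.filter_apply_pos (fun Q => 0 < Q.ord (jb A N)) (dk hA (jb A N)) hpos
      rw [e, dk_apply]
    · have e := Finsupp.filter_apply_neg (fun Q => 0 < Q.ord (jb A N)) (dk hA (jb A N)) hpos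
      rw [e]
      omega
  have key : Finsupp.mapDomain r ((dv N (jF N)).filter fun P => 0 < P.ord (jF N)) =
      (dk hA (jb A N)).filter (fun Q => 0 < Q.ord (jb A N)) := by
    apply eq_of_le_of_tot_eq
    · intro Q'
      by_cases hQ' : 0 ≤ Q'.ord (jb A N)
      · rw [hfin Q' hQ', hG Q' hQ']
        have hli := mapDomain_le_ord h1 (Q₀ := Q') hQ' (CuspAbs.jO A N)
          (self_mem_regAt N _) (by
            rw [CuspAbs.redN_jO]
            exact CuspAbs.jb_ne_zero A N)
        rw [CuspAbs.redN_jO, CuspAbs.coe_jO] at hli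
        exact hli
      · have hneg : ¬ 0 < Q'.ord (jb A N) := by omega
        have e := Finsupp.filter_apply_neg (fun Q => 0 < Q.ord (jb A N)) (dk hA (jb A N)) hneg
        rw [e, mapDomain_filter_eq_zero r _ _ Q' (fun P hP => by
            have := ord_jF_nonpos_of_cusp h2 (P := P) (by rw [hP]; omega)
            omega)]
    · rw [tot_mapDomain, tot_zero_up, tot_zero_down hA hℓN]
  have h := DFunLike.congr_fun key Q
  rw [hfin Q hQ, hG Q hQ] at h
  exact h

include h1 h2 in
/-- **Conservation for `j`.** -/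
theorem mapDomain_dv_jF (hA : A.LiesOverPrime ℓ) (hℓN : ¬ ℓ ∣ N)
    (Q : Place (ResidueField A) (FkN A N)) :
    Finsupp.mapDomain r (dv N (jF N)) Q = Q.ord (jb A N) := by
  by_cases hQ : 0 ≤ Q.ord (jb A N)
  · exact mapDomain_dv_jF_of_finite h1 h2 hA hℓN Q hQ
  · exact mapDomain_dv_jF_of_cusp h1 h2 hA hℓN Q (by omega)

set_option maxHeartbeats 2000000 in
include h1 h2 in
/-- **Conservation for the functions of chart 1.** -/
theorem mapDomain_dv_of_mem_O1 (hA : A.LiesOverPrime ℓ) (hℓN : ¬ ℓ ∣ N) (a : OO A N)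
    (ha : (a : FF N) ∈ regAt N (jF N)) (ha0 : redN A N a ≠ 0)
    (Q : Place (ResidueField A) (FkN A N)) :
    Finsupp.mapDomain r (dv N (a : FF N)) Q = Q.ord (redN A N a) := by
  have key : Finsupp.mapDomain r (dv N (a : FF N)) = dk hA (redN A N a) := by
    apply eq_of_le_of_tot_eq
    · intro Q'
      rw [dk_apply]
      by_cases hQ' : 0 ≤ Q'.ord (jb A N)
      · exact mapDomain_le_ord h1 (Q₀ := Q') hQ' a ha ha0
      · have hQ'' : Q'.ord (jb A N) < 0 := by omega
        obtain ⟨M, hM⟩ := Fermat.Agent.S37Frac.exists_shift a ((mem_O1 A N).mpr ⟨a.2, ha⟩)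
        have hb : ((a * CuspAbs.jinvO A N ^ M : OO A N) : FF N) ∈ regAt N (jF N)⁻¹ :=
          ((mem_O2 A N).mp hM).2
        have hjinv0 : redN A N (CuspAbs.jinvO A N) ≠ 0 := by
          rw [CuspAbs.redN_jinvO]
          exact inv_ne_zero (CuspAbs.jb_ne_zero A N)
        have hb0 : redN A N (a * CuspAbs.jinvO A N ^ M) ≠ 0 := by
          rw [map_mul, map_pow]
          exact mul_ne_zero ha0 (pow_ne_zero _ hjinv0)
        have hli := mapDomain_le_ord h2 (Q₀ := Q') hQ'' (a * CuspAbs.jinvO A N ^ M) hb hb0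
        have hcoe : ((a * CuspAbs.jinvO A N ^ M : OO A N) : FF N) =
            (a : FF N) * ((jF N)⁻¹) ^ M := rfl
        have haF : (a : FF N) ≠ 0 := coe_ne_zero_of_red ha0
        have hjF : (jF N)⁻¹ ≠ 0 := inv_ne_zero (CuspAbs.jF_ne_zero N)
        rw [hcoe, mapDomain_dv_mul r haF (pow_ne_zero M hjF), mapDomain_dv_pow r hjF,
          mapDomain_dv_inv, mapDomain_dv_jF_of_cusp h1 h2 hA hℓN Q' hQ'', map_mul, map_pow,
          Q'.ord_mul ha0 (pow_ne_zero M hjinv0), Fermat.Agent.S24.ord_pow,
          CuspAbs.redN_jinvO, Q'.ord_inv] at hli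
        linarith
    · rw [tot_mapDomain, tot_dv, tot_dk]
  rw [key, dk_apply]

include h1 h2 in
/-- **Conservation**: for every Gauss-integral function `y` with nonzero reduction, the
push-forward of the divisor of `y` under `r` is the divisor of the reduction of `y`. -/
theorem mapDomain_dv (hA : A.LiesOverPrime ℓ) (hℓN : ¬ ℓ ∣ N) (y : OO A N)
    (hy0 : redN A N y ≠ 0) (Q : Place (ResidueField A) (FkN A N)) :
    Finsupp.mapDomain r (dv N (y : FF N)) Q = Q.ord (redN A N y) := by
  obtain ⟨a, b, ha, hb, ha0, hb0, hyb⟩ := Fermat.Agent.S37Frac.exists_frac1 hA hℓN y hy0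
  have hA1 := mapDomain_dv_of_mem_O1 h1 h2 hA hℓN a ((mem_O1 A N).mp ha).2 ha0 Q
  have hB1 := mapDomain_dv_of_mem_O1 h1 h2 hA hℓN b ((mem_O1 A N).mp hb).2 hb0 Q
  have hcoe : (y : FF N) * (b : FF N) = (a : FF N) := congrArg Subtype.val hyb
  have hred : redN A N y * redN A N b = redN A N a := by rw [← map_mul, hyb]
  have h3 := mapDomain_dv_mul r (coe_ne_zero_of_red hy0) (coe_ne_zero_of_red hb0) Q
  rw [hcoe, hA1, hB1, ← hred, Q.ord_mul hy0 hb0] at h3
  linarith

include h1 h2 in
/-- **The place reduction property** from the two charts. -/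
theorem isPlaceReductionModL_of_charts (hA : A.LiesOverPrime ℓ) (hℓN : ¬ ℓ ∣ N)
    (hdeg : ∀ P, (r P).deg = P.deg) : IsPlaceReductionModL A N r :=
  Fermat.Agent.S37RedWrap.isPlaceReduction_of_conserve r hdeg
    (fun y hy0 Q => mapDomain_dv h1 h2 hA hℓN y hy0 Q)

end Charts

end Global

end Fermat.Agent.S37Conserve
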