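import Mathlib
import Fermat.Agent.S37.Conserve
import Fermat.Agent.S37.ChartIneq

/-!
# S37, leaf T2: the reduction map of places is a place reduction

`Centre.rP hA hℓN : Place KK (FF N) → Place k (FkN A N)` (the centre of a place on the two
reduced charts) satisfies the prelude's `IsPlaceReductionModL`: it preserves degrees and the
push-forward of the divisor of a function with integral `q`-expansion and nonzero reduction is
the divisor of its reduction.
-/

set_option autoImplicit false
set_option synthInstance.maxHeartbeats 400000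

noncomputable section

namespace Fermat.Agent.S37RedMap

open ModularCurve AlgebraicCurve IsLocalRing
open Fermat.Agent.S18 Fermat.Agent.S18.Gauss Fermat.Agent.S18.Lattice
open Fermat.Agent.S18.Charts
open Fermat.Agent.S24 Fermat.Agent.S24.Eval

variable {A : ValuationSubring KK} {N : ℕ} [NeZero N] {ℓ : ℕ} [Fact ℓ.Prime]

/-- **Conservation** for the reduction map of places: for every Gauss-integral function `y`
with nonzero reduction, `∑_{rP P = Q} ord_P y = ord_Q ȳ`. -/
theorem mapDomain_rP_dv (hA : A.LiesOverPrime ℓ) (hℓN : ¬ ℓ ∣ N) (y : OO A N)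
    (hy0 : redN A N y ≠ 0) (Q : Place (ResidueField A) (FkN A N)) :
    Finsupp.mapDomain (Fermat.Agent.S37.Centre.rP hA hℓN) (dv N (y : FF N)) Q =
      Q.ord (redN A N y) := by
  obtain ⟨Fib1, h1⟩ := Fermat.Agent.S37ChartIneq.chart1 hA hℓN
  obtain ⟨Fib2, h2⟩ := Fermat.Agent.S37ChartIneq.chart2 hA hℓN
  exact Fermat.Agent.S37Conserve.mapDomain_dv h1 h2 hA hℓN y hy0 Q

/-- **The reduction map of places is a place reduction** in the sense of the prelude. -/
theorem isPlaceReductionModL_rP (hA : A.LiesOverPrime ℓ) (hℓN : ¬ ℓ ∣ N) :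
    IsPlaceReductionModL A N (Fermat.Agent.S37.Centre.rP hA hℓN) := by
  obtain ⟨Fib1, h1⟩ := Fermat.Agent.S37ChartIneq.chart1 hA hℓN
  obtain ⟨Fib2, h2⟩ := Fermat.Agent.S37ChartIneq.chart2 hA hℓN
  exact Fermat.Agent.S37Conserve.isPlaceReductionModL_of_charts h1 h2 hA hℓN
    (Fermat.Agent.S37.Centre.deg_rP hA hℓN)

end Fermat.Agent.S37RedMap
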