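import Mathlib
import Fermat.Agent.S37.Centre
import Fermat.Agent.S05.Val

/-!
# S37, leaf (T3-I): the reduction of places is invariant under inertia

`A` a valuation ring of `ℚ̄` over `ℓ`, `ℓ ∤ N`, `τ` in the inertia group of `A`.  The arithmetic
Galois action of `τ` on `FF N` (coefficientwise on `q`-expansions) preserves the Gauss ring
`OO A N` and commutes with the reduction `redN`; it fixes `j`, hence preserves the two charts.
Since `τ` acts trivially on the residue field of `A`, the centre of `τ • P` has the same values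
as the centre of `P`: `rP (τ • P) = rP P` (`rP_smul_inertia`).
-/

set_option autoImplicit false
set_option linter.style.haveILetI false
set_option linter.unusedSectionVars false
set_option synthInstance.maxHeartbeats 400000

noncomputable section

namespace Fermat.Agent.S37.CentreGal

open ModularCurve AlgebraicCurve IntermediateField HahnSeries
open Fermat.Agent.S24 Fermat.Agent.S24.Eval Fermat.Agent.S18 Fermat.Agent.S18.Gauss
  Fermat.Agent.S18.Lattice Fermat.Agent.S18.Charts Fermat.Agent.S37.CentreVal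
  Fermat.Agent.S37.Centre

/-! ### Generic: values and regularity under a semilinear automorphism -/

section Generic

variable {K F : Type*} [Field K] [Field F] [Algebra K F]

/-- Values are transported by a semilinear automorphism. -/
theorem hasVal_smul (g : SemilinearAut K F) (P : Place K F) {f : F} {a : K}
    (h : HasVal P f a) : HasVal (g • P) (g • f) (SemilinearAut.baseAut g a) := by
  rcases h with h | h
  · left
    rw [h, SemilinearAut.smul_algebraMap]
  · right
    rw [← SemilinearAut.smul_algebraMap, ← smul_sub, SemilinearAut.ord_smul]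
    exact h

/-- Regularity is transported by a semilinear automorphism. -/
theorem smul_mem_smul_iff (g : SemilinearAut K F) (P : Place K F) (f : F) :
    g • f ∈ (g • P).toValuationSubring ↔ f ∈ P.toValuationSubring := by
  rw [SemilinearAut.smul_toValuationSubring,
    ValuationSubring.mem_pointwise_smul_iff_inv_smul_mem, inv_smul_smul]

end Generic

variable {A : ValuationSubring KK} {N : ℕ} [NeZero N]

/-- The arithmetic Galois action on `FF N`. -/
abbrev gA (σ : KK ≃ₐ[ℚ] KK) : SemilinearAut KK (FF N) :=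
  arithmeticGalois (modularFunctionFieldFull N) σ

theorem gA_inv (σ : KK ≃ₐ[ℚ] KK) : gA (N := N) σ⁻¹ = (gA (N := N) σ)⁻¹ :=
  map_inv _ _

theorem coe_gA_smul (σ : KK ≃ₐ[ℚ] KK) (f : FF N) :
    ((gA (N := N) σ • f : FF N) : LaurentSeries KK) =
      coeffMap (σ : KK →+* KK) (f : LaurentSeries KK) := rfl

/-- `j` has rational coefficients. -/
theorem gA_smul_jF (σ : KK ≃ₐ[ℚ] KK) : gA (N := N) σ • jF N = jF N := by
  apply Subtype.ext
  rw [coe_gA_smul, coe_jF, coeffMap_coeffEmb]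

theorem gA_smul_jF_inv (σ : KK ≃ₐ[ℚ] KK) : gA (N := N) σ • (jF N)⁻¹ = (jF N)⁻¹ := by
  rw [smul_inv'', gA_smul_jF]

/-- The charts are stable. -/
theorem smul_mem_regAt (σ : KK ≃ₐ[ℚ] KK) {h f : FF N} (hf : f ∈ regAt N h) :
    gA (N := N) σ • f ∈ regAt N (gA (N := N) σ • h) := by
  intro P hP
  have e : P = gA (N := N) σ • ((gA (N := N) σ)⁻¹ • P) := (smul_inv_smul _ _).symm
  rw [e] at hP ⊢
  rw [smul_mem_smul_iff] at hP ⊢
  exact hf _ hP

theorem smul_mem_regAt_jF (σ : KK ≃ₐ[ℚ] KK) {f : FF N} (hf : f ∈ regAt N (jF N)) :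
    gA (N := N) σ • f ∈ regAt N (jF N) := by
  have h := smul_mem_regAt σ hf
  rwa [gA_smul_jF] at h

theorem smul_mem_regAt_jF_inv (σ : KK ≃ₐ[ℚ] KK) {f : FF N} (hf : f ∈ regAt N (jF N)⁻¹) :
    gA (N := N) σ • f ∈ regAt N (jF N)⁻¹ := by
  have h := smul_mem_regAt σ hf
  rwa [gA_smul_jF_inv] at h

/-- Places with integral `j`-value are stable under the decomposition group. -/
theorem jInt_smul {σ : KK ≃ₐ[ℚ] KK} (hσ : ∀ x ∈ A, σ x ∈ A) {P : Place KK (FF N)}
    (h : CuspAbs.JInt A N P) : CuspAbs.JInt A N (gA (N := N) σ • P) := by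
  obtain ⟨a, ha, h⟩ := h
  refine ⟨σ a, hσ a ha, ?_⟩
  have e : jF N - algebraMap KK (FF N) (σ a) =
      gA (N := N) σ • (jF N - algebraMap KK (FF N) a) := by
    rw [smul_sub, gA_smul_jF, SemilinearAut.smul_algebraMap]
    rfl
  rw [e, SemilinearAut.ord_smul]
  exact h

/-! ### The action on the Gauss ring -/

/-- The restriction to `A` of an automorphism preserving `A`. -/
def resA (σ : KK ≃ₐ[ℚ] KK) (hσ : ∀ x ∈ A, σ x ∈ A) : A →+* A where
  toFun x := ⟨σ x, hσ x x.2⟩
  map_one' := Subtype.ext (map_one σ)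
  map_mul' x y := Subtype.ext (map_mul σ (x : KK) (y : KK))
  map_zero' := Subtype.ext (map_zero σ)
  map_add' x y := Subtype.ext (map_add σ (x : KK) (y : KK))

theorem inc_resA (σ : KK ≃ₐ[ℚ] KK) (hσ : ∀ x ∈ A, σ x ∈ A) (y : LaurentSeries A) :
    inc A (coeffMap (resA σ hσ) y) = coeffMap (σ : KK →+* KK) (inc A y) := by
  rw [coeffMap_coeffMap, coeffMap_coeffMap]
  exact coeffMap_congr (RingHom.ext fun _ => rfl) y

theorem residue_resA {τ : KK ≃ₐ[ℚ] KK} (hτ : τ ∈ A.inertiaSubgroupIn ℚ)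
    (hσ : ∀ x ∈ A, τ x ∈ A) (x : A) :
    IsLocalRing.residue A (resA τ hσ x) = IsLocalRing.residue A x := by
  have h1 := Fermat.Agent.S05.Val.sub_mem_nonunits A hτ x.2
  rw [ValuationSubring.mem_nonunits_iff_exists_mem_maximalIdeal] at h1
  obtain ⟨h2, h3⟩ := h1
  have h4 : resA τ hσ x - x ∈ IsLocalRing.maximalIdeal A := h3
  rw [← IsLocalRing.residue_eq_zero_iff, map_sub, sub_eq_zero] at h4
  exact h4

theorem rd_resA {τ : KK ≃ₐ[ℚ] KK} (hτ : τ ∈ A.inertiaSubgroupIn ℚ)
    (hσ : ∀ x ∈ A, τ x ∈ A) (y : LaurentSeries A) :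
    rd A (coeffMap (resA τ hσ) y) = rd A y := by
  rw [coeffMap_coeffMap]
  exact coeffMap_congr (RingHom.ext fun x => residue_resA hτ hσ x) y

theorem map_mem_of_inertia {τ : KK ≃ₐ[ℚ] KK} (hτ : τ ∈ A.inertiaSubgroupIn ℚ) :
    ∀ x ∈ A, τ x ∈ A := fun _ hx =>
  Fermat.Agent.S05.Val.map_mem_of_mem_decomp A
    (Fermat.Agent.S05.Val.mem_decomp_of_mem_inertia A hτ) hx

/-- **The inertia group preserves the Gauss ring and commutes with the reduction.** -/
theorem smul_mem_OO {τ : KK ≃ₐ[ℚ] KK} (hτ : τ ∈ A.inertiaSubgroupIn ℚ) (f : OO A N) :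
    ∃ h : gA (N := N) τ • (f : FF N) ∈ OO A N, redN A N ⟨_, h⟩ = redN A N f := by
  have hσ := map_mem_of_inertia hτ
  obtain ⟨n, Y, hn, hY, h⟩ := f.2
  have hn' : IsInt A (modularFunctionFieldBar N) (FkN A N) (coeffMap (resA τ hσ) n) := by
    refine ⟨?_, ?_⟩
    · rw [inc_resA]
      exact coeffMap_mem_laurentBaseChange τ hn.1
    · rw [rd_resA hτ]
      exact hn.2
  have hY' : IsIntU A (modularFunctionFieldBar N) (FkN A N) (coeffMap (resA τ hσ) Y) := by
    refine ⟨⟨?_, ?_⟩, ?_⟩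
    · rw [inc_resA]
      exact coeffMap_mem_laurentBaseChange τ hY.1.1
    · rw [rd_resA hτ]
      exact hY.1.2
    · rw [rd_resA hτ]
      exact hY.2
  have heq : ((gA (N := N) τ • (f : FF N) : FF N) : LaurentSeries KK) *
      inc A (coeffMap (resA τ hσ) Y) = inc A (coeffMap (resA τ hσ) n) := by
    rw [coe_gA_smul, inc_resA, inc_resA, ← map_mul, h]
  have hmem : gA (N := N) τ • (f : FF N) ∈ OO A N := ⟨_, _, hn', hY', heq⟩
  refine ⟨hmem, ?_⟩
  have h1 := red_mul_rd (⟨_, hmem⟩ : OO A N) hn' hY' heq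
  have h2 := red_mul_rd f hn hY h
  rw [rd_resA hτ, rd_resA hτ, ← h2] at h1
  exact Subtype.ext (mul_right_cancel₀ hY.2 h1)

/-! ### The theorem -/

variable {ℓ : ℕ} [Fact ℓ.Prime]

/-- The common part of the two cases: a value of `f` at `τ • P` is a value of `τ⁻¹ • f` at `P`,
the reductions agree and `τ⁻¹` acts trivially on the residue field. -/
theorem key_inertia {τ : KK ≃ₐ[ℚ] KK} (hτ : τ ∈ A.inertiaSubgroupIn ℚ) (P : Place KK (FF N))
    (f : OO A N) (a : A) (ha : HasVal (gA (N := N) τ • P) (f : FF N) (a : KK)) :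
    ∃ f' : OO A N, (f' : FF N) = gA (N := N) τ⁻¹ • (f : FF N) ∧ redN A N f' = redN A N f ∧
      HasVal P (f' : FF N) (τ⁻¹ (a : KK)) ∧
      ∀ ha' : τ⁻¹ (a : KK) ∈ A,
        IsLocalRing.residue A ⟨τ⁻¹ (a : KK), ha'⟩ = IsLocalRing.residue A a := by
  have hτi : τ⁻¹ ∈ A.inertiaSubgroupIn ℚ := inv_mem hτ
  obtain ⟨hmem, hred⟩ := smul_mem_OO (N := N) hτi f
  refine ⟨⟨_, hmem⟩, rfl, hred, ?_, fun ha' => ?_⟩
  · have h := hasVal_smul (gA (N := N) τ⁻¹) _ ha
    rw [gA_inv, inv_smul_smul] at h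
    exact h
  · exact residue_resA hτi (map_mem_of_inertia hτi) a

/-- **(T3-I)** the reduction of places is invariant under the inertia group. -/
theorem rP_smul_inertia (hA : A.LiesOverPrime ℓ) (hℓN : ¬ ℓ ∣ N) :
    ∀ τ ∈ A.inertiaSubgroupIn ℚ, ∀ P : Place KK (FF N),
      rP hA hℓN (arithmeticGalois (modularFunctionFieldFull N) τ • P) = rP hA hℓN P := by
  intro τ hτ P
  have hτi : τ⁻¹ ∈ A.inertiaSubgroupIn ℚ := inv_mem hτ
  by_cases hJ : CuspAbs.JInt A N P
  · have hJ' : CuspAbs.JInt A N (gA (N := N) τ • P) := jInt_smul (map_mem_of_inertia hτ) hJ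
    refine rP_eq_of_val1 hA hℓN _ hJ' _ (rP_finite hA hℓN P hJ) (fun f hf a ha => ?_)
    obtain ⟨f', hf', hred, hval, hres⟩ := key_inertia hτ P f a ha
    have hreg : (f' : FF N) ∈ regAt N (jF N) := by
      rw [hf']
      exact smul_mem_regAt_jF τ⁻¹ hf
    obtain ⟨ha', hv⟩ := val_chart1 hA hℓN P hJ f' hreg _ hval
    rw [hred, hres ha'] at hv
    exact hv
  · have hJ' : ¬ CuspAbs.JInt A N (gA (N := N) τ • P) := by
      intro h
      apply hJ
      have h2 := jInt_smul (N := N) (map_mem_of_inertia hτi) h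
      rw [gA_inv, inv_smul_smul] at h2
      exact h2
    refine rP_eq_of_val2 hA hℓN _ hJ' _ (rP_cusp hA hℓN P hJ).le (fun f hf a ha => ?_)
    obtain ⟨f', hf', hred, hval, hres⟩ := key_inertia hτ P f a ha
    have hreg : (f' : FF N) ∈ regAt N (jF N)⁻¹ := by
      rw [hf']
      exact smul_mem_regAt_jF_inv τ⁻¹ hf
    obtain ⟨ha', hv⟩ := val_chart2 hA hℓN P hJ f' hreg _ hval
    rw [hred, hres ha'] at hv
    exact hv

end Fermat.Agent.S37.CentreGal
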