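import Mathlib
import Fermat.Agent.S37.RedWrap
import Fermat.Agent.S37.Local
import Fermat.Agent.S37.Frac
import Fermat.Agent.S37.CentreChart

/-!
# S37, leaf T2 (reduction map): the global step

`A` a valuation ring of `ℚ̄` over `ℓ`, `N` prime to `ℓ`, `r` a degree preserving map from the
places of `FF N` to the places of the reduced function field which maps the places with integral
`j`-invariant to the finite places and the other places to the cusps.  From the two **local
inequalities** `∑_{r P = Q} ord_P y ≤ ord_Q ȳ` (`y` a chart function with nonzero reduction, `Q` a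
place of the reduced chart) we prove that `r` is a place reduction map in the sense of the
prelude (`IsPlaceReductionModL A N r`):

* `conserve_j` : `r_* (div j) = div j̄` (the local inequalities for `j` and `1/j`, and the
  fundamental identities at infinity on both sides);
* `conserve_chart1` : `r_* (div a) = div ā` for the functions `a` of chart 1 (shift by a power of
  `j` at the cusps, degree zero);
* `conserve` : the same for all units of the Gauss ring (quotients of chart functions);
* `isPlaceReduction_of_local`.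
-/

set_option autoImplicit false
set_option synthInstance.maxHeartbeats 400000
set_option maxHeartbeats 1600000
set_option linter.style.haveILetI false
set_option linter.unusedSectionVars false

noncomputable section

namespace Fermat.Agent.S37ConserveAbs

open ModularCurve AlgebraicCurve IsLocalRing HahnSeries
open Fermat.Agent.S18 Fermat.Agent.S18.Gauss Fermat.Agent.S18.Lattice
open Fermat.Agent.S18.Charts
open Fermat.Agent.S24 Fermat.Agent.S24.Eval

/-! ### Sums over a finite set of the push-forward of a divisor -/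

section Sums

variable {α β : Type*}

open Classical in
theorem sum_mapDomain_eq (φ : α → β) (D : α →₀ ℤ) (C : Finset β) :
    ∑ Q ∈ C, Finsupp.mapDomain φ D Q = ∑ P ∈ D.support.filter (fun P => φ P ∈ C), D P := by
  have h1 : ∀ Q ∈ C, Finsupp.mapDomain φ D Q =
      ∑ P ∈ (D.support.filter (fun P => φ P ∈ C)).filter (fun P => φ P = Q), D P := by
    intro Q hQ
    rw [CuspAbs.mapDomain_apply_eq_sum]
    refine Finset.sum_congr ?_ (fun _ _ => rfl)
    ext P
    simp only [Finset.mem_filter]
    constructor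
    · rintro ⟨h1, h2⟩
      exact ⟨⟨h1, h2 ▸ hQ⟩, h2⟩
    · rintro ⟨⟨h1, -⟩, h2⟩
      exact ⟨h1, h2⟩
  rw [Finset.sum_congr rfl h1]
  exact Finset.sum_fiberwise_of_maps_to (fun P hP => (Finset.mem_filter.mp hP).2) _

end Sums

variable {A : ValuationSubring KK} {N : ℕ} [NeZero N] {ℓ : ℕ} [Fact ℓ.Prime]

/-! ### Divisors of inverses and powers -/

section Calc

variable (r : Place KK (FF N) → Place (ResidueField A) (FkN A N))

theorem mapDomain_dv_inv (f : FF N) (Q : Place (ResidueField A) (FkN A N)) :
    Finsupp.mapDomain r (dv N f⁻¹) Q = - Finsupp.mapDomain r (dv N f) Q := by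
  rw [dv_eq_divF, RedExt.divF_inv, dv_eq_divF]
  have h : Finsupp.mapDomain r (-RedExt.divF N f) = - Finsupp.mapDomain r (RedExt.divF N f) := by
    rw [← Finsupp.mapDomain.addMonoidHom_apply, map_neg, Finsupp.mapDomain.addMonoidHom_apply]
  rw [h, Finsupp.neg_apply]

theorem mapDomain_dv_pow {f : FF N} (hf : f ≠ 0) (M : ℕ)
    (Q : Place (ResidueField A) (FkN A N)) :
    Finsupp.mapDomain r (dv N (f ^ M)) Q = (M : ℤ) * Finsupp.mapDomain r (dv N f) Q := by
  induction M with
  | zero =>
    rw [pow_zero, dv_eq_divF, RedExt.divF_one, Finsupp.mapDomain_zero, Finsupp.zero_apply]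
    simp
  | succ M ih =>
    rw [pow_succ, S37Local.mapDomain_dv_mul r (pow_ne_zero M hf) hf, ih]
    push_cast
    ring

end Calc

/-! ### The global step -/

section Global

variable (hA : A.LiesOverPrime ℓ) (hℓN : ¬ ℓ ∣ N)
  (r : Place KK (FF N) → Place (ResidueField A) (FkN A N))
  (hdeg : ∀ P, (r P).deg = P.deg)
  (hEj : ∀ Q : Place (ResidueField A) (FkN A N),
    Finsupp.mapDomain r (dv N (jF N)) Q = Q.ord (jb A N))
  (hLI1 : ∀ Q : Place (ResidueField A) (FkN A N), 0 ≤ Q.ord (jb A N) → ∀ y : OO A N,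
    (y : FF N) ∈ regAt N (jF N) → redN A N y ≠ 0 →
      Finsupp.mapDomain r (dv N (y : FF N)) Q ≤ Q.ord (redN A N y))
  (hLI2 : ∀ Q : Place (ResidueField A) (FkN A N), Q.ord (jb A N) < 0 → ∀ y : OO A N,
    (y : FF N) ∈ regAt N (jF N)⁻¹ → redN A N y ≠ 0 →
      Finsupp.mapDomain r (dv N (y : FF N)) Q ≤ Q.ord (redN A N y))

include hA hdeg hEj hLI1 hLI2 in
/-- **(C2)** conservation for the functions of chart 1. -/
theorem conserve_chart1 (a : OO A N) (ha : (a : FF N) ∈ regAt N (jF N))
    (ha0 : redN A N a ≠ 0) (Q : Place (ResidueField A) (FkN A N)) :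
    Finsupp.mapDomain r (dv N (a : FF N)) Q = Q.ord (redN A N a) := by
  refine S37RedWrap.conserve_of_le hA r hdeg a ha0 (fun Q => ?_) Q
  by_cases hQ : 0 ≤ Q.ord (jb A N)
  · exact hLI1 Q hQ a ha ha0
  · have hQ' : Q.ord (jb A N) < 0 := not_le.mp hQ
    obtain ⟨M, hM⟩ := S37Frac.exists_shift a ((mem_O1 A N).mpr ⟨a.2, ha⟩)
    set b : OO A N := a * (CuspAbs.jinvO A N) ^ M with hb
    have hbcoe : (b : FF N) = (a : FF N) * ((jF N)⁻¹) ^ M := rfl
    have hbreg : (b : FF N) ∈ regAt N (jF N)⁻¹ := by
      rw [hbcoe]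
      exact ((mem_O2 A N).mp hM).2
    have hjb0 : jb A N ≠ 0 := CuspAbs.jb_ne_zero A N
    have hb0 : redN A N b ≠ 0 := by
      rw [hb, map_mul, map_pow, CuspAbs.redN_jinvO]
      exact mul_ne_zero ha0 (pow_ne_zero _ (inv_ne_zero hjb0))
    have h1 := hLI2 Q hQ' b hbreg hb0
    have haF : (a : FF N) ≠ 0 := S37Local.coe_ne_zero_of_red ha0
    have hjF : jF N ≠ 0 := by
      intro h0
      apply Degree.transcendental_jF N
      rw [h0]
      exact isAlgebraic_zero
    rw [hbcoe, S37Local.mapDomain_dv_mul r haF (pow_ne_zero M (inv_ne_zero hjF)),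
      mapDomain_dv_pow r (inv_ne_zero hjF) M, mapDomain_dv_inv, hEj] at h1
    have h2 : Q.ord (redN A N b) = Q.ord (redN A N a) - (M : ℤ) * Q.ord (jb A N) := by
      rw [hb, map_mul, map_pow, CuspAbs.redN_jinvO,
        Q.ord_mul ha0 (pow_ne_zero _ (inv_ne_zero hjb0)), ord_pow, Place.ord_inv]
      ring
    rw [h2] at h1
    linarith

include hA hℓN hdeg hEj hLI1 hLI2 in
/-- **(C3)** conservation for the units of the Gauss ring. -/
theorem conserve (y : OO A N) (hy : redN A N y ≠ 0)
    (Q : Place (ResidueField A) (FkN A N)) :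
    Finsupp.mapDomain r (dv N (y : FF N)) Q = Q.ord (redN A N y) := by
  obtain ⟨a, b, ha, hb, ha0, hb0, hyb⟩ := S37Frac.exists_frac1 hA hℓN y hy
  have h1 := conserve_chart1 hA r hdeg hEj hLI1 hLI2 a ((mem_O1 A N).mp ha).2 ha0 Q
  have h2 := conserve_chart1 hA r hdeg hEj hLI1 hLI2 b ((mem_O1 A N).mp hb).2 hb0 Q
  have hyF : (y : FF N) ≠ 0 := S37Local.coe_ne_zero_of_red hy
  have hbF : (b : FF N) ≠ 0 := S37Local.coe_ne_zero_of_red hb0
  have hcoe : (a : FF N) = (y : FF N) * (b : FF N) := by
    rw [← hyb]
    rfl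
  rw [hcoe, S37Local.mapDomain_dv_mul r hyF hbF] at h1
  have h3 : redN A N a = redN A N y * redN A N b := by rw [← hyb, map_mul]
  rw [h3, Q.ord_mul hy hb0] at h1
  linarith

include hA hℓN hdeg hEj hLI1 hLI2 in
/-- **The global step**: a degree preserving map of places which satisfies `r_* (div j) = div j̄`
and the two local inequalities is a place reduction map. -/
theorem isPlaceReduction_of_local : IsPlaceReductionModL A N r :=
  S37RedWrap.isPlaceReduction_of_conserve r hdeg
    (fun y hy Q => conserve hA hℓN r hdeg hEj hLI1 hLI2 y hy Q)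

end Global

end Fermat.Agent.S37ConserveAbs
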