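import Mathlib
import Fermat.Agent.S37.NormVal
import Fermat.Agent.S37.HeckeInt
import Fermat.Agent.S37.ChartPres
import Fermat.Agent.S37.CentreVal

/-!
# S37, leaf (P2) of T4, first part: the value of the norm along `β`

For a function `g` of level `N` and a place `P` of level `N`: if `g` has the value `a W` at the
place `W|α` for every place `W` of level `N ℓ` over `P` along `β`, then the norm along `β` of
`α g` has the value `∏_W (a W) ^ e_β(W)` at `P`.
-/

set_option autoImplicit false
set_option linter.style.haveILetI false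
set_option linter.unusedSectionVars false
set_option synthInstance.maxHeartbeats 400000
set_option maxHeartbeats 1000000

noncomputable section

namespace Fermat.Agent.S37X.NormReg

open ModularCurve AlgebraicCurve Fermat.Agent.S24 Fermat.Agent.S24.Eval Fermat.Agent.S18
  Fermat.Agent.S18.Charts Fermat.Agent.S37.CentreVal

variable {N ℓ : ℕ} [NeZero N] [NeZero ℓ]

/-- A value of `g` at `W|φ` is a value of `φ g` at `W`. -/
theorem hasVal_map_of_restrictAlong {K F F' : Type*} [Field K] [Field F] [Field F']
    [Algebra K F] [Algebra K F'] (φ : F →ₐ[K] F') (hφ : φ.toRingHom.IsIntegral)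
    (W : Place K F') (g : F) (a : K) (h : HasVal (W.restrictAlong φ hφ) g a) :
    HasVal W (φ g) a := by
  rcases h with h | h
  · left
    rw [h, AlgHom.commutes]
  · right
    have h1 := (Fermat.Agent.S37ChartPres.ord_restrictAlong_pos_iff φ hφ W
      (g - algebraMap K F a)).mp h
    rwa [map_sub, AlgHom.commutes] at h1

/-- **(P2), values**: the value of the norm along `β` of `α g`. -/
theorem hasVal_norm (hα : HeckeAlphaBarIntegral KK N ℓ) (hβ : HeckeBetaBarIntegral KK N ℓ)
    [HasPrincipalDivisors KK (FF (N * ℓ))] (P : Place KK (FF N)) (g : FF N)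
    (a : Place KK (FF (N * ℓ)) → KK)
    (ha : ∀ W ∈ Place.fiberAlong (heckeBetaBar KK N ℓ) hβ P,
      HasVal (W.restrictAlong (heckeAlphaBar KK N ℓ) hα) g (a W)) :
    HasVal P (letI := algebraAlong (heckeBetaBar KK N ℓ)
      Algebra.norm (FF N) (heckeAlphaBar KK N ℓ g))
      (∏ W ∈ Place.fiberAlong (heckeBetaBar KK N ℓ) hβ P,
        a W ^ W.ramificationIndexAlong (heckeBetaBar KK N ℓ)) := by
  haveI : NeZero (N * ℓ) := Fermat.Agent.S37X.HeckeInt.neZero_mul N ℓ
  haveI := Degree.finiteDimensional_jF (N * ℓ)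
  have hval : ∀ (W : Place KK (FF (N * ℓ))) (f : FF (N * ℓ)), 0 ≤ W.ord f →
      ∃ c : KK, f = algebraMap KK (FF (N * ℓ)) c ∨
        0 < W.ord (f - algebraMap KK (FF (N * ℓ)) c) := fun W f hf =>
    Fermat.Agent.S24.exists_sub_algebraMap_ord_pos (jF (N * ℓ))
      (Degree.transcendental_jF (N * ℓ)) W hf
  exact Fermat.Agent.S37X.NormVal.norm_hasVal_along (heckeBetaBar KK N ℓ) hβ
    (Fermat.Agent.S37X.HeckeInt.finiteAlong_beta N ℓ)
    (Fermat.Agent.S37X.NormVal.separableAlong_of_charZero (heckeBetaBar KK N ℓ) hβ)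
    hval P (heckeAlphaBar KK N ℓ g) a
    (fun W hW => hasVal_map_of_restrictAlong (heckeAlphaBar KK N ℓ) hα W g (a W) (ha W hW))

end Fermat.Agent.S37X.NormReg
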