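import Mathlib
import Fermat.Agent.S37.Kronecker
import Fermat.Agent.S37.GalRedJ
import Fermat.Agent.S37.CentreChart

/-!
# S37 gamble, leaf (V2) of T4: the value of the reduced norm at a place

For `w` Gauss-integral and `c ∈ A` let `n_c = N_β (c - α w)`.  By the Kronecker congruence
`red n_c = (c̄ - (Frob⁻¹ w̄)^ℓ) (c̄^ℓ - Frob w̄)`; hence, if `w̄` has the value `a₁` at `Frob • Q` and
the value `a₂` at `Frob⁻¹ • Q`, then `red n_c` has the value `(c̄ - a₁) (c̄ - a₂)^ℓ` at `Q`.
-/

set_option autoImplicit false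
set_option linter.style.haveILetI false
set_option linter.unusedSectionVars false
set_option synthInstance.maxHeartbeats 400000
set_option maxHeartbeats 1600000

noncomputable section

namespace Fermat.Agent.S37X.RedNormVal

open ModularCurve AlgebraicCurve HahnSeries IsLocalRing
open Fermat.Agent.S24 Fermat.Agent.S24.Eval
open Fermat.Agent.S18.Gauss Fermat.Agent.S18.Lattice Fermat.Agent.S18
open Fermat.Agent.S37.CentreVal Fermat.Agent.S37.CentreChart
open Fermat.Agent.S37GalRed Fermat.Agent.S37Kronecker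

section Generic

variable {K F : Type*} [Field K] [Field F] [Algebra K F]

theorem hasVal_pow' (P : Place K F)
    (hres : ∀ f : F, f ∈ P.toValuationSubring → ∃ c : K, HasVal P f c) {f : F} {a : K}
    (hf : HasVal P f a) (n : ℕ) : HasVal P (f ^ n) (a ^ n) := by
  induction n with
  | zero =>
    rw [pow_zero, pow_zero]
    have h := hasVal_algebraMap P (1 : K)
    rwa [map_one] at h
  | succ n ih =>
    rw [pow_succ, pow_succ]
    exact HasVal.mul P hres ih hf

/-- values transform under semilinear automorphisms -/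
theorem hasVal_smul' (g : SemilinearAut K F) (P : Place K F) {f : F} {a : K}
    (h : HasVal P f a) : HasVal (g • P) (g • f) (SemilinearAut.baseAut g a) := by
  rcases h with h | h
  · left
    rw [h, SemilinearAut.smul_algebraMap]
  · right
    rw [← SemilinearAut.smul_algebraMap, ← smul_sub, SemilinearAut.ord_smul]
    exact h

end Generic

variable {A : ValuationSubring KK} {ℓ : ℕ} [Fact ℓ.Prime] [NeZero ℓ] {N : ℕ} [NeZero N]

/-- the Kronecker congruence, as an identity in the reduced function field -/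
theorem redN_norm_sub_eq (hA : A.LiesOverPrime ℓ) (hℓN : ¬ ℓ ∣ N) {σ₀ : KK ≃ₐ[ℚ] KK}
    (h₀ : A.IsFrobeniusAt σ₀ ℓ) (c : A) (w : OO A N) :
    redN A N ⟨_, norm_sub_mem_OO hA hℓN c w⟩
      = (algebraMap (ResidueField A) (FkN A N) (residue A c)
          - ((coeffAut (ResidueField A) N (frobAut h₀))⁻¹ • redN A N w) ^ ℓ)
        * (algebraMap (ResidueField A) (FkN A N) (residue A c ^ ℓ)
          - coeffAut (ResidueField A) N (frobAut h₀) • redN A N w) := by
  haveI := ResField.charP_residueField hA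
  haveI : ExpChar (ResidueField A) ℓ := ExpChar.prime (Fact.out)
  apply Subtype.ext
  rw [redN_norm_sub hA hℓN c w, Fermat.Agent.S37FrobPow.qExpand_eq_pow,
    ← coe_frobAut_inv_smul h₀, ← coe_frobAut_smul h₀, ← map_inv]
  rfl

/-- **(V2)** the value of the reduced norm `red (N_β (c - α w))` at a place `Q`. -/
theorem hasVal_redN_norm_sub (hA : A.LiesOverPrime ℓ) (hℓN : ¬ ℓ ∣ N) {σ₀ : KK ≃ₐ[ℚ] KK}
    (h₀ : A.IsFrobeniusAt σ₀ ℓ) (c : A) (w : OO A N)
    (Q : Place (ResidueField A) (FkN A N)) (a₁ a₂ : ResidueField A)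
    (h1 : HasVal (coeffAut (ResidueField A) N (frobAut h₀) • Q) (redN A N w) a₁)
    (h2 : HasVal ((coeffAut (ResidueField A) N (frobAut h₀))⁻¹ • Q) (redN A N w) a₂) :
    HasVal Q (redN A N ⟨_, norm_sub_mem_OO hA hℓN c w⟩)
      ((residue A c - a₁) * (residue A c - a₂) ^ ℓ) := by
  haveI := ResField.charP_residueField hA
  haveI : ExpChar (ResidueField A) ℓ := ExpChar.prime (Fact.out)
  rw [redN_norm_sub_eq hA hℓN h₀ c w]
  set Φ₀ := coeffAut (ResidueField A) N (frobAut h₀) with hΦ₀
  -- the first factor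
  have e1 := hasVal_smul' Φ₀⁻¹ (Φ₀ • Q) h1
  rw [inv_smul_smul] at e1
  have e1' := hasVal_pow' Q (hresK Q) e1 ℓ
  have hb1 : (SemilinearAut.baseAut Φ₀⁻¹ a₁) ^ ℓ = a₁ := by
    have h3 : frobAut h₀ ((frobAut h₀).symm a₁) = a₁ := (frobAut h₀).apply_symm_apply a₁
    rw [frobAut_apply] at h3
    exact h3
  rw [hb1] at e1'
  have f1 := HasVal.sub Q (hresK Q) (hasVal_algebraMap Q (residue A c)) e1'
  -- the second factor
  have e2 := hasVal_smul' Φ₀ (Φ₀⁻¹ • Q) h2
  rw [smul_inv_smul] at e2
  have hb2 : SemilinearAut.baseAut Φ₀ a₂ = a₂ ^ ℓ := frobAut_apply h₀ a₂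
  rw [hb2] at e2
  have f2 := HasVal.sub Q (hresK Q) (hasVal_algebraMap Q (residue A c ^ ℓ)) e2
  rw [← sub_pow_expChar] at f2
  exact HasVal.mul Q (hresK Q) f1 f2

end Fermat.Agent.S37X.RedNormVal
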