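import Mathlib
import Fermat.Agent.S37.RootCount

/-!
# S37 gamble, the combinatorial end of (E3), per-point shape

`sum_single_eq_of_forall`: the same conclusion as `RootCount.sum_single_eq_of_prod_eq`, from a
family of functions `v`, one for each point `Q₀` of the finite set `T` of points involved,
vanishing at `Q₀` and nowhere else on `T`.
-/

set_option autoImplicit false

namespace Fermat.Agent.S37X.RootCount

open Polynomial

section

variable {X ι k : Type*} [Field k] [Infinite k]

/-- multiplicities of a value on both sides of the polynomial identity -/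
theorem count_of_prod_eq (I : Finset ι) (x : ι → X) (e : ι → ℕ) (Q₁ Q₂ : X) (ℓ : ℕ)
    (v : X → k)
    (h : ∀ c : k, ∏ i ∈ I, (c - v (x i)) ^ e i = (c - v Q₁) * (c - v Q₂) ^ ℓ) (a : k) :
    (∑ i ∈ I, (open scoped Classical in if v (x i) = a then e i else 0)) =
      (open scoped Classical in if v Q₁ = a then 1 else 0) +
        (open scoped Classical in if v Q₂ = a then ℓ else 0) := by
  classical
  have hpoly : ∏ i ∈ I, (Polynomial.X - Polynomial.C (v (x i))) ^ e i =
      ∏ j ∈ (Finset.univ : Finset (Fin 2)),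
        (Polynomial.X - Polynomial.C (v (if j = 0 then Q₁ else Q₂))) ^ (if j = 0 then 1 else ℓ) := by
    apply Polynomial.funext
    intro c
    rw [Polynomial.eval_prod, Polynomial.eval_prod]
    simp only [Polynomial.eval_pow, Polynomial.eval_sub, Polynomial.eval_X, Polynomial.eval_C]
    rw [h c, Fin.prod_univ_two]
    simp
  rw [← count_roots_prod I (fun i => v (x i)) e a, hpoly,
    count_roots_prod (Finset.univ : Finset (Fin 2)) (fun j => v (if j = 0 then Q₁ else Q₂))
      (fun j => if j = 0 then 1 else ℓ) a, Fin.sum_univ_two]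
  simp

/-- **per-point shape**: for every point `Q₀` of the finite set `T = {Q₁, Q₂} ∪ x(I)` a function
`v` with `v Q₀ = 0`, `v ≠ 0` on `T \ {Q₀}` and the polynomial identity. -/
theorem sum_single_eq_of_forall [DecidableEq X] (I : Finset ι) (x : ι → X) (e : ι → ℕ)
    (Q₁ Q₂ : X) (ℓ : ℕ)
    (h : ∀ Q₀ ∈ insert Q₁ (insert Q₂ (I.image x)), ∃ v : X → k, v Q₀ = 0 ∧
      (∀ y ∈ insert Q₁ (insert Q₂ (I.image x)), y ≠ Q₀ → v y ≠ 0) ∧
      ∀ c : k, ∏ i ∈ I, (c - v (x i)) ^ e i = (c - v Q₁) * (c - v Q₂) ^ ℓ) :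
    ∑ i ∈ I, Finsupp.single (x i) (e i : ℤ) =
      Finsupp.single Q₁ (1 : ℤ) + Finsupp.single Q₂ (ℓ : ℤ) := by
  classical
  ext y
  rw [Finsupp.finsetSum_apply, Finsupp.add_apply]
  simp only [Finsupp.single_apply]
  by_cases hy : y ∈ insert Q₁ (insert Q₂ (I.image x))
  · obtain ⟨v, hv0, hvne, hv⟩ := h y hy
    have h1 := count_of_prod_eq I x e Q₁ Q₂ ℓ v hv 0
    have hT : ∀ z ∈ insert Q₁ (insert Q₂ (I.image x)), (v z = 0 ↔ z = y) := fun z hz =>
      ⟨fun hz0 => by_contra fun hne => hvne z hz hne hz0, fun hzy => by rw [hzy, hv0]⟩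
    have e1 : ∀ i ∈ I, (v (x i) = 0 ↔ x i = y) := fun i hi =>
      hT _ (Finset.mem_insert_of_mem (Finset.mem_insert_of_mem (Finset.mem_image_of_mem x hi)))
    have e2 : v Q₁ = 0 ↔ Q₁ = y := hT _ (Finset.mem_insert_self _ _)
    have e3 : v Q₂ = 0 ↔ Q₂ = y :=
      hT _ (Finset.mem_insert_of_mem (Finset.mem_insert_self _ _))
    have h2 : (∑ i ∈ I, if x i = y then e i else 0) =
        (if Q₁ = y then 1 else 0) + (if Q₂ = y then ℓ else 0) := by
      rw [← (Finset.sum_congr rfl fun i hi => by simp only [e1 i hi] :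
        (∑ i ∈ I, if v (x i) = 0 then e i else 0) = ∑ i ∈ I, if x i = y then e i else 0)]
      simp only [← e2, ← e3]
      convert h1 using 2
    have h3 := congrArg (Nat.cast : ℕ → ℤ) h2
    push_cast at h3
    simp only [← h3]
  · simp only [Finset.mem_insert, Finset.mem_image, not_or, not_exists, not_and] at hy
    obtain ⟨hy1, hy2, hy3⟩ := hy
    rw [if_neg (Ne.symm hy1), if_neg (Ne.symm hy2), add_zero]
    exact Finset.sum_eq_zero fun i hi => if_neg (hy3 i hi)

end

end Fermat.Agent.S37X.RootCount
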