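import Mathlib
import Fermat.Agent.S37.HeckeSingle
import Fermat.Agent.S37.RootCount2
import Fermat.Agent.S37.Sep
import Fermat.Agent.S37.CentreFlex
import Fermat.Agent.S37.RedNormVal
import Fermat.Agent.S37.NormReg
import Fermat.Agent.S37.NormRegVal
import Fermat.Agent.S37.GalRedJ

/-!
# S37 gamble, the final glue of T4 on the chart `{1/j ≠ ∞}`

The Eichler–Shimura congruence on divisors at a single place `P` of `F_N` with non-integral
`j`-value (i.e. a place reducing to a cusp):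

`r_* (T_ℓ P) = Frob (r P) + ℓ · Frob⁻¹ (r P)`.

Route: `T_ℓ P = ∑_{W ↦ P along β} e_β(W) · (W|α)` (`HeckeSingle`), the per-point root count
(`RootCount2`), a uniformiser `w` of the chart at a given point which is a unit at the other
points involved (`Sep`), the norm `n_c = N_β (c - α w)` (`Kronecker`), its value at `P`
(`NormRegVal`), the centre property for `w` at `W|α` (`Centre.val_chart2`) and for `n_c` at `P`
(`CentreFlex.val_chart2_flex` with `NormReg.norm_ord_nonneg_of_not_jInt`), and the value of the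
reduction of `n_c` (`RedNormVal`).
-/

set_option autoImplicit false
set_option linter.style.haveILetI false
set_option linter.unusedSectionVars false
set_option synthInstance.maxHeartbeats 400000
set_option maxHeartbeats 1600000

noncomputable section

namespace Fermat.Agent.S37X.ESChart2

open ModularCurve AlgebraicCurve IsLocalRing
open Fermat.Agent.S24 Fermat.Agent.S24.Eval Fermat.Agent.S18 Fermat.Agent.S18.Gauss
open Fermat.Agent.S18.Lattice Fermat.Agent.S18.Charts
open Fermat.Agent.S37.CentreVal Fermat.Agent.S37.CentreChart Fermat.Agent.S37.Centre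
open Fermat.Agent.S37GalRed

variable {A : ValuationSubring KK} {N : ℕ} [NeZero N] {ℓ : ℕ} [Fact ℓ.Prime]

/-- the places `W|α`, for `W` over a place `P` with non-integral `j`-value along `β`, have
non-integral `j`-value -/
theorem not_jInt_alpha [NeZero ℓ] (hα : HeckeAlphaBarIntegral KK N ℓ)
    (hβ : HeckeBetaBarIntegral KK N ℓ) [HasPrincipalDivisors KK (FF (N * ℓ))]
    (P : Place KK (FF N)) (hP : ¬ CuspAbs.JInt A N P)
    (W : Place KK (FF (N * ℓ))) (hW : W ∈ Place.fiberAlong (heckeBetaBar KK N ℓ) hβ P) :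
    ¬ CuspAbs.JInt A N (W.restrictAlong (heckeAlphaBar KK N ℓ) hα) := by
  have hWP : W.restrictAlong (heckeBetaBar KK N ℓ) hβ = P := Place.mem_fiberAlong.mp hW
  intro h
  apply hP
  rw [← hWP]
  exact (Fermat.Agent.S37ChartPres.jInt_alpha_iff_beta hα hβ A W).mp h

/-- the value of `w` at `W|α` and the value of its reduction at the reduction of `W|α` -/
theorem exists_val_alpha [NeZero ℓ] (hA : A.LiesOverPrime ℓ) (hℓN : ¬ ℓ ∣ N)
    (hα : HeckeAlphaBarIntegral KK N ℓ) (hβ : HeckeBetaBarIntegral KK N ℓ)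
    [HasPrincipalDivisors KK (FF (N * ℓ))]
    (P : Place KK (FF N)) (hP : ¬ CuspAbs.JInt A N P)
    (w : OO A N) (hw : (w : FF N) ∈ regAt N (jF N)⁻¹)
    (W : Place KK (FF (N * ℓ))) (hW : W ∈ Place.fiberAlong (heckeBetaBar KK N ℓ) hβ P) :
    ∃ a : A, HasVal (W.restrictAlong (heckeAlphaBar KK N ℓ) hα) (w : FF N) (a : KK) ∧
      HasVal (rP hA hℓN (W.restrictAlong (heckeAlphaBar KK N ℓ) hα)) (redN A N w)
        (residue A a) := by
  have h1 := not_jInt_alpha (A := A) hα hβ P hP W hW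
  have h2 : (w : FF N) ∈ (W.restrictAlong (heckeAlphaBar KK N ℓ) hα).toValuationSubring :=
    hw _ (Fermat.Agent.S37NormReg.jinv_mem_of_not_jInt A h1)
  obtain ⟨a, ha⟩ := hresF _ _ h2
  obtain ⟨ha', h3⟩ := val_chart2 hA hℓN _ h1 w hw a ha
  exact ⟨⟨a, ha'⟩, ha, h3⟩

/-- the value at `P` of the norm of `c - α g` along `β` -/
theorem hasVal_norm_sub [NeZero ℓ] (hα : HeckeAlphaBarIntegral KK N ℓ)
    (hβ : HeckeBetaBarIntegral KK N ℓ) [HasPrincipalDivisors KK (FF (N * ℓ))]
    (P : Place KK (FF N)) (c : KK) (g : FF N) (a : Place KK (FF (N * ℓ)) → KK)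
    (ha : ∀ W ∈ Place.fiberAlong (heckeBetaBar KK N ℓ) hβ P,
      HasVal (W.restrictAlong (heckeAlphaBar KK N ℓ) hα) g (a W)) :
    HasVal P (letI := algebraAlong (heckeBetaBar KK N ℓ)
      Algebra.norm (FF N) (algebraMap KK (FF (N * ℓ)) c - heckeAlphaBar KK N ℓ g))
      (∏ W ∈ Place.fiberAlong (heckeBetaBar KK N ℓ) hβ P,
        (c - a W) ^ W.ramificationIndexAlong (heckeBetaBar KK N ℓ)) := by
  have h := Fermat.Agent.S37X.NormReg.hasVal_norm hα hβ P (algebraMap KK (FF N) c - g)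
    (fun W => c - a W)
    (fun W hW => HasVal.sub _ (hresF _) (hasVal_algebraMap _ c) (ha W hW))
  rw [map_sub, AlgHom.commutes] at h
  exact h

/-- the polynomial identity of the root count, for a function `w` of the chart and a choice `v`
of the values of its reduction at the points involved -/
theorem prod_identity [NeZero ℓ] (hA : A.LiesOverPrime ℓ) (hℓN : ¬ ℓ ∣ N)
    {σ₀ : KK ≃ₐ[ℚ] KK} (h₀ : A.IsFrobeniusAt σ₀ ℓ)
    (hα : HeckeAlphaBarIntegral KK N ℓ) (hβ : HeckeBetaBarIntegral KK N ℓ)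
    [HasPrincipalDivisors KK (FF (N * ℓ))]
    (P : Place KK (FF N)) (hP : ¬ CuspAbs.JInt A N P)
    (w : OO A N) (hw : (w : FF N) ∈ regAt N (jF N)⁻¹)
    (v : Place (ResidueField A) (FkN A N) → ResidueField A)
    (hv1 : HasVal (coeffAut (ResidueField A) N (frobAut h₀) • rP hA hℓN P) (redN A N w)
      (v (coeffAut (ResidueField A) N (frobAut h₀) • rP hA hℓN P)))
    (hv2 : HasVal (coeffAut (ResidueField A) N (frobAut h₀)⁻¹ • rP hA hℓN P) (redN A N w)
      (v (coeffAut (ResidueField A) N (frobAut h₀)⁻¹ • rP hA hℓN P)))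
    (hvW : ∀ W ∈ Place.fiberAlong (heckeBetaBar KK N ℓ) hβ P,
      HasVal (rP hA hℓN (W.restrictAlong (heckeAlphaBar KK N ℓ) hα)) (redN A N w)
        (v (rP hA hℓN (W.restrictAlong (heckeAlphaBar KK N ℓ) hα))))
    (cb : ResidueField A) :
    ∏ W ∈ Place.fiberAlong (heckeBetaBar KK N ℓ) hβ P,
        (cb - v (rP hA hℓN (W.restrictAlong (heckeAlphaBar KK N ℓ) hα))) ^
          W.ramificationIndexAlong (heckeBetaBar KK N ℓ)
      = (cb - v (coeffAut (ResidueField A) N (frobAut h₀) • rP hA hℓN P)) *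
          (cb - v (coeffAut (ResidueField A) N (frobAut h₀)⁻¹ • rP hA hℓN P)) ^ ℓ := by
  classical
  obtain ⟨c, rfl⟩ := IsLocalRing.residue_surjective cb
  have hex : ∀ W : Place KK (FF (N * ℓ)), ∃ a : A,
      W ∈ Place.fiberAlong (heckeBetaBar KK N ℓ) hβ P →
        (HasVal (W.restrictAlong (heckeAlphaBar KK N ℓ) hα) (w : FF N) (a : KK) ∧
          HasVal (rP hA hℓN (W.restrictAlong (heckeAlphaBar KK N ℓ) hα)) (redN A N w)
            (residue A a)) := by
    intro W
    by_cases hW : W ∈ Place.fiberAlong (heckeBetaBar KK N ℓ) hβ P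
    · obtain ⟨a, h1, h2⟩ := exists_val_alpha hA hℓN hα hβ P hP w hw W hW
      exact ⟨a, fun _ => ⟨h1, h2⟩⟩
    · exact ⟨0, fun h => absurd h hW⟩
  choose a ha using hex
  have hn := hasVal_norm_sub hα hβ P (c : KK) (w : FF N) (fun W => (a W : KK))
    (fun W hW => (ha W hW).1)
  have hprod : (∏ W ∈ Place.fiberAlong (heckeBetaBar KK N ℓ) hβ P,
        ((c : KK) - (a W : KK)) ^ W.ramificationIndexAlong (heckeBetaBar KK N ℓ))
      = ((∏ W ∈ Place.fiberAlong (heckeBetaBar KK N ℓ) hβ P,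
        (c - a W) ^ W.ramificationIndexAlong (heckeBetaBar KK N ℓ) : A) : KK) := by
    have h := map_prod A.subtype
      (fun W => (c - a W) ^ W.ramificationIndexAlong (heckeBetaBar KK N ℓ))
      (Place.fiberAlong (heckeBetaBar KK N ℓ) hβ P)
    simp only [map_pow, map_sub] at h
    exact h.symm
  rw [hprod] at hn
  obtain ⟨ha', h3⟩ := Fermat.Agent.S37CentreFlex.val_chart2_flex hA hℓN P hP
    ⟨_, Fermat.Agent.S37Kronecker.norm_sub_mem_OO hA hℓN c w⟩
    (fun P₁ hP₁ => Fermat.Agent.S37NormReg.norm_ord_nonneg_of_not_jInt A hα hβ (c : KK)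
      (w : FF N) hw P₁ hP₁) _ hn
  have h4 := Fermat.Agent.S37X.RedNormVal.hasVal_redN_norm_sub hA hℓN h₀ c w (rP hA hℓN P) _ _
    hv1 (by rw [← map_inv]; exact hv2)
  have h5 := HasVal.unique _ (hresK _) h3 h4
  rw [← h5]
  have h6 : (⟨((∏ W ∈ Place.fiberAlong (heckeBetaBar KK N ℓ) hβ P,
        (c - a W) ^ W.ramificationIndexAlong (heckeBetaBar KK N ℓ) : A) : KK), ha'⟩ : A)
      = ∏ W ∈ Place.fiberAlong (heckeBetaBar KK N ℓ) hβ P,
        (c - a W) ^ W.ramificationIndexAlong (heckeBetaBar KK N ℓ) := rfl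
  rw [h6, map_prod]
  refine Finset.prod_congr rfl fun W hW => ?_
  rw [map_pow, map_sub]
  congr 2
  exact HasVal.unique _ (hresK _) (hvW W hW) (ha W hW).2

/-- **The Eichler–Shimura congruence on divisors at a single place with non-integral
`j`-value.** -/
theorem hecke_single_chart2 [NeZero ℓ] (hA : A.LiesOverPrime ℓ) (hℓN : ¬ ℓ ∣ N)
    {σ₀ : KK ≃ₐ[ℚ] KK} (h₀ : A.IsFrobeniusAt σ₀ ℓ)
    (hα : HeckeAlphaBarIntegral KK N ℓ) (hβ : HeckeBetaBarIntegral KK N ℓ)
    [HasPrincipalDivisors KK (FF (N * ℓ))] (P : Place KK (FF N))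
    (hP : ¬ CuspAbs.JInt A N P) :
    Finsupp.mapDomain (rP hA hℓN) (heckeDivBar hα hβ (Finsupp.single P 1)) =
      Finsupp.single (coeffAut (ResidueField A) N (frobAut h₀) • rP hA hℓN P) 1 +
        Finsupp.single (coeffAut (ResidueField A) N (frobAut h₀)⁻¹ • rP hA hℓN P) (ℓ : ℤ) := by
  classical
  rw [Fermat.Agent.S37X.HeckeSingle.mapDomain_heckeDivBar_single (rP hA hℓN) hα hβ P]
  refine Fermat.Agent.S37X.RootCount.sum_single_eq_of_forall (k := ResidueField A)
    (Place.fiberAlong (heckeBetaBar KK N ℓ) hβ P)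
    (fun W => rP hA hℓN (W.restrictAlong (heckeAlphaBar KK N ℓ) hα))
    (fun W => W.ramificationIndexAlong (heckeBetaBar KK N ℓ))
    (coeffAut (ResidueField A) N (frobAut h₀) • rP hA hℓN P)
    (coeffAut (ResidueField A) N (frobAut h₀)⁻¹ • rP hA hℓN P) ℓ ?_
  intro Q₀ hQ₀
  -- all the points involved are cusps
  have hT : ∀ Q ∈ insert (coeffAut (ResidueField A) N (frobAut h₀) • rP hA hℓN P)
      (insert (coeffAut (ResidueField A) N (frobAut h₀)⁻¹ • rP hA hℓN P)
        ((Place.fiberAlong (heckeBetaBar KK N ℓ) hβ P).image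
          (fun W => rP hA hℓN (W.restrictAlong (heckeAlphaBar KK N ℓ) hα)))),
      Q.ord (jb A N) < 0 := by
    intro Q hQ
    rw [Finset.mem_insert, Finset.mem_insert, Finset.mem_image] at hQ
    rcases hQ with rfl | rfl | ⟨W, hW, rfl⟩
    · have h := ord_smul_jk (ResidueField A) N (frobAut h₀) (rP hA hℓN P)
      exact lt_of_eq_of_lt h (rP_cusp hA hℓN P hP)
    · have h := ord_smul_jk (ResidueField A) N (frobAut h₀)⁻¹ (rP hA hℓN P)
      exact lt_of_eq_of_lt h (rP_cusp hA hℓN P hP)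
    · exact rP_cusp hA hℓN _ (not_jInt_alpha hα hβ P hP W hW)
  have hT' : ∀ Q ∈ insert (coeffAut (ResidueField A) N (frobAut h₀) • rP hA hℓN P)
      (insert (coeffAut (ResidueField A) N (frobAut h₀)⁻¹ • rP hA hℓN P)
        ((Place.fiberAlong (heckeBetaBar KK N ℓ) hβ P).image
          (fun W => rP hA hℓN (W.restrictAlong (heckeAlphaBar KK N ℓ) hα)))),
      0 ≤ Q.ord (jb A N)⁻¹ := by
    intro Q hQ
    have h := hT Q hQ
    rw [Place.ord_inv]
    omega
  obtain ⟨w, hwO2, hw0, hwT⟩ := Fermat.Agent.S37Sep.exists_unif2 hA hℓN Q₀ (hT' Q₀ hQ₀)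
    (Finset.erase _ Q₀) (Finset.notMem_erase _ _)
    (fun Q hQ => hT' Q (Finset.mem_of_mem_erase hQ))
  have hwreg : (w : FF N) ∈ regAt N (jF N)⁻¹ := by
    rw [mem_O2] at hwO2
    exact hwO2.2
  have hne : redN A N w ≠ 0 := by
    intro h
    rw [h, Place.ord_zero] at hw0
    exact zero_ne_one hw0
  -- the values of the reduction of `w` at the points involved
  have hex : ∀ Q : Place (ResidueField A) (FkN A N), ∃ b : ResidueField A,
      Q ∈ insert (coeffAut (ResidueField A) N (frobAut h₀) • rP hA hℓN P)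
        (insert (coeffAut (ResidueField A) N (frobAut h₀)⁻¹ • rP hA hℓN P)
          ((Place.fiberAlong (heckeBetaBar KK N ℓ) hβ P).image
            (fun W => rP hA hℓN (W.restrictAlong (heckeAlphaBar KK N ℓ) hα)))) →
        HasVal Q (redN A N w) b := by
    intro Q
    by_cases hQ : Q ∈ insert (coeffAut (ResidueField A) N (frobAut h₀) • rP hA hℓN P)
        (insert (coeffAut (ResidueField A) N (frobAut h₀)⁻¹ • rP hA hℓN P)
          ((Place.fiberAlong (heckeBetaBar KK N ℓ) hβ P).image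
            (fun W => rP hA hℓN (W.restrictAlong (heckeAlphaBar KK N ℓ) hα))))
    · have hord : 0 ≤ Q.ord (redN A N w) := by
        by_cases hQ0 : Q = Q₀
        · rw [hQ0, hw0]
          exact zero_le_one
        · rw [hwT Q (Finset.mem_erase.mpr ⟨hQ0, hQ⟩)]
      obtain ⟨b, hb⟩ := hresK Q _ (mem_of_ord_nonneg Q hne hord)
      exact ⟨b, fun _ => hb⟩
    · exact ⟨0, fun h => absurd h hQ⟩
  choose v hv using hex
  refine ⟨v, ?_, ?_, ?_⟩
  · have h1 : HasVal Q₀ (redN A N w) 0 := Or.inr (by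
      rw [map_zero, sub_zero, hw0]
      exact zero_lt_one)
    exact HasVal.unique _ (hresK _) (hv Q₀ hQ₀) h1
  · intro y hy hne' h0
    have h1 := hv y hy
    rw [h0] at h1
    rcases h1 with h1 | h1
    · rw [map_zero] at h1
      exact hne h1
    · rw [map_zero, sub_zero, hwT y (Finset.mem_erase.mpr ⟨hne', hy⟩)] at h1
      exact lt_irrefl _ h1
  · intro cb
    exact prod_identity hA hℓN h₀ hα hβ P hP w hwreg v
      (hv _ (Finset.mem_insert_self _ _))
      (hv _ (Finset.mem_insert_of_mem (Finset.mem_insert_self _ _)))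
      (fun W hW => hv _ (Finset.mem_insert_of_mem (Finset.mem_insert_of_mem
        (Finset.mem_image_of_mem _ hW)))) cb

end Fermat.Agent.S37X.ESChart2
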