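import Mathlib
import Fermat.Agent.S37.NormReg

/-!
# S37 (P2): regularity of the norm of `α g` along `β`, in the literal shape used by `ESFinal`

* `norm_mem_regAt` : if `g` is regular at the finite places, so is `N_β(α g)`;
* `norm_ord_nonneg_of_not_jInt` : if `g` is regular away from the zeros of `j`, then `N_β(α g)`
  is regular at every place with non-integral `j`-value.
-/

set_option autoImplicit false
set_option linter.style.haveILetI false
set_option linter.unusedSectionVars false

noncomputable section

namespace Fermat.Agent.S37X.NormReg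

open ModularCurve AlgebraicCurve
open Fermat.Agent.S24 Fermat.Agent.S24.Eval
open Fermat.Agent.S18 Fermat.Agent.S18.Charts

variable {N ℓ : ℕ} [NeZero N] [NeZero ℓ]

/-- **(P2), chart 1**: if `g` is regular at the finite places, so is the norm of `α g`. -/
theorem norm_mem_regAt (hα : HeckeAlphaBarIntegral KK N ℓ) (hβ : HeckeBetaBarIntegral KK N ℓ)
    [HasPrincipalDivisors KK (FF (N * ℓ))] (g : FF N) (hg : g ∈ regAt N (jF N)) :
    (letI := algebraAlong (heckeBetaBar KK N ℓ)
     Algebra.norm (FF N) (heckeAlphaBar KK N ℓ g)) ∈ regAt N (jF N) := by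
  have h := Fermat.Agent.S37NormReg.norm_mem_regAt hα hβ 0 (-g) (neg_mem hg)
  rw [map_zero, map_neg, zero_sub, neg_neg] at h
  exact h

/-- **(P2), chart 2**: if `g` is regular away from the zeros of `j`, then the norm of `α g` is
regular at every place with non-integral `j`-value. -/
theorem norm_ord_nonneg_of_not_jInt (hα : HeckeAlphaBarIntegral KK N ℓ)
    (hβ : HeckeBetaBarIntegral KK N ℓ) [HasPrincipalDivisors KK (FF (N * ℓ))]
    (A : ValuationSubring KK) (g : FF N) (hg : g ∈ regAt N (jF N)⁻¹) (P₁ : Place KK (FF N))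
    (hP₁ : ¬ CuspAbs.JInt A N P₁) :
    0 ≤ P₁.ord (letI := algebraAlong (heckeBetaBar KK N ℓ)
      Algebra.norm (FF N) (heckeAlphaBar KK N ℓ g)) := by
  have h := Fermat.Agent.S37NormReg.norm_ord_nonneg_of_not_jInt A hα hβ 0 (-g) (neg_mem hg)
    P₁ hP₁
  rw [map_zero, map_neg, zero_sub, neg_neg] at h
  exact h

end Fermat.Agent.S37X.NormReg
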